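import Fermat.Prelude.Def_ModularCurve_ArithmeticGalois
import Fermat.Agent.Curves.BasicModular
import Fermat.Agent.Curves.BasicOrdExtra
import Mathlib.RingTheory.LaurentSeries

/-!
# The place at `∞` of the modular curve is Galois fixed
-/

set_option autoImplicit false
set_option synthInstance.maxHeartbeats 400000

noncomputable section

open AlgebraicCurve ModularCurve WithZero
open scoped Pointwise

namespace FLTA.MordellWeil

local notation "Qbar" => AlgebraicClosure ℚ

variable (N : ℕ) [NeZero N]

/-- The order of the `q`-expansion as a valuation. -/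
def expansionVal : Valuation (modularFunctionFieldBar N) ℤᵐ⁰ :=
  (Valued.v : Valuation (LaurentSeries Qbar) ℤᵐ⁰).comap (modularFunctionFieldBar N).val.toRingHom

theorem expansionVal_le_exp_iff (D : ℤ) (f : modularFunctionFieldBar N) :
    expansionVal N f ≤ exp (-D) ↔ ∀ n : ℤ, n < D → (f : LaurentSeries Qbar).coeff n = 0 :=
  LaurentSeries.valuation_le_iff_coeff_lt_eq_zero Qbar

theorem expansionVal_algebraMap_le (a : Qbar) :
    expansionVal N (algebraMap Qbar _ a) ≤ 1 := by
  rw [← exp_zero, show exp (0 : ℤ) = exp (-0 : ℤ) by rw [neg_zero], expansionVal_le_exp_iff]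
  intro n hn
  show (algebraMap Qbar (LaurentSeries Qbar) a).coeff n = 0
  rw [algebraMap_laurentSeries_eq_single, HahnSeries.coeff_single_of_ne (ne_of_lt hn)]

/-- The inverse of `j` has order one. -/
theorem exists_expansionVal_eq :
    ∃ f : modularFunctionFieldBar N, expansionVal N f = exp (-1 : ℤ) := by
  let j : modularFunctionFieldBar N :=
    ⟨coeffEmb Qbar (qExpand ℚ 1 jq), coeffEmb_mem_laurentBaseChange _ (jqd_mem_full N (one_dvd N))⟩
  have hc : ∀ n, ((j : modularFunctionFieldBar N) : LaurentSeries Qbar).coeff n =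
      algebraMap ℚ Qbar (jq.coeff n) := fun n => by
    show (coeffEmb Qbar (qExpand ℚ 1 jq)).coeff n = _
    rw [qExpand_one_apply, coeffEmb_coeff]
  have hle : expansionVal N j ≤ exp (-(-1) : ℤ) := by
    rw [expansionVal_le_exp_iff]
    intro n hn
    rw [hc, coeff_jq_of_lt hn, map_zero]
  have hnle : ¬ expansionVal N j ≤ exp (-0 : ℤ) := by
    rw [expansionVal_le_exp_iff]
    intro h
    have := h (-1) (by norm_num)
    rw [hc, coeff_jq_neg_one, map_one] at this
    exact one_ne_zero this
  have hne : expansionVal N j ≠ 0 := fun h => hnle (h ▸ zero_le)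
  obtain ⟨m, hm⟩ : ∃ m : ℤ, expansionVal N j = exp m :=
    ⟨log (expansionVal N j), (exp_log hne).symm⟩
  rw [hm, exp_le_exp] at hle hnle
  have hm1 : m = 1 := by omega
  exact ⟨j⁻¹, by rw [map_inv₀, hm, hm1, ← exp_neg]⟩

/-- The place at `∞`. -/
def cuspPt : Place Qbar (modularFunctionFieldBar N) :=
  FLTA.Curves.ofValuation (expansionVal N) (expansionVal_algebraMap_le N)
    (exists_expansionVal_eq N)

theorem smul_cuspPt (σ : Qbar ≃ₐ[ℚ] Qbar) :
    arithmeticGalois (modularFunctionFieldFull N) σ • cuspPt N = cuspPt N := by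
  have key : ∀ (τ : Qbar ≃ₐ[ℚ] Qbar) (f : modularFunctionFieldBar N),
      expansionVal N f ≤ 1 →
        expansionVal N (arithmeticGalois (modularFunctionFieldFull N) τ • f) ≤ 1 := by
    intro τ f hf
    rw [← exp_zero, show exp (0 : ℤ) = exp (-0 : ℤ) by rw [neg_zero],
      expansionVal_le_exp_iff] at hf ⊢
    intro n hn
    rw [coe_arithmeticGalois_smul, coeffMap_coeff, hf n hn, map_zero]
  apply Place.ext
  refine SetLike.ext fun f => ?_
  show f ∈ arithmeticGalois (modularFunctionFieldFull N) σ • (expansionVal N).valuationSubring ↔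
    f ∈ (expansionVal N).valuationSubring
  rw [ValuationSubring.mem_pointwise_smul_iff_inv_smul_mem, Valuation.mem_valuationSubring_iff,
    Valuation.mem_valuationSubring_iff, ← map_inv]
  refine ⟨fun h => ?_, key σ⁻¹ f⟩
  have := key σ _ h
  rwa [map_inv, smul_inv_smul] at this

end FLTA.MordellWeil
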