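import Fermat.Agent.MordellWeil.Assembly
import Fermat.Agent.MordellWeil.Cusp
import Fermat.Agent.PicTorsion.Descent.Main
import Fermat.Prelude.Def_ModularCurve_ArithmeticGalois
import Mathlib.FieldTheory.Galois.Basic

/-!
# Mordell–Weil for `J₀(N)`
-/

set_option autoImplicit false
set_option synthInstance.maxHeartbeats 400000

noncomputable section

namespace FLTA.MordellWeil

open ModularCurve AlgebraicCurve IntermediateField

local notation "Qbar" => AlgebraicClosure ℚ

/-- Every function is fixed by an open subgroup of the Galois group. -/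
theorem exists_arithmeticGalois_smul_eq (N : ℕ) (f : modularFunctionFieldBar N) :
    ∃ L : IntermediateField ℚ Qbar, FiniteDimensional ℚ L ∧
      ∀ σ ∈ L.fixingSubgroup, arithmeticGalois (modularFunctionFieldFull N) σ • f = f := by
  obtain ⟨f, hf⟩ := f
  suffices ∃ L : IntermediateField ℚ Qbar, FiniteDimensional ℚ L ∧
      ∀ σ ∈ L.fixingSubgroup, coeffMap (σ : Qbar →+* Qbar) f = f by
    obtain ⟨L, hL, h⟩ := this
    exact ⟨L, hL, fun σ hσ => Subtype.ext ((coe_arithmeticGalois_smul _ σ _).trans (h σ hσ))⟩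
  have hsup : ∀ L L' : IntermediateField ℚ Qbar, FiniteDimensional ℚ L → FiniteDimensional ℚ L' →
      FiniteDimensional ℚ (L ⊔ L' : IntermediateField ℚ Qbar) := fun L L' _ _ =>
    IntermediateField.finiteDimensional_sup L L'
  unfold modularFunctionFieldBar laurentBaseChange at hf
  induction hf using IntermediateField.adjoin_induction with
  | mem z hz =>
    obtain ⟨y, -, rfl⟩ := hz
    exact ⟨⊥, inferInstance, fun σ _ => coeffMap_coeffEmb σ y⟩
  | algebraMap c =>
    refine ⟨ℚ⟮c⟯, IntermediateField.adjoin.finiteDimensional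
      ((AlgebraicClosure.isAlgebraic ℚ).isAlgebraic c).isIntegral, fun σ hσ => ?_⟩
    rw [coeffMap_algebraMap]
    congr 1
    exact (IntermediateField.mem_fixingSubgroup_iff _ σ).1 hσ c
      (IntermediateField.mem_adjoin_simple_self ℚ c)
  | add x y _ _ hx hy =>
    obtain ⟨L, hL, hLx⟩ := hx
    obtain ⟨L', hL', hLy⟩ := hy
    exact ⟨L ⊔ L', hsup L L' hL hL', fun σ hσ => by
      rw [map_add, hLx σ (fixingSubgroup_antitone le_sup_left hσ),
        hLy σ (fixingSubgroup_antitone le_sup_right hσ)]⟩
  | inv x _ hx =>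
    obtain ⟨L, hL, hLx⟩ := hx
    exact ⟨L, hL, fun σ hσ => by rw [map_inv₀, hLx σ hσ]⟩
  | mul x y _ _ hx hy =>
    obtain ⟨L, hL, hLx⟩ := hx
    obtain ⟨L', hL', hLy⟩ := hy
    exact ⟨L ⊔ L', hsup L L' hL hL', fun σ hσ => by
      rw [map_mul, hLx σ (fixingSubgroup_antitone le_sup_left hσ),
        hLy σ (fixingSubgroup_antitone le_sup_right hσ)]⟩

theorem essFiniteType_modularFunctionFieldBar (N : ℕ) [NeZero N] :
    Algebra.EssFiniteType Qbar (modularFunctionFieldBar N) := by
  refine IntermediateField.essFiniteType_iff.mpr ?_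
  show (laurentBaseChange Qbar (modularFunctionFieldFull N)).FG
  rw [FLTA.Curves.laurentBaseChange_full_eq, modularFunctionFieldFullC]
  exact IntermediateField.fg_adjoin_of_finite (FLTA.Curves.finite_divisorExpansionsC Qbar N)

/-- The Galois action on the modular curve with the cusp `∞` as base point. -/
def modularGalSetting (N : ℕ) [NeZero N] :
    GalSetting (cuspPt N) where
  ρ := arithmeticGalois (modularFunctionFieldFull N)
  base σ c := by rw [baseAut_arithmeticGalois]; rfl
  fix := smul_cuspPt N
  smooth := exists_arithmeticGalois_smul_eq N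

/-- `J₀(N)(ℚ̄)` is divisible. -/
theorem jZero_divisible (N : ℕ) [NeZero N] {n : ℕ} (hn : n ≠ 0) (x : JZero N) :
    ∃ y : JZero N, n • y = x := by
  refine pic0_exists_nsmul_eq (cuspPt N) (Nat.pos_of_ne_zero hn) ?_ x
  have := essFiniteType_modularFunctionFieldBar N
  have : Finite (Pic0.torsion Qbar (modularFunctionFieldBar N) n) :=
    Nat.finite_of_card_ne_zero (by
      rw [FLTA.PicTorsion.natCard_torsion_charZero Qbar (modularFunctionFieldBar N) n hn]
      exact pow_ne_zero _ hn)
  exact (Set.finite_range fun y : Pic0.torsion Qbar (modularFunctionFieldBar N) n =>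
    (y : JZero N)).subset fun y hy => ⟨⟨y, hy⟩, rfl⟩

/-- The Mordell–Weil theorem: the points of `J₀(N)` over a number field are finitely generated. -/
theorem jZero_fixed_fg (N : ℕ) [NeZero N] (L : IntermediateField ℚ Qbar) [FiniteDimensional ℚ L] :
    AddGroup.FG (FixedPoints.addSubgroup L.fixingSubgroup (JZero N)) :=
  pic0_fixed_fg (modularGalSetting N) (fun σ x => galois_smul_pic0_def _ σ x) L

end FLTA.MordellWeil
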