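import Fermat.Agent.MordellWeil.Kummer

/-!
# Determinants of values with some of the points fixed
-/

set_option autoImplicit false

noncomputable section

open AlgebraicCurve

namespace FLTA.MordellWeil

variable {k F : Type*} [Field k] [Field F] [Algebra k F]

/-- `s` is a basis of `L(D)`, any index type. -/
def IsBasisI {ι : Type*} (s : ι → F) (D : Divisor k F) : Prop :=
  LinearIndependent k s ∧ Submodule.span k (Set.range s) = riemannRochSpace D

theorem IsBasisI.reindex {ι ι' : Type*} {s : ι → F} {D : Divisor k F} (h : IsBasisI s D)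
    (σ : ι' ≃ ι) : IsBasisI (s ∘ σ) D :=
  ⟨h.1.comp σ σ.injective, by rw [σ.surjective.range_comp, h.2]⟩

theorem IsBasisI.mem {ι : Type*} {s : ι → F} {D : Divisor k F} (h : IsBasisI s D) (i : ι) :
    s i ∈ riemannRochSpace D :=
  h.2 ▸ Submodule.subset_span ⟨i, rfl⟩

variable [IsAlgClosed k] [IsCurveOver k F] {O : Place k F}

/-- The sum of the places of a tuple. -/
def sumPts {κ : Type*} [Fintype κ] (Q : κ → Pt O) : Divisor k F :=
  ∑ j, Finsupp.single (Q j).1 1

omit [IsAlgClosed k] [IsCurveOver k F] in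
theorem sumPts_elim {κ κ' : Type*} [Fintype κ] [Fintype κ'] (Q : κ → Pt O) (Q' : κ' → Pt O) :
    sumPts (Sum.elim Q Q') = sumPts Q + sumPts Q' :=
  Fintype.sum_sum_type _

omit [IsAlgClosed k] [IsCurveOver k F] in
theorem sumPts_nonneg {κ : Type*} [Fintype κ] (Q : κ → Pt O) : (0 : Divisor k F) ≤ sumPts Q :=
  Finset.sum_nonneg fun _ _ => Finsupp.single_nonneg.2 zero_le_one

theorem degree_sumPts {κ : Type*} [Fintype κ] (Q : κ → Pt O) :
    Divisor.degree (sumPts Q) = (Fintype.card κ : ℤ) := by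
  rw [sumPts, map_sum]
  simp only [degree_single_one, Finset.sum_const, Finset.card_univ, nsmul_eq_mul, mul_one]

omit [IsAlgClosed k] [IsCurveOver k F] in
theorem sumPts_apply {κ : Type*} [Fintype κ] {Q : κ → Pt O} (hQ : Function.Injective Q)
    (v : Place k F) : (∀ j, (Q j).1 ≠ v) ∧ sumPts Q v = 0 ∨
      (∃ j, (Q j).1 = v) ∧ sumPts Q v = 1 := by
  classical
  rw [sumPts, Finsupp.finsetSum_apply]
  by_cases h : ∃ j, (Q j).1 = v
  · right
    obtain ⟨j, rfl⟩ := h
    refine ⟨⟨j, rfl⟩, ?_⟩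
    rw [Finset.sum_eq_single j (fun b _ hb => Finsupp.single_eq_of_ne (a := (Q b).1)
      (fun e => hb (hQ (Subtype.ext e.symm)))) (by simp), Finsupp.single_eq_same]
  · left
    push Not at h
    exact ⟨h, Finset.sum_eq_zero fun j _ => Finsupp.single_eq_of_ne (a := (Q j).1) (h j).symm⟩

/-- Determinant of values, any index type. -/
def detI {ι : Type*} [Fintype ι] [DecidableEq ι] (w : ι → F) (Q : ι → Pt O) : k :=
  (Matrix.of fun i j => ev (Q j).1 (w i)).det

theorem detI_eq_detFun {r : ℕ} (w : Fin r → F) (P : Fin r → Pt O) :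
    detI w P = detFun O w P := rfl

theorem detI_reindex {ι ι' : Type*} [Fintype ι] [DecidableEq ι] [Fintype ι'] [DecidableEq ι']
    (w : ι → F) (Q : ι → Pt O) (σ : ι' ≃ ι) : detI (w ∘ σ) (Q ∘ σ) = detI w Q :=
  Matrix.det_submatrix_equiv_self σ (Matrix.of fun i j => ev (Q j).1 (w i))

theorem detI_comp_perm {ι : Type*} [Fintype ι] [DecidableEq ι] (w : ι → F) (Q : ι → Pt O)
    (σ : Equiv.Perm ι) :
    detI w (Q ∘ σ) = ((Equiv.Perm.sign σ : ℤ) : k) * detI w Q :=
  Matrix.det_permute' σ (Matrix.of fun i j => ev (Q j).1 (w i))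

theorem detI_mul {ι : Type*} [Fintype ι] [DecidableEq ι] {u : F} {w : ι → F} (Q : ι → Pt O)
    {a b : ℤ} (hu : u ∈ lMul O a) (hw : ∀ i, w i ∈ lMul O b) :
    detI (fun i => u * w i) Q = (∏ j, ev (Q j).1 u) * detI w Q := by
  rw [detI, detI, ← Matrix.det_mul_row (fun j => ev (Q j).1 u)]
  congr 1
  ext i j
  simp only [Matrix.of_apply]
  rw [ev_mul (adicValuation_le_one_of_mem_lMul O hu _) (adicValuation_le_one_of_mem_lMul O (hw i) _)]

variable [Curves.IsFunctionField k F]

variable (O) in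
theorem exists_isBasisI {ι : Type*} [Fintype ι] {n : ℕ} (hn : 2 * genusFF k F ≤ n)
    {D : Divisor k F} (hD : Divisor.degree D = (n : ℤ)) (hc : Fintype.card ι = rdim k F n) :
    ∃ s : ι → F, IsBasisI s D := by
  obtain ⟨s, hs⟩ := exists_isBasisOf hn hD
  exact ⟨_, IsBasisI.reindex (s := s) hs (Fintype.equivFinOfCardEq hc)⟩

/-- Fixing distinct points of a determinant gives the determinant of the sections vanishing there. -/
theorem exists_detI_split {ι κ : Type*} [Fintype ι] [DecidableEq ι] [Fintype κ] [DecidableEq κ]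
    {N : ℤ} {b : ι ⊕ κ → F} (hb : IsBasisI b (Finsupp.single O N)) {Q : κ → Pt O}
    (hQ : Function.Injective Q) {w : ι → F}
    (hw : IsBasisI w (Finsupp.single O N - sumPts Q)) :
    ∃ c : k, c ≠ 0 ∧ ∀ P : ι → Pt O, detI b (Sum.elim P Q) = c * detI w P := by
  classical
  have hle : riemannRochSpace (Finsupp.single O N - sumPts Q) ≤ lMul O N :=
    Curves.riemannRochSpace_mono (sub_le_self _ (sumPts_nonneg Q))
  let evQ : lMul O N →ₗ[k] (κ → k) := LinearMap.pi fun j => evL O N (Q j)
  have hker : ∀ f : lMul O N, evQ f = 0 → (f : F) ∈ riemannRochSpace (Finsupp.single O N - sumPts Q) := by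
    intro f hf
    rw [mem_riemannRochSpace_iff]
    intro v
    have h0 := mem_riemannRochSpace_iff.1 f.2 v
    rcases sumPts_apply hQ v with ⟨-, h⟩ | ⟨⟨j, rfl⟩, h⟩
    · rwa [Finsupp.sub_apply, h, sub_zero]
    · have h1 := congrFun hf j
      have h1' : ev (Q j).1 (f : F) = 0 := h1
      rw [ev_eq_zero_iff (adicValuation_le_one_of_mem_lMul O f.2 _)] at h1'
      rw [Finsupp.sub_apply, h, Finsupp.single_eq_of_ne (a := O) (Q j).2]
      rcases h1' with h2 | h2
      · exact Or.inl h2
      · exact Or.inr (by omega)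
  have hvanish : ∀ i j, ev (Q j).1 (w i) = 0 := by
    intro i j
    rw [ev_eq_zero_iff (adicValuation_le_one_of_mem_lMul O (hle (hw.mem i)) _)]
    rcases mem_riemannRochSpace_iff.1 (hw.mem i) (Q j).1 with h | h
    · exact Or.inl h
    · rcases sumPts_apply hQ (Q j).1 with ⟨h', -⟩ | ⟨-, h'⟩
      · exact absurd rfl (h' j)
      · rw [Finsupp.sub_apply, h', Finsupp.single_eq_of_ne (a := O) (Q j).2] at h
        exact Or.inr (by omega)
  have hsurj : LinearMap.range evQ = ⊤ := by
    refine Submodule.eq_top_of_finrank_eq ?_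
    have h1 := LinearMap.finrank_range_add_finrank_ker evQ
    have h2 : Module.finrank k (LinearMap.ker evQ) ≤ Fintype.card ι := by
      rw [← finrank_span_eq_card hw.1, hw.2]
      let j : LinearMap.ker evQ →ₗ[k] riemannRochSpace (Finsupp.single O N - sumPts Q) :=
        LinearMap.codRestrict _ ((lMul O N).subtype.comp (LinearMap.ker evQ).subtype)
          fun f => hker f.1 f.2
      exact LinearMap.finrank_le_finrank_of_injective (f := j) fun x y e =>
        Subtype.ext (Subtype.ext (congrArg Subtype.val e :))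
    have h3 : Module.finrank k (lMul O N) = Fintype.card ι + Fintype.card κ := by
      exact (LinearEquiv.finrank_eq (LinearEquiv.ofEq _ _ hb.2.symm)).trans
        ((finrank_span_eq_card hb.1).trans Fintype.card_sum)
    have h4 := Submodule.finrank_le (LinearMap.range evQ)
    rw [Module.finrank_pi] at h4 ⊢
    omega
  have hv : ∀ l : κ, ∃ f : lMul O N, evQ f = Pi.single l 1 := fun l =>
    LinearMap.mem_range.1 (hsurj ▸ Submodule.mem_top)
  choose v hv using hv
  let t : ι ⊕ κ → F := Sum.elim w fun l => (v l : F)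
  have ht : ∀ i, t i ∈ lMul O N := Sum.rec (fun i => hle (hw.mem i)) fun l => (v l).2
  have hvev : ∀ l j, ev (Q j).1 (v l : F) = if j = l then 1 else 0 := fun l j => by
    have h : ev (Q j).1 (v l : F) = (Pi.single l (1 : k) : κ → k) j := congrFun (hv l) j
    rwa [Pi.single_apply] at h
  have hti : LinearIndependent k t := by
    rw [Fintype.linearIndependent_iff]
    intro c hc
    have hκ : ∀ j, c (Sum.inr j) = 0 := by
      intro j
      have h := congrArg (ev (Q j).1) hc
      rw [ev_linearCombination O Finset.univ ht c (Q j), ev_zero, Fintype.sum_sum_type] at h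
      simpa [t, hvanish, hvev] using h
    rw [Fintype.sum_sum_type] at hc
    simp only [hκ, zero_smul, Finset.sum_const_zero, add_zero] at hc
    rintro (i | j)
    · exact Fintype.linearIndependent_iff.1 hw.1 (fun i => c (Sum.inl i)) hc i
    · exact hκ j
  have hG : ∀ i, ∃ G : ι ⊕ κ → k, ∑ l, G l • b l = t i := fun i => by
    have h := ht i
    rw [lMul, ← hb.2, Submodule.mem_span_range_iff_exists_fun] at h
    exact h
  choose G hG using hG
  have hblock : ∀ P : ι → Pt O, (Matrix.of G).det * detI b (Sum.elim P Q) = detI w P := by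
    intro P
    rw [detI, ← Matrix.det_mul]
    have e : Matrix.of G * Matrix.of (fun i j => ev (Sum.elim P Q j).1 (b i))
        = Matrix.fromBlocks (Matrix.of fun i j => ev (P j).1 (w i)) 0
            (Matrix.of fun l j => ev (P j).1 (v l : F)) 1 := by
      ext i j
      rw [Matrix.mul_apply]
      simp only [Matrix.of_apply]
      rw [← ev_linearCombination O Finset.univ hb.mem (G i) (Sum.elim P Q j), hG]
      rcases i with i | i <;> rcases j with j | j
      · rfl
      · simpa [t] using hvanish i j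
      · rfl
      · simpa [t, Matrix.one_apply, eq_comm] using hvev i j
    rw [e, Matrix.det_fromBlocks_zero₁₂, Matrix.det_one, mul_one, detI]
  have hdet : (Matrix.of G).det ≠ 0 := by
    intro h0
    obtain ⟨x, hx, hxG⟩ := Matrix.exists_vecMul_eq_zero_iff.2 h0
    apply hx
    refine funext (Fintype.linearIndependent_iff.1 hti x ?_)
    simp only [← hG, Finset.smul_sum, smul_smul]
    rw [Finset.sum_comm]
    refine Finset.sum_eq_zero fun l _ => ?_
    rw [← Finset.sum_smul]
    have := congrFun hxG l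
    simp only [Matrix.vecMul, dotProduct, Matrix.of_apply, Pi.zero_apply] at this
    rw [this, zero_smul]
  exact ⟨(Matrix.of G).det⁻¹, inv_ne_zero hdet, fun P => by
    rw [← hblock, inv_mul_cancel_left₀ hdet]⟩

/-- Fixing all zeros of `u` splits off the values of `u`. -/
theorem exists_detI_split_fn {ι κ : Type*} [Fintype ι] [DecidableEq ι] [Fintype κ] [DecidableEq κ]
    {N a : ℤ} {b : ι ⊕ κ → F} (hb : IsBasisI b (Finsupp.single O (N + a))) {b' : ι → F}
    (hb' : IsBasisI b' (Finsupp.single O N)) {Q : κ → Pt O} (hQ : Function.Injective Q) {u : F}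
    (hu0 : u ≠ 0) (hu : Curves.divFn u + Finsupp.single O a = sumPts Q) :
    u ∈ lMul O a ∧ ∃ c : k, c ≠ 0 ∧ ∀ P : ι → Pt O,
      detI b (Sum.elim P Q) = c * (∏ j, ev (P j).1 u) * detI b' P := by
  have humem : u ∈ lMul O a := by
    rw [lMul, Curves.mem_riemannRochSpace_iff_add_nonneg hu0, hu]
    exact sumPts_nonneg Q
  refine ⟨humem, ?_⟩
  have hw : IsBasisI (fun i => u * b' i) (Finsupp.single O (N + a) - sumPts Q) := by
    have hdiv : Finsupp.single O (N + a) - sumPts Q = Finsupp.single O N - Curves.divFn u := by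
      rw [← hu, Finsupp.single_add]; abel
    rw [hdiv]
    refine ⟨hb'.1.map' (LinearMap.mulLeft k u) (LinearMap.ker_eq_bot.2 fun x y e =>
      mul_left_cancel₀ hu0 e), le_antisymm (Submodule.span_le.2 ?_) fun f hf => ?_⟩
    · rintro - ⟨i, rfl⟩
      rw [sub_eq_neg_add]
      refine Curves.mul_mem_riemannRochSpace ?_ (hb'.mem i)
      rw [Curves.mem_riemannRochSpace_iff_add_nonneg hu0, add_neg_cancel]
    · have h1 : u⁻¹ ∈ riemannRochSpace (Curves.divFn (K := k) u) := by
        rw [Curves.mem_riemannRochSpace_iff_add_nonneg (inv_ne_zero hu0), Finsupp.le_def]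
        intro v
        simp [Curves.divFn_apply, v.ord_inv]
      have h2 := Curves.mul_mem_riemannRochSpace h1 hf
      rw [add_sub_cancel, ← hb'.2, Submodule.mem_span_range_iff_exists_fun] at h2
      obtain ⟨c, hc⟩ := h2
      rw [Submodule.mem_span_range_iff_exists_fun]
      refine ⟨c, ?_⟩
      simp only [← mul_smul_comm, ← Finset.mul_sum, hc]
      field_simp
  obtain ⟨c, hc, hsplit⟩ := exists_detI_split hb hQ hw
  exact ⟨c, hc, fun P => by rw [hsplit, detI_mul P humem hb'.mem, mul_assoc]⟩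

/-- The product of two determinants with fixed points whose sum is linearly equivalent to a
multiple of `O` is a Kummer vector times values of a function. -/
theorem exists_pair {κ : Type*} [Fintype κ] [DecidableEq κ] {n : ℕ}
    (hn : 2 * genusFF k F ≤ n) {l : ℕ} (hl : Fintype.card κ = l)
    {b : Fin (rdim k F n) ⊕ κ → F} (hb : IsBasisI b (Finsupp.single O ((n + l : ℕ) : ℤ)))
    {Q₁ Q₂ : κ → Pt O} (hQ₁ : Function.Injective Q₁) (hQ₂ : Function.Injective Q₂) {u : F}
    (hu0 : u ≠ 0) (hu : Curves.divFn u + Finsupp.single O ((2 * l : ℕ) : ℤ) = sumPts Q₁ + sumPts Q₂) :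
    u ∈ lMul O ((2 * l : ℕ) : ℤ) ∧
    ∃ (hD : Finsupp.single O (l : ℤ) - sumPts Q₁ ∈ Divisor.degZero (K := k) (F := F))
      (z : (Fin (rdim k F n) → Pt O) → k), IsKummer O n (Pic0.mk ⟨_, hD⟩) z ∧
        ∀ P, z P * (∏ j, ev (P j).1 u) = detI b (Sum.elim P Q₁) * detI b (Sum.elim P Q₂) := by
  have humem : u ∈ lMul O ((2 * l : ℕ) : ℤ) := by
    rw [lMul, Curves.mem_riemannRochSpace_iff_add_nonneg hu0, hu]
    exact add_nonneg (sumPts_nonneg Q₁) (sumPts_nonneg Q₂)
  refine ⟨humem, ?_⟩
  have hD : Finsupp.single O (l : ℤ) - sumPts Q₁ ∈ Divisor.degZero (K := k) (F := F) := by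
    rw [Divisor.mem_degZero, map_sub, degree_single_one, degree_sumPts, hl, sub_self]
  have hdeg : ∀ Q : κ → Pt O,
      Divisor.degree (Finsupp.single O ((n + l : ℕ) : ℤ) - sumPts Q) = (n : ℤ) := fun Q => by
    rw [map_sub, degree_single_one, degree_sumPts, hl]; push_cast; ring
  obtain ⟨w₁, hw₁⟩ := exists_isBasisOf hn (hdeg Q₁)
  obtain ⟨w₂, hw₂⟩ := exists_isBasisOf hn (hdeg Q₂)
  obtain ⟨c₁, hc₁, hs₁⟩ := exists_detI_split hb hQ₁ (w := w₁) hw₁
  obtain ⟨c₂, hc₂, hs₂⟩ := exists_detI_split hb hQ₂ (w := w₂) hw₂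
  have hs : IsBasisOf w₁ (Finsupp.single O (n : ℤ) + (Finsupp.single O (l : ℤ) - sumPts Q₁)) :=
    hw₁.congr (by push_cast; rw [Finsupp.single_add]; abel)
  have hs' : IsBasisOf (fun i => u⁻¹ * w₂ i)
      (Finsupp.single O (n : ℤ) - (Finsupp.single O (l : ℤ) - sumPts Q₁)) := by
    refine (hw₂.mul (inv_ne_zero hu0)).congr ?_
    have hinv : Curves.divFn (K := k) u⁻¹ = -Curves.divFn u := by
      ext v
      rw [Finsupp.neg_apply, Curves.divFn_apply, Curves.divFn_apply, v.ord_inv]
    rw [hinv, eq_sub_of_add_eq hu]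
    push_cast
    rw [two_mul, Finsupp.single_add, Finsupp.single_add]
    abel
  refine ⟨hD, (c₁ * c₂) • phiFun O w₁ fun i => u⁻¹ * w₂ i,
    ⟨⟨_, hD⟩, w₁, _, c₁ * c₂, rfl, hs, hs', mul_ne_zero hc₁ hc₂, rfl⟩, fun P => ?_⟩
  have hle : ∀ Q : κ → Pt O,
      riemannRochSpace (Finsupp.single O ((n + l : ℕ) : ℤ) - sumPts Q)
        ≤ lMul O ((n + l : ℕ) : ℤ) :=
    fun Q => Curves.riemannRochSpace_mono (sub_le_self _ (sumPts_nonneg Q))
  have key := congrFun (phiFun_mul_prodEv (O := O) (h := 1) (h' := u)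
    (fun i => by simpa using hle Q₁ (hw₁.mem i))
    (fun i => by rw [← mul_assoc, mul_inv_cancel₀ hu0, one_mul]; exact hle Q₂ (hw₂.mem i))
    (by simpa using humem) fun i j => mul_mem_lMul_two (hs.mem i) (hs'.mem j)) P
  simp only [one_mul, ← mul_assoc, mul_inv_cancel₀ hu0, Pi.mul_apply, prodEv] at key
  rw [hs₁, hs₂, detI_eq_detFun, detI_eq_detFun, Pi.smul_apply, smul_eq_mul]
  linear_combination (c₁ * c₂) * key

end FLTA.MordellWeil
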