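import Fermat.Agent.MordellWeil.AddDet

/-!
# Representations of classes by distinct points, and substitution of points
-/

set_option autoImplicit false

noncomputable section

open AlgebraicCurve

namespace FLTA.MordellWeil

variable {k F : Type*} [Field k] [Field F] [Algebra k F] [IsAlgClosed k] [IsCurveOver k F]

theorem divFn_mul {f g : F} (hf : f ≠ 0) (hg : g ≠ 0) :
    Curves.divFn (K := k) (f * g) = Curves.divFn f + Curves.divFn g := by
  ext v
  simp [Curves.divFn_apply, v.ord_mul hf hg]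

theorem pic0_mk_eq_of_sub_eq_divFn {D E : Divisor.degZero (K := k) (F := F)} {f : F} (hf : f ≠ 0)
    (h : (E : Divisor k F) - (D : Divisor k F) = Curves.divFn f) : Pic0.mk D = Pic0.mk E := by
  refine QuotientAddGroup.eq.2 ?_
  rw [AddSubgroup.mem_addSubgroupOf, Divisor.mem_principal]
  refine ⟨f, hf, fun v => ?_⟩
  rw [← Curves.divFn_apply (K := k) f v, ← h, sub_eq_neg_add]
  rfl

variable (O : Place k F)

/-- A class written with `2e` distinct points: `div fn + 2e O = pos + neg`. -/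
structure PointRep (e : ℕ) where
  /-- The points of the effective divisor in `-x + e O`. -/
  pos : Fin e → Pt O
  /-- The points of the effective divisor in `e O - x`. -/
  neg : Fin e → Pt O
  inj : Function.Injective (Sum.elim pos neg)
  /-- The function with these zeros. -/
  fn : F
  fn_ne : fn ≠ 0
  div_fn : Curves.divFn fn + Finsupp.single O ((2 * e : ℕ) : ℤ) = sumPts pos + sumPts neg

variable {O} {e : ℕ}

theorem sub_sumPts_mem_degZero {κ : Type*} [Fintype κ] {l : ℕ} (hl : Fintype.card κ = l)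
    (Q : κ → Pt O) : Finsupp.single O (l : ℤ) - sumPts Q ∈ Divisor.degZero (K := k) (F := F) := by
  rw [Divisor.mem_degZero, map_sub, degree_single_one, degree_sumPts, hl, sub_self]

/-- The class `e O - ∑ Q`. -/
def clsOf {κ : Type*} [Fintype κ] {l : ℕ} (hl : Fintype.card κ = l) (Q : κ → Pt O) : Pic0 k F :=
  Pic0.mk ⟨_, sub_sumPts_mem_degZero hl Q⟩

/-- The class of a representation. -/
def PointRep.cls (X : PointRep O e) : Pic0 k F := clsOf (Fintype.card_fin e) X.neg

theorem PointRep.clsOf_pos (X : PointRep O e) : clsOf (Fintype.card_fin e) X.pos = -X.cls := by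
  rw [eq_neg_iff_add_eq_zero, PointRep.cls, clsOf, clsOf, ← Pic0.mk_add, ← Pic0.mk_zero]
  refine pic0_mk_eq_of_sub_eq_divFn X.fn_ne ?_
  have := X.div_fn
  show (0 : Divisor k F) - (Finsupp.single O (e : ℤ) - sumPts X.pos
    + (Finsupp.single O (e : ℤ) - sumPts X.neg)) = _
  rw [show ((2 * e : ℕ) : ℤ) = (e : ℤ) + (e : ℤ) by push_cast; ring, Finsupp.single_add] at this
  rw [eq_sub_of_add_eq this]
  abel

theorem clsOf_elim (Q Q' : Fin e → Pt O) :
    clsOf (l := 2 * e) (by simp [two_mul]) (Sum.elim Q Q')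
      = clsOf (Fintype.card_fin e) Q + clsOf (Fintype.card_fin e) Q' := by
  rw [clsOf, clsOf, clsOf, ← Pic0.mk_add]
  congr 1
  refine Subtype.ext ?_
  show Finsupp.single O ((2 * e : ℕ) : ℤ) - sumPts (Sum.elim Q Q')
    = Finsupp.single O (e : ℤ) - sumPts Q + (Finsupp.single O (e : ℤ) - sumPts Q')
  rw [sumPts_elim, show ((2 * e : ℕ) : ℤ) = (e : ℤ) + (e : ℤ) by push_cast; ring,
    Finsupp.single_add]
  abel

variable [Curves.IsFunctionField k F] [CharZero k]

variable (O) in
/-- Every class has a representation avoiding a given finite set. -/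
theorem exists_pointRep (he : 2 * genusFF k F + 1 ≤ e) (x : Pic0 k F) (S : Finset (Pt O)) :
    ∃ X : PointRep O e, X.cls = x ∧ ∀ i, Sum.elim X.pos X.neg i ∉ S := by
  classical
  obtain ⟨D, rfl⟩ := Pic0.mk_surjective x
  have hD : Divisor.degree (D : Divisor k F) = 0 := Divisor.mem_degZero.1 D.2
  obtain ⟨f₁, T₁, hf₁, -, hS₁, hc₁, hd₁⟩ := exists_reduced
    (D := Finsupp.single O (e : ℤ) - (D : Divisor k F))
    (by rw [map_sub, degree_single_one, hD]; omega) (insert O (S.image Subtype.val))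
  obtain ⟨f₂, T₂, hf₂, -, hS₂, hc₂, hd₂⟩ := exists_reduced
    (D := Finsupp.single O (e : ℤ) + (D : Divisor k F))
    (by rw [map_add, degree_single_one, hD]; omega) (insert O (S.image Subtype.val ∪ T₁))
  rw [map_sub, degree_single_one, hD, sub_zero, Nat.cast_inj] at hc₁
  rw [map_add, degree_single_one, hD, add_zero, Nat.cast_inj] at hc₂
  let Q₁ : Fin e → Pt O := fun j => ⟨((T₁.equivFinOfCardEq hc₁).symm j : Place k F), fun h =>
    Finset.disjoint_left.1 hS₁ ((T₁.equivFinOfCardEq hc₁).symm j).2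
      (Finset.mem_insert.2 (Or.inl h))⟩
  let Q₂ : Fin e → Pt O := fun j => ⟨((T₂.equivFinOfCardEq hc₂).symm j : Place k F), fun h =>
    Finset.disjoint_left.1 hS₂ ((T₂.equivFinOfCardEq hc₂).symm j).2
      (Finset.mem_insert.2 (Or.inl h))⟩
  have hm₁ : ∀ j, (Q₁ j).1 ∈ T₁ := fun j => ((T₁.equivFinOfCardEq hc₁).symm j).2
  have hm₂ : ∀ j, (Q₂ j).1 ∈ T₂ := fun j => ((T₂.equivFinOfCardEq hc₂).symm j).2
  have hs₁ : sumPts Q₁ = Curves.divFn f₁ + (Finsupp.single O (e : ℤ) - (D : Divisor k F)) := by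
    rw [hd₁, ← Finset.sum_coe_sort T₁]
    exact Fintype.sum_equiv (T₁.equivFinOfCardEq hc₁).symm _ _ fun j => rfl
  have hs₂ : sumPts Q₂ = Curves.divFn f₂ + (Finsupp.single O (e : ℤ) + (D : Divisor k F)) := by
    rw [hd₂, ← Finset.sum_coe_sort T₂]
    exact Fintype.sum_equiv (T₂.equivFinOfCardEq hc₂).symm _ _ fun j => rfl
  have hi₁ : Function.Injective Q₁ := fun a b h =>
    (T₁.equivFinOfCardEq hc₁).symm.injective (Subtype.ext (congrArg Subtype.val h :))
  have hi₂ : Function.Injective Q₂ := fun a b h =>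
    (T₂.equivFinOfCardEq hc₂).symm.injective (Subtype.ext (congrArg Subtype.val h :))
  refine ⟨⟨Q₂, Q₁, Function.Injective.sumElim hi₂ hi₁ fun a b h => ?_, f₁ * f₂,
    mul_ne_zero hf₁ hf₂, ?_⟩, ?_, ?_⟩
  · exact Finset.disjoint_left.1 hS₂ (hm₂ a)
      (Finset.mem_insert_of_mem (Finset.mem_union_right _ (by rw [h]; exact hm₁ b)))
  · rw [hs₁, hs₂, divFn_mul hf₁ hf₂, show ((2 * e : ℕ) : ℤ) = (e : ℤ) + (e : ℤ) by push_cast; ring,
      Finsupp.single_add]
    abel
  · refine pic0_mk_eq_of_sub_eq_divFn hf₁ ?_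
    show (D : Divisor k F) - (Finsupp.single O (e : ℤ) - sumPts Q₁) = _
    rw [hs₁]; abel
  · rintro (j | j) h
    · exact Finset.disjoint_left.1 hS₂ (hm₂ j) (Finset.mem_insert_of_mem
        (Finset.mem_union_left _ (Finset.mem_image_of_mem _ h)))
    · exact Finset.disjoint_left.1 hS₁ (hm₁ j) (Finset.mem_insert_of_mem
        (Finset.mem_image_of_mem _ h))

omit [CharZero k] in
/-- Substituting fixed points for some of the arguments. -/
theorem elim_mem_tFun {a : ℤ} {R r : ℕ} (E : Fin R ≃ Fin r ⊕ Fin e)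
    {z : (Fin R → Pt O) → k} (hz : z ∈ tFun O a R) (Q : Fin e → Pt O) :
    (fun P => z (Sum.elim P Q ∘ E)) ∈ tFun O a r := by
  induction hz using Submodule.span_induction with
  | mem x hx =>
    obtain ⟨f, hf, rfl⟩ := hx
    have h : (fun P : Fin r → Pt O => prodEv O f (Sum.elim P Q ∘ E))
        = (∏ j, ev (Q j).1 (f (E.symm (Sum.inr j)))) •
          prodEv O (fun i => f (E.symm (Sum.inl i))) := by
      funext P
      rw [Pi.smul_apply, smul_eq_mul, prodEv, prodEv,
        ← E.symm.prod_comp (fun j => ev ((Sum.elim P Q ∘ E) j).1 (f j)), Fintype.prod_sum_type]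
      simp [mul_comm]
    rw [h]
    exact Submodule.smul_mem _ _ (prodEv_mem O fun j => hf _)
  | zero => exact zero_mem _
  | add x y _ _ hx hy => exact add_mem hx hy
  | smul c x _ hx => exact Submodule.smul_mem _ c hx

variable (O) in
theorem prodEv_const_ne_zero {a : ℤ} {r : ℕ} {u : F} (hu : u ∈ lMul O a) (hu0 : u ≠ 0) :
    prodEv O (fun _ : Fin r => u) ≠ 0 := by
  have := infinite_pt O
  obtain ⟨p, hp⟩ : ∃ p : Pt O, ev p.1 u ≠ 0 := by
    by_contra! hall
    exact hu0 (eq_zero_of_infinite_ev_eq_zero O hu Set.infinite_univ fun p _ => hall p)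
  exact fun h => Finset.prod_ne_zero_iff.2 (fun _ _ => hp) (congrFun h fun _ => p)

omit [CharZero k] in
theorem eq_of_mul_eq_tFun {a b : ℤ} {r : ℕ} {w z z' : (Fin r → Pt O) → k}
    (hw : w ∈ tFun O a r) (hw0 : w ≠ 0) (hz : z ∈ tFun O b r) (hz' : z' ∈ tFun O b r)
    (h : w * z = w * z') : z = z' := by
  by_contra hne
  exact mul_ne_zero_tFun O hw (sub_mem hz hz') hw0 (sub_ne_zero.2 hne) (by rw [mul_sub, h, sub_self])

variable (O) in
/-- Division by `∏ u(P_j)` on the multiples of it. -/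
theorem exists_divide {a b : ℤ} {r : ℕ} {u : F} (hu : u ∈ lMul O a) (hu0 : u ≠ 0) :
    ∃ Λ : ((Fin r → Pt O) → k) →ₗ[k] ((Fin r → Pt O) → k),
      ∀ z ∈ tFun O b r, Λ (prodEv O (fun _ => u) * z) = z := by
  let μ : tFun O b r →ₗ[k] ((Fin r → Pt O) → k) :=
    (LinearMap.mulLeft k (prodEv O fun _ : Fin r => u)).comp (tFun O b r).subtype
  obtain ⟨g, hg⟩ := μ.exists_leftInverse_of_injective (LinearMap.ker_eq_bot.2 fun x y h =>
    Subtype.ext (eq_of_mul_eq_tFun (prodEv_mem O fun _ => hu) (prodEv_const_ne_zero O hu hu0)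
      x.2 y.2 h))
  refine ⟨(tFun O b r).subtype.comp g, fun z hz => ?_⟩
  have h := LinearMap.congr_fun hg ⟨z, hz⟩
  exact congrArg Subtype.val h

end FLTA.MordellWeil
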