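import Fermat.Agent.MordellWeil.AddRep

/-!
# The two sided formula for disjoint representations

`b` is a master basis of `L((n + 2e) O)` indexed by `Fin r ⊕ (Fin e ⊕ Fin e)`, `r = rdim n`.
-/

set_option autoImplicit false

noncomputable section

open AlgebraicCurve

namespace FLTA.MordellWeil

variable {k F : Type*} [Field k] [Field F] [Algebra k F] [IsAlgClosed k] [IsCurveOver k F]
variable [Curves.IsFunctionField k F] [CharZero k] {O : Place k F}

omit [IsAlgClosed k] [IsCurveOver k F] [Curves.IsFunctionField k F] [CharZero k] in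
theorem rdim_add {n e : ℕ} (hn : genusFF k F ≤ n) : rdim k F (n + e) = rdim k F n + e := by
  unfold rdim; omega

variable {n e : ℕ}

/-- The Kummer vector of a representation, characterised by two determinants. -/
def IsRepVec (b : Fin (rdim k F n) ⊕ (Fin e ⊕ Fin e) → F)
    (E : Fin (rdim k F (n + e)) ≃ Fin (rdim k F n) ⊕ Fin e) (X : PointRep O e)
    (z : (Fin (rdim k F (n + e)) → Pt O) → k) : Prop :=
  IsKummer O (n + e) X.cls z ∧ ∀ (P : Fin (rdim k F n) → Pt O) (Y : Fin e → Pt O),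
    z (Sum.elim P Y ∘ E) * ((∏ j, ev (P j).1 X.fn) * ∏ j, ev (Y j).1 X.fn) =
      detI b (Sum.elim P (Sum.elim Y X.neg)) * detI b (Sum.elim P (Sum.elim Y X.pos))

variable {b : Fin (rdim k F n) ⊕ (Fin e ⊕ Fin e) → F}
variable {E : Fin (rdim k F (n + e)) ≃ Fin (rdim k F n) ⊕ Fin e}

theorem exists_isRepVec (hn : 4 * genusFF k F + 2 ≤ n)
    (hb : IsBasisI b (Finsupp.single O ((n + 2 * e : ℕ) : ℤ))) (X : PointRep O e) :
    ∃ z, IsRepVec b E X z := by
  classical
  let σ : Fin (rdim k F (n + e)) ⊕ Fin e ≃ Fin (rdim k F n) ⊕ (Fin e ⊕ Fin e) :=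
    (Equiv.sumCongr E (Equiv.refl (Fin e))).trans (Equiv.sumAssoc _ _ _)
  have hbm : IsBasisI (b ∘ σ) (Finsupp.single O ((n + e + e : ℕ) : ℤ)) := by
    rw [show n + e + e = n + 2 * e by ring]
    exact hb.reindex σ
  obtain ⟨-, hD, z, hz, hev⟩ := exists_pair (n := n + e) (l := e) (by omega) (Fintype.card_fin e)
    hbm (Q₁ := X.neg) (Q₂ := X.pos) (X.inj.comp Sum.inr_injective) (X.inj.comp Sum.inl_injective)
    X.fn_ne (by rw [X.div_fn, add_comm])
  refine ⟨z, hz, fun P Y => ?_⟩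
  have e1 : ∀ M : Fin e → Pt O,
      Sum.elim (Sum.elim P Y ∘ E) M = Sum.elim P (Sum.elim Y M) ∘ σ := fun M => by
    funext i
    rcases i with i | i
    · show Sum.elim P Y (E i) = Sum.elim P (Sum.elim Y M) (σ (Sum.inl i))
      rcases h : E i with j | j <;> simp [σ, h]
    · rfl
  have h := hev (Sum.elim P Y ∘ E)
  rw [e1, e1, detI_reindex, detI_reindex] at h
  rw [← h]
  congr 1
  rw [← E.symm.prod_comp (fun j => ev ((Sum.elim P Y ∘ E) j).1 X.fn), Fintype.prod_sum_type]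
  simp

/-- The constants of a representation making the formula symmetric, up to the sign `s`. -/
theorem exists_weight (hn : 4 * genusFF k F + 2 ≤ n) (O : Place k F) (e : ℕ) :
    ∃ (ρ : PointRep O e → k) (s : k), s * s = 1 ∧ (∀ X, ρ X ≠ 0) ∧ ∀ X Y : PointRep O e,
      ρ Y * (∏ i, ev (Sum.elim X.pos X.neg i).1 Y.fn) =
        s * (ρ X * ∏ i, ev (Sum.elim Y.pos Y.neg i).1 X.fn) := by
  classical
  set r := rdim k F n with hr
  have hg : genusFF k F ≤ n := by omega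
  obtain ⟨b₀, hb₀⟩ := exists_isBasisI (ι := Fin r) (n := n) (by omega)
    (D := Finsupp.single O (n : ℤ)) (degree_single_one O _) (Fintype.card_fin _)
  obtain ⟨b₁, hb₁⟩ := exists_isBasisI (ι := Fin r ⊕ (Fin e ⊕ Fin e)) (n := n + 2 * e) (by omega)
    (D := Finsupp.single O ((n + 2 * e : ℕ) : ℤ)) (degree_single_one O _)
    (by rw [rdim_add hg]; simp [hr, two_mul])
  obtain ⟨b₂, hb₂⟩ := exists_isBasisI (ι := (Fin r ⊕ (Fin e ⊕ Fin e)) ⊕ (Fin e ⊕ Fin e))
    (n := n + 4 * e) (by omega)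
    (D := Finsupp.single O ((n + 4 * e : ℕ) : ℤ)) (degree_single_one O _)
    (by rw [rdim_add hg]; simp [hr]; ring)
  have h1 : ∀ X : PointRep O e, ∃ c : k, c ≠ 0 ∧ ∀ P,
      detI b₁ (Sum.elim P (Sum.elim X.pos X.neg))
        = c * (∏ j, ev (P j).1 X.fn) * detI b₀ P := fun X =>
    (exists_detI_split_fn (N := (n : ℤ)) (a := ((2 * e : ℕ) : ℤ))
      (by rw [← Nat.cast_add]; exact hb₁) hb₀ X.inj X.fn_ne
      (by rw [X.div_fn, sumPts_elim])).2
  have h2 : ∀ X : PointRep O e, ∃ c : k, c ≠ 0 ∧ ∀ P,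
      detI b₂ (Sum.elim P (Sum.elim X.pos X.neg))
        = c * (∏ j, ev (P j).1 X.fn) * detI b₁ P := fun X =>
    (exists_detI_split_fn (N := ((n + 2 * e : ℕ) : ℤ)) (a := ((2 * e : ℕ) : ℤ))
      (by rw [← Nat.cast_add, show n + 2 * e + 2 * e = n + 4 * e by ring]; exact hb₂) hb₁ X.inj
      X.fn_ne (by rw [X.div_fn, sumPts_elim])).2
  choose c' hc' hs₁ using h1
  choose c hc hs₂ using h2
  let σ : Equiv.Perm ((Fin r ⊕ (Fin e ⊕ Fin e)) ⊕ (Fin e ⊕ Fin e)) :=
    { toFun := Sum.elim (Sum.elim (fun i => Sum.inl (Sum.inl i)) Sum.inr)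
        (fun i => Sum.inl (Sum.inr i))
      invFun := Sum.elim (Sum.elim (fun i => Sum.inl (Sum.inl i)) Sum.inr)
        (fun i => Sum.inl (Sum.inr i))
      left_inv := by rintro ((i | i) | i) <;> rfl
      right_inv := by rintro ((i | i) | i) <;> rfl }
  refine ⟨fun X => c X / c' X, ((Equiv.Perm.sign σ : ℤ) : k), ?_,
    fun X => div_ne_zero (hc X) (hc' X), fun X Y => ?_⟩
  · rw [← Int.cast_mul, Int.units_coe_mul_self, Int.cast_one]
  have hfmem : ∀ Z : PointRep O e, Z.fn ∈ lMul O ((2 * e : ℕ) : ℤ) := fun Z => by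
    rw [lMul, Curves.mem_riemannRochSpace_iff_add_nonneg Z.fn_ne, Z.div_fn]
    exact add_nonneg (sumPts_nonneg _) (sumPts_nonneg _)
  -- a tuple at which nothing vanishes
  obtain ⟨P, -, hP⟩ := exists_forall_ne_zero O (ι := Option Bool)
    (z := fun i => i.elim (detFun O b₀)
      fun j => bif j then prodEv O (fun _ => X.fn) else prodEv O (fun _ => Y.fn))
    (a := fun i => i.elim (n : ℤ) fun _ => ((2 * e : ℕ) : ℤ))
    (Option.forall.2 ⟨detFun_mem O hb₀.mem, Bool.forall_bool.2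
      ⟨prodEv_mem O fun _ => hfmem Y, prodEv_mem O fun _ => hfmem X⟩⟩)
    (Option.forall.2 ⟨detFun_ne_zero O hb₀.mem hb₀.1, Bool.forall_bool.2
      ⟨prodEv_const_ne_zero O (hfmem Y) Y.fn_ne, prodEv_const_ne_zero O (hfmem X) X.fn_ne⟩⟩)
    Set.finite_empty
  have hP0 : detFun O b₀ P ≠ 0 := hP none
  have hPX : (∏ j, ev (P j).1 X.fn) ≠ 0 := hP (some true)
  have hPY : (∏ j, ev (P j).1 Y.fn) ≠ 0 := hP (some false)
  have key := detI_comp_perm b₂
    (Sum.elim (Sum.elim P (Sum.elim Y.pos Y.neg)) (Sum.elim X.pos X.neg)) σ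
  have hswap : Sum.elim (Sum.elim P (Sum.elim Y.pos Y.neg)) (Sum.elim X.pos X.neg) ∘ σ
      = Sum.elim (Sum.elim P (Sum.elim X.pos X.neg)) (Sum.elim Y.pos Y.neg) := by
    funext i
    rcases i with (i | i) | i <;> rfl
  rw [hswap, hs₂ Y, hs₂ X, hs₁ X, hs₁ Y, detI_eq_detFun, Fintype.prod_sum_type,
    Fintype.prod_sum_type (f := fun j => ev (Sum.elim P (Sum.elim Y.pos Y.neg) j).1 X.fn)] at key
  simp only [Sum.elim_inl, Sum.elim_inr] at key
  have := hc' X
  have := hc' Y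
  field_simp
  apply mul_left_cancel₀ (mul_ne_zero (mul_ne_zero hP0 hPX) hPY)
  linear_combination key

variable (hn : 4 * genusFF k F + 2 ≤ n)
  (hb : IsBasisI b (Finsupp.single O ((n + 2 * e : ℕ) : ℤ)))

include hn hb in
/-- Both one sided products are multiples of the same product of Kummer vectors of `x ± y`. -/
theorem exists_two_sided {X Y : PointRep O e}
    (hdisj : ∀ i j, Sum.elim X.pos X.neg i ≠ Sum.elim Y.pos Y.neg j)
    {zx zy} (hx : IsRepVec b E X zx) (hy : IsRepVec b E Y zy) :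
    ∃ za zb, IsKummer O n (X.cls + Y.cls) za ∧ IsKummer O n (X.cls - Y.cls) zb ∧
      (∀ P, zx (Sum.elim P Y.pos ∘ E) * zx (Sum.elim P Y.neg ∘ E) *
          (∏ i, ev (Sum.elim Y.pos Y.neg i).1 X.fn) =
        za P * zb P * (∏ j, ev (P j).1 Y.fn) ^ 2) ∧
      (∀ P, zy (Sum.elim P X.pos ∘ E) * zy (Sum.elim P X.neg ∘ E) *
          (∏ i, ev (Sum.elim X.pos X.neg i).1 Y.fn) =
        za P * zb P * (∏ j, ev (P j).1 X.fn) ^ 2) := by
  classical
  have hinj : ∀ {f g : Fin e → Pt O}, Function.Injective f → Function.Injective g →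
      (∀ i j, f i ≠ g j) → Function.Injective (Sum.elim f g) :=
    fun hf hg h => Function.Injective.sumElim hf hg h
  have hfmem : ∀ Z : PointRep O e, Z.fn ∈ lMul O ((2 * e : ℕ) : ℤ) := fun Z => by
    rw [lMul, Curves.mem_riemannRochSpace_iff_add_nonneg Z.fn_ne, Z.div_fn]
    exact add_nonneg (sumPts_nonneg _) (sumPts_nonneg _)
  have hu : X.fn * Y.fn ≠ 0 := mul_ne_zero X.fn_ne Y.fn_ne
  have hdiv : Curves.divFn (K := k) (X.fn * Y.fn) + Finsupp.single O ((2 * (2 * e) : ℕ) : ℤ)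
      = sumPts X.pos + sumPts X.neg + (sumPts Y.pos + sumPts Y.neg) := by
    rw [divFn_mul X.fn_ne Y.fn_ne, ← X.div_fn, ← Y.div_fn,
      show ((2 * (2 * e) : ℕ) : ℤ) = ((2 * e : ℕ) : ℤ) + ((2 * e : ℕ) : ℤ) by push_cast; ring,
      Finsupp.single_add]
    abel
  have hXp := X.inj.comp Sum.inl_injective
  have hXn := X.inj.comp Sum.inr_injective
  have hYp := Y.inj.comp Sum.inl_injective
  have hYn := Y.inj.comp Sum.inr_injective
  have hl : Fintype.card (Fin e ⊕ Fin e) = 2 * e := by simp [two_mul]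
  obtain ⟨-, hD, zb, hzb, hzb'⟩ := exists_pair (n := n) (l := 2 * e) (by omega) hl hb
    (Q₁ := Sum.elim Y.pos X.neg) (Q₂ := Sum.elim Y.neg X.pos)
    (hinj hYp hXn fun i j h => hdisj (Sum.inr j) (Sum.inl i) h.symm)
    (hinj hYn hXp fun i j h => hdisj (Sum.inl j) (Sum.inr i) h.symm)
    hu (by rw [hdiv, sumPts_elim, sumPts_elim]; abel)
  obtain ⟨-, hD', za, hza, hza'⟩ := exists_pair (n := n) (l := 2 * e) (by omega) hl hb
    (Q₁ := Sum.elim Y.neg X.neg) (Q₂ := Sum.elim Y.pos X.pos)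
    (hinj hYn hXn fun i j h => hdisj (Sum.inr j) (Sum.inr i) h.symm)
    (hinj hYp hXp fun i j h => hdisj (Sum.inl j) (Sum.inl i) h.symm)
    hu (by rw [hdiv, sumPts_elim, sumPts_elim]; abel)
  have hca : IsKummer O n (X.cls + Y.cls) za := by
    have : IsKummer O n (clsOf (l := 2 * e) hl (Sum.elim Y.neg X.neg)) za := hza
    rwa [clsOf_elim, ← PointRep.cls, ← PointRep.cls, add_comm] at this
  have hcb : IsKummer O n (X.cls - Y.cls) zb := by
    have : IsKummer O n (clsOf (l := 2 * e) hl (Sum.elim Y.pos X.neg)) zb := hzb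
    rwa [clsOf_elim, PointRep.clsOf_pos, ← PointRep.cls, neg_add_eq_sub] at this
  refine ⟨za, zb, hca, hcb, ?_⟩
  have hpr : ∀ (P : Fin (rdim k F n) → Pt O), (∏ j, ev (P j).1 (X.fn * Y.fn))
      = (∏ j, ev (P j).1 X.fn) * ∏ j, ev (P j).1 Y.fn := fun P => by
    rw [← Finset.prod_mul_distrib]
    exact Finset.prod_congr rfl fun j _ => ev_mul (adicValuation_le_one_of_mem_lMul O (hfmem X) _)
      (adicValuation_le_one_of_mem_lMul O (hfmem Y) _)
  simp only [hpr] at hza' hzb'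
  -- the four determinants for the two orders
  let σ : Equiv.Perm (Fin (rdim k F n) ⊕ (Fin e ⊕ Fin e)) :=
    Equiv.sumCongr (Equiv.refl _) (Equiv.sumComm (Fin e) (Fin e))
  have hswap : ∀ (P : Fin (rdim k F n) → Pt O) (A B : Fin e → Pt O),
      detI b (Sum.elim P (Sum.elim B A))
        = ((Equiv.Perm.sign σ : ℤ) : k) * detI b (Sum.elim P (Sum.elim A B)) := fun P A B => by
    rw [← detI_comp_perm]
    congr 1
    funext i
    rcases i with i | i | i <;> rfl
  have hsig : ((Equiv.Perm.sign σ : ℤ) : k) ^ 4 = 1 := by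
    rcases Int.units_eq_one_or (Equiv.Perm.sign σ) with h | h <;> norm_num [h]
  have hmem4 : ∀ (Z W : PointRep O e) {z}, IsRepVec b E Z z →
      (fun P => z (Sum.elim P W.pos ∘ E) * z (Sum.elim P W.neg ∘ E)) ∈
        tFun O (((2 * (n + e) : ℕ) : ℤ) + ((2 * (n + e) : ℕ) : ℤ)) (rdim k F n) := fun Z W z hz =>
    mul_mem_tFun O (elim_mem_tFun E hz.1.mem_tFun W.pos) (elim_mem_tFun E hz.1.mem_tFun W.neg)
  have hdeg : ((2 * n : ℕ) : ℤ) + ((2 * n : ℕ) : ℤ) + (((2 * e : ℕ) : ℤ) + ((2 * e : ℕ) : ℤ))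
      = ((2 * (n + e) : ℕ) : ℤ) + ((2 * (n + e) : ℕ) : ℤ) := by push_cast; ring
  have main : ∀ (Z W : PointRep O e) (z : (Fin (rdim k F (n + e)) → Pt O) → k),
      IsRepVec b E Z z →
      (∀ P, z (Sum.elim P W.pos ∘ E) * z (Sum.elim P W.neg ∘ E) *
          ((∏ j, ev (P j).1 Z.fn) ^ 2 * ∏ i, ev (Sum.elim W.pos W.neg i).1 Z.fn) =
        za P * zb P * ((∏ j, ev (P j).1 Z.fn) ^ 2 * (∏ j, ev (P j).1 W.fn) ^ 2)) →
      ∀ P, z (Sum.elim P W.pos ∘ E) * z (Sum.elim P W.neg ∘ E) *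
          (∏ i, ev (Sum.elim W.pos W.neg i).1 Z.fn) = za P * zb P * (∏ j, ev (P j).1 W.fn) ^ 2 := by
    intro Z W z hz hP P
    have h1 := eq_of_mul_eq_tFun (O := O)
      (w := prodEv O (fun _ => Z.fn) * prodEv O (fun _ => Z.fn))
      (z := (∏ i, ev (Sum.elim W.pos W.neg i).1 Z.fn) •
        fun P => z (Sum.elim P W.pos ∘ E) * z (Sum.elim P W.neg ∘ E))
      (z' := za * zb * (prodEv O (fun _ => W.fn) * prodEv O (fun _ => W.fn)))
      (mul_mem_tFun O (prodEv_mem O fun _ => hfmem Z) (prodEv_mem O fun _ => hfmem Z))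
      (mul_ne_zero_tFun O (prodEv_mem O fun _ => hfmem Z) (prodEv_mem O fun _ => hfmem Z)
        (prodEv_const_ne_zero O (hfmem Z) Z.fn_ne) (prodEv_const_ne_zero O (hfmem Z) Z.fn_ne))
      (Submodule.smul_mem _ _ (hmem4 Z W hz))
      (hdeg ▸ mul_mem_tFun O (mul_mem_tFun O hca.mem_tFun hcb.mem_tFun)
        (mul_mem_tFun O (prodEv_mem O fun _ => hfmem W) (prodEv_mem O fun _ => hfmem W)))
      (funext fun Q => by
        simp only [Pi.mul_apply, Pi.smul_apply, smul_eq_mul, prodEv]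
        linear_combination hP Q)
    have h2 := congrFun h1 P
    simp only [Pi.mul_apply, Pi.smul_apply, smul_eq_mul, prodEv] at h2
    linear_combination h2
  constructor
  · refine main X Y zx hx fun P => ?_
    have a1 := hx.2 P Y.pos
    have a2 := hx.2 P Y.neg
    have ha := hza' P
    have hb' := hzb' P
    rw [Fintype.prod_sum_type]
    simp only [Sum.elim_inl, Sum.elim_inr]
    linear_combination (zx (Sum.elim P Y.neg ∘ E) * ((∏ j, ev (P j).1 X.fn) *
        ∏ j, ev (Y.neg j).1 X.fn)) * a1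
      + (detI b (Sum.elim P (Sum.elim Y.pos X.neg)) * detI b (Sum.elim P (Sum.elim Y.pos X.pos))) * a2
      - (zb P * ((∏ j, ev (P j).1 X.fn) * ∏ j, ev (P j).1 Y.fn)) * ha
      - (detI b (Sum.elim P (Sum.elim Y.neg X.neg)) * detI b (Sum.elim P (Sum.elim Y.pos X.pos))) * hb'
  · refine main Y X zy hy fun P => ?_
    have a1 := hy.2 P X.pos
    have a2 := hy.2 P X.neg
    have ha := hza' P
    have hb' := hzb' P
    rw [hswap P Y.neg X.pos, hswap P Y.pos X.pos] at a1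
    rw [hswap P Y.neg X.neg, hswap P Y.pos X.neg] at a2
    rw [Fintype.prod_sum_type]
    simp only [Sum.elim_inl, Sum.elim_inr]
    linear_combination (zy (Sum.elim P X.neg ∘ E) * ((∏ j, ev (P j).1 Y.fn) *
        ∏ j, ev (X.neg j).1 Y.fn)) * a1
      + (((Equiv.Perm.sign σ : ℤ) : k) ^ 2 * detI b (Sum.elim P (Sum.elim Y.neg X.pos)) *
          detI b (Sum.elim P (Sum.elim Y.pos X.pos))) * a2
      - (zb P * ((∏ j, ev (P j).1 X.fn) * ∏ j, ev (P j).1 Y.fn)) * ha
      - (detI b (Sum.elim P (Sum.elim Y.neg X.neg)) * detI b (Sum.elim P (Sum.elim Y.pos X.pos))) * hb'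
      + (detI b (Sum.elim P (Sum.elim Y.neg X.pos)) * detI b (Sum.elim P (Sum.elim Y.pos X.pos)) *
          detI b (Sum.elim P (Sum.elim Y.neg X.neg)) * detI b (Sum.elim P (Sum.elim Y.pos X.neg))) * hsig

end FLTA.MordellWeil
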