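import Fermat.Agent.MordellWeil.AddSpec
import Mathlib.LinearAlgebra.TensorProduct.Basic
import Mathlib.LinearAlgebra.TensorProduct.Finiteness

/-!
# Level change and the addition formula for Kummer vectors
-/

set_option autoImplicit false

noncomputable section

open AlgebraicCurve TensorProduct

namespace FLTA.MordellWeil

variable {k F : Type*} [Field k] [Field F] [Algebra k F] [IsAlgClosed k] [IsCurveOver k F]
variable [Curves.IsFunctionField k F] (O : Place k F)

/-- Functions on tuples of length `dim L(m O)`. -/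
abbrev Fn (m : ℕ) : Type _ := (Fin (rdim k F m) → Pt O) → k

theorem fn_mem_lMul {e : ℕ} (X : PointRep O e) : X.fn ∈ lMul O ((2 * e : ℕ) : ℤ) := by
  rw [lMul, Curves.mem_riemannRochSpace_iff_add_nonneg X.fn_ne, X.div_fn]
  exact add_nonneg (sumPts_nonneg _) (sumPts_nonneg _)

/-- The index change and the master basis of a level. -/
theorem exists_setup {n e : ℕ} (hn : 4 * genusFF k F + 2 ≤ n) :
    Nonempty (Fin (rdim k F (n + e)) ≃ Fin (rdim k F n) ⊕ Fin e) ∧
      ∃ b : Fin (rdim k F n) ⊕ (Fin e ⊕ Fin e) → F,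
        IsBasisI b (Finsupp.single O ((n + 2 * e : ℕ) : ℤ)) :=
  ⟨⟨(finCongr (rdim_add (k := k) (F := F) (by omega))).trans finSumFinEquiv.symm⟩,
    exists_isBasisI (n := n + 2 * e) (by omega) (degree_single_one O _)
      (by rw [rdim_add (by omega)]; simp [two_mul])⟩

/-- A linear map lowers the level of Kummer vectors by `e`. -/
theorem exists_levelMap [CharZero k] {n e : ℕ} (hn : 4 * genusFF k F + 2 ≤ n)
    (he : 2 * genusFF k F + 1 ≤ e) :
    ∃ L : Fn O (n + e) →ₗ[k] Fn O n,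
      ∀ x z, IsKummer O (n + e) x z → IsKummer O n x (L z) := by
  classical
  obtain ⟨⟨E⟩, b, hb⟩ := exists_setup O (e := e) hn
  obtain ⟨Y, hY, -⟩ := exists_pointRep O he (0 : Pic0 k F) ∅
  have hYpos : clsOf (Fintype.card_fin e) Y.pos = 0 := by rw [PointRep.clsOf_pos, hY, neg_zero]
  obtain ⟨f, hf0, hf⟩ : Divisor.IsPrincipal (Finsupp.single O (e : ℤ) - sumPts Y.pos) := by
    have := (QuotientAddGroup.eq_zero_iff _).1 hYpos
    rwa [AddSubgroup.mem_addSubgroupOf, Divisor.mem_principal] at this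
  set v := f⁻¹ with hv
  have hv0 : v ≠ 0 := inv_ne_zero hf0
  have hvdiv : Curves.divFn v + Finsupp.single O (e : ℤ) = sumPts Y.pos := by
    ext w
    have := hf w
    rw [Finsupp.sub_apply] at this
    rw [Finsupp.add_apply, Curves.divFn_apply, hv, w.ord_inv]
    omega
  have hvmem : v ∈ lMul O (e : ℤ) := by
    rw [lMul, Curves.mem_riemannRochSpace_iff_add_nonneg hv0, hvdiv]
    exact sumPts_nonneg _
  have hvv : v * v ∈ lMul O ((e : ℤ) + e) := by
    have := Curves.mul_mem_riemannRochSpace hvmem hvmem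
    rwa [← Finsupp.single_add] at this
  obtain ⟨Λ, hΛ⟩ := exists_divide O (b := ((2 * n : ℕ) : ℤ)) (r := rdim k F n) hvv
    (mul_ne_zero hv0 hv0)
  refine ⟨Λ.comp (LinearMap.funLeft k k fun P : Fin (rdim k F n) → Pt O =>
    Sum.elim P Y.pos ∘ E), fun x z hz => ?_⟩
  obtain ⟨X, rfl, hX⟩ := exists_pointRep O he x (Finset.univ.image Y.pos)
  have hdisj : ∀ i j, Sum.elim X.pos X.neg i ≠ Y.pos j := fun i j h =>
    hX i (Finset.mem_image.2 ⟨j, Finset.mem_univ _, h.symm⟩)
  obtain ⟨zx, hzx⟩ := exists_isRepVec (E := E) hn hb X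
  have hl : Fintype.card (Fin e ⊕ Fin e) = 2 * e := by simp [two_mul]
  have hYp := Y.inj.comp Sum.inl_injective
  obtain ⟨-, hD, za, hza, hza'⟩ := exists_pair (n := n) (l := 2 * e) (by omega) hl hb
    (Q₁ := Sum.elim Y.pos X.neg) (Q₂ := Sum.elim Y.pos X.pos)
    (Function.Injective.sumElim hYp (X.inj.comp Sum.inr_injective) fun i j h =>
      hdisj (Sum.inr j) i h.symm)
    (Function.Injective.sumElim hYp (X.inj.comp Sum.inl_injective) fun i j h =>
      hdisj (Sum.inl j) i h.symm)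
    (mul_ne_zero (mul_ne_zero hv0 hv0) X.fn_ne)
    (by
      rw [sumPts_elim, sumPts_elim, ← hvdiv, divFn_mul (mul_ne_zero hv0 hv0) X.fn_ne,
        divFn_mul hv0 hv0]
      have h2 := X.div_fn
      rw [show ((2 * (2 * e) : ℕ) : ℤ) = (e : ℤ) + e + ((2 * e : ℕ) : ℤ) by push_cast; ring,
        Finsupp.single_add, Finsupp.single_add]
      rw [eq_sub_of_add_eq h2]
      abel)
  have hca : IsKummer O n X.cls za := by
    have : IsKummer O n (clsOf (l := 2 * e) hl (Sum.elim Y.pos X.neg)) za := hza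
    rwa [clsOf_elim, hYpos, zero_add, ← PointRep.cls] at this
  have hXY : (∏ i, ev (Y.pos i).1 X.fn) ≠ 0 := by
    refine Finset.prod_ne_zero_iff.2 fun i _ h => ?_
    rw [ev_eq_zero_iff (adicValuation_le_one_of_mem_lMul O (fn_mem_lMul O X) _)] at h
    have h1 := DFunLike.congr_fun X.div_fn (Y.pos i).1
    rw [Finsupp.add_apply, Curves.divFn_apply, ← sumPts_elim,
      Finsupp.single_eq_of_ne (a := O) (Y.pos i).2] at h1
    rcases sumPts_apply X.inj (Y.pos i).1 with ⟨-, h2⟩ | ⟨⟨j, hj⟩, -⟩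
    · rw [h2] at h1; have := h.resolve_left X.fn_ne; omega
    · exact hdisj j i (Subtype.ext hj)
  have key : (fun P => zx (Sum.elim P Y.pos ∘ E)) =
      prodEv O (fun _ => v * v) * ((∏ i, ev (Y.pos i).1 X.fn)⁻¹ • za) := by
    refine eq_of_mul_eq_tFun (prodEv_mem O fun _ => fn_mem_lMul O X)
      (prodEv_const_ne_zero O (fn_mem_lMul O X) X.fn_ne) (elim_mem_tFun E hzx.1.mem_tFun Y.pos)
      ?_ (funext fun P => ?_)
    · have := mul_mem_tFun O (prodEv_mem O (r := rdim k F n) (f := fun _ => v * v) fun _ => hvv)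
        (Submodule.smul_mem _ (∏ i, ev (Y.pos i).1 X.fn)⁻¹ hca.mem_tFun)
      rwa [show (e : ℤ) + e + ((2 * n : ℕ) : ℤ) = ((2 * (n + e) : ℕ) : ℤ) by push_cast; ring] at this
    · have h1 := hzx.2 P Y.pos
      have h2 := hza' P
      rw [← h2] at h1
      have h3 : ∀ j, ev (P j).1 (v * v * X.fn) = ev (P j).1 (v * v) * ev (P j).1 X.fn := fun j =>
        ev_mul (adicValuation_le_one_of_mem_lMul O hvv _)
          (adicValuation_le_one_of_mem_lMul O (fn_mem_lMul O X) _)
      rw [Finset.prod_congr rfl fun j _ => h3 j, Finset.prod_mul_distrib] at h1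
      simp only [Pi.mul_apply, Pi.smul_apply, smul_eq_mul, prodEv]
      linear_combination (∏ i, ev (Y.pos i).1 X.fn)⁻¹ * h1
        - ((∏ j, ev (P j).1 X.fn) * zx (Sum.elim P Y.pos ∘ E)) * inv_mul_cancel₀ hXY
  obtain ⟨c, hc, rfl⟩ := hzx.1.exists_eq_smul (by omega) hz
  rw [map_smul, LinearMap.comp_apply]
  refine IsKummer.smul ?_ hc
  rw [show (LinearMap.funLeft k k fun P : Fin (rdim k F n) → Pt O => Sum.elim P Y.pos ∘ E) zx
    = fun P => zx (Sum.elim P Y.pos ∘ E) from rfl, key,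
    hΛ _ (Submodule.smul_mem _ _ hca.mem_tFun)]
  exact hca.smul (inv_ne_zero hXY)

/-- The addition formula: the pointwise product of the vectors of `x + y` and `x - y` is a form
of bidegree `(2, 2)` in the vectors of `x` and `y`. -/
theorem exists_addition [CharZero k] {n e : ℕ} (hn : 4 * genusFF k F + 2 ≤ n)
    (he : 2 * genusFF k F + 1 ≤ e) :
    ∃ B : Fn O (n + e) →ₗ[k] Fn O (n + e) →ₗ[k] Fn O (n + e) →ₗ[k] Fn O (n + e) →ₗ[k] Fn O n,
      ∀ x y z w a b, IsKummer O (n + e) x z → IsKummer O (n + e) y w →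
        IsKummer O n (x + y) a → IsKummer O n (x - y) b →
          ∃ c : k, c ≠ 0 ∧ B z z w w = c • (a * b) := by
  classical
  obtain ⟨⟨E⟩, b, hb⟩ := exists_setup O (e := e) hn
  obtain ⟨ρ, s, hs, hρ, hsym⟩ := exists_weight hn O e
  set M := tFun O ((2 * (n + e) : ℕ) : ℤ) (rdim k F (n + e)) with hM
  have hMfd : FiniteDimensional k M := finiteDimensional_tFun O _ _
  obtain ⟨π, hπ⟩ := LinearMap.exists_extend (LinearMap.id : M →ₗ[k] M)
  have hπ' : ∀ z : M, π z = z := fun z => LinearMap.congr_fun hπ z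
  choose zv hzv using fun X : PointRep O e => exists_isRepVec (E := E) hn hb X
  have hzmem : ∀ X, zv X ∈ M := fun X => (hzv X).1.mem_tFun
  -- the quadratic map attached to a representation
  have hdiv : ∀ Y : PointRep O e, ∃ Λ : Fn O n →ₗ[k] Fn O n,
      ∀ z ∈ tFun O (((2 * n : ℕ) : ℤ) + ((2 * n : ℕ) : ℤ)) (rdim k F n),
        Λ (prodEv O (fun _ => Y.fn * Y.fn) * z) = z := fun Y =>
    exists_divide O (a := ((2 * e : ℕ) : ℤ) + ((2 * e : ℕ) : ℤ)) (by
      have := Curves.mul_mem_riemannRochSpace (fn_mem_lMul O Y) (fn_mem_lMul O Y)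
      rwa [← Finsupp.single_add] at this) (mul_ne_zero Y.fn_ne Y.fn_ne)
  choose Λ hΛ using hdiv
  let sub : PointRep O e → Fn O (n + e) →ₗ[k] Fn O (n + e) →ₗ[k] Fn O n := fun Y =>
    LinearMap.mk₂ k (fun z z' => fun P => z (Sum.elim P Y.pos ∘ E) * z' (Sum.elim P Y.neg ∘ E))
      (fun z₁ z₂ z' => funext fun P => by simp [add_mul])
      (fun c z z' => funext fun P => by simp [mul_assoc])
      (fun z z₁ z₂ => funext fun P => by simp [mul_add])
      (fun c z z' => funext fun P => by simp [mul_left_comm])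
  let q : PointRep O e → M ⊗[k] M →ₗ[k] Fn O n := fun Y =>
    ρ Y • (Λ Y).comp (TensorProduct.lift ((sub Y).compl₁₂ M.subtype M.subtype))
  let t : PointRep O e → M ⊗[k] M := fun X => (⟨zv X, hzmem X⟩ : M) ⊗ₜ[k] ⟨zv X, hzmem X⟩
  have hq : ∀ X Y : PointRep O e,
      (∀ i j, Sum.elim X.pos X.neg i ≠ Sum.elim Y.pos Y.neg j) →
      ∃ (za zb : Fn O n) (C : k), IsKummer O n (X.cls + Y.cls) za ∧
        IsKummer O n (X.cls - Y.cls) zb ∧ C ≠ 0 ∧
        q Y (t X) = C • (za * zb) ∧ q X (t Y) = (s * C) • (za * zb) := by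
    intro X Y hdisj
    obtain ⟨za, zb, hza, hzb, h1, h2⟩ := exists_two_sided hn hb hdisj (hzv X) (hzv Y)
    set cXY := ∏ i, ev (Sum.elim Y.pos Y.neg i).1 X.fn
    set cYX := ∏ i, ev (Sum.elim X.pos X.neg i).1 Y.fn
    have hne : ∀ (A B : PointRep O e),
        (∀ i j, Sum.elim A.pos A.neg i ≠ Sum.elim B.pos B.neg j) →
        (∏ i, ev (Sum.elim B.pos B.neg i).1 A.fn) ≠ 0 := by
      intro A B hAB
      refine Finset.prod_ne_zero_iff.2 fun i _ h => ?_
      rw [ev_eq_zero_iff (adicValuation_le_one_of_mem_lMul O (fn_mem_lMul O A) _)] at h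
      have h1 := DFunLike.congr_fun A.div_fn (Sum.elim B.pos B.neg i).1
      rw [Finsupp.add_apply, Curves.divFn_apply, ← sumPts_elim,
        Finsupp.single_eq_of_ne (a := O) (Sum.elim B.pos B.neg i).2] at h1
      rcases sumPts_apply A.inj (Sum.elim B.pos B.neg i).1 with ⟨-, h2⟩ | ⟨⟨j, hj⟩, -⟩
      · rw [h2] at h1; have := h.resolve_left A.fn_ne; omega
      · exact hAB j i (Subtype.ext hj)
    have hc1 : cXY ≠ 0 := hne X Y hdisj
    have hc2 : cYX ≠ 0 := hne Y X fun i j => (hdisj j i).symm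
    have hmem : za * zb ∈ tFun O (((2 * n : ℕ) : ℤ) + ((2 * n : ℕ) : ℤ)) (rdim k F n) :=
      mul_mem_tFun O hza.mem_tFun hzb.mem_tFun
    have heval : ∀ (A B : PointRep O e) (c : k), c ≠ 0 →
        (∀ P, zv A (Sum.elim P B.pos ∘ E) * zv A (Sum.elim P B.neg ∘ E) * c
          = za P * zb P * (∏ j, ev (P j).1 B.fn) ^ 2) →
        q B (t A) = (ρ B * c⁻¹) • (za * zb) := by
      intro A B c hc hP
      have e1 : TensorProduct.lift ((sub B).compl₁₂ M.subtype M.subtype) (t A)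
          = prodEv O (fun _ => B.fn * B.fn) * (c⁻¹ • (za * zb)) := by
        funext P
        show zv A (Sum.elim P B.pos ∘ E) * zv A (Sum.elim P B.neg ∘ E)
          = (∏ j, ev (P j).1 (B.fn * B.fn)) * (c⁻¹ * (za P * zb P))
        rw [Finset.prod_congr rfl fun j _ => ev_mul
          (adicValuation_le_one_of_mem_lMul O (fn_mem_lMul O B) _)
          (adicValuation_le_one_of_mem_lMul O (fn_mem_lMul O B) _), Finset.prod_mul_distrib]
        field_simp
        linear_combination hP P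
      show ρ B • Λ B _ = _
      rw [e1, hΛ B _ (Submodule.smul_mem _ _ hmem), smul_smul]
    refine ⟨za, zb, ρ Y * cXY⁻¹, hza, hzb, mul_ne_zero (hρ Y) (inv_ne_zero hc1),
      heval X Y cXY hc1 h1, ?_⟩
    rw [heval Y X cYX hc2 h2]
    congr 1
    have h3 := hsym X Y
    field_simp
    linear_combination ρ Y * cYX * hs * 0 + (-s) * h3 + (-(ρ X * cXY)) * hs
  -- a finite independent set spanning all squares
  obtain ⟨T, hT, hTs, hTi⟩ := exists_linearIndependent k (Set.range t)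
  have : Finite T := hTi.finite
  have : Fintype T := Fintype.ofFinite _
  choose rep hrep using fun i : T => hT i.2
  let V := Submodule.span k (Set.range t)
  have hbV : ∀ i : T, (i : M ⊗[k] M) ∈ V := fun i => Submodule.subset_span (hT i.2)
  let basisV : Module.Basis T k V := Module.Basis.mk
    (v := fun i : T => (⟨i, hbV i⟩ : V)) (LinearIndependent.of_comp V.subtype hTi) (by
      rintro ⟨x, hx⟩ -
      have hx' : x ∈ Submodule.span k (Set.range fun i : T => (i : M ⊗[k] M)) := by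
        rw [Subtype.range_coe, hTs]; exact hx
      obtain ⟨c, hc⟩ := (Submodule.mem_span_range_iff_exists_fun k).1 hx'
      rw [Submodule.mem_span_range_iff_exists_fun]
      exact ⟨c, Subtype.ext (by simp [hc])⟩)
  obtain ⟨Φ, hΦ⟩ := LinearMap.exists_extend (V := M ⊗[k] M) (p := V) (basisV.constr k fun i => s • q (rep i))
  let G : (M ⊗[k] M →ₗ[k] Fn O n) →ₗ[k] (Fn O (n + e) →ₗ[k] Fn O (n + e) →ₗ[k] Fn O n) :=
    { toFun := fun f => ((TensorProduct.mk k M M).compr₂ f).compl₁₂ π π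
      map_add' := fun f g => by ext w w' P; simp
      map_smul' := fun c f => by ext w w' P; simp }
  refine ⟨((TensorProduct.mk k M M).compr₂ (G.comp Φ)).compl₁₂ π π,
    fun x y z w za zb hz hw hza hzb => ?_⟩
  obtain ⟨Y, rfl, hY⟩ := exists_pointRep O he y
    (Finset.univ.biUnion fun i : T => Finset.univ.image (Sum.elim (rep i).pos (rep i).neg))
  obtain ⟨X, rfl, hX⟩ := exists_pointRep O he x (Finset.univ.image (Sum.elim Y.pos Y.neg))
  have hXY : ∀ i j, Sum.elim X.pos X.neg i ≠ Sum.elim Y.pos Y.neg j := fun i j h =>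
    hX i (Finset.mem_image.2 ⟨j, Finset.mem_univ _, h.symm⟩)
  have hcoin : ∀ v : V, q Y (v : M ⊗[k] M) = Φ (v : M ⊗[k] M) (t Y) := by
    refine LinearMap.congr_fun (basisV.ext (f₁ := (q Y).comp V.subtype)
      (f₂ := ((LinearMap.applyₗ (t Y)).comp Φ).comp V.subtype) fun i => ?_)
    have hval : (basisV i : M ⊗[k] M) = t (rep i) := by
      simp [basisV, hrep i]
    have hΦi : Φ (basisV i : M ⊗[k] M) = s • q (rep i) := by
      have := LinearMap.congr_fun hΦ (basisV i)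
      rw [Module.Basis.constr_basis] at this
      exact this
    show q Y (basisV i : M ⊗[k] M) = Φ (basisV i : M ⊗[k] M) (t Y)
    rw [hΦi, hval]
    obtain ⟨za', zb', C, -, -, -, h1, h2⟩ := hq (rep i) Y fun a b h =>
      hY b (Finset.mem_biUnion.2 ⟨i, Finset.mem_univ _, Finset.mem_image.2
        ⟨a, Finset.mem_univ _, h⟩⟩)
    refine h1.trans ?_
    show _ = s • q (rep i) (t Y)
    rw [h2, smul_smul, ← mul_assoc, hs, one_mul]
  obtain ⟨za', zb', C, hza', hzb', hC, h1, -⟩ := hq X Y hXY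
  have hn2 : 2 * genusFF k F ≤ n + e := by omega
  obtain ⟨cz, hcz, rfl⟩ := (hzv X).1.exists_eq_smul hn2 hz
  obtain ⟨cw, hcw, rfl⟩ := (hzv Y).1.exists_eq_smul hn2 hw
  obtain ⟨ca, hca, rfl⟩ := hza'.exists_eq_smul (by omega) hza
  obtain ⟨cb, hcb, rfl⟩ := hzb'.exists_eq_smul (by omega) hzb
  refine ⟨cz * cz * (cw * cw) * C / (ca * cb),
    div_ne_zero (by simp [hcz, hcw, hC]) (mul_ne_zero hca hcb), ?_⟩
  simp only [map_smul, LinearMap.smul_apply, smul_smul, smul_mul_smul_comm]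
  rw [show (((TensorProduct.mk k M M).compr₂ (G.comp Φ)).compl₁₂ π π) (zv X) (zv X) (zv Y) (zv Y)
      = Φ (π (zv X) ⊗ₜ[k] π (zv X)) (π (zv Y) ⊗ₜ[k] π (zv Y)) from rfl,
    show π (zv X) = ⟨zv X, hzmem X⟩ from hπ' ⟨_, hzmem X⟩,
    show π (zv Y) = ⟨zv Y, hzmem Y⟩ from hπ' ⟨_, hzmem Y⟩]
  have h4 := hcoin ⟨t X, Submodule.subset_span ⟨X, rfl⟩⟩
  rw [show Φ ((⟨zv X, hzmem X⟩ : M) ⊗ₜ[k] (⟨zv X, hzmem X⟩ : M))
    ((⟨zv Y, hzmem Y⟩ : M) ⊗ₜ[k] (⟨zv Y, hzmem Y⟩ : M)) = Φ (t X) (t Y) from rfl, ← h4, h1,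
    smul_smul]
  congr 1
  field_simp

end FLTA.MordellWeil
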