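import Fermat.Agent.MordellWeil.Coords

/-!
# The curve inside its group of classes
-/

set_option autoImplicit false

noncomputable section

open AlgebraicCurve

namespace FLTA.MordellWeil

open MvPolynomial

variable {k F : Type*} [Field k] [Field F] [Algebra k F] [IsAlgClosed k] [IsCurveOver k F]
variable [Curves.IsFunctionField k F] (O : Place k F)

/-- The class of `p - O`. -/
def ptClass (p : Pt O) : Pic0 k F :=
  shiftClass O 1 (Finsupp.single p.1 (1 : ℤ)) (by rw [degree_single_eq]; rfl)

/-- A function in `L(D)` with the exact order at finitely many places. -/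
theorem exists_mem_ord_eq_finset {D : Divisor k F}
    (hD : 2 * (genusFF k F : ℤ) ≤ Divisor.degree D) (T : Finset (Place k F)) (hT : T.Nonempty) :
    ∃ f : F, f ≠ 0 ∧ f ∈ riemannRochSpace D ∧ ∀ v ∈ T, v.ord f = -D v := by
  classical
  let p : T → Submodule k (riemannRochSpace D) := fun v =>
    (riemannRochSpace (D - Finsupp.single v.1 1)).comap (riemannRochSpace D).subtype
  obtain ⟨x, hx⟩ := Submodule.exists_forall_notMem_of_forall_ne_top p fun v htop => by
    obtain ⟨f, hf0, hf, hfo⟩ := Curves.exists_mem_riemannRochSpace_ord_eq hD v.1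
    have h1 : (⟨f, hf⟩ : riemannRochSpace D) ∈ p v := htop ▸ Submodule.mem_top
    have h2 := (mem_riemannRochSpace_iff.1 h1 v.1).resolve_left hf0
    rw [Finsupp.sub_apply, Finsupp.single_eq_same] at h2
    simp only [Submodule.subtype_apply] at h2
    omega
  obtain ⟨v₀, hv₀⟩ := hT
  have hx' : ∀ v ∈ T, (x : F) ∉ riemannRochSpace (D - Finsupp.single v 1) := fun v hv => hx ⟨v, hv⟩
  refine ⟨x, fun h => hx' v₀ hv₀ (by rw [h]; exact zero_mem _), x.2, fun v hv => ?_⟩
  exact (Curves.ord_eq_of_notMem_sub_single x.2 (hx' v hv)).2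

omit [Curves.IsFunctionField k F] in
/-- A divisor of degree `0` is a combination of differences of points of its support. -/
theorem mk_mem_of_support {H : AddSubgroup (Pic0 k F)} {T : Set (Place k F)} {q₀ : Pt O}
    (hH : ∀ p : Pt O, p.1 ∉ T → ptClass O p - ptClass O q₀ ∈ H) (hO : O ∈ T)
    (A : Divisor.degZero (K := k) (F := F)) (hA : ∀ v ∈ (A : Divisor k F).support, v ∉ T) :
    Pic0.mk A ∈ H := by
  classical
  let B : (A : Divisor k F).support → Divisor.degZero (K := k) (F := F) := fun v =>
    shiftDiv O 1 (Finsupp.single v.1 (1 : ℤ)) (by rw [degree_single_eq]; rfl) -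
      shiftDiv O 1 (Finsupp.single q₀.1 (1 : ℤ)) (by rw [degree_single_eq]; rfl)
  have hsum : A = ∑ v, (A : Divisor k F) v.1 • B v := by
    refine Subtype.ext ?_
    have hd : ∑ v ∈ (A : Divisor k F).support, (A : Divisor k F) v = 0 :=
      (Curves.degree_eq_sum _).symm.trans (Divisor.mem_degZero.1 A.2)
    simp only [AddSubgroup.val_finsetSum, AddSubgroupClass.coe_zsmul, B,
      AddSubgroupClass.coe_sub, coe_shiftDiv, sub_sub_sub_cancel_right, smul_sub,
      Finset.sum_sub_distrib, ← Finset.sum_smul]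
    rw [Finset.sum_coe_sort (A : Divisor k F).support fun v => (A : Divisor k F) v, hd, zero_smul,
      sub_zero,
      Finset.sum_coe_sort (A : Divisor k F).support
        fun v => (A : Divisor k F) v • Finsupp.single v (1 : ℤ)]
    conv_lhs => rw [← Finsupp.sum_single (A : Divisor k F)]
    simp only [Finsupp.sum, Finsupp.smul_single, smul_eq_mul, mul_one]
  rw [hsum]
  change mkHom k F _ ∈ H
  rw [map_sum]
  refine sum_mem fun v _ => ?_
  rw [map_zsmul]
  refine zsmul_mem ?_ _
  rw [show mkHom k F (B v) = ptClass O ⟨v.1, fun h => hA v.1 v.2 (h ▸ hO)⟩ - ptClass O q₀ from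
    map_sub (mkHom k F) _ _]
  exact hH _ (hA v.1 v.2)

/-- The classes of differences of points avoiding a finite set generate. -/
theorem closure_ptClass_sub (S : Set (Pt O)) (hS : S.Finite) :
    AddSubgroup.closure {x | ∃ p q, p ∉ S ∧ q ∉ S ∧ x = ptClass O p - ptClass O q} = ⊤ := by
  classical
  set H := AddSubgroup.closure {x | ∃ p q, p ∉ S ∧ q ∉ S ∧ x = ptClass O p - ptClass O q}
  have := infinite_pt O
  obtain ⟨q₀, hq₀⟩ := hS.exists_notMem
  refine eq_top_iff.2 fun x _ => ?_
  obtain ⟨A, rfl⟩ := Pic0.mk_surjective x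
  let T : Finset (Place k F) := insert O (hS.toFinset.image Subtype.val)
  have : Infinite (Place k F) :=
    Infinite.of_injective _ (Subtype.val_injective (p := fun v => v ≠ O))
  obtain ⟨R, hR⟩ := Infinite.exists_notMem_finset (T ∪ (A : Divisor k F).support)
  rw [Finset.mem_union, not_or] at hR
  let D : Divisor k F := (A : Divisor k F) + Finsupp.single R (2 * (genusFF k F : ℤ))
  have hD : Divisor.degree D = 2 * (genusFF k F : ℤ) := by
    rw [map_add, degree_single_eq, Divisor.mem_degZero.1 A.2, zero_add]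
  obtain ⟨f, hf0, -, hfo⟩ := exists_mem_ord_eq_finset (D := D) hD.ge T ⟨O, Finset.mem_insert_self _ _⟩
  let A' : Divisor.degZero (K := k) (F := F) := ⟨(A : Divisor k F) + Curves.divFn (K := k) f, by
    rw [Divisor.mem_degZero, map_add, Divisor.mem_degZero.1 A.2, Curves.degree_divFn, add_zero]⟩
  rw [pic0_mk_eq_of_sub (E := A') hf0 fun v => by
    show ((A : Divisor k F) + Curves.divFn (K := k) f) v - _ = _
    rw [Finsupp.add_apply, Curves.divFn_apply, add_sub_cancel_left]]
  refine mk_mem_of_support O (T := ↑T) (q₀ := q₀) (fun p hp => ?_)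
    (Finset.mem_insert_self _ _) A' fun v hv hvT => ?_
  · refine AddSubgroup.subset_closure ⟨p, q₀, fun h => hp ?_, hq₀, rfl⟩
    exact Finset.mem_insert_of_mem (Finset.mem_image_of_mem _ (hS.mem_toFinset.2 h))
  · refine Finsupp.mem_support_iff.1 hv ?_
    have h1 := hfo v hvT
    have h2 : v ≠ R := fun h => hR.1 (h ▸ hvT)
    show ((A : Divisor k F) + Curves.divFn (K := k) f) v = 0
    rw [Finsupp.add_apply, Curves.divFn_apply, h1, Finsupp.add_apply,
      Finsupp.single_eq_of_ne h2]
    ring

omit [Curves.IsFunctionField k F] in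
/-- Polynomials in functions regular at `v` commute with evaluation. -/
theorem ev_aeval {ι : Type*} {h : ι → F} {v : Place k F} (hh : ∀ i, v.adicValuation (h i) ≤ 1)
    (g : MvPolynomial ι k) :
    v.adicValuation (aeval h g) ≤ 1 ∧ ev v (aeval h g) = eval (fun i => ev v (h i)) g := by
  induction g using MvPolynomial.induction_on with
  | C c =>
    rw [aeval_C, eval_C]
    exact ⟨v.adicValuation_algebraMap_le_one c, ev_algebraMap v c⟩
  | add p q hp hq =>
    rw [map_add (aeval h), map_add (eval _)]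
    exact ⟨(v.adicValuation.map_add _ _).trans (max_le hp.1 hq.1),
      by rw [ev_add hp.1 hq.1, hp.2, hq.2]⟩
  | mul_X p i hp =>
    rw [map_mul (aeval h), map_mul (eval _), aeval_X, eval_X]
    refine ⟨?_, by rw [ev_mul hp.1 (hh i), hp.2]⟩
    rw [map_mul]
    exact mul_le_one' hp.1 (hh i)

/-- A first slot turns the vector of `D` into the vector of `D - p`. -/
theorem exists_cons_eq_smul_detFun {m : ℕ} (hm : 2 * genusFF k F ≤ m) {N : ℤ} {B : Divisor k F}
    (hB : Divisor.degree B = ((m + 1 : ℕ) : ℤ)) (hBN : B ≤ Finsupp.single O N)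
    (hr : rdim k F (m + 1) = rdim k F m + 1)
    {w : Fin (rdim k F m + 1) → F} (hw : IsBasisOf w B) (p : Pt O) (hp : B p.1 = 0) :
    ∃ (t : k) (w' : Fin (rdim k F m) → F),
      IsBasisOf w' (B - Finsupp.single p.1 1) ∧ t ≠ 0 ∧
        (fun U => detFun O w (Fin.cons p U)) = t • detFun O w' := by
  classical
  obtain ⟨f₀, hf₀0, hf₀, hf₀o⟩ := Curves.exists_mem_riemannRochSpace_ord_eq (D := B)
    (by rw [hB]; push_cast; omega) p.1
  have hD : Divisor.degree (B - Finsupp.single p.1 1) = (m : ℤ) := by
    rw [map_sub, hB, degree_single_eq]; push_cast; ring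
  obtain ⟨w', hw'⟩ := exists_isBasisOf hm hD
  have hle : B - Finsupp.single p.1 1 ≤ B := sub_le_self _ (Finsupp.single_nonneg.2 zero_le_one)
  have hw'B : ∀ i, w' i ∈ riemannRochSpace B := fun i =>
    Curves.riemannRochSpace_mono hle (hw'.mem i)
  have hfnot : f₀ ∉ riemannRochSpace (B - Finsupp.single p.1 1) := fun h => by
    have h2 := (mem_riemannRochSpace_iff.1 h p.1).resolve_left hf₀0
    rw [hf₀o, Finsupp.sub_apply, Finsupp.single_eq_same] at h2
    omega
  let u : Fin (rdim k F m + 1) → F := Fin.cons f₀ w'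
  have huB : ∀ i, u i ∈ riemannRochSpace B := fun i => Fin.cases hf₀ hw'B i
  have hu : IsBasisOf u B := by
    have hli : LinearIndependent k u := linearIndependent_finCons.2 ⟨hw'.1, hw'.2 ▸ hfnot⟩
    have := FiniteDimensional.span_of_finite k (Set.finite_range u)
    refine ⟨hli, ?_⟩
    have : FiniteDimensional k (riemannRochSpace B) := inferInstance
    refine Submodule.eq_of_le_of_finrank_le (Submodule.span_le.2 ?_) ?_
    · rintro - ⟨i, rfl⟩
      exact huB i
    · rw [finrank_eq_rdim (n := m + 1) (by omega) hB, finrank_span_eq_card hli, Fintype.card_fin,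
        hr]
  obtain ⟨G, hG, hGw⟩ := hu.exists_matrix hw
  have hdet := detFun_matrix (O := O) (a := N) (fun i => Curves.riemannRochSpace_mono hBN (huB i))
    G hGw
  have hev0 : ev p.1 f₀ ≠ 0 := fun h => by
    rw [ev_eq_zero_iff (adicValuation_le_one_of_mem hf₀ hp.le)] at h
    rcases h with h | h
    · exact hf₀0 h
    · rw [hf₀o, hp] at h; omega
  have hev : ∀ i, ev p.1 (w' i) = 0 := fun i => by
    rw [ev_eq_zero_iff (adicValuation_le_one_of_mem (hw'B i) hp.le)]
    rcases mem_riemannRochSpace_iff.1 (hw'.mem i) p.1 with h | h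
    · exact Or.inl h
    · rw [Finsupp.sub_apply, Finsupp.single_eq_same, hp] at h
      exact Or.inr (by omega)
  refine ⟨G.det * ev p.1 f₀, w', hw', mul_ne_zero hG hev0, ?_⟩
  funext U
  rw [hdet, Pi.smul_apply, Pi.smul_apply, smul_eq_mul, smul_eq_mul, mul_assoc]
  congr 1
  rw [detFun, Matrix.det_succ_column_zero, Fin.sum_univ_succ,
    Finset.sum_eq_zero fun i _ => ?_]
  · simp only [Matrix.of_apply, Fin.cons_zero, Fin.val_zero, pow_zero, one_mul, add_zero, u]
    congr 1
  · simp [Matrix.of_apply, Fin.cons_zero, Fin.cons_succ, u, hev i]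

/-- For fixed `c`, the vector of `c - [p - O]` depends algebraically on `p`. -/
theorem exists_curve_map [CharZero k] {m e : ℕ} (hm : 4 * genusFF k F + 2 ≤ m)
    (he : 2 * genusFF k F + 1 ≤ e) {d : ℕ} {v : Fin d → (Fin (rdim k F m) → Pt O) → k}
    (hv : IsCoords O ((m + e : ℕ) : ℤ) v) (c : Pic0 k F) :
    ∃ κ : Pt O → Fin d → k, {p | ¬ IsRep O m e (vec v (κ p)) (c - ptClass O p)}.Finite ∧
      ∀ g : MvPolynomial (Fin d) k,
        {p | MvPolynomial.eval (κ p) g = 0}.Finite ∨
          {p | MvPolynomial.eval (κ p) g ≠ 0}.Finite := by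
  classical
  have hr : rdim k F (m + 1) = rdim k F m + 1 := by unfold rdim; omega
  obtain ⟨D, hD, hDle, rfl⟩ := exists_shiftClass_eq (O := O) (m := 0) (e := e - 1) (by omega) c
  let B : Divisor k F := Finsupp.single O ((m + 1 : ℕ) : ℤ) + D
  have hBdeg : Divisor.degree B = ((m + 1 : ℕ) : ℤ) := by
    rw [map_add, degree_single_eq, hD]; simp
  have hBN : B ≤ Finsupp.single O ((m + e : ℕ) : ℤ) := by
    refine (add_le_add_right hDle (Finsupp.single O ((m + 1 : ℕ) : ℤ))).trans ?_
    rw [← Finsupp.single_add]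
    refine le_of_eq ?_
    congr 1
    omega
  obtain ⟨w₀, hw₀⟩ := exists_isBasisOf (n := m + 1) (by omega) hBdeg
  obtain ⟨w, hw⟩ : ∃ w : Fin (rdim k F m + 1) → F, IsBasisOf w B := by
    rw [← hr]; exact ⟨w₀, hw₀⟩
  let z := detFun O w
  have hz : z ∈ tFun O ((m + e : ℕ) : ℤ) (rdim k F m + 1) :=
    detFun_mem O fun i => Curves.riemannRochSpace_mono hBN (hw.mem i)
  -- read off the coordinates from finitely many values
  obtain ⟨Q, hQ⟩ := exists_det_ne_zero v hv.1
  choose f hf hfe using fun j => exists_slice O hz (Q j)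
  let M : Matrix (Fin d) (Fin d) k := Matrix.of fun i j => v i (Q j)
  let h : Fin d → F := fun i => ∑ j, M⁻¹ j i • f j
  have hh : ∀ i, h i ∈ lMul O ((m + e : ℕ) : ℤ) := fun i =>
    sum_mem fun j _ => Submodule.smul_mem _ _ (hf j)
  refine ⟨fun p i => ev p.1 (h i), ?_, fun g => ?_⟩
  · refine (D.support.finite_toSet.preimage Subtype.val_injective.injOn).subset fun p hp => ?_
    by_contra hps
    refine hp ?_
    have hBp : B p.1 = 0 := by
      simp only [Set.mem_preimage, Finset.mem_coe, Finsupp.mem_support_iff, not_not] at hps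
      rw [Finsupp.add_apply, Finsupp.single_eq_of_ne p.2, hps, add_zero]
    obtain ⟨t, w', hw', ht, hze⟩ :=
      exists_cons_eq_smul_detFun O (by omega) hBdeg hBN hr hw p hBp
    obtain ⟨a, ha⟩ := hv.exists_vec_eq (cons_mem_tFun O hz p)
    have hcoord : (fun i => ev p.1 (h i)) = a := by
      have h1 : Matrix.vecMul a M = fun j => ev p.1 (f j) := funext fun j => by
        rw [← hfe j p]
        refine Eq.trans ?_ (congrFun ha (Q j))
        rw [vec_apply]
        simp only [Matrix.vecMul, dotProduct, M, Matrix.of_apply]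
        exact Finset.sum_congr rfl fun i _ => mul_comm _ _
      have h2 := congrArg (Matrix.vecMul · M⁻¹) h1
      simp only [Matrix.vecMul_vecMul, Matrix.mul_nonsing_inv M (Ne.isUnit hQ),
        Matrix.vecMul_one] at h2
      rw [h2]
      funext i
      rw [ev_sum_smul O Finset.univ (fun j => M⁻¹ j i) (fun j _ => hf j) p]
      exact Finset.sum_congr rfl fun j _ => mul_comm _ _
    show IsRep O m e (vec v fun i => ev p.1 (h i)) _
    rw [hcoord, ha, hze]
    have hdeg : Divisor.degree (B - Finsupp.single p.1 1) = (m : ℤ) := by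
      rw [map_sub, hBdeg, degree_single_eq]; push_cast; ring
    refine ⟨B - Finsupp.single p.1 1, hdeg, w', t,
      (sub_le_self _ (Finsupp.single_nonneg.2 zero_le_one)).trans hBN, hw', ht, rfl, ?_⟩
    show Pic0.mk _ = mkHom k F _ - mkHom k F _
    rw [← map_sub]
    refine congrArg Pic0.mk (Subtype.ext ?_)
    simp only [coe_shiftDiv, AddSubgroupClass.coe_sub, B]
    push_cast
    rw [Finsupp.single_zero, Finsupp.single_add]
    abel
  · have hreg : ∀ (p : Pt O) i, p.1.adicValuation (h i) ≤ 1 := fun p i =>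
      adicValuation_le_one_of_mem_lMul O (hh i) p
    by_cases hG : aeval h g = 0
    · right
      refine Set.finite_empty.subset fun p hp => hp ?_
      rw [← (ev_aeval (hreg p) g).2, hG, ev_zero]
    · left
      refine ((Curves.divFn (K := k) (aeval h g)).support.finite_toSet.preimage
        Subtype.val_injective.injOn).subset fun p hp => ?_
      obtain ⟨h1, h2⟩ := ev_aeval (hreg p) g
      rw [Set.mem_ofPred_eq, ← h2, ev_eq_zero_iff h1] at hp
      simp only [Set.mem_preimage, Finset.mem_coe, Finsupp.mem_support_iff, Curves.divFn_apply]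
      have := hp.resolve_left hG
      omega

end FLTA.MordellWeil
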