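import Fermat.Agent.MordellWeil.LinkData
import Mathlib.RingTheory.Polynomial.Basic
import Mathlib.Order.Filter.Cofinite

/-!
# Divisibility of the group of classes

The images of multiplication by `q ^ n` are cut out by polynomial equations, hence stabilise; the
stable image has finite index, and a curve meets one of its cosets in a cofinite set.
-/

set_option autoImplicit false

noncomputable section

namespace FLTA.MordellWeil

open MvPolynomial Filter

variable {k : Type*} [Field k] [IsAlgClosed k] {J : Type*} [AddCommGroup J] {q : ℕ}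

/-- The multiples by `q ^ n`. -/
def powMultiples (J : Type*) [AddCommGroup J] (q n : ℕ) : AddSubgroup J :=
  (nsmulAddMonoidHom (α := J) (q ^ n)).range

theorem mem_powMultiples {n : ℕ} {x : J} :
    x ∈ powMultiples J q n ↔ ∃ y, q ^ n • y = x := Iff.rfl

theorem powMultiples_antitone {n m : ℕ} (h : n ≤ m) :
    powMultiples J q m ≤ powMultiples J q n := fun x ⟨y, hy⟩ => by
  obtain ⟨c, rfl⟩ := Nat.exists_eq_add_of_le h
  refine ⟨q ^ c • y, ?_⟩
  simp only [nsmulAddMonoidHom_apply] at hy ⊢
  rw [← hy, smul_smul, ← pow_add]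

theorem finite_pow_torsion (h : {x : J | q • x = 0}.Finite) :
    ∀ n : ℕ, {x : J | q ^ n • x = 0}.Finite
  | 0 => (Set.finite_singleton (0 : J)).subset fun x hx => by simpa using hx
  | n + 1 => by
    refine Set.Finite.subset ((finite_pow_torsion h n).biUnion
      (t := fun y => {x : J | q • x = y}) fun y _ => ?_) fun x hx => ?_
    · rcases Set.eq_empty_or_nonempty {x : J | q • x = y} with he | ⟨x₀, hx₀⟩
      · rw [he]; exact Set.finite_empty
      · refine (h.image (· + x₀)).subset fun x hx => ⟨x - x₀, ?_, by simp⟩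
        simp only [Set.mem_ofPred_eq] at hx hx₀ ⊢
        rw [smul_sub, hx, hx₀, sub_self]
    · simp only [Set.mem_ofPred_eq, Set.mem_iUnion, exists_prop] at hx ⊢
      exact ⟨q • x, by rwa [smul_smul, ← pow_succ], rfl⟩

namespace LinkData

variable (L : LinkData k J)

/-- The image of multiplication by `q ^ n` is cut out by polynomials. -/
theorem exists_powEqs (hq : 0 < q) (n : ℕ) :
    ∃ G : Finset (MvPolynomial (Fin L.N) k), ∀ z x, L.Rep z x →
      ((∀ g ∈ G, eval z g = 0) ↔ x ∈ powMultiples J q n) := by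
  classical
  let len : Bool → ℕ := fun ρ => bif ρ then 2 else q ^ n + 1
  let cls : Bool → J := fun _ => 0
  -- unknowns `y = inl 0`, `b = inl 1`; parameter `z`
  let slot : ∀ ρ, Fin (len ρ) → Fin 2 ⊕ Unit
    | true => ![.inr (), .inl 1]
    | false => Fin.snoc (fun _ : Fin (q ^ n) => .inl 0) (.inl 1)
  obtain ⟨E, hE, hiff⟩ := L.exists_diagEqs len cls slot
  obtain ⟨G, hG⟩ := exists_zeroSet_projection (fun G : E => G.1) fun G => hE G.1 G.2
  let e : Fin L.N → Unit × Fin L.N := fun j => ((), j)
  -- finitely many of them suffice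
  obtain ⟨T, hT, hTspan⟩ := (Submodule.fg_span_iff_fg_span_finset_subset
    (rename Prod.snd '' G : Set (MvPolynomial (Fin L.N) k))).mp
    ((IsNoetherian.noetherian (Submodule.span (MvPolynomial (Fin L.N) k)
      (rename Prod.snd '' G))))
  refine ⟨T, fun z x hz => ?_⟩
  have h1 : (∀ g ∈ T, eval z g = 0) ↔ ∀ g ∈ G, eval (fun pj : Unit × Fin L.N => z pj.2) g = 0 := by
    refine ⟨fun h g hg => ?_, fun h g hg => ?_⟩
    · have hmem : rename Prod.snd g ∈ Submodule.span (MvPolynomial (Fin L.N) k)
          (T : Set (MvPolynomial (Fin L.N) k)) :=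
        hTspan ▸ Submodule.subset_span ⟨g, hg, rfl⟩
      have hle : Submodule.span (MvPolynomial (Fin L.N) k) (T : Set (MvPolynomial (Fin L.N) k)) ≤
          RingHom.ker (eval z) := Submodule.span_le.2 fun t ht => h t ht
      have := hle hmem
      simp only [RingHom.mem_ker, eval_rename] at this
      exact this
    · obtain ⟨g', hg', rfl⟩ := hT hg
      rw [eval_rename]
      exact h g' hg'
  rw [h1, hG]
  constructor
  · rintro ⟨w, hw0, hw⟩
    obtain ⟨hgood, hlink⟩ := (hiff _ w).1 fun G hG => hw ⟨G, hG⟩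
    have hslot : ∀ ρ i, Sum.elim (fun v => w (.inl v))
        (fun (_ : Unit) j => z j) (slot ρ i) ≠ 0 ∧
          L.Good (Sum.elim (fun v => w (.inl v)) (fun (_ : Unit) j => z j) (slot ρ i)) := by
      intro ρ i
      rcases slot ρ i with v | p
      · exact ⟨hw0 _, hgood v⟩
      · exact ⟨L.rep_ne_zero hz, L.rep_good hz⟩
    obtain ⟨a, ha, hasum⟩ := L.class_of_link (hslot true) (hw0 _) (hlink true)
    obtain ⟨c, hc, hcsum⟩ := L.class_of_link (hslot false) (hw0 _) (hlink false)
    have hs0 : ∀ i : Fin (q ^ n), slot false i.castSucc = .inl 0 := fun i => Fin.snoc_castSucc ..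
    have hs1 : slot false (Fin.last _) = .inl 1 := Fin.snoc_last ..
    have hc0 : ∀ i : Fin (q ^ n), L.Rep (w (.inl 0)) (c i.castSucc) := fun i => by
      have h := hc i.castSucc
      rw [hs0 i] at h
      exact h
    have hcl : L.Rep (w (.inl 1)) (c (Fin.last _)) := by
      have h := hc (Fin.last _)
      rw [hs1] at h
      exact h
    have ha0 : a (0 : Fin 2) = x := by
      have h := ha (0 : Fin 2)
      exact L.rep_unique h hz
    have ha1 : L.Rep (w (.inl 1)) (a (1 : Fin 2)) := ha (1 : Fin 2)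
    change ∑ i : Fin 2, a i = 0 at hasum
    rw [Fin.sum_univ_two, ha0, L.rep_unique ha1 hcl] at hasum
    change ∑ i : Fin (q ^ n + 1), c i = 0 at hcsum
    rw [Fin.sum_univ_castSucc, Finset.sum_eq_card_nsmul (fun i _ => L.rep_unique (hc0 i)
      (hc0 ⟨0, Nat.pow_pos hq⟩)), Finset.card_univ, Fintype.card_fin] at hcsum
    exact mem_powMultiples.2 ⟨c (Fin.castSucc ⟨0, Nat.pow_pos hq⟩),
      add_right_cancel (hcsum.trans hasum.symm)⟩
  · intro hx
    obtain ⟨y, hy⟩ := mem_powMultiples.1 hx
    obtain ⟨ay, hay⟩ := L.exists_rep y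
    obtain ⟨ab, hab⟩ := L.exists_rep (-x)
    let av : Fin 2 → Fin L.N → k := ![ay, ab]
    let xv : Fin 2 → J := ![y, -x]
    have hav : ∀ v, L.Rep (av v) (xv v) := fun v => by
      fin_cases v
      · exact hay
      · exact hab
    have hu : ∀ ρ : Bool, ∃ u, u ≠ 0 ∧ L.Link (len ρ) (cls ρ)
        (fun i => Sum.elim av (fun (_ : Unit) j => z j) (slot ρ i)) u := fun ρ => by
      refine L.exists_link (x := fun i => Sum.elim xv (fun _ => x) (slot ρ i)) (fun i => ?_) ?_
      · rcases slot ρ i with v | p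
        · exact hav v
        · exact hz
      · cases ρ with
        | true =>
          change ∑ i : Fin 2, _ = (0 : J)
          rw [Fin.sum_univ_two]
          simp [slot, xv]
        | false =>
          change ∑ i : Fin (q ^ n + 1), _ = (0 : J)
          rw [Fin.sum_univ_castSucc]
          simp [slot, xv, hy]
    choose u hu0 hul using hu
    refine ⟨fun b => match b with | .inl v => av v | .inr ρ => u ρ, fun b => ?_, fun G => ?_⟩
    · cases b with
      | inl v => exact L.rep_ne_zero (hav v)
      | inr ρ => exact hu0 ρ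
    · exact (hiff _ _).2 ⟨fun v => L.rep_good (hav v), hul⟩ G.1 G.2

/-- The group of classes is `q`-divisible. -/
theorem exists_nsmul_eq (hq : 0 < q) (hfin : {x : J | q • x = 0}.Finite)
    {P : Type*} [Infinite P] (π : P → J)
    (hgen : ∀ S : Set P, S.Finite →
      AddSubgroup.closure {x | ∃ p q, p ∉ S ∧ q ∉ S ∧ x = π p - π q} = ⊤)
    (hcurve : ∀ c : J, ∃ κ : P → Fin L.N → k, {p | ¬ L.Rep (κ p) (c - π p)}.Finite ∧
      ∀ g : MvPolynomial (Fin L.N) k,
        {p | eval (κ p) g = 0}.Finite ∨ {p | eval (κ p) g ≠ 0}.Finite)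
    (x : J) : ∃ y : J, q • y = x := by
  classical
  -- the images stabilise
  let I : ℕ →o Ideal (MvPolynomial (Fin L.N) k) :=
    ⟨fun n => vanishingIdeal k {z | ∃ y, L.Rep z y ∧ y ∈ powMultiples J q n},
      fun n m h => vanishingIdeal_anti_mono fun z ⟨y, hy, hy'⟩ =>
        ⟨y, hy, powMultiples_antitone h hy'⟩⟩
  obtain ⟨n₀, hn₀⟩ := monotone_stabilizes_iff_noetherian.mpr inferInstance I
  let n := n₀ + 1
  have hstab : ∀ m, n ≤ m → powMultiples J q n ≤ powMultiples J q m := by
    intro m hm y hy
    obtain ⟨z, hz⟩ := L.exists_rep y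
    obtain ⟨G, hG⟩ := L.exists_powEqs hq m
    refine (hG z y hz).1 fun g hg => ?_
    have hgm : g ∈ I m := fun w ⟨y', hy', hy''⟩ => by
      rw [aeval_eq_eval]; exact (hG w y' hy').2 hy'' g hg
    rw [← hn₀ m (by omega), hn₀ n (by omega)] at hgm
    simpa [aeval_eq_eval] using hgm z ⟨y, hz, hy⟩
  -- the stable image has finite index
  have : Finite (J ⧸ powMultiples J q n) := by
    have := (finite_pow_torsion hfin n).to_subtype
    refine Finite.of_surjective
      (fun t : {x : J | q ^ n • x = 0} => (QuotientAddGroup.mk (t : J) :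
        J ⧸ powMultiples J q n)) fun q => ?_
    obtain ⟨w, rfl⟩ := QuotientAddGroup.mk_surjective q
    obtain ⟨y, hy⟩ := mem_powMultiples.1
      (hstab (n + n) (by omega) (mem_powMultiples.2 ⟨w, rfl⟩))
    refine ⟨⟨w - q ^ n • y, ?_⟩, ?_⟩
    · simp only [Set.mem_ofPred_eq, smul_sub, smul_smul, ← pow_add, hy, sub_self]
    · refine QuotientAddGroup.eq.2 (mem_powMultiples.2 ⟨y, ?_⟩)
      rw [neg_sub, sub_add_cancel]
  -- one coset contains almost all points
  obtain ⟨c₁, hinf⟩ := Finite.exists_infinite_fiber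
    (fun p => (QuotientAddGroup.mk (π p) : J ⧸ powMultiples J q n))
  rw [Set.infinite_coe_iff] at hinf
  obtain ⟨R, hR⟩ := hinf.nonempty
  obtain ⟨κ, hκ, hκpoly⟩ := hcurve (π R)
  obtain ⟨G, hG⟩ := L.exists_powEqs hq n
  let bad : Set P := {p | ¬ L.Rep (κ p) (π R - π p)} ∪
    ⋃ g ∈ G, if {p | eval (κ p) g = 0}.Finite then ∅ else {p | eval (κ p) g ≠ 0}
  have hbad : bad.Finite := hκ.union <| G.finite_toSet.biUnion fun g _ => by
    split_ifs with hg
    · exact Set.finite_empty
    · exact (hκpoly g).resolve_left hg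
  have hgood : ∀ p, p ∉ bad → π R - π p ∈ powMultiples J q n := by
    intro p hp
    simp only [bad, Set.mem_union, Set.mem_iUnion, not_or, not_exists, Set.mem_ofPred_eq,
      not_not] at hp
    refine (hG _ _ hp.1).1 fun g hg => ?_
    by_cases hfin' : {p | eval (κ p) g = 0}.Finite
    · exfalso
      refine hinf (Set.Finite.subset (hκ.union hfin') fun p' hp' => ?_)
      by_cases hr : L.Rep (κ p') (π R - π p')
      · refine Or.inr ((hG _ _ hr).2 ?_ g hg)
        simp only [Set.mem_preimage, Set.mem_singleton_iff] at hp' hR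
        rw [sub_eq_neg_add]
        exact QuotientAddGroup.eq.1 (hp'.trans hR.symm)
      · exact Or.inl hr
    · have := hp.2 g hg
      rw [if_neg hfin'] at this
      simpa using this
  have htop : powMultiples J q n = ⊤ := by
    rw [eq_top_iff, ← hgen bad hbad, AddSubgroup.closure_le]
    rintro - ⟨p, p', hp, hp', rfl⟩
    have := sub_mem (hgood p' hp') (hgood p hp)
    rwa [sub_sub_sub_cancel_left] at this
  have := powMultiples_antitone (J := J) (q := q) (show 1 ≤ n by omega)
    (htop ▸ AddSubgroup.mem_top x : x ∈ powMultiples J q n)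
  simpa [mem_powMultiples] using this

end LinkData

end FLTA.MordellWeil
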