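import Fermat.Prelude.Def_AlgebraicCurve_BaseChangeGalois
import Mathlib.FieldTheory.IsAlgClosed.AlgebraicClosure
import Mathlib.FieldTheory.IntermediateField.Adjoin.Defs

/-!
# A Galois action on a curve over `ℚ̄` with a rational base point
-/

set_option autoImplicit false

noncomputable section

open AlgebraicCurve

namespace FLTA.MordellWeil

local notation "Qbar" => AlgebraicClosure ℚ

/-- An action of the absolute Galois group by semilinear automorphisms, fixing `O`, in which
every function is fixed by an open subgroup. -/
structure GalSetting {F : Type*} [Field F] [Algebra Qbar F] (O : Place Qbar F) where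
  /-- The action. -/
  ρ : (Qbar ≃ₐ[ℚ] Qbar) →* SemilinearAut Qbar F
  base : ∀ σ c, SemilinearAut.baseAut (ρ σ) c = σ c
  fix : ∀ σ, ρ σ • O = O
  smooth : ∀ f : F, ∃ L : IntermediateField ℚ Qbar, FiniteDimensional ℚ L ∧
    ∀ σ ∈ L.fixingSubgroup, ρ σ • f = f

end FLTA.MordellWeil
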