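import Fermat.Agent.MordellWeil.Height

/-!
# Heights along maps given by forms over a number field, and along the Segre embedding
-/

set_option autoImplicit false

noncomputable section

namespace FLTA.MordellWeil

open MvPolynomial

local notation "Qbar" => AlgebraicClosure ℚ

section Finite

variable {k ι : Type*} [Field k] [Finite ι]

/-- A set on which a power of every coordinate is a polynomial of lower degree is finite. -/
theorem finite_of_pow_eq {A : Set (ι → k)} {D : ℕ}
    (h : ∀ i, ∃ q : MvPolynomial ι k, q.totalDegree < D ∧ ∀ c ∈ A, c i ^ D = eval c q) :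
    A.Finite := by
  classical
  have := Fintype.ofFinite ι
  choose q hq hqe using h
  let mon : (ι → ℕ) → A → k := fun f c => ∏ i, c.1 i ^ f i
  let V : Submodule k (A → k) :=
    Submodule.span k (Set.range fun f : ι → Fin D => mon fun i => f i)
  have hmon : ∀ n, ∀ f : ι → ℕ, ∑ i, f i = n → mon f ∈ V := by
    intro n
    induction n using Nat.strong_induction_on with
    | _ n ih =>
      intro f hf
      by_cases hlt : ∀ i, f i < D
      · exact Submodule.subset_span ⟨fun i => ⟨f i, hlt i⟩, rfl⟩
      simp only [not_forall, not_lt] at hlt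
      obtain ⟨i, hi⟩ := hlt
      let f' : ι → ℕ := Function.update f i (f i - D)
      have e : mon f = ∑ u ∈ (q i).support, coeff u (q i) • mon (f' + ⇑u) := by
        funext c
        have h1 : mon f c = mon f' c * c.1 i ^ D := by
          simp only [mon, f']
          rw [← Finset.mul_prod_erase _ _ (Finset.mem_univ i),
            ← Finset.mul_prod_erase _ _ (Finset.mem_univ i), Function.update_self,
            mul_right_comm, ← pow_add, Nat.sub_add_cancel hi]
          congr 1
          exact Finset.prod_congr rfl fun j hj => by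
            rw [Function.update_of_ne (Finset.ne_of_mem_erase hj)]
        rw [h1, hqe i c.1 c.2, eval_eq', Finset.mul_sum, Finset.sum_apply]
        refine Finset.sum_congr rfl fun u _ => ?_
        simp only [mon, Pi.smul_apply, Pi.add_apply, smul_eq_mul, pow_add, Finset.prod_mul_distrib]
        ring
      rw [e]
      refine sum_mem fun u hu => Submodule.smul_mem _ _ (ih _ ?_ _ rfl)
      have h2 : ∑ j, u j < D := by
        have := le_totalDegree hu
        rw [Finsupp.sum_fintype _ _ fun _ => rfl] at this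
        exact lt_of_le_of_lt this (hq i)
      have h3 : ∑ j, f' j + D = ∑ j, f j := by
        simp only [f']
        rw [Finset.sum_update_of_mem (Finset.mem_univ i), Finset.sdiff_singleton_eq_erase,
          ← Finset.add_sum_erase _ _ (Finset.mem_univ i)]
        omega
      simp only [Pi.add_apply, Finset.sum_add_distrib]
      omega
  have hV : FiniteDimensional k V := FiniteDimensional.span_of_finite k (Set.finite_range _)
  have hroot : ∀ i, ((fun c => c i) '' A).Finite := by
    intro i
    let w : Fin (Module.finrank k V + 1) → V := fun l =>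
      ⟨mon (Pi.single i (l : ℕ)), hmon _ _ rfl⟩
    have hli : ¬ LinearIndependent k w := fun hw => by
      have := hw.fintype_card_le_finrank
      simp at this
    obtain ⟨a, ha, j, hj⟩ := Fintype.not_linearIndependent_iff.1 hli
    let P : Polynomial k := ∑ l : Fin (Module.finrank k V + 1), Polynomial.monomial (l : ℕ) (a l)
    have hP : P ≠ 0 := fun e => hj (by
      have := congrArg (Polynomial.coeff · (j : ℕ)) e
      simpa [P, Polynomial.finsetSum_coeff, Polynomial.coeff_monomial, Fin.val_inj] using this)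
    refine (Polynomial.finite_setOfPred_isRoot hP).subset ?_
    rintro - ⟨c, hc, rfl⟩
    have h4 := congrArg (fun z : V => (z : A → k) ⟨c, hc⟩) ha
    simp only [AddSubmonoidClass.coe_finsetSum, SetLike.val_smul, Finset.sum_apply,
      Pi.smul_apply, ZeroMemClass.coe_zero, Pi.zero_apply, smul_eq_mul, w, mon] at h4
    simp only [Set.mem_ofPred_eq, Polynomial.IsRoot, P, Polynomial.eval_finsetSum,
      Polynomial.eval_monomial]
    refine Eq.trans (Finset.sum_congr rfl fun l _ => ?_) h4
    congr 1
    rw [Finset.prod_eq_single i (fun b _ hb => by rw [Pi.single_eq_of_ne hb, pow_zero]) (by simp),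
      Pi.single_eq_same]
  refine (Set.Finite.pi hroot).subset fun c hc => ?_
  exact fun i _ => ⟨c, hc, rfl⟩

end Finite

section Forms

variable {ι ι' : Type*}

/-- `Φ` is given by forms of degree `N` with coefficients in `K`. -/
def IsForms (K : IntermediateField ℚ Qbar) (N : ℕ) (Φ : (ι → Qbar) → ι' → Qbar) : Prop :=
  ∃ p : ι' → MvPolynomial ι K, (∀ j, (p j).IsHomogeneous N) ∧ ∀ z j, aeval z (p j) = Φ z j

variable {K : IntermediateField ℚ Qbar} [Fintype ι]

theorem IsForms.step {N : ℕ} {Φ : ι → (ι → Qbar) → ι' → Qbar} (h : ∀ i, IsForms K N (Φ i)) :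
    IsForms K (N + 1) fun z => ∑ i, z i • Φ i z := by
  choose p hp he using h
  refine ⟨fun j => ∑ i, p i j * X i, fun j => ?_, fun z j => ?_⟩
  · exact IsHomogeneous.sum _ _ _ fun i _ => (hp i j).mul (isHomogeneous_X K i)
  · simp [Finset.sum_apply, he, mul_comm]

omit [Fintype ι] in
theorem IsForms.congr {N : ℕ} {Φ Ψ : (ι → Qbar) → ι' → Qbar} (h : IsForms K N Φ)
    (e : ∀ z, Φ z = Ψ z) : IsForms K N Ψ :=
  (funext e : Φ = Ψ) ▸ h

variable {W X : Type*} [AddCommGroup W] [Module Qbar W] [AddCommGroup X] [Module Qbar X]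

/-- A linear map evaluated at combinations of a family. -/
theorem isForms_comb_one (f : W →ₗ[Qbar] ι' → Qbar) (v : ι → W) (h : ∀ i j, f (v i) j ∈ K) :
    IsForms K 1 fun z => f (∑ i, z i • v i) := by
  refine ⟨fun j => ∑ i, C (⟨_, h i j⟩ : K) * MvPolynomial.X i, fun j => ?_, fun z j => ?_⟩
  · exact IsHomogeneous.sum _ _ _ fun i _ => (isHomogeneous_X K i).C_mul _
  · simp [map_sum, Finset.sum_apply, mul_comm, IntermediateField.algebraMap_apply]

/-- A bilinear map evaluated at combinations of a family. -/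
theorem isForms_comb_two (π : X →ₗ[Qbar] ι' → Qbar) (B : W →ₗ[Qbar] W →ₗ[Qbar] X) (v : ι → W)
    (h : ∀ i i' j, π (B (v i) (v i')) j ∈ K) :
    IsForms K 2 fun z => π (B (∑ i, z i • v i) (∑ i, z i • v i)) := by
  refine (IsForms.step fun i => isForms_comb_one (π ∘ₗ B (v i)) v (h i)).congr fun z => ?_
  rw [map_sum B, LinearMap.sum_apply, map_sum π]
  simp only [map_smul, LinearMap.smul_apply, LinearMap.comp_apply]

/-- A trilinear map evaluated at combinations of a family. -/
theorem isForms_comb_three (π : X →ₗ[Qbar] ι' → Qbar)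
    (B : W →ₗ[Qbar] W →ₗ[Qbar] W →ₗ[Qbar] X) (v : ι → W)
    (h : ∀ i i' l j, π (B (v i) (v i') (v l)) j ∈ K) :
    IsForms K 3 fun z => π (B (∑ i, z i • v i) (∑ i, z i • v i) (∑ i, z i • v i)) := by
  refine (IsForms.step fun i => isForms_comb_two π (B (v i)) v (h i)).congr fun z => ?_
  rw [map_sum B, LinearMap.sum_apply, LinearMap.sum_apply, map_sum π]
  simp only [map_smul, LinearMap.smul_apply]

/-- A quadrilinear map evaluated at combinations of a family. -/
theorem isForms_comb_four (π : X →ₗ[Qbar] ι' → Qbar)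
    (B : W →ₗ[Qbar] W →ₗ[Qbar] W →ₗ[Qbar] W →ₗ[Qbar] X) (v : ι → W)
    (h : ∀ i i' l q j, π (B (v i) (v i') (v l) (v q)) j ∈ K) :
    IsForms K 4 fun z =>
      π (B (∑ i, z i • v i) (∑ i, z i • v i) (∑ i, z i • v i) (∑ i, z i • v i)) := by
  refine (IsForms.step fun i => isForms_comb_three π (B (v i)) v (h i)).congr fun z => ?_
  rw [map_sum B, LinearMap.sum_apply, LinearMap.sum_apply, LinearMap.sum_apply, map_sum π]
  simp only [map_smul, LinearMap.smul_apply]

end Forms

section Bounds

variable {ι ι' : Type*} [Finite ι] [Fintype ι'] {K : IntermediateField ℚ Qbar}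
variable {N : ℕ} {Φ : (ι → Qbar) → ι' → Qbar}

theorem IsForms.height_le [NumberField K] (h : IsForms K N Φ) :
    ∃ C : ℝ, ∀ z, IsProjRat K z →
      IsProjRat K (Φ z) ∧ projHeight K (Φ z) ≤ C + N * projHeight K z := by
  classical
  have := Fintype.ofFinite ι
  obtain ⟨p, hp, he⟩ := h
  obtain ⟨C, hC⟩ := Height.logHeight_eval_le' hp
  refine ⟨C, fun z ⟨x, c, hc, hx⟩ => ?_⟩
  have e : (c ^ N • Φ z) = fun j => ((eval x (p j) : K) : Qbar) := by
    funext j
    have h1 := ((hp j).map (algebraMap K Qbar))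
    have h2 : eval (c • z) ((p j).map (algebraMap K Qbar))
        = c ^ N * eval z ((p j).map (algebraMap K Qbar)) := by
      rw [eval_smul_eq_sum_pow _ c z h1.totalDegree_le, Finset.sum_eq_single N]
      · rw [homogeneousComponent_of_mem h1, if_pos rfl]
      · intro b _ hb
        rw [homogeneousComponent_of_mem h1, if_neg hb, map_zero, mul_zero]
      · simp
    rw [hx, eval_map, eval_map, ← aeval_def, ← aeval_def, he z j] at h2
    rw [Pi.smul_apply, smul_eq_mul, ← h2]
    exact (eval₂_comp_left (algebraMap K Qbar) (RingHom.id K) x (p j)).symm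
  refine ⟨⟨_, c ^ N, pow_ne_zero _ hc, e⟩, ?_⟩
  rw [projHeight_eq hc hx, projHeight_eq (pow_ne_zero _ hc) e]
  exact hC x

theorem IsForms.exists_height_ge (h : IsForms K N Φ) {Z : Set (ι → Qbar)} (hZ : IsClosedCone Z)
    (h0 : ∀ z ∈ Z, z ≠ 0 → Φ z ≠ 0) :
    ∃ K₀ : IntermediateField ℚ Qbar, FiniteDimensional ℚ K₀ ∧
      ∀ (L : IntermediateField ℚ Qbar) [NumberField L], K₀ ≤ L → ∃ C : ℝ, ∀ z ∈ Z,
        IsProjRat L z → C + N * projHeight L z ≤ projHeight L (Φ z) := by
  obtain ⟨p, hp, he⟩ := h
  have e : ∀ z, (fun j => eval z ((p j).map (algebraMap K Qbar))) = Φ z := fun z => by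
    funext j
    rw [eval_map, ← aeval_def, he]
  obtain ⟨K₀, hK₀, hb⟩ := (exists_height_bounds _
    fun j => (hp j).map (algebraMap K Qbar)).2 Z hZ fun z hz hz0 => by
      obtain ⟨j, hj⟩ := Function.ne_iff.1 (h0 z hz hz0)
      exact ⟨j, by rw [eval_map, ← aeval_def, he]; exact hj⟩
  refine ⟨K₀, hK₀, fun L _ hle => ?_⟩
  obtain ⟨C, hC⟩ := hb L hle
  exact ⟨C, fun z hz hr => e z ▸ hC z hz hr⟩

end Bounds

section Segre

variable {k ι κ : Type*} [Field k]

/-- The products `c_i d_j`. -/
def segre (c : ι → k) (d : κ → k) : ι × κ → k := fun p => c p.1 * d p.2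

/-- The vectors of rank at most one. -/
def segreSet : Set (ι × κ → k) :=
  {t | ∀ i i' j j', t (i, j) * t (i', j') = t (i, j') * t (i', j)}

theorem isClosedCone_segreSet : IsClosedCone (segreSet : Set (ι × κ → k)) := by
  refine ⟨⟨Set.range fun p : (ι × ι) × (κ × κ) =>
    (X (p.1.1, p.2.1) * X (p.1.2, p.2.2) - X (p.1.1, p.2.2) * X (p.1.2, p.2.1) :
      MvPolynomial (ι × κ) k), fun t => ?_⟩, fun a t ht i i' j j' => ?_⟩
  · constructor
    · rintro h - ⟨p, rfl⟩
      simp [h p.1.1 p.1.2 p.2.1 p.2.2]
    · intro h i i' j j'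
      simpa [sub_eq_zero] using h _ ⟨((i, i'), (j, j')), rfl⟩
  · have := ht i i' j j'
    simp only [Pi.smul_apply, smul_eq_mul]
    linear_combination a ^ 2 * this

theorem segre_mem (c : ι → k) (d : κ → k) : segre c d ∈ segreSet := fun i i' j j' => by
  simp only [segre]; ring

theorem exists_eq_segre {t : ι × κ → k} (ht : t ∈ segreSet) (h0 : t ≠ 0) :
    ∃ c d, c ≠ 0 ∧ d ≠ 0 ∧ t = segre c d := by
  obtain ⟨⟨i₀, j₀⟩, hne⟩ := Function.ne_iff.1 h0
  have hne' : t (i₀, j₀) ≠ 0 := hne
  refine ⟨fun i => t (i, j₀), fun j => t (i₀, j) / t (i₀, j₀),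
    fun e => hne' (congrFun e i₀), fun e => ?_, funext fun p => ?_⟩
  · have := congrFun e j₀
    simp [hne'] at this
  · simp only [segre]
    field_simp
    linear_combination ht p.1 i₀ p.2 j₀

theorem projHeight_le_segre [Finite ι] [Finite κ] {K : IntermediateField ℚ Qbar} [NumberField K]
    {c : ι → Qbar} {d : κ → Qbar} (hd : d ≠ 0) (hc : IsProjRat K c) (hd' : IsProjRat K d) :
    IsProjRat K (segre c d) ∧ projHeight K c ≤ projHeight K (segre c d) := by
  obtain ⟨x, a, ha, hx⟩ := hc
  obtain ⟨y, b, hb, hy⟩ := hd'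
  have e : (a * b) • segre c d = fun p => ((segre x y p : K) : Qbar) := by
    funext p
    have h1 := congrFun hx p.1
    have h2 := congrFun hy p.2
    simp only [Pi.smul_apply, smul_eq_mul] at h1 h2
    simp only [Pi.smul_apply, smul_eq_mul, segre]
    push_cast
    rw [← h1, ← h2]
    ring
  refine ⟨⟨_, a * b, mul_ne_zero ha hb, e⟩, ?_⟩
  obtain ⟨j₀, hj₀⟩ := Function.ne_iff.1 hd
  have hy0 : y j₀ ≠ 0 := fun h => by
    have := congrFun hy j₀
    simp only [Pi.smul_apply, smul_eq_mul, h, ZeroMemClass.coe_zero] at this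
    exact hj₀ ((mul_eq_zero.1 this).resolve_left hb)
  rw [projHeight_eq ha hx, projHeight_eq (mul_ne_zero ha hb) e,
    ← Height.logHeight_smul_eq_logHeight x hy0]
  calc Height.logHeight (y j₀ • x) = Height.logHeight (segre x y ∘ fun i => (i, j₀)) := by
        congr 1
        funext i
        simp [segre, mul_comm]
    _ ≤ _ := Height.logHeight_comp_le _ _

end Segre

end FLTA.MordellWeil
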