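import Fermat.Agent.MordellWeil.Rep

/-!
# Coordinates on the spaces of functions on tuples

A finite basis of `tFun O N r`, consisting of elements fixed by given automorphisms when the
space `L(N O)` is spanned by such elements.
-/

set_option autoImplicit false

noncomputable section

open AlgebraicCurve

namespace FLTA.MordellWeil

/-- The combination of the family `v` with coefficients `a`. -/
def vec {k α : Type*} [Field k] {d : ℕ} (v : Fin d → α → k) (a : Fin d → k) : α → k :=
  ∑ i, a i • v i

theorem vec_smul {k α : Type*} [Field k] {d : ℕ} (v : Fin d → α → k) (t : k) (a : Fin d → k) :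
    vec v (t • a) = t • vec v a := by
  simp [vec, Finset.smul_sum, mul_smul]

theorem vec_apply {k α : Type*} [Field k] {d : ℕ} (v : Fin d → α → k) (a : Fin d → k) (P : α) :
    vec v a P = ∑ i, v i P * a i := by
  simp [vec, Finset.sum_apply, mul_comm]

variable {k F : Type*} [Field k] [Field F] [Algebra k F] [IsAlgClosed k] [IsCurveOver k F]
variable (O : Place k F)

/-- `v` is a basis of `tFun O N r`. -/
def IsCoords (N : ℤ) {r d : ℕ} (v : Fin d → (Fin r → Pt O) → k) : Prop :=
  LinearIndependent k v ∧ Submodule.span k (Set.range v) = tFun O N r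

variable {O} {N : ℤ} {r d : ℕ} {v : Fin d → (Fin r → Pt O) → k}

theorem IsCoords.vec_mem (hv : IsCoords O N v) (a : Fin d → k) : vec v a ∈ tFun O N r := by
  rw [← hv.2, vec]
  exact sum_mem fun i _ => Submodule.smul_mem _ _ (Submodule.subset_span ⟨i, rfl⟩)

theorem IsCoords.mem (hv : IsCoords O N v) (i : Fin d) : v i ∈ tFun O N r :=
  hv.2 ▸ Submodule.subset_span ⟨i, rfl⟩

theorem IsCoords.exists_vec_eq (hv : IsCoords O N v) {z : (Fin r → Pt O) → k}
    (hz : z ∈ tFun O N r) : ∃ a, vec v a = z := by
  rw [← hv.2, Submodule.mem_span_range_iff_exists_fun] at hz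
  exact hz

theorem IsCoords.vec_injective (hv : IsCoords O N v) : Function.Injective (vec v) := by
  intro a b h
  funext i
  refine sub_eq_zero.1 (Fintype.linearIndependent_iff.1 hv.1 (fun i => a i - b i) ?_ i)
  simp only [sub_smul, Finset.sum_sub_distrib]
  exact sub_eq_zero.2 h

theorem IsCoords.vec_eq_zero (hv : IsCoords O N v) {a : Fin d → k} : vec v a = 0 ↔ a = 0 := by
  refine ⟨fun h => hv.vec_injective (by rw [h]; simp [vec]), fun h => by simp [h, vec]⟩

theorem IsCoords.vec_ne_zero (hv : IsCoords O N v) {a : Fin d → k} (ha : a ≠ 0) : vec v a ≠ 0 :=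
  mt hv.vec_eq_zero.1 ha

variable (O) in
theorem smulFn_smul (g : SemilinearAut k F) (hg : g • O = O) (c : k) (z : (Fin r → Pt O) → k) :
    smulFn g hg (c • z) = SemilinearAut.baseAut g c • smulFn g hg z := by
  funext P; simp [smulFn]

theorem smulFn_vec (g : SemilinearAut k F) (hg : g • O = O)
    (hv : ∀ i, smulFn g hg (v i) = v i) (a : Fin d → k) :
    smulFn g hg (vec v a) = vec v (fun i => SemilinearAut.baseAut g (a i)) := by
  funext P
  have h : ∀ i, SemilinearAut.baseAut g
      (v i fun j => smulPt g⁻¹ (inv_smul_eq_iff.2 hg.symm) (P j)) = v i P := fun i =>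
    congrFun (hv i) P
  rw [smulFn, vec_apply, vec_apply, map_sum]
  exact Finset.sum_congr rfl fun i _ => by rw [map_mul, h i]

variable (O) (N) (r) [Curves.IsFunctionField k F]

/-- A basis of elements fixed by `H`, when `L(N O)` has one. -/
theorem exists_isCoords_fixed (H : Set (SemilinearAut k F)) (hH : ∀ g ∈ H, g • O = O)
    (hspan : lMul O N ≤ Submodule.span k {f | f ∈ lMul O N ∧ ∀ g ∈ H, g • f = f}) :
    ∃ (d : ℕ) (v : Fin d → (Fin r → Pt O) → k), IsCoords O N v ∧
      ∀ (g : SemilinearAut k F) (hg : g ∈ H) (i : Fin d), smulFn g (hH g hg) (v i) = v i := by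
  classical
  set S : Set F := {f | f ∈ lMul O N ∧ ∀ g ∈ H, g • f = f} with hS
  let T : Set ((Fin r → Pt O) → k) := prodEv O '' {f | ∀ j, f j ∈ S}
  obtain ⟨b, hbS, hbspan, hbli⟩ := exists_linearIndependent k S
  have hbmem : ∀ f : b, (f : F) ∈ lMul O N := fun f => (hbS f.2).1
  have hbfin : Finite b := by
    refine LinearIndependent.finite_of_isNoetherian
      (v := fun f : b => (⟨f.1, hbmem f⟩ : lMul O N)) (R := k) ?_
    exact LinearIndependent.of_comp (lMul O N).subtype hbli
  have := Fintype.ofFinite b
  have hT : tFun O N r = Submodule.span k T := by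
    refine le_antisymm (Submodule.span_le.2 ?_) (Submodule.span_mono
      (Set.image_mono fun f hf j => (hf j).1))
    rintro - ⟨f, hf, rfl⟩
    have hc : ∀ j, ∃ c : b → k, ∑ i, c i • (i : F) = f j := fun j => by
      have h1 : f j ∈ Submodule.span k b := by rw [hbspan]; exact hspan (hf j)
      rw [← Subtype.range_coe (s := b), Submodule.mem_span_range_iff_exists_fun] at h1
      exact h1
    choose c hc using hc
    have hj : ∀ (p : Pt O) j, ev p.1 (f j) = ∑ i, c j i * ev p.1 (i : F) := fun p j => by
      rw [← hc j]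
      exact ev_sum_smul O Finset.univ (c j) (fun i _ => hbmem i) p
    have e : prodEv O f = ∑ J : Fin r → b, (∏ j, c j (J j)) • prodEv O (fun j => (J j : F)) := by
      funext P
      simp only [prodEv, hj, Fintype.prod_sum, Finset.prod_mul_distrib, Finset.sum_apply,
        Pi.smul_apply, smul_eq_mul]
    rw [e]
    exact sum_mem fun J _ => Submodule.smul_mem _ _
      (Submodule.subset_span ⟨_, fun j => hbS (J j).2, rfl⟩)
  obtain ⟨t, htT, htspan, htli⟩ := exists_linearIndependent k T
  have htmem : ∀ z : t, (z : (Fin r → Pt O) → k) ∈ tFun O N r := fun z =>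
    hT ▸ Submodule.subset_span (htT z.2)
  have := finiteDimensional_tFun O N r
  have : Finite t := by
    refine LinearIndependent.finite_of_isNoetherian
      (v := fun z : t => (⟨z.1, htmem z⟩ : tFun O N r)) (R := k) ?_
    exact LinearIndependent.of_comp (tFun O N r).subtype htli
  have := Fintype.ofFinite t
  let e := (Fintype.equivFin t).symm
  refine ⟨Fintype.card t, fun i => (e i).1, ⟨htli.comp e e.injective, ?_⟩, fun g hg i => ?_⟩
  · rw [show (fun i => (e i).1) = Subtype.val ∘ e from rfl, Set.range_comp, e.range_eq_univ,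
      Set.image_univ, Subtype.range_coe, htspan, hT]
  · obtain ⟨f, hf, hfe⟩ := htT (e i).2
    change smulFn g (hH g hg) (e i).1 = (e i).1
    rw [← hfe, smulFn_prodEv]
    exact congrArg (prodEv O) (funext fun j => (hf j).2 g hg)

theorem exists_isCoords : ∃ (d : ℕ) (v : Fin d → (Fin r → Pt O) → k), IsCoords O N v := by
  obtain ⟨d, v, hv, -⟩ := exists_isCoords_fixed O N r ∅ (fun g hg => absurd hg (by simp))
    fun f hf => Submodule.subset_span ⟨hf, fun g hg => absurd hg (by simp)⟩
  exact ⟨d, v, hv⟩

end FLTA.MordellWeil
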