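import Fermat.Agent.MordellWeil.Elimination
import Mathlib.NumberTheory.Height.NumberField
import Mathlib.RingTheory.MvPolynomial.Homogeneous
import Mathlib.FieldTheory.IsAlgClosed.AlgebraicClosure

/-!
# Heights of rational points on closed cones

Points are vectors over `ℚ̄`; their height is measured in a number field `K` in which they are
rational up to scaling.
-/

set_option autoImplicit false

noncomputable section

namespace FLTA.MordellWeil

open MvPolynomial

local notation "Qbar" => AlgebraicClosure ℚ

section Cone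

variable {k : Type*} [Field k] {ι : Type*}

/-- A set of vectors cut out by polynomials and stable under scaling. -/
structure IsClosedCone (Z : Set (ι → k)) : Prop where
  eqns : ∃ G : Set (MvPolynomial ι k), ∀ z, z ∈ Z ↔ ∀ g ∈ G, eval z g = 0
  smul_mem : ∀ (c : k) (z : ι → k), z ∈ Z → c • z ∈ Z

theorem eval_smul_eq_sum_pow (q : MvPolynomial ι k) (t : k) (z : ι → k) {n : ℕ}
    (hn : q.totalDegree ≤ n) :
    eval (t • z) q = ∑ i ∈ Finset.range (n + 1), t ^ i * eval z (homogeneousComponent i q) := by
  have h : ∀ i, eval (t • z) (homogeneousComponent i q) =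
      t ^ i * eval z (homogeneousComponent i q) := by
    intro i
    rw [eval_eq, eval_eq, Finset.mul_sum]
    refine Finset.sum_congr rfl fun e he => ?_
    have hdeg := homogeneousComponent_isHomogeneous i q (mem_support_iff.mp he)
    rw [← hdeg, Finsupp.weight_apply, Finsupp.sum]
    simp only [Pi.smul_apply, smul_eq_mul, mul_pow, Finset.prod_mul_distrib, Pi.one_apply, mul_one,
      Finset.prod_pow_eq_pow_sum]
    ring
  calc eval (t • z) q
      = eval (t • z) (∑ i ∈ Finset.range (n + 1), homogeneousComponent i q) := by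
        conv_lhs => rw [← sum_homogeneousComponent q]
        rw [map_sum, map_sum]
        refine Finset.sum_subset (fun i hi => Finset.mem_range.mpr ?_) fun i _ hi => ?_
        · have := Finset.mem_range.mp hi; omega
        · rw [homogeneousComponent_eq_zero _ _ (by
            have : ¬ i < q.totalDegree + 1 := fun h => hi (Finset.mem_range.mpr h)
            omega), map_zero]
    _ = _ := by rw [map_sum]; exact Finset.sum_congr rfl fun i _ => h i

variable [IsAlgClosed k] [Finite ι] {J : Type*} [Fintype J]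

/-- A system of forms without common zero on a closed cone generates a power of every
coordinate on the cone, with homogeneous coefficients. -/
theorem exists_homogeneous_pow_eq {Z : Set (ι → k)} (hZ : IsClosedCone Z)
    {p : J → MvPolynomial ι k} {N : ℕ} (hp : ∀ j, (p j).IsHomogeneous N)
    (h : ∀ z ∈ Z, z ≠ 0 → ∃ j, eval z (p j) ≠ 0) :
    ∃ (M : ℕ) (q : ι × J → MvPolynomial ι k), (∀ a, (q a).IsHomogeneous M) ∧
      ∀ z ∈ Z, ∀ i, ∑ j, eval z (q (i, j)) * eval z (p j) = z i ^ (M + N) := by
  classical
  obtain ⟨G, hG⟩ := hZ.eqns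
  let f : J ⊕ G → MvPolynomial ι k := Sum.elim p (fun g => g)
  obtain ⟨N₀, hN₀, hmem⟩ := exists_pow_prod_mem_span_forall (blk := fun _ : ι => ()) f
    fun x hx => by
      obtain ⟨i, -, hi⟩ := hx ()
      by_cases hxZ : x ∈ Z
      · obtain ⟨j, hj⟩ := h x hxZ fun h0 => hi (by rw [h0]; rfl)
        exact ⟨.inl j, hj⟩
      · simp only [hG, not_forall] at hxZ
        obtain ⟨g, hg, hg'⟩ := hxZ
        exact ⟨.inr ⟨g, hg⟩, hg'⟩
  choose c hc using fun i : ι =>
    Finsupp.mem_span_range_iff_exists_finsupp.mp (hmem (fun _ => i) fun _ => rfl)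
  simp only [Finset.univ_unique, Finset.prod_singleton] at hc
  refine ⟨N₀, fun a => homogeneousComponent N₀ (X a.1 ^ N * c a.1 (.inl a.2)),
    fun a => homogeneousComponent_isHomogeneous _ _, fun z hz i => ?_⟩
  -- the identity along the line through `z`
  have key : ∀ t : k, (t * z i) ^ (N₀ + N) =
      ∑ j, eval (t • z) (X i ^ N * c i (.inl j)) * (t ^ N * eval z (p j)) := by
    intro t
    have h1 := congrArg (eval (t • z)) (congrArg (X i ^ N * ·) (hc i))
    simp only [Finsupp.sum, map_sum, smul_eq_mul, Finset.mul_sum, map_mul, map_pow, eval_X,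
      Pi.smul_apply] at h1
    rw [pow_add, mul_comm ((t * z i) ^ N₀), ← h1, ← Finset.sum_subset
      (Finset.subset_univ ((c i).support.preimage Sum.inl Sum.inl_injective.injOn))]
    · rw [← Finset.sum_preimage Sum.inl (c i).support Sum.inl_injective.injOn]
      · refine Finset.sum_congr rfl fun j _ => ?_
        have hpj : eval (t • z) (p j) = t ^ N * eval z (p j) := by
          rw [eval_smul_eq_sum_pow (p j) t z (hp j).totalDegree_le, Finset.sum_eq_single N]
          · rw [homogeneousComponent_of_mem (hp j), if_pos rfl]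
          · intro b _ hb
            rw [homogeneousComponent_of_mem (hp j), if_neg hb, map_zero, mul_zero]
          · simp
        simp only [f, Sum.elim_inl, hpj, map_mul, map_pow, eval_X, Pi.smul_apply, smul_eq_mul]
        ring
      · rintro (j | g) _ hrange
        · exact absurd ⟨j, rfl⟩ hrange
        · simp only [f, Sum.elim_inr, (hG _).mp (hZ.smul_mem t z hz) g g.2, mul_zero]
    · intro j _ hj
      rw [Finset.mem_preimage, Finsupp.notMem_support_iff] at hj
      rw [hj, mul_zero, map_zero, zero_mul]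
  let d : J → MvPolynomial ι k := fun j => X i ^ N * c i (.inl j)
  let n := ∑ j, (d j).totalDegree + N₀
  let R : Polynomial k := ∑ j, ∑ l ∈ Finset.range (n + 1),
    Polynomial.C (eval z (homogeneousComponent l (d j)) * eval z (p j)) * Polynomial.X ^ (l + N)
  have hR : R - Polynomial.C (z i ^ (N₀ + N)) * Polynomial.X ^ (N₀ + N) = 0 := by
    refine Polynomial.funext fun t => ?_
    have := key t
    rw [Polynomial.eval_zero, Polynomial.eval_sub, sub_eq_zero]
    simp only [R, Polynomial.eval_finsetSum, Polynomial.eval_mul,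
      Polynomial.eval_C, Polynomial.eval_pow, Polynomial.eval_X]
    rw [← mul_pow, mul_comm (z i), this]
    refine Finset.sum_congr rfl fun j _ => ?_
    rw [eval_smul_eq_sum_pow (d j) t z ((Finset.single_le_sum
      (f := fun j => (d j).totalDegree) (fun _ _ => Nat.zero_le _)
      (Finset.mem_univ j)).trans (Nat.le_add_right _ N₀)), Finset.sum_mul]
    exact Finset.sum_congr rfl fun l _ => by ring
  have := congrArg (Polynomial.coeff · (N₀ + N)) hR
  simp only [R, Polynomial.coeff_sub, Polynomial.finsetSum_coeff,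
    Polynomial.coeff_C_mul, Polynomial.coeff_X_pow, Polynomial.coeff_zero, sub_eq_zero,
    add_left_inj, mul_ite, mul_one, mul_zero, Finset.sum_ite_eq, Finset.mem_range] at this
  have hn : N₀ ≤ n := Nat.le_add_left _ _
  simpa [d, hn] using this

end Cone

section Proj

variable {ι ι' : Type*}

/-- `z` is rational over `K` up to scaling. -/
def IsProjRat (K : IntermediateField ℚ Qbar) (z : ι → Qbar) : Prop :=
  ∃ x : ι → K, ∃ c : Qbar, c ≠ 0 ∧ c • z = fun i => (x i : Qbar)

theorem IsProjRat.mono {K L : IntermediateField ℚ Qbar} (h : K ≤ L) {z : ι → Qbar}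
    (hz : IsProjRat K z) : IsProjRat L z := by
  obtain ⟨x, c, hc, hx⟩ := hz
  exact ⟨fun i => ⟨x i, h (x i).2⟩, c, hc, hx⟩

variable (K : IntermediateField ℚ Qbar) [NumberField K]

open Classical in
/-- The logarithmic height of a `K`-rational projective point. -/
def projHeight (z : ι → Qbar) : ℝ :=
  if h : IsProjRat K z then Height.logHeight h.choose else 0

variable {K}

theorem projHeight_eq [Finite ι] {z : ι → Qbar} {x : ι → K} {c : Qbar} (hc : c ≠ 0)
    (hx : c • z = fun i => (x i : Qbar)) : projHeight K z = Height.logHeight x := by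
  have h : IsProjRat K z := ⟨x, c, hc, hx⟩
  rw [projHeight, dif_pos h]
  obtain ⟨c', hc', hx'⟩ := h.choose_spec
  generalize h.choose = x' at hx' ⊢
  rcases eq_or_ne x 0 with rfl | hx0
  · have hz : z = 0 := (smul_eq_zero.mp (hx.trans (by funext i; rfl))).resolve_left hc
    have : x' = 0 := by
      funext i
      have := congrFun hx' i
      simp only [hz, smul_zero, Pi.zero_apply] at this
      exact Subtype.ext this.symm
    rw [this]
  · obtain ⟨i₀, hi₀⟩ := Function.ne_iff.mp hx0
    have hv : ∀ i, c' * (x i : Qbar) = c * (x' i : Qbar) := fun i => by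
      rw [← congrFun hx i, ← congrFun hx' i]
      simp only [Pi.smul_apply, smul_eq_mul]; ring
    have hx0' : (x i₀ : Qbar) ≠ 0 := fun e => hi₀ (Subtype.ext e)
    have hd : x' = (x' i₀ / x i₀) • x := by
      funext i
      refine Subtype.ext ?_
      simp only [Pi.smul_apply, smul_eq_mul]
      push_cast
      rw [div_mul_eq_mul_div, eq_div_iff hx0']
      refine mul_left_cancel₀ hc ?_
      linear_combination (-(x i₀ : Qbar)) * hv i + (x i : Qbar) * hv i₀
    have hne : x' i₀ / x i₀ ≠ 0 := by
      refine div_ne_zero (fun e => ?_) hi₀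
      have := hv i₀
      rw [e, ZeroMemClass.coe_zero, mul_zero] at this
      exact hc' ((mul_eq_zero.mp this).resolve_right hx0')
    rw [hd, Height.logHeight_smul_eq_logHeight _ hne]

theorem projHeight_smul [Finite ι] {z : ι → Qbar} (hz : IsProjRat K z) {a : Qbar} (ha : a ≠ 0) :
    projHeight K (a • z) = projHeight K z := by
  obtain ⟨x, c, hc, hx⟩ := hz
  rw [projHeight_eq hc hx, projHeight_eq (div_ne_zero hc ha) (x := x)]
  rw [← hx, smul_smul, div_mul_cancel₀ c ha]

theorem projHeight_nonneg [Finite ι] (z : ι → Qbar) : 0 ≤ projHeight K z := by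
  unfold projHeight
  split_ifs with h
  · exact Height.logHeight_nonneg _
  · exact le_rfl

omit [NumberField K] in
/-- Transport of a polynomial with coefficients in `K`. -/
theorem exists_map_eq_of_coeff_mem (q : MvPolynomial ι Qbar) (hq : ∀ e, coeff e q ∈ K) :
    ∃ q' : MvPolynomial ι K, q'.map (algebraMap K Qbar) = q := by
  refine ⟨∑ e ∈ q.support, monomial e ⟨coeff e q, hq e⟩, ?_⟩
  rw [map_sum]
  conv_rhs => rw [q.as_sum]
  exact Finset.sum_congr rfl fun e _ => by rw [map_monomial]; rfl

end Proj

section Bounds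

variable {ι ι' : Type*} [Finite ι] [Fintype ι']

/-- A finite set of algebraic numbers generates a number field. -/
theorem exists_finiteDimensional_forall_mem (S : Set Qbar) (hS : S.Finite) :
    ∃ K : IntermediateField ℚ Qbar, FiniteDimensional ℚ K ∧ ∀ a ∈ S, a ∈ K :=
  have : Finite S := hS
  ⟨IntermediateField.adjoin ℚ S,
    IntermediateField.finiteDimensional_adjoin fun x _ => ((AlgebraicClosure.isAlgebraic ℚ).isAlgebraic x).isIntegral,
    fun _ ha => IntermediateField.subset_adjoin ℚ S ha⟩

/-- The height of the image under forms of degree `N` is bounded by `N` times the height, and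
from below as well on a closed cone without common zero of the forms. -/
theorem exists_height_bounds (p : ι' → MvPolynomial ι Qbar) {N : ℕ}
    (hp : ∀ j, (p j).IsHomogeneous N) :
    (∃ K₀ : IntermediateField ℚ Qbar, FiniteDimensional ℚ K₀ ∧
      ∀ (K : IntermediateField ℚ Qbar) [NumberField K], K₀ ≤ K → ∃ C : ℝ, ∀ z : ι → Qbar,
        IsProjRat K z → IsProjRat K (fun j => eval z (p j)) ∧
          projHeight K (fun j => eval z (p j)) ≤ C + N * projHeight K z) ∧
    ∀ Z : Set (ι → Qbar), IsClosedCone Z → (∀ z ∈ Z, z ≠ 0 → ∃ j, eval z (p j) ≠ 0) →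
      ∃ K₀ : IntermediateField ℚ Qbar, FiniteDimensional ℚ K₀ ∧
        ∀ (K : IntermediateField ℚ Qbar) [NumberField K], K₀ ≤ K → ∃ C : ℝ, ∀ z ∈ Z,
          IsProjRat K z → C + N * projHeight K z ≤ projHeight K (fun j => eval z (p j)) := by
  classical
  have := Fintype.ofFinite ι
  obtain ⟨K₁, hK₁, hmem₁⟩ := exists_finiteDimensional_forall_mem
    (⋃ j, ((p j).coeffs : Set Qbar)) (Set.finite_iUnion fun j => (p j).coeffs.finite_toSet)
  have lift : ∀ (q : MvPolynomial ι Qbar)
      (K : IntermediateField ℚ Qbar), (∀ c ∈ q.coeffs, c ∈ K) →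
      ∃ q' : MvPolynomial ι K, q'.map (algebraMap K Qbar) = q := fun q K hq =>
    exists_map_eq_of_coeff_mem _ fun e => by
      by_cases he : coeff e q = 0
      · rw [he]; exact zero_mem _
      · exact hq _ (coeff_mem_coeffs _ he)
  have scale : ∀ (c : Qbar) (z : ι → Qbar) j,
      eval (c • z) (p j) = c ^ N * eval z (p j) := fun c z j => by
    rw [eval_smul_eq_sum_pow (p j) c z (hp j).totalDegree_le, Finset.sum_eq_single N]
    · rw [homogeneousComponent_of_mem (hp j), if_pos rfl]
    · intro b _ hb
      rw [homogeneousComponent_of_mem (hp j), if_neg hb, map_zero, mul_zero]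
    · simp
  have image : ∀ (K : IntermediateField ℚ Qbar) (p' : ι' → MvPolynomial ι K),
      (∀ j, (p' j).map (algebraMap K Qbar) = p j) → ∀ (z : ι → Qbar) (x : ι → K) (c : Qbar),
      c • z = (fun i => (x i : Qbar)) →
        (c ^ N • fun j => eval z (p j)) = fun j => ((eval x (p' j) : K) : Qbar) := by
    intro K p' hp' z x c hx
    funext j
    rw [Pi.smul_apply, smul_eq_mul, ← scale, hx, ← hp' j, eval_map]
    exact (eval₂_comp_left (algebraMap K Qbar) (RingHom.id K) x (p' j)).symm
  have homog : ∀ (K : IntermediateField ℚ Qbar) {M : ℕ} (q : MvPolynomial ι Qbar)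
      (q' : MvPolynomial ι K), q'.map (algebraMap K Qbar) = q → q.IsHomogeneous M →
      q'.IsHomogeneous M := fun K M q q' h hq =>
    IsHomogeneous.of_map (algebraMap K Qbar).injective (h ▸ hq)
  refine ⟨⟨K₁, hK₁, fun K _ hle => ?_⟩, fun Z hZ hnz => ?_⟩
  · choose p' hp' using fun a => lift (p a) K fun c hc => hle (hmem₁ c (Set.mem_iUnion.mpr ⟨a, hc⟩))
    obtain ⟨C, hC⟩ := Height.logHeight_eval_le' fun j => homog K _ _ (hp' j) (hp j)
    refine ⟨C, fun z ⟨x, c, hc, hx⟩ => ⟨⟨_, c ^ N, pow_ne_zero _ hc, image K p' hp' z x c hx⟩, ?_⟩⟩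
    rw [projHeight_eq hc hx, projHeight_eq (pow_ne_zero _ hc) (image K p' hp' z x c hx)]
    exact hC x
  · obtain ⟨M, q, hq, heq⟩ := exists_homogeneous_pow_eq hZ hp hnz
    obtain ⟨K₂, hK₂, hmem₂⟩ := exists_finiteDimensional_forall_mem
      ((⋃ j, ((p j).coeffs : Set Qbar)) ∪ ⋃ a, ((q a).coeffs : Set Qbar))
      ((Set.finite_iUnion fun j => (p j).coeffs.finite_toSet).union
        (Set.finite_iUnion fun a => (q a).coeffs.finite_toSet))
    refine ⟨K₂, hK₂, fun K _ hle => ?_⟩
    choose p' hp' using fun a => lift (p a) K fun c hc =>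
      hle (hmem₂ c (Or.inl (Set.mem_iUnion.mpr ⟨a, hc⟩)))
    choose q' hq' using fun a => lift (q a) K fun c hc =>
      hle (hmem₂ c (Or.inr (Set.mem_iUnion.mpr ⟨a, hc⟩)))
    obtain ⟨C, hC⟩ := Height.logHeight_eval_ge' (N := N) fun a => homog K _ _ (hq' a) (hq a)
    refine ⟨C, fun z hz ⟨x, c, hc, hx⟩ => ?_⟩
    rw [projHeight_eq hc hx, projHeight_eq (pow_ne_zero _ hc) (image K p' hp' z x c hx)]
    refine hC p' fun i => Subtype.ext ?_
    have h1 := heq (c • z) (hZ.smul_mem c z hz) i
    rw [hx] at h1
    simp only [← hp', ← hq', eval_map] at h1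
    push_cast
    simp only [← h1]
    refine Finset.sum_congr rfl fun j _ => ?_
    exact congrArg₂ _ (eval₂_comp_left (algebraMap K Qbar) (RingHom.id K) x (q' (i, j)))
      (eval₂_comp_left (algebraMap K Qbar) (RingHom.id K) x (p' j))

/-- Northcott's theorem for projective points. -/
theorem finite_setOf_projHeight_le {α : Type*} (K : IntermediateField ℚ Qbar) [NumberField K]
    (φ : α → ι → Qbar) (hne : ∀ a, φ a ≠ 0) (hrat : ∀ a, IsProjRat K (φ a))
    (hfib : ∀ z : ι → Qbar, {a | ∃ c : Qbar, φ a = c • z}.Finite) (B : ℝ) :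
    {a | projHeight K (φ a) ≤ B}.Finite := by
  classical
  have := Fintype.ofFinite ι
  have hT : {t : ι → K | ∀ i, Height.logHeight₁ (t i) ≤ B}.Finite := by
    convert! Set.Finite.pi (fun _ : ι => NumberField.finite_setOfPred_logHeight₁_le (K := K) B)
    ext t; simp
  refine (hT.biUnion fun t _ => hfib fun i => (t i : Qbar)).subset fun a ha => ?_
  obtain ⟨x, c, hc, hx⟩ := hrat a
  have hx0 : x ≠ 0 := by
    rintro rfl
    exact hne a ((smul_eq_zero.mp (hx.trans (by funext i; rfl))).resolve_left hc)
  obtain ⟨k, hk⟩ := Function.ne_iff.mp hx0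
  simp only [Set.mem_iUnion, Set.mem_setOf_eq, exists_prop]
  refine ⟨fun i => x i / x k, fun i => ?_, c⁻¹ * (x k : Qbar), ?_⟩
  · rw [Height.logHeight₁_div_eq_logHeight]
    calc Height.logHeight ![x i, x k] = Height.logHeight (x ∘ ![i, k]) := by
          congr 1; funext l; fin_cases l <;> rfl
      _ ≤ Height.logHeight x := Height.logHeight_comp_le _ _
      _ = projHeight K (φ a) := (projHeight_eq hc hx).symm
      _ ≤ B := ha
  · funext i
    have := congrFun hx i
    simp only [Pi.smul_apply, smul_eq_mul] at this ⊢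
    push_cast
    have hk' : (x k : Qbar) ≠ 0 := fun e => hk (Subtype.ext e)
    field_simp
    linear_combination this

end Bounds

end FLTA.MordellWeil
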