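import Fermat.Agent.MordellWeil.Elimination
import Mathlib.RingTheory.Polynomial.Basic

/-!
# Systems of equations homogeneous in finitely many blocks, as functions on points

A point is a family `x : ∀ b, ι b → k`; equations may depend polynomially on parameters `z : τ → k`.
-/

set_option autoImplicit false

noncomputable section

namespace FLTA.MordellWeil

open MvPolynomial

variable {k : Type*} [Field k] {τ : Type*}

/-- A polynomial function of the parameters. -/
def IsPolyFn (G : (τ → k) → k) : Prop :=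
  ∃ g : MvPolynomial τ k, ∀ z, eval z g = G z

theorem isPolyFn_const (c : k) : IsPolyFn fun _ : τ → k => c :=
  ⟨C c, fun z => eval_C c⟩

theorem isPolyFn_coord (i : τ) : IsPolyFn fun z : τ → k => z i :=
  ⟨X i, fun z => eval_X i⟩

theorem IsPolyFn.add {G H : (τ → k) → k} (hG : IsPolyFn G) (hH : IsPolyFn H) :
    IsPolyFn fun z => G z + H z := by
  obtain ⟨g, hg⟩ := hG
  obtain ⟨h, hh⟩ := hH
  exact ⟨g + h, fun z => by rw [map_add, hg, hh]⟩

theorem IsPolyFn.mul {G H : (τ → k) → k} (hG : IsPolyFn G) (hH : IsPolyFn H) :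
    IsPolyFn fun z => G z * H z := by
  obtain ⟨g, hg⟩ := hG
  obtain ⟨h, hh⟩ := hH
  exact ⟨g * h, fun z => by rw [map_mul, hg, hh]⟩

theorem isPolyFn_sum {α : Type*} (s : Finset α) {G : α → (τ → k) → k}
    (hG : ∀ a ∈ s, IsPolyFn (G a)) : IsPolyFn fun z => ∑ a ∈ s, G a z := by
  classical
  induction s using Finset.induction_on with
  | empty => simpa using isPolyFn_const (τ := τ) (0 : k)
  | insert a s ha ih =>
    simp only [Finset.sum_insert ha]
    exact (hG a (Finset.mem_insert_self a s)).add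
      (ih fun b hb => hG b (Finset.mem_insert_of_mem hb))

variable {B : Type*} [Fintype B] [DecidableEq B] {ι : B → Type*} [∀ b, Fintype (ι b)]

/-- The coordinates of a point, as one vector. -/
abbrev flat (x : ∀ b, ι b → k) : (Σ b, ι b) → k := fun i => x i.1 i.2

/-- `F` is polynomial in `(z, x)` and homogeneous of degree `d b` in the block `b` of `x`. -/
def HomFn (d : B → ℕ) (F : (τ → k) → (∀ b, ι b → k) → k) : Prop :=
  ∃ f : MvPolynomial (Σ b, ι b) (MvPolynomial τ k), IsMultiHom Sigma.fst f d ∧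
    ∀ z x, eval (flat x) (f.map (eval z)) = F z x

/-- `F` is polynomial in `(z, x)` and homogeneous in every block of `x`. -/
def IsHomFn (F : (τ → k) → (∀ b, ι b → k) → k) : Prop :=
  ∃ d, HomFn d F

omit [Fintype B] in
theorem blockDeg_add {σ : Type*} [Fintype σ] (blk : σ → B) (e e' : σ →₀ ℕ) :
    blockDeg blk (e + e') = blockDeg blk e + blockDeg blk e' := by
  funext b
  simp [blockDeg, Finset.sum_add_distrib]

theorem HomFn.congr {d : B → ℕ} {F F' : (τ → k) → (∀ b, ι b → k) → k} (hF : HomFn d F)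
    (h : ∀ z x, F z x = F' z x) : HomFn d F' := by
  obtain ⟨f, hd, hf⟩ := hF
  exact ⟨f, hd, fun z x => (hf z x).trans (h z x)⟩

theorem homFn_zero (d : B → ℕ) : HomFn d fun (_ : τ → k) (_ : ∀ b, ι b → k) => 0 :=
  ⟨0, fun e he => absurd (coeff_zero e) he, fun z x => by simp⟩

theorem homFn_param {G : (τ → k) → k} (hG : IsPolyFn G) :
    HomFn (B := B) (ι := ι) 0 fun z _ => G z := by
  classical
  obtain ⟨g, hg⟩ := hG
  refine ⟨C g, fun e he => ?_, fun z x => by simp [hg]⟩
  rw [coeff_C] at he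
  split_ifs at he with h
  · funext b; simp [← h, blockDeg]
  · exact absurd rfl he

theorem homFn_const (c : k) : HomFn (τ := τ) (B := B) (ι := ι) 0 fun _ _ => c :=
  homFn_param (isPolyFn_const c)

theorem homFn_coord (b : B) (i : ι b) :
    HomFn (τ := τ) (Pi.single b 1) fun _ (x : ∀ b, ι b → k) => x b i := by
  classical
  refine ⟨X ⟨b, i⟩, fun e he => ?_, fun z x => by simp [flat]⟩
  rw [coeff_X] at he
  split_ifs at he with h
  · funext b'
    subst h
    rw [blockDeg, Pi.single_apply]
    rcases eq_or_ne b' b with rfl | hne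
    · rw [if_pos rfl]
      refine (Finset.sum_eq_single (⟨b', i⟩ : Σ b, ι b) (fun j _ hj => Finsupp.single_eq_of_ne hj)
        (fun h => absurd (by simp) h)).trans Finsupp.single_eq_same
    · rw [if_neg hne]
      refine Finset.sum_eq_zero fun j hj => Finsupp.single_eq_of_ne ?_
      rintro rfl
      exact hne (Finset.mem_filter.mp hj).2.symm
  · exact absurd rfl he

theorem HomFn.add {d : B → ℕ} {F F' : (τ → k) → (∀ b, ι b → k) → k} (hF : HomFn d F)
    (hF' : HomFn d F') : HomFn d fun z x => F z x + F' z x := by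
  obtain ⟨f, hd, hf⟩ := hF
  obtain ⟨f', hd', hf'⟩ := hF'
  refine ⟨f + f', fun e he => ?_, fun z x => by rw [map_add, map_add, hf, hf']⟩
  rw [coeff_add] at he
  by_cases h : coeff e f = 0
  · rw [h, zero_add] at he; exact hd' e he
  · exact hd e h

theorem HomFn.mul {d d' : B → ℕ} {F F' : (τ → k) → (∀ b, ι b → k) → k} (hF : HomFn d F)
    (hF' : HomFn d' F') : HomFn (d + d') fun z x => F z x * F' z x := by
  classical
  obtain ⟨f, hd, hf⟩ := hF
  obtain ⟨f', hd', hf'⟩ := hF'
  refine ⟨f * f', fun e he => ?_, fun z x => by rw [map_mul, map_mul, hf, hf']⟩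
  rw [coeff_mul] at he
  obtain ⟨⟨e₁, e₂⟩, he12, hne⟩ := Finset.exists_ne_zero_of_sum_ne_zero he
  rw [← Finset.mem_antidiagonal.mp he12, blockDeg_add, hd e₁ (left_ne_zero_of_mul hne),
    hd' e₂ (right_ne_zero_of_mul hne)]

theorem homFn_sum {α : Type*} (s : Finset α) {d : B → ℕ} {F : α → (τ → k) → (∀ b, ι b → k) → k}
    (hF : ∀ a ∈ s, HomFn d (F a)) : HomFn d fun z x => ∑ a ∈ s, F a z x := by
  classical
  induction s using Finset.induction_on with
  | empty => simpa using homFn_zero (τ := τ) (ι := ι) d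
  | insert a s ha ih =>
    simp only [Finset.sum_insert ha]
    exact (hF a (Finset.mem_insert_self a s)).add
      (ih fun b hb => hF b (Finset.mem_insert_of_mem hb))

theorem homFn_prod {α : Type*} (s : Finset α) {d : α → B → ℕ}
    {F : α → (τ → k) → (∀ b, ι b → k) → k} (hF : ∀ a ∈ s, HomFn (d a) (F a)) :
    HomFn (∑ a ∈ s, d a) fun z x => ∏ a ∈ s, F a z x := by
  classical
  induction s using Finset.induction_on with
  | empty => simpa using homFn_const (τ := τ) (ι := ι) (1 : k)
  | insert a s ha ih =>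
    simp only [Finset.prod_insert ha, Finset.sum_insert ha]
    exact (hF a (Finset.mem_insert_self a s)).mul
      (ih fun b hb => hF b (Finset.mem_insert_of_mem hb))

theorem HomFn.const_mul {d : B → ℕ} {F : (τ → k) → (∀ b, ι b → k) → k} (hF : HomFn d F) (c : k) :
    HomFn d fun z x => c * F z x := by
  simpa using (homFn_const (τ := τ) (ι := ι) c).mul hF

/-- A linear form in one block. -/
theorem homFn_linear (b : B) (c : ι b → k) :
    HomFn (τ := τ) (Pi.single b 1) fun _ (x : ∀ b, ι b → k) => ∑ i, c i * x b i :=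
  homFn_sum _ fun i _ => (homFn_coord b i).const_mul (c i)

theorem homFn_det {n : Type*} [Fintype n] [DecidableEq n] {d : n → B → ℕ}
    {M : n → n → (τ → k) → (∀ b, ι b → k) → k} (hM : ∀ i j, HomFn (d i) (M i j)) :
    HomFn (∑ i, d i) fun z x => (Matrix.of fun i j => M i j z x).det := by
  simp only [Matrix.det_apply']
  refine homFn_sum _ fun σ _ => ?_
  have h := homFn_prod Finset.univ (d := fun j => d (σ j))
    (F := fun j => M (σ j) j) fun j _ => hM (σ j) j
  rw [Equiv.sum_comp σ d] at h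
  simpa using h.const_mul ((Equiv.Perm.sign σ : ℤ) : k)

theorem HomFn.smul_apply {d : B → ℕ} {F : (τ → k) → (∀ b, ι b → k) → k} (hF : HomFn d F)
    (z : τ → k) (x : ∀ b, ι b → k) (c : B → k) :
    F z (fun b => c b • x b) = (∏ b, c b ^ d b) * F z x := by
  classical
  obtain ⟨f, hd, hf⟩ := hF
  rw [← hf, ← hf, eval_map, eval_map, eval₂_eq', eval₂_eq', Finset.mul_sum]
  refine Finset.sum_congr rfl fun e he => ?_
  have hde := hd e (mem_support_iff.mp he)
  have : ∏ i : Σ b, ι b, c i.1 ^ e i = ∏ b, c b ^ d b := by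
    rw [← Finset.prod_fiberwise Finset.univ Sigma.fst]
    refine Finset.prod_congr rfl fun b _ => ?_
    rw [← hde, blockDeg, ← Finset.prod_pow_eq_pow_sum]
    exact Finset.prod_congr rfl fun i hi => by rw [(Finset.mem_filter.mp hi).2]
  simp only [flat, Pi.smul_apply, smul_eq_mul, mul_pow, Finset.prod_mul_distrib, this]
  ring

theorem HomFn.pow {d : B → ℕ} {F : (τ → k) → (∀ b, ι b → k) → k} (hF : HomFn d F) (n : ℕ) :
    HomFn (n • d) fun z x => F z x ^ n := by
  have h := homFn_prod (Finset.range n) (d := fun _ => d) (F := fun _ => F) fun _ _ => hF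
  simpa [Finset.prod_const] using h

theorem IsHomFn.smul_eq_zero {F : (τ → k) → (∀ b, ι b → k) → k} (hF : IsHomFn F) {z : τ → k}
    {x : ∀ b, ι b → k} (h : F z x = 0) (c : B → k) : F z (fun b => c b • x b) = 0 := by
  obtain ⟨d, hd⟩ := hF
  rw [hd.smul_apply, h, mul_zero]

/-- Substituting forms into a system homogeneous in blocks. -/
theorem HomFn.subst {B' : Type*} [Fintype B'] [DecidableEq B'] {ι' : B' → Type*}
    [∀ b, Fintype (ι' b)] {τ' : Type*} {d : B' → ℕ} {F : (τ' → k) → (∀ b, ι' b → k) → k}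
    (hF : HomFn d F) (w : τ' → k) {δ : B' → B → ℕ}
    {S : ∀ b', ι' b' → (τ → k) → (∀ b, ι b → k) → k} (hS : ∀ b' i, HomFn (δ b') (S b' i)) :
    HomFn (∑ b', d b' • δ b') fun z x => F w fun b' i => S b' i z x := by
  classical
  obtain ⟨f, hd, hf⟩ := hF
  have h := homFn_sum (τ := τ) (ι := ι) (d := ∑ b', d b' • δ b') (f.map (eval w)).support
    (F := fun e z x => coeff e (f.map (eval w)) * ∏ i, S i.1 i.2 z x ^ e i) fun e he => ?_
  · refine h.congr fun z x => ?_
    rw [← hf w fun b' i => S b' i z x, eval_eq']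
  · have hde : blockDeg Sigma.fst e = d := hd e fun h0 => by
      rw [mem_support_iff, coeff_map, h0, map_zero] at he
      exact he rfl
    have h1 := homFn_prod Finset.univ (d := fun i : Σ b', ι' b' => e i • δ i.1)
      (F := fun i z x => S i.1 i.2 z x ^ e i) fun i _ => (hS i.1 i.2).pow (e i)
    have h2 : ∑ i : Σ b', ι' b', e i • δ i.1 = ∑ b', d b' • δ b' := by
      rw [← Finset.sum_fiberwise Finset.univ Sigma.fst]
      refine Finset.sum_congr rfl fun b _ => ?_
      rw [← hde, blockDeg, Finset.sum_smul]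
      exact Finset.sum_congr rfl fun i hi => by rw [(Finset.mem_filter.mp hi).2]
    rw [h2] at h1
    exact h1.const_mul _

/-- Elimination: the parameters for which a homogeneous system has a point nonzero in every
block form the zero set of polynomials. -/
theorem exists_zeroSet_projection [IsAlgClosed k] {J : Type*}
    (F : J → (τ → k) → (∀ b, ι b → k) → k) (hF : ∀ j, IsHomFn (F j)) :
    ∃ G : Set (MvPolynomial τ k), ∀ z : τ → k,
      (∀ g ∈ G, eval z g = 0) ↔
        ∃ x : ∀ b, ι b → k, (∀ b, x b ≠ 0) ∧ ∀ j, F j z x = 0 := by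
  choose d f hd hf using hF
  obtain ⟨G, hG⟩ := exists_eq_zeroSet_of_projection (blk := Sigma.fst) f d hd
  refine ⟨G, fun z => (hG z).trans ⟨fun ⟨v, hv, h0⟩ => ?_, fun ⟨x, hx, h0⟩ => ?_⟩⟩
  · refine ⟨fun b i => v ⟨b, i⟩, fun b hb => ?_, fun j => ?_⟩
    · obtain ⟨⟨b', i⟩, hbb, hi⟩ := hv b
      subst hbb
      exact hi (congrFun hb i)
    · rw [← hf]; exact h0 j
  · refine ⟨flat x, fun b => ?_, fun j => by rw [hf]; exact h0 j⟩
    obtain ⟨i, hi⟩ := Function.ne_iff.mp (hx b)
    exact ⟨⟨b, i⟩, rfl, hi⟩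

/-- A system without admissible zero has none modulo almost all places: an integral point which
is a unit in every block cannot be congruent to zeros of each single equation. -/
theorem exists_finset_not_congr [IsAlgClosed k] {J : Type*}
    (F : J → (∀ b, ι b → k) → k)
    (hF : ∀ j, IsHomFn (τ := PEmpty.{1}) fun _ => F j)
    (h : ∀ x : ∀ b, ι b → k, (∀ b, x b ≠ 0) → ∃ j, F j x ≠ 0) :
    ∃ C : Finset k, ∀ A : ValuationSubring k, (↑C : Set k) ⊆ A →
      ∀ x : ∀ b, ι b → k, (∀ b i, x b i ∈ A) → (∀ b, ∃ i, A.valuation (x b i) = 1) →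
        ¬ ∀ j, ∃ x' : ∀ b, ι b → k, (∀ b i, A.valuation (x b i - x' b i) < 1) ∧ F j x' = 0 := by
  classical
  choose d f₀ hd hf₀ using hF
  let z₀ : PEmpty.{1} → k := fun i => nomatch i
  let f : J → MvPolynomial (Σ b, ι b) k := fun j => (f₀ j).map (eval z₀)
  have hf : ∀ j x, eval (flat x) (f j) = F j x := fun j x => hf₀ j z₀ x
  -- finitely many equations suffice
  obtain ⟨T, hT, hTspan⟩ := (Submodule.fg_span_iff_fg_span_finset_subset (Set.range f)).mp
    ((IsNoetherian.noetherian (Submodule.span (MvPolynomial (Σ b, ι b) k) (Set.range f))))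
  obtain ⟨C₁, hC₁⟩ := exists_finset_forall_valuation_eq_one (blk := Sigma.fst)
    (fun t : T => (t : MvPolynomial (Σ b, ι b) k)) fun v hv => by
      obtain ⟨j, hj⟩ := h (fun b i => v ⟨b, i⟩) fun b hb => by
        obtain ⟨⟨b', i⟩, hbb, hi⟩ := hv b
        subst hbb
        exact hi (congrFun hb i)
      rw [← hf] at hj
      by_contra! hall
      refine hj ?_
      have : f j ∈ Submodule.span (MvPolynomial (Σ b, ι b) k) (T : Set _) :=
        hTspan ▸ Submodule.subset_span ⟨j, rfl⟩
      have hle : Submodule.span (MvPolynomial (Σ b, ι b) k) (T : Set _) ≤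
          RingHom.ker (eval v) := Submodule.span_le.mpr fun t ht => hall ⟨t, ht⟩
      exact hle this
  refine ⟨C₁ ∪ T.biUnion coeffs, fun A hA x hxA hx hall => ?_⟩
  rw [Finset.coe_union, Set.union_subset_iff] at hA
  obtain ⟨⟨t, ht⟩, hlt⟩ := hC₁ A hA.1 (flat x) (fun i => hxA i.1 i.2) fun b => by
    obtain ⟨i, hi⟩ := hx b
    exact ⟨⟨b, i⟩, rfl, hi⟩
  obtain ⟨j, rfl⟩ := hT ht
  obtain ⟨x', hxx', h0⟩ := hall j
  refine hlt ?_
  have hx'A : ∀ i, flat x' i ∈ A := fun i => by
    have : flat x' i = x i.1 i.2 - (x i.1 i.2 - x' i.1 i.2) := by simp [flat]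
    rw [this]
    exact sub_mem (hxA _ _) ((A.valuation_le_one_iff _).mp (hxx' _ _).le)
  have hcA : ∀ e, coeff e (f j) ∈ A := fun e => by
    by_cases he : coeff e (f j) = 0
    · rw [he]; exact zero_mem _
    · exact hA.2 (Finset.mem_coe.mpr (Finset.mem_biUnion.mpr ⟨_, ht, coeff_mem_coeffs _ he⟩))
  -- congruent integral points have congruent values
  let res : A →+* IsLocalRing.ResidueField A := IsLocalRing.residue A
  let g : MvPolynomial (Σ b, ι b) A := ∑ e ∈ (f j).support, monomial e ⟨coeff e (f j), hcA e⟩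
  have hg : g.map A.subtype = f j := by
    rw [map_sum]
    conv_rhs => rw [(f j).as_sum]
    exact Finset.sum_congr rfl fun e _ => by rw [map_monomial]; rfl
  have hev : ∀ (y : (Σ b, ι b) → A), eval (fun i => (y i : k)) (f j) = (eval y g : A) := fun y => by
    rw [← hg, eval_map]
    exact (eval₂_comp_left A.subtype (RingHom.id A) y g).symm
  let y : (Σ b, ι b) → A := fun i => ⟨flat x i, hxA i.1 i.2⟩
  let y' : (Σ b, ι b) → A := fun i => ⟨flat x' i, hx'A i⟩
  have h1 : eval (flat x) (f j) = (eval y g : A) := hev y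
  have h2 : ((eval y' g : A) : k) = 0 := (hev y').symm.trans ((hf j x').trans h0)
  rw [h1, ← A.valuation_lt_one_iff, IsLocalRing.mem_maximalIdeal, mem_nonunits_iff,
    ← IsLocalRing.residue_ne_zero_iff_isUnit, not_not]
  have h3 : res (eval y g) = res (eval y' g) := by
    rw [map_eval, map_eval]
    refine congrArg (fun v => eval v (MvPolynomial.map res g)) (funext fun i => ?_)
    rw [Function.comp_apply, Function.comp_apply, ← sub_eq_zero, ← map_sub,
      IsLocalRing.residue_eq_zero_iff, A.valuation_lt_one_iff]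
    exact hxx' i.1 i.2
  refine h3.trans ?_
  rw [show eval y' g = 0 from Subtype.ext h2, map_zero]

end FLTA.MordellWeil
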