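import Fermat.Agent.MordellWeil.ClosedMain
import Fermat.Agent.MordellWeil.Coords
import Fermat.Agent.MordellWeil.Height
import Fermat.Agent.MordellWeil.System

/-!
# The coordinate vectors of the Kummer vectors form a closed cone
-/

set_option autoImplicit false

noncomputable section

open AlgebraicCurve

namespace FLTA.MordellWeil

variable {k F : Type*} [Field k] [Field F] [Algebra k F] [IsAlgClosed k] [IsCurveOver k F]
variable (O : Place k F)

/-- Linear combinations of a family, as a linear map. -/
def vecL {α : Type*} {d : ℕ} (v : Fin d → α → k) : (Fin d → k) →ₗ[k] α → k where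
  toFun := vec v
  map_add' a b := by simp [vec, add_smul, Finset.sum_add_distrib]
  map_smul' c a := vec_smul v c a

omit [IsAlgClosed k] in
@[simp] theorem vecL_apply {α : Type*} {d : ℕ} (v : Fin d → α → k) (a : Fin d → k) :
    vecL v a = vec v a := rfl

omit [IsAlgClosed k] in
theorem vecL_single {α : Type*} {d : ℕ} (v : Fin d → α → k) (i : Fin d) :
    vecL v (Pi.single i 1) = v i := by
  simp [vec, Pi.single_apply]

variable {O}

/-- Linear coordinates on all functions, inverse to `vec` on `tFun`. -/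
theorem IsCoords.exists_coordMap {N : ℤ} {r d : ℕ} {v : Fin d → (Fin r → Pt O) → k}
    (hv : IsCoords O N v) :
    ∃ π : ((Fin r → Pt O) → k) →ₗ[k] Fin d → k,
      (∀ a, π (vec v a) = a) ∧ ∀ z ∈ tFun O N r, vec v (π z) = z := by
  obtain ⟨π, hπ⟩ := (vecL v).exists_leftInverse_of_injective
    (LinearMap.ker_eq_bot.2 hv.vec_injective)
  have h1 : ∀ a, π (vec v a) = a := fun a => LinearMap.congr_fun hπ a
  refine ⟨π, h1, fun z hz => ?_⟩
  obtain ⟨a, rfl⟩ := hv.exists_vec_eq hz
  rw [h1]

variable [Curves.IsFunctionField k F]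
variable (O) in
/-- The coordinate vectors of Kummer vectors, with zero. -/
def kummerSet (m : ℕ) {d : ℕ} (v : Fin d → (Fin (rdim k F m) → Pt O) → k) : Set (Fin d → k) :=
  {c | c = 0 ∨ ∃ x, IsKummer O m x (vec v c)}

theorem isClosedCone_kummerSet [CharZero k] {m d : ℕ}
    {v : Fin d → (Fin (rdim k F m) → Pt O) → k} (hm : 4 * genusFF k F + 2 ≤ m)
    (hv : IsCoords O ((2 * m : ℕ) : ℤ) v) : IsClosedCone (kummerSet O m v) := by
  classical
  refine ⟨?_, fun t c hc => ?_⟩
  swap
  · rcases eq_or_ne t 0 with rfl | ht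
    · exact Or.inl (zero_smul k c)
    rcases hc with rfl | ⟨x, hx⟩
    · exact Or.inl (smul_zero t)
    · exact Or.inr ⟨x, by rw [vec_smul]; exact hx.smul ht⟩
  let e := 2 * genusFF k F + 1
  let r := rdim k F m
  obtain ⟨da, va, hva⟩ := exists_isCoords O ((m + e : ℕ) : ℤ) r
  let bu := Module.finBasis k (lMul O ((2 * e : ℕ) : ℤ))
  let du := Module.finrank k (lMul O ((2 * e : ℕ) : ℤ))
  let ι : Option Bool → Type := fun b => Fin (b.elim du fun _ => da)
  let vu : Fin du → F := fun i => (bu i : F)
  have hvu : ∀ i, vu i ∈ lMul O ((2 * e : ℕ) : ℤ) := fun i => (bu i).2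
  -- values of the vectors in terms of coordinates
  let za : Bool → (Fin r → Pt O) → (Fin d → k) → (∀ b, ι b → k) → k :=
    fun s P _ x => vec va (x (some s)) P
  let zz : (Fin r → Pt O) → (Fin d → k) → (∀ b, ι b → k) → k := fun P c _ => vec v c P
  let zu : Pt O → (Fin d → k) → (∀ b, ι b → k) → k :=
    fun p _ x => ∑ i : Fin du, ev p.1 (vu i) * x none i
  have hza : ∀ s P, HomFn (Pi.single (some s) 1) (za s P) := fun s P =>
    (homFn_linear (τ := Fin d) (ι := ι) (some s) fun i => va i P).congr fun c x =>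
      (vec_apply va (x (some s)) P).symm
  have hzz : ∀ P, HomFn 0 (zz P) := fun P =>
    (homFn_param (B := Option Bool) (ι := ι) (isPolyFn_sum Finset.univ
      (G := fun i (c : Fin d → k) => v i P * c i)
      fun i _ => (isPolyFn_const (v i P)).mul (isPolyFn_coord i))).congr fun c x =>
      (vec_apply v c P).symm
  have hzu : ∀ p, HomFn (Pi.single none 1) (zu p) := fun p =>
    homFn_linear (τ := Fin d) (ι := ι) none fun i => ev p.1 (vu i)
  let J := (Bool × Fin r × Fin r × (Fin r → Pt O)) ⊕
    (Bool × Fin r × (Fin (r + 1) → Fin r → Pt O) × (Fin (r + 1) → Pt O)) ⊕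
    ((Fin r → Pt O) × (Fin r → Pt O))
  let sys : J → (Fin d → k) → (∀ b, ι b → k) → k :=
    Sum.elim
      (fun a c x => if a.2.1 = a.2.2.1 then 0 else
        za a.1 (a.2.2.2 ∘ Equiv.swap a.2.1 a.2.2.1) c x + za a.1 a.2.2.2 c x)
      (Sum.elim
        (fun a c x => (Matrix.of fun i j =>
          za a.1 (Function.update (a.2.2.1 i) a.2.1 (a.2.2.2 j)) c x).det)
        (fun a c x => zz a.1 c x * (∏ j, zu (a.1 j) c x) * (za true a.2 c x * za false a.2 c x)
          + (-1) * (zz a.2 c x * (∏ j, zu (a.2 j) c x) *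
              (za true a.1 c x * za false a.1 c x))))
  have hsys : ∀ j, IsHomFn (sys j) := by
    rintro (⟨s, i, j, P⟩ | ⟨s, i₀, U, p⟩ | ⟨P, Q⟩)
    · rcases eq_or_ne i j with h | h
      · exact ⟨0, (homFn_zero 0).congr fun c x => by simp [sys, h]⟩
      · exact ⟨_, ((hza s (P ∘ Equiv.swap i j)).add (hza s P)).congr fun c x => by simp [sys, h]⟩
    · exact ⟨_, homFn_det fun i j => hza s _⟩
    · refine ⟨_, ((((hzz P).mul (homFn_prod Finset.univ fun j _ => hzu (P j))).mul
        ((hza true Q).mul (hza false Q))).add (HomFn.const_mul ?_ (-1)))⟩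
      exact ((hzz Q).mul (homFn_prod Finset.univ fun j _ => hzu (Q j))).mul
        ((hza true P).mul (hza false P))
  obtain ⟨G, hG⟩ := exists_zeroSet_projection sys hsys
  refine ⟨G, fun c => ?_⟩
  have hu : ∀ (w : Fin du → k) (p : Pt O),
      ev p.1 (∑ i, w i • vu i) = ∑ i, ev p.1 (vu i) * w i := fun w p => by
    rw [ev_linearCombination O Finset.univ hvu w p]
    exact Finset.sum_congr rfl fun i _ => mul_comm _ _
  have hiff : ∀ x : ∀ b, ι b → k, (∀ j, sys j c x = 0) ↔
      IsWitness O (vec va (x (some true))) (vec va (x (some false)))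
        (∑ i : Fin du, x none i • vu i) (vec v c) := by
    intro x
    constructor
    · intro h
      have halt : ∀ s, IsAlt O (vec va (x (some s))) := fun s i j P hij => by
        have := h (.inl (s, i, j, P))
        simp only [sys, za, Sum.elim_inl, if_neg hij] at this
        exact eq_neg_of_add_eq_zero_left this
      have hlow : ∀ s, IsLowRank O (vec va (x (some s))) := fun s i₀ U p =>
        h (.inr (.inl (s, i₀, U, p)))
      refine ⟨halt true, halt false, hlow true, hlow false, fun P Q => ?_⟩
      have := h (.inr (.inr (P, Q)))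
      simp only [sys, za, zz, zu, Sum.elim_inr] at this
      simp only [hu]
      linear_combination this
    · rintro ⟨h1, h2, h3, h4, h5⟩
      rintro (⟨s, i, j, P⟩ | ⟨s, i₀, U, p⟩ | ⟨P, Q⟩)
      · simp only [sys, za, Sum.elim_inl]
        split_ifs with hij
        · rfl
        · cases s
          · rw [h2 i j P hij, neg_add_cancel]
          · rw [h1 i j P hij, neg_add_cancel]
      · cases s
        · exact h4 i₀ U p
        · exact h3 i₀ U p
      · have := h5 P Q
        simp only [hu] at this
        simp only [sys, za, zz, zu, Sum.elim_inr]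
        linear_combination this
  rw [hG c]
  constructor
  · intro hc
    obtain ⟨z, x, hzx⟩ : ∃ z x, IsKummer O m x z ∧ (c = 0 ∨ z = vec v c) := by
      rcases hc with h | ⟨x, hx⟩
      · obtain ⟨z, hz⟩ := exists_isKummer O (n := m) (by omega) (0 : Pic0 k F)
        exact ⟨z, 0, hz, Or.inl h⟩
      · exact ⟨_, x, hx, Or.inr rfl⟩
    obtain ⟨a, b, u, ha, hb, hu', ha0, hb0, hu0, hw⟩ := exists_witness O hm le_rfl hzx.1
    obtain ⟨xa, rfl⟩ := hva.exists_vec_eq ha
    obtain ⟨xb, rfl⟩ := hva.exists_vec_eq hb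
    let xu : Fin du → k := bu.equivFun ⟨u, hu'⟩
    have hxu : ∑ i, xu i • vu i = u := by
      have h6 := congrArg Subtype.val (bu.sum_equivFun ⟨u, hu'⟩)
      simp only [AddSubmonoidClass.coe_finsetSum, SetLike.val_smul] at h6
      exact h6
    let x' : ∀ b, ι b → k := fun b => match b with
      | none => xu
      | some true => xa
      | some false => xb
    refine ⟨x', ?_, (hiff x').2 ?_⟩
    · rintro (_ | _ | _) h
      · exact hu0 (by rw [← hxu, show xu = 0 from h]; simp)
      · exact hb0 (by rw [show xb = 0 from h]; simp [vec])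
      · exact ha0 (by rw [show xa = 0 from h]; simp [vec])
    · show IsWitness O (vec va xa) (vec va xb) (∑ i, xu i • vu i) (vec v c)
      rw [hxu]
      rcases hzx.2 with rfl | rfl
      · obtain ⟨h1, h2, h3, h4, -⟩ := hw
        exact ⟨h1, h2, h3, h4, fun P Q => by simp [vec]⟩
      · exact hw
  · rintro ⟨x, hx0, hx⟩
    rcases eq_or_ne c 0 with rfl | hc
    · exact Or.inl rfl
    refine Or.inr (isKummer_of_witness O (u := ∑ i : Fin du, x none i • vu i) hm le_rfl
      (hva.vec_mem _) (hva.vec_mem _) (sum_mem fun i _ => Submodule.smul_mem _ _ (hvu i))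
      (hv.vec_mem c) (hva.vec_ne_zero (hx0 _)) (hva.vec_ne_zero (hx0 _)) ?_ (hv.vec_ne_zero hc)
      ((hiff x).1 hx))
    intro h
    refine hx0 none (funext fun i => ?_)
    have h' : ∑ j : Fin du, x none j • bu j = 0 := Subtype.ext (by
      simp only [AddSubmonoidClass.coe_finsetSum, SetLike.val_smul, ZeroMemClass.coe_zero]
      exact h)
    exact Fintype.linearIndependent_iff.1 bu.linearIndependent _ h' i

end FLTA.MordellWeil
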