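import Fermat.Agent.MordellWeil.Addition
import Fermat.Agent.MordellWeil.Galois
import Fermat.Agent.MordellWeil.HeightForms
import Fermat.Agent.MordellWeil.KummerCone
import Mathlib.Algebra.Ring.Action.Submonoid
import Mathlib.FieldTheory.Galois.Infinite
import Mathlib.GroupTheory.Descent
import Mathlib.GroupTheory.Finiteness

/-!
# Descent with the height of the Kummer vector
-/

set_option autoImplicit false

noncomputable section

open AlgebraicCurve

namespace FLTA.MordellWeil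

local notation "Qbar" => AlgebraicClosure ℚ

variable {F : Type*} [Field F] [Algebra Qbar F] [IsCurveOver Qbar F]
variable [Curves.IsFunctionField Qbar F] {O : Place Qbar F}

/-- The coordinates of a product of two Kummer vectors do not vanish. -/
theorem coord_mul_ne_zero {n d : ℕ} (hn : 2 * genusFF Qbar F ≤ n)
    {w : Fin d → Fn O n} {π : Fn O n →ₗ[Qbar] Fin d → Qbar}
    (hπ : ∀ z ∈ tFun O (((2 * n : ℕ) : ℤ) + ((2 * n : ℕ) : ℤ)) (rdim Qbar F n), vec w (π z) = z)
    {x y : Pic0 Qbar F} {a b : Fn O n} (ha : IsKummer O n x a) (hb : IsKummer O n y b) :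
    π (a * b) ≠ 0 := fun h => by
  have := hπ _ (mul_mem_tFun O ha.mem_tFun hb.mem_tFun)
  rw [h] at this
  exact mul_ne_zero_tFun O ha.mem_tFun hb.mem_tFun (ha.ne_zero hn) (hb.ne_zero hn)
    (this.symm.trans (by simp [vec]))

omit [Curves.IsFunctionField Qbar F] in
/-- At most two classes have the given Kummer vector up to scaling. -/
theorem finite_setOf_isKummer_smul [Curves.IsFunctionField Qbar F] {m : ℕ}
    (hm : 4 * genusFF Qbar F + 2 ≤ m) (z : Fn O m) :
    {x | ∃ c : Qbar, IsKummer O m x (c • z)}.Finite := by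
  rcases Set.eq_empty_or_nonempty {x | ∃ c : Qbar, IsKummer O m x (c • z)} with h | ⟨y, t, hy⟩
  · rw [h]; exact Set.finite_empty
  refine ((Set.finite_singleton (-y)).insert y).subset ?_
  rintro x ⟨c, hx⟩
  have hne : ∀ {c : Qbar} {x}, IsKummer O m x (c • z) → c ≠ 0 := fun h e =>
    h.ne_zero (by omega) (by rw [e, zero_smul])
  have hx' := hx.smul (div_ne_zero (hne hy) (hne hx))
  rw [smul_smul, div_mul_cancel₀ _ (hne hx)] at hx'
  exact hx'.eq_or_eq_neg hm hy

/-- There are finitely many classes killed by two. -/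
theorem finite_two_torsion (O : Place Qbar F) : {x : Pic0 Qbar F | (2 : ℕ) • x = 0}.Finite := by
  classical
  obtain ⟨n, hn⟩ : ∃ n, n = 4 * genusFF Qbar F + 2 := ⟨_, rfl⟩
  obtain ⟨e, he⟩ : ∃ e, e = 2 * genusFF Qbar F + 1 := ⟨_, rfl⟩
  have hm : 4 * genusFF Qbar F + 2 ≤ n + e := by omega
  obtain ⟨d, v, hv⟩ := exists_isCoords O ((2 * (n + e) : ℕ) : ℤ) (rdim Qbar F (n + e))
  obtain ⟨d', w, hw⟩ := exists_isCoords O (((2 * n : ℕ) : ℤ) + ((2 * n : ℕ) : ℤ)) (rdim Qbar F n)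
  obtain ⟨π, -, hπ⟩ := hw.exists_coordMap
  obtain ⟨B, hB⟩ := exists_addition (O := O) (n := n) (e := e) (by omega) (by omega)
  obtain ⟨p, hp, hpe⟩ :=
    isForms_comb_four (K := ⊤) π B v fun _ _ _ _ _ => IntermediateField.mem_top
  let Φ : (Fin d → Qbar) → Fin d' → Qbar := fun c =>
    π (B (vec v c) (vec v c) (vec v c) (vec v c))
  let P : Fin d' → MvPolynomial (Fin d) Qbar := fun j =>
    (p j).map (algebraMap (⊤ : IntermediateField ℚ Qbar) Qbar)
  have hP : ∀ j, (P j).IsHomogeneous 4 := fun j => (hp j).map _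
  have hPe : ∀ c j, MvPolynomial.eval c (P j) = Φ c j := fun c j => by
    rw [MvPolynomial.eval_map, ← MvPolynomial.aeval_def, hpe]
    rfl
  obtain ⟨b₀, hb₀⟩ := exists_isKummer O (n := n) (by omega) (0 : Pic0 Qbar F)
  set T := π (b₀ * b₀) with hT
  have hT0 : T ≠ 0 := coord_mul_ne_zero (by omega) hπ hb₀ hb₀
  obtain ⟨i₀, hi₀⟩ := Function.ne_iff.1 hT0
  have hΦ0 : ∀ c ∈ kummerSet O (n + e) v, c ≠ 0 → Φ c ≠ 0 := by
    rintro c (rfl | ⟨x, hx⟩) hc0
    · exact absurd rfl hc0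
    obtain ⟨a, ha⟩ := exists_isKummer O (n := n) (by omega) (x + x)
    obtain ⟨t, ht, heq⟩ := hB x x _ _ a b₀ hx hx ha (by rw [sub_self]; exact hb₀)
    show π _ ≠ 0
    rw [heq, map_smul]
    exact smul_ne_zero ht (coord_mul_ne_zero (by omega) hπ ha hb₀)
  obtain ⟨G, hG⟩ := (isClosedCone_kummerSet hm hv).eqns
  let W : Set (Fin d → Qbar) :=
    {c | c ∈ kummerSet O (n + e) v ∧ ∀ j, Φ c j * T i₀ = Φ c i₀ * T j}
  have hW : IsClosedCone W := by
    refine ⟨⟨G ∪ Set.range fun j => MvPolynomial.C (T i₀) * P j - MvPolynomial.C (T j) * P i₀,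
      fun c => ?_⟩, ?_⟩
    · simp only [Set.mem_union, or_imp, forall_and, Set.forall_mem_range, ← hG]
      simp [W, hPe, sub_eq_zero, mul_comm]
    · rintro t c ⟨hc, hc'⟩
      refine ⟨(isClosedCone_kummerSet hm hv).smul_mem t c hc, fun j => ?_⟩
      have hsc : Φ (t • c) = t ^ 4 • Φ c := by
        simp only [Φ, vec_smul, map_smul, LinearMap.smul_apply, smul_smul]
        congr 1
        ring
      rw [hsc, Pi.smul_apply, Pi.smul_apply, smul_eq_mul, smul_eq_mul, mul_assoc, hc', mul_assoc]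
  obtain ⟨M, q, hq, hqe⟩ := exists_homogeneous_pow_eq hW (p := fun _ : Unit => P i₀)
    (fun _ => hP i₀) fun c hc hc0 => by
      refine ⟨(), fun h0 => hΦ0 c hc.1 hc0 (funext fun j => ?_)⟩
      rw [hPe] at h0
      have := hc.2 j
      rw [h0, zero_mul] at this
      exact (mul_eq_zero.1 this).resolve_right hi₀
  have hA : {c | c ∈ kummerSet O (n + e) v ∧ Φ c = T}.Finite := by
    refine finite_of_pow_eq (D := M + 4) fun i => ⟨MvPolynomial.C (T i₀) * q (i, ()),
      lt_of_le_of_lt ((hq _).C_mul _).totalDegree_le (by omega), fun c ⟨hc, hc'⟩ => ?_⟩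
    rw [← hqe c ⟨hc, fun j => by rw [hc']; ring⟩ i]
    simp [hPe, hc', mul_comm]
  refine (hA.biUnion fun c _ => finite_setOf_isKummer_smul hm (vec v c)).subset fun x hx => ?_
  obtain ⟨z, hz⟩ := exists_isKummer O (n := n + e) (by omega) x
  obtain ⟨c, rfl⟩ := hv.exists_vec_eq hz.mem_tFun
  have hxx : x + x = 0 := by rw [← two_nsmul]; exact hx
  obtain ⟨t, ht, heq⟩ := hB x x _ _ b₀ b₀ hz hz (by rw [hxx]; exact hb₀)
    (by rw [sub_self]; exact hb₀)
  obtain ⟨s, hs⟩ := IsAlgClosed.exists_pow_nat_eq t⁻¹ (n := 4) (by norm_num)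
  have hs0 : s ≠ 0 := by
    rintro rfl
    rw [zero_pow (by norm_num)] at hs
    exact inv_ne_zero ht hs.symm
  simp only [Set.mem_iUnion]
  refine ⟨s • c, ⟨Or.inr ⟨x, by rw [vec_smul]; exact hz.smul hs0⟩, ?_⟩, s⁻¹, ?_⟩
  · have hsc : Φ (s • c) = s ^ 4 • Φ c := by
      simp only [Φ, vec_smul, map_smul, LinearMap.smul_apply, smul_smul]
      congr 1
      ring
    rw [hsc, hs]
    show t⁻¹ • π _ = T
    rw [heq, map_smul, inv_smul_smul₀ ht]
  · rw [vec_smul, inv_smul_smul₀ hs0]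
    exact hz

/-- A finite extension over which a basis of the functions on tuples is fixed. -/
theorem exists_fixed_coords (S : GalSetting O) (a : ℤ) (r : ℕ) :
    ∃ (L : IntermediateField ℚ Qbar) (d : ℕ) (v : Fin d → (Fin r → Pt O) → Qbar),
      FiniteDimensional ℚ L ∧ IsCoords O a v ∧
        ∀ σ ∈ L.fixingSubgroup, ∀ i, smulFn (S.ρ σ) (S.fix σ) (v i) = v i := by
  classical
  let b := Module.finBasis Qbar (lMul O a)
  choose L hL hLfix using fun i => S.smooth (b i : F)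
  have hfin : FiniteDimensional ℚ (⨆ i, L i : IntermediateField ℚ Qbar) :=
    IntermediateField.finiteDimensional_iSup_of_finite
  have hspan : lMul O a ≤ Submodule.span Qbar
      {f | f ∈ lMul O a ∧ ∀ g ∈ S.ρ '' (⨆ i, L i : IntermediateField ℚ Qbar).fixingSubgroup,
        g • f = f} := by
    intro f hf
    have h1 := congrArg Subtype.val (b.sum_equivFun ⟨f, hf⟩)
    simp only [AddSubmonoidClass.coe_finsetSum, SetLike.val_smul] at h1
    rw [← h1]
    refine sum_mem fun i _ => Submodule.smul_mem _ _ (Submodule.subset_span ⟨(b i).2, ?_⟩)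
    rintro - ⟨σ, hσ, rfl⟩
    exact hLfix i σ (IntermediateField.fixingSubgroup_antitone (le_iSup L i) hσ)
  obtain ⟨d, v, hv, hfix⟩ := exists_isCoords_fixed O a r _
    (by rintro - ⟨σ, -, rfl⟩; exact S.fix σ) hspan
  exact ⟨_, d, v, hfin, hv, fun σ hσ i => hfix (S.ρ σ) ⟨σ, hσ, rfl⟩ i⟩

/-- The coordinates of the Kummer vector of a fixed class are rational up to scaling. -/
theorem isProjRat_of_fixed (S : GalSetting O) {K : IntermediateField ℚ Qbar} {m d : ℕ}
    {v : Fin d → Fn O m} (hm : 2 * genusFF Qbar F ≤ m)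
    (hv : IsCoords O ((2 * m : ℕ) : ℤ) v)
    (hfix : ∀ σ ∈ K.fixingSubgroup, ∀ i, smulFn (S.ρ σ) (S.fix σ) (v i) = v i)
    {x : Pic0 Qbar F} (hx : ∀ σ ∈ K.fixingSubgroup, S.ρ σ • x = x) {c : Fin d → Qbar}
    (hc : IsKummer O m x (vec v c)) : IsProjRat K c := by
  have hc0 : c ≠ 0 := fun e => hc.ne_zero hm (by rw [e]; simp [vec])
  obtain ⟨i₀, hi₀⟩ := Function.ne_iff.1 hc0
  have : Algebra.IsAlgebraic ℚ Qbar := AlgebraicClosure.isAlgebraic ℚ
  have : IsGalois ℚ Qbar := isGalois_iff.2 ⟨inferInstance, normal_iff.2 fun x =>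
    ⟨(Algebra.IsAlgebraic.isAlgebraic x).isIntegral, IsAlgClosed.splits _⟩⟩
  have hi : ∀ i, c i / c i₀ ∈ K := by
    intro i
    rw [← InfiniteGalois.fixedField_fixingSubgroup K, IntermediateField.mem_fixedField_iff]
    intro σ hσ
    have h1 := hc.semilinear (S.ρ σ) (S.fix σ)
    rw [hx σ hσ, smulFn_vec (S.ρ σ) (S.fix σ) (hfix σ hσ)] at h1
    obtain ⟨t, ht, he⟩ := hc.exists_eq_smul hm h1
    rw [← vec_smul] at he
    have h2 : ∀ j, σ (c j) = t * c j := fun j => by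
      have := congrFun (hv.vec_injective he) j
      rwa [S.base, Pi.smul_apply, smul_eq_mul] at this
    rw [map_div₀, h2, h2, mul_div_mul_left _ _ ht]
  refine ⟨fun i => ⟨_, hi i⟩, (c i₀)⁻¹, inv_ne_zero hi₀, funext fun i => ?_⟩
  rw [Pi.smul_apply, smul_eq_mul, mul_comm]
  rfl

/-- Finite generation from the finiteness of the quotient by doubling. -/
theorem fg_fixed_of_finiteIndex (S : GalSetting O)
    [DistribMulAction (Qbar ≃ₐ[ℚ] Qbar) (Pic0 Qbar F)]
    (hact : ∀ (σ : Qbar ≃ₐ[ℚ] Qbar) (x : Pic0 Qbar F), σ • x = S.ρ σ • x)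
    (K : IntermediateField ℚ Qbar) [FiniteDimensional ℚ K]
    (hfi : (nsmulAddMonoidHom
      (α := FixedPoints.addSubgroup K.fixingSubgroup (Pic0 Qbar F)) 2).range.FiniteIndex) :
    AddGroup.FG (FixedPoints.addSubgroup K.fixingSubgroup (Pic0 Qbar F)) := by
  classical
  obtain ⟨n, hn⟩ : ∃ n, n = 4 * genusFF Qbar F + 2 := ⟨_, rfl⟩
  obtain ⟨e, he⟩ : ∃ e, e = 2 * genusFF Qbar F + 1 := ⟨_, rfl⟩
  have hm : 4 * genusFF Qbar F + 2 ≤ n + e := by omega
  obtain ⟨L₀, d, v, hL₀, hv, hvfix⟩ :=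
    exists_fixed_coords S ((2 * (n + e) : ℕ) : ℤ) (rdim Qbar F (n + e))
  obtain ⟨dn, vn, hvn⟩ := exists_isCoords O ((2 * n : ℕ) : ℤ) (rdim Qbar F n)
  obtain ⟨dw, w, hw⟩ := exists_isCoords O (((2 * n : ℕ) : ℤ) + ((2 * n : ℕ) : ℤ)) (rdim Qbar F n)
  obtain ⟨πn, -, hπn⟩ := hvn.exists_coordMap
  obtain ⟨π, -, hπ⟩ := hw.exists_coordMap
  obtain ⟨Λ, hΛ⟩ := exists_levelMap (O := O) (n := n) (e := e) (by omega) (by omega)
  obtain ⟨B, hB⟩ := exists_addition (O := O) (n := n) (e := e) (by omega) (by omega)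
  obtain ⟨b₀, hb₀⟩ := exists_isKummer O (n := n) (by omega) (0 : Pic0 Qbar F)
  -- the field of all coefficients
  obtain ⟨K₁, hK₁, hmem⟩ := exists_finiteDimensional_forall_mem
    ((Set.range fun p : Fin d × Fin dn => πn (Λ (v p.1)) p.2) ∪
      ((Set.range fun p : Fin d × Fin d × Fin d × Fin d × Fin dw =>
          π (B (v p.1) (v p.2.1) (v p.2.2.1) (v p.2.2.2.1)) p.2.2.2.2) ∪
        ((Set.range fun p : Fin dn × Fin dw => π (vn p.1 * b₀) p.2) ∪
          Set.range fun p : (Fin dn × Fin dn) × Fin dw => π (vn p.1.1 * vn p.1.2) p.2)))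
    ((Set.finite_range _).union ((Set.finite_range _).union
      ((Set.finite_range _).union (Set.finite_range _))))
  have hlevel : ∀ (L : IntermediateField ℚ Qbar), K₁ ≤ L →
      IsForms L 1 fun c => πn (Λ (vec v c)) := fun L hL =>
    isForms_comb_one (πn ∘ₗ Λ) v fun i j => hL (hmem _ (Or.inl ⟨(i, j), rfl⟩))
  have hquad : ∀ (L : IntermediateField ℚ Qbar), K₁ ≤ L →
      IsForms L 4 fun c => π (B (vec v c) (vec v c) (vec v c) (vec v c)) := fun L hL =>
    isForms_comb_four π B v fun i i' l q j =>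
      hL (hmem _ (Or.inr (Or.inl ⟨(i, i', l, q, j), rfl⟩)))
  have hfix₀ : ∀ (L : IntermediateField ℚ Qbar), K₁ ≤ L →
      IsForms L 1 fun c => π (∑ i, c i • (vn i * b₀)) := fun L hL =>
    isForms_comb_one π (fun i => vn i * b₀) fun i j =>
      hL (hmem _ (Or.inr (Or.inr (Or.inl ⟨(i, j), rfl⟩))))
  have htens : ∀ (L : IntermediateField ℚ Qbar), K₁ ≤ L →
      IsForms L 1 fun t : Fin dn × Fin dn → Qbar => π (∑ p, t p • (vn p.1 * vn p.2)) := fun L hL =>
    isForms_comb_one π (fun p : Fin dn × Fin dn => vn p.1 * vn p.2) fun p j =>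
      hL (hmem _ (Or.inr (Or.inr (Or.inr ⟨(p, j), rfl⟩))))
  have hvec : ∀ (a : Fin dn → Qbar) (b : Fn O n),
      ∑ i, a i • (vn i * b) = vec vn a * b := fun a b => by
    simp [vec, Finset.sum_mul]
  have hsegre : ∀ a b : Fin dn → Qbar,
      ∑ p, segre a b p • (vn p.1 * vn p.2) = vec vn a * vec vn b := fun a b => by
    simp only [vec, Finset.sum_mul_sum, Fintype.sum_prod_type, segre, smul_mul_smul_comm]
  -- the Kummer vectors of level `n` from those of level `n + e`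
  have hdown : ∀ x c, IsKummer O (n + e) x (vec v c) →
      IsKummer O n x (vec vn (πn (Λ (vec v c)))) := fun x c h => by
    rw [hπn _ (hΛ x _ h).mem_tFun]
    exact hΛ x _ h
  have hZ := isClosedCone_kummerSet hm hv
  obtain ⟨K₂, hK₂, hlevelge⟩ := (hlevel K₁ le_rfl).exists_height_ge hZ fun c hc hc0 h => by
    rcases hc with rfl | ⟨x, hx⟩
    · exact hc0 rfl
    · exact (hdown x c hx).ne_zero (by omega) (by rw [h]; simp [vec])
  obtain ⟨K₃, hK₃, hquadge⟩ := (hquad K₁ le_rfl).exists_height_ge hZ fun c hc hc0 => by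
    rcases hc with rfl | ⟨x, hx⟩
    · exact absurd rfl hc0
    obtain ⟨a, ha⟩ := exists_isKummer O (n := n) (by omega) (x + x)
    obtain ⟨t, ht, heq⟩ := hB x x _ _ a b₀ hx hx ha (by rw [sub_self]; exact hb₀)
    rw [heq, map_smul]
    exact smul_ne_zero ht (coord_mul_ne_zero (by omega) hπ ha hb₀)
  obtain ⟨K₄, hK₄, htensge⟩ := (htens K₁ le_rfl).exists_height_ge
    (isClosedCone_segreSet (ι := Fin dn) (κ := Fin dn)) fun t ht ht0 h => by
    obtain ⟨a, b, ha, hb, rfl⟩ := exists_eq_segre ht ht0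
    rw [hsegre] at h
    have := hπ _ (mul_mem_tFun O (hvn.vec_mem a) (hvn.vec_mem b))
    rw [h] at this
    exact mul_ne_zero_tFun O (hvn.vec_mem a) (hvn.vec_mem b) (hvn.vec_ne_zero ha)
      (hvn.vec_ne_zero hb) (this.symm.trans (by simp [vec]))
  obtain ⟨K', hfin, hKK', hL₀', hK₁', hK₂', hK₃', hK₄'⟩ : ∃ K' : IntermediateField ℚ Qbar,
      FiniteDimensional ℚ K' ∧ K ≤ K' ∧ L₀ ≤ K' ∧ K₁ ≤ K' ∧ K₂ ≤ K' ∧ K₃ ≤ K' ∧ K₄ ≤ K' :=
    ⟨K ⊔ L₀ ⊔ K₁ ⊔ K₂ ⊔ K₃ ⊔ K₄, inferInstance,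
      le_sup_left.trans (le_sup_left.trans (le_sup_left.trans (le_sup_left.trans le_sup_left))),
      le_sup_right.trans (le_sup_left.trans (le_sup_left.trans (le_sup_left.trans le_sup_left))),
      le_sup_right.trans (le_sup_left.trans (le_sup_left.trans le_sup_left)),
      le_sup_right.trans (le_sup_left.trans le_sup_left),
      le_sup_right.trans le_sup_left, le_sup_right⟩
  have : NumberField K' := ⟨⟩
  obtain ⟨C₁, hC₁⟩ := (hlevel K' hK₁').height_le
  obtain ⟨C₂, hC₂⟩ := hlevelge K' hK₂'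
  obtain ⟨C₃, hC₃⟩ := hquadge K' hK₃'
  obtain ⟨C₄, hC₄⟩ := (hfix₀ K' hK₁').height_le
  obtain ⟨C₅, hC₅⟩ := htensge K' hK₄'
  set G := FixedPoints.addSubgroup K.fixingSubgroup (Pic0 Qbar F) with hG
  have hGfix : ∀ x : G, ∀ σ ∈ K'.fixingSubgroup, S.ρ σ • (x : Pic0 Qbar F) = x := fun x σ hσ => by
    rw [← hact]
    exact x.2 ⟨σ, IntermediateField.fixingSubgroup_antitone hKK' hσ⟩
  -- the coordinates of a class
  have hco : ∀ x : G, ∃ c, IsKummer O (n + e) (x : Pic0 Qbar F) (vec v c) ∧ IsProjRat K' c := by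
    intro x
    obtain ⟨z, hz⟩ := exists_isKummer O (n := n + e) (by omega) (x : Pic0 Qbar F)
    obtain ⟨c, rfl⟩ := hv.exists_vec_eq hz.mem_tFun
    exact ⟨c, hz, isProjRat_of_fixed S (by omega) hv
      (fun σ hσ => hvfix σ (IntermediateField.fixingSubgroup_antitone hL₀' hσ)) (hGfix x) hz⟩
  choose co hcoK hcoR using hco
  have hco0 : ∀ x, co x ≠ 0 := fun x h => (hcoK x).ne_zero (by omega) (by rw [h]; simp [vec])
  let h : G → ℝ := fun x => projHeight K' (co x)
  -- doubling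
  have hdouble : ∀ x : G, 4 * h x - (-C₃ + C₄ + C₁) ≤ h (2 • x) := by
    intro x
    have hrat := hC₁ _ (hcoR (2 • x))
    set a := πn (Λ (vec v (co (2 • x))))
    have ha : IsKummer O n ((x : Pic0 Qbar F) + x) (vec vn a) := by
      have := hdown _ _ (hcoK (2 • x))
      rwa [AddSubgroup.coe_nsmul, two_nsmul] at this
    obtain ⟨t, ht, heq⟩ := hB _ _ _ _ _ b₀ (hcoK x) (hcoK x) ha (by rw [sub_self]; exact hb₀)
    have h1 := hC₃ (co x) (Or.inr ⟨_, hcoK x⟩) (hcoR x)
    obtain ⟨hr, h2⟩ := hC₄ a hrat.1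
    simp only [hvec] at hr h2
    simp only [heq, map_smul, projHeight_smul hr ht] at h1
    have h3 := hrat.2
    simp only [h]
    push_cast at h1 h2 h3
    linarith
  -- translation
  have htrans : ∀ y : G, ∃ C : ℝ, ∀ x : G, h (x + y) ≤ 2 * h x + C := by
    intro y
    obtain ⟨dy, c, hc, hdy⟩ := hcoR y
    let u : Fn O (n + e) := vec v fun i => (dy i : Qbar)
    have hu : IsKummer O (n + e) (y : Pic0 Qbar F) u := by
      have := (hcoK y).smul hc
      rwa [← vec_smul, hdy] at this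
    let E : (Fn O (n + e) →ₗ[Qbar] Fn O (n + e) →ₗ[Qbar] Fn O n) →ₗ[Qbar] Fn O n :=
      (LinearMap.applyₗ u).comp (LinearMap.applyₗ u)
    have hform : IsForms K' 2 fun z => π (B (vec v z) (vec v z) u u) := by
      refine (isForms_comb_two π (B.compr₂ E) v fun i i' j => ?_).congr fun z => rfl
      show π (B (v i) (v i') u u) j ∈ K'
      simp only [u, vec, map_sum, map_smul, LinearMap.sum_apply, LinearMap.smul_apply,
        Finset.sum_apply, Pi.smul_apply, smul_eq_mul, Finset.mul_sum]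
      refine sum_mem fun l _ => sum_mem fun q _ => ?_
      exact mul_mem (dy _).2 (mul_mem (dy _).2
        (hK₁' (hmem _ (Or.inr (Or.inl ⟨(i, i', _, _, j), rfl⟩)))))
    obtain ⟨C, hC⟩ := hform.height_le
    refine ⟨-C₂ - C₅ + C, fun x => ?_⟩
    have hp := hC₁ _ (hcoR (x + y))
    have hs := hC₁ _ (hcoR (x - y))
    have hkp := hdown _ _ (hcoK (x + y))
    have hks := hdown _ _ (hcoK (x - y))
    set a := πn (Λ (vec v (co (x + y))))
    set b := πn (Λ (vec v (co (x - y))))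
    obtain ⟨t, ht, heq⟩ := hB _ _ _ _ _ _ (hcoK x) hu hkp hks
    have hb0 : b ≠ 0 := fun h0 => hks.ne_zero (by omega) (by rw [h0]; simp [vec])
    obtain ⟨hr, h1⟩ := projHeight_le_segre hb0 hp.1 hs.1
    have h2 := hC₅ _ (segre_mem a b) hr
    simp only [hsegre] at h2
    obtain ⟨hr', h3⟩ := hC _ (hcoR x)
    simp only [heq, map_smul] at hr' h3
    have hr'' : IsProjRat K' (π (vec vn a * vec vn b)) := by
      obtain ⟨y', c', hc', hy'⟩ := hr'
      exact ⟨y', c' * t, mul_ne_zero hc' ht, by rw [mul_smul]; exact hy'⟩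
    rw [projHeight_smul hr'' ht] at h3
    have h4 := hC₂ (co (x + y)) (Or.inr ⟨_, hcoK (x + y)⟩) (hcoR (x + y))
    simp only [h]
    push_cast at h2 h3 h4
    linarith
  choose Ct hCt using htrans
  have : Northcott h := ⟨fun b => by
    refine finite_setOf_projHeight_le K' co hco0 hcoR (fun z => ?_) b
    refine ((finite_setOf_isKummer_smul hm (vec v z)).preimage
      (f := Subtype.val) Subtype.val_injective.injOn).subset ?_
    rintro x ⟨c, hcx⟩
    refine ⟨c, ?_⟩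
    rw [← vec_smul, ← hcx]
    exact hcoK x⟩
  refine AddCommGroup.fg_of_descent (n := 2) (h := h) (a := 2) (b := 4)
    (c := fun g => Ct (-g)) (c₀ := -C₃ + C₄ + C₁) (by norm_num) (by norm_num) hfi
    (fun g x => ?_) hdouble
  simpa using hCt (-g) (g + x)

end FLTA.MordellWeil
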