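import Fermat.Agent.MordellWeil.LinkData
import Fermat.Agent.Galois.Finiteness
import Mathlib.GroupTheory.QuotientGroup.Basic

/-!
# The weak Mordell–Weil theorem from link data

Halving a rational class gives extensions unramified outside a fixed finite set of primes: an
inertia element cannot move a half by a non-zero two-torsion class, since a vector of the half
and its conjugate are congruent.
-/

set_option autoImplicit false

noncomputable section

namespace FLTA.MordellWeil

open MvPolynomial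

local notation "Qbar" => AlgebraicClosure ℚ
local notation "GQ" => AlgebraicClosure ℚ ≃ₐ[ℚ] AlgebraicClosure ℚ

/-- Finitely many algebraic numbers are integral outside finitely many primes. -/
theorem exists_primes_forall_mem (C : Finset Qbar) :
    ∃ S : Finset Nat.Primes, ∀ q : Nat.Primes, q ∉ S → ∀ A : ValuationSubring Qbar,
      A.LiesOverPrime (q : ℕ) → (↑C : Set Qbar) ⊆ A := by
  classical
  choose D hD hint using fun c : Qbar =>
    IsAlgebraic.exists_integral_multiple (R := ℤ) (z := c)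
      ((IsFractionRing.isAlgebraic_iff ℤ ℚ Qbar).2
        ((AlgebraicClosure.isAlgebraic ℚ).isAlgebraic c))
  refine ⟨C.biUnion fun c => (D c).natAbs.primeFactors.subtype Nat.Prime, fun q hq A hA c hc => ?_⟩
  have hDu : ¬ (D c : Qbar) ∈ A.nonunits := by
    rw [FLTA.Galois.intCast_mem_nonunits_iff q.2 hA]
    intro hd
    exact hq (Finset.mem_biUnion.2 ⟨c, hc, Finset.mem_subtype.2 (Nat.mem_primeFactors.2
      ⟨q.2, Int.natCast_dvd.1 hd, Int.natAbs_ne_zero.2 (hD c)⟩)⟩)
  rw [SetLike.mem_coe, ← A.valuation_le_one_iff]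
  have h1 : A.valuation ((D c : Qbar) * c) ≤ 1 := by
    rw [A.valuation_le_one_iff]
    refine FLTA.Galois.mem_of_isIntegral ?_
    convert! hint c using 1
    simp [Algebra.smul_def]
  rw [ValuationSubring.mem_nonunits_iff, not_lt] at hDu
  calc A.valuation c = 1 * A.valuation c := (one_mul _).symm
    _ ≤ A.valuation (D c : Qbar) * A.valuation c := by gcongr
    _ ≤ 1 := by rwa [← map_mul]

/-- A vector can be scaled to be integral with a unit coordinate. -/
theorem exists_smul_primitive (A : ValuationSubring Qbar) {n : ℕ} {x : Fin n → Qbar}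
    (hx : x ≠ 0) : ∃ t : Qbar, t ≠ 0 ∧ (∀ i, (t • x) i ∈ A) ∧
      ∃ i, A.valuation ((t • x) i) = 1 := by
  obtain ⟨i₀, hi₀⟩ := Function.ne_iff.1 hx
  obtain ⟨i, -, hi⟩ := Finset.exists_max_image Finset.univ (fun j => A.valuation (x j))
    ⟨i₀, Finset.mem_univ i₀⟩
  have hxi : x i ≠ 0 := fun h => by
    have := hi i₀ (Finset.mem_univ i₀)
    rw [h, map_zero, le_zero_iff, map_eq_zero] at this
    exact hi₀ this
  refine ⟨(x i)⁻¹, inv_ne_zero hxi, fun j => ?_, i, by simp [hxi]⟩
  rw [Pi.smul_apply, smul_eq_mul, ← A.valuation_le_one_iff, map_mul, map_inv₀]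
  calc (A.valuation (x i))⁻¹ * A.valuation (x j)
      ≤ (A.valuation (x i))⁻¹ * A.valuation (x i) := by gcongr; exact hi j (Finset.mem_univ j)
    _ = 1 := inv_mul_cancel₀ ((map_ne_zero _).2 hxi)

variable {J : Type*} [AddCommGroup J] [DistribMulAction GQ J] (L : LinkData Qbar J)

/-- Inertia outside a finite set of primes fixes the halves of rational classes. -/
theorem LinkData.exists_primes_inertia_eq (T : J) (hT : T ≠ 0) (K₀ : IntermediateField ℚ Qbar)
    (hequiv : ∀ σ ∈ K₀.fixingSubgroup, ∀ a x, L.Rep a x →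
      L.Rep (fun i => σ (a i)) (σ • x)) :
    ∃ S : Finset Nat.Primes, ∀ q : Nat.Primes, q ∉ S → ∀ A : ValuationSubring Qbar,
      A.LiesOverPrime (q : ℕ) → ∀ σ ∈ A.inertiaSubgroupIn ℚ, σ ∈ K₀.fixingSubgroup →
        ∀ y : J, σ • y - y ≠ T := by
  classical
  let cls : Bool → J := fun ρ => bif ρ then 0 else T
  obtain ⟨Eg, hEg, hgood⟩ := L.good_eqs
  choose El hEl hlinkeq using fun ρ : Bool => L.link_eqs 2 (cls ρ)
  let sz : Fin 2 ⊕ Bool → ℕ := fun c => Sum.elim (fun _ => L.N) (fun ρ => L.M 2 (cls ρ)) c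
  -- one equation for a vertex, or one for a relation
  let Eq' := (Fin 2 × Eg) ⊕ (Σ ρ : Bool, El ρ)
  let F : Eq' → (∀ c, Fin (sz c) → Qbar) → Qbar := fun e x => match e with
    | .inl (v, G) => G.1 fun _ => x (.inl v)
    | .inr ⟨ρ, G⟩ => G.1 (linkPt (fun i => x (.inl i)) (x (.inr ρ)))
  have hhom : ∀ e, IsHomFn (τ := PEmpty.{1}) fun _ => F e := by
    rintro (⟨v, G⟩ | ⟨ρ, G⟩)
    · obtain ⟨d, hd⟩ := hEg G.1 G.2
      exact ⟨_, hd.subst (τ := PEmpty.{1}) (ι := fun c => Fin (sz c)) (fun i => nomatch i)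
        (δ := fun _ => Pi.single (Sum.inl v) 1) (S := fun _ i _ x => x (.inl v) i)
        fun _ i => homFn_coord (ι := fun c => Fin (sz c)) (Sum.inl v) i⟩
    · obtain ⟨d, hd⟩ := hEl ρ G.1 G.2
      let δ : Option (Fin 2) → Fin 2 ⊕ Bool → ℕ := fun o =>
        Option.elim o (Pi.single (Sum.inr ρ) 1) fun i => Pi.single (Sum.inl i) 1
      refine ⟨_, hd.subst (τ := PEmpty.{1}) (ι := fun c => Fin (sz c)) (fun i => nomatch i)
        (δ := δ) (S := fun o i _ x => linkPt (fun i => x (.inl i)) (x (.inr ρ)) o i) fun o i => ?_⟩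
      rcases o with _ | c
      · exact homFn_coord (ι := fun c => Fin (sz c)) (Sum.inr ρ) i
      · exact homFn_coord (ι := fun c => Fin (sz c)) (Sum.inl c) i
  obtain ⟨C, hC⟩ := exists_finset_not_congr F hhom fun x hx => by
    by_contra! hall
    have hg : ∀ v : Fin 2, x (.inl v) ≠ 0 ∧ L.Good (x (.inl v)) := fun v =>
      ⟨hx _, (hgood _).2 fun G hG => hall (.inl (v, ⟨G, hG⟩))⟩
    have hl : ∀ ρ, L.Link 2 (cls ρ) (fun i => x (.inl i)) (x (.inr ρ)) := fun ρ =>
      (hlinkeq ρ _ _).2 fun G hG => hall (.inr ⟨ρ, G, hG⟩)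
    obtain ⟨a, ha, hasum⟩ := L.class_of_link hg (hx _) (hl true)
    obtain ⟨b, hb, hbsum⟩ := L.class_of_link hg (hx _) (hl false)
    rw [show a = b from funext fun i => L.rep_unique (ha i) (hb i)] at hasum
    exact hT (hbsum.symm.trans hasum)
  obtain ⟨S, hS⟩ := exists_primes_forall_mem C
  refine ⟨S, fun q hq A hA σ hσ hσK y hy => ?_⟩
  obtain ⟨hdec, hσA⟩ := FLTA.Galois.mem_inertiaSubgroupIn_iff.1 hσ
  -- a primitive vector of `y`, one of `-y`, and the two auxiliary vectors
  obtain ⟨a₀, ha₀⟩ := L.exists_rep y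
  obtain ⟨b₀, hb₀⟩ := L.exists_rep (-y)
  obtain ⟨ta, hta, haA, haU⟩ := exists_smul_primitive A (L.rep_ne_zero ha₀)
  obtain ⟨tb, htb, hbA, hbU⟩ := exists_smul_primitive A (L.rep_ne_zero hb₀)
  have ha := L.rep_smul hta ha₀
  have hb := L.rep_smul htb hb₀
  set a := ta • a₀ with hadef
  set b := tb • b₀ with hbdef
  have hσa := hequiv σ hσK a y ha
  let σa : Fin L.N → Qbar := fun i => σ (a i)
  let ab : Bool → Fin 2 → Fin L.N → Qbar := fun ρ => bif ρ then ![a, b] else ![σa, b]
  let xs : Bool → Fin 2 → J := fun ρ => bif ρ then ![y, -y] else ![σ • y, -y]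
  have hrep : ∀ ρ i, L.Rep (ab ρ i) (xs ρ i) := fun ρ i => by
    cases ρ <;> fin_cases i
    · exact hσa
    · exact hb
    · exact ha
    · exact hb
  choose u₀ hu₀ hlink₀ using fun ρ => L.exists_link (c := cls ρ) (hrep ρ) (by
    rw [Fin.sum_univ_two]
    cases ρ
    · simp [xs, cls, ← hy, sub_eq_add_neg]
    · simp [xs, cls])
  choose tu htu huA huU using fun ρ => exists_smul_primitive A (hu₀ ρ)
  have hlink : ∀ ρ, L.Link 2 (cls ρ) (ab ρ) (tu ρ • u₀ ρ) := fun ρ => by
    simpa using L.link_smul (hlink₀ ρ) (fun _ => 1) (tu ρ)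
  -- the true zeros
  let pt : (Fin 2 → Fin L.N → Qbar) → ∀ c, Fin (sz c) → Qbar :=
    fun v c => match c with | .inl i => v i | .inr ρ => tu ρ • u₀ ρ
  refine hC A (hS q hq A hA) (pt ![a, b]) (fun c => ?_) (fun c => ?_) ?_
  · rcases c with i | ρ
    · fin_cases i
      · exact haA
      · exact hbA
    · exact huA ρ
  · rcases c with i | ρ
    · fin_cases i
      · exact haU
      · exact hbU
    · exact huU ρ
  have hclose : ∀ ρ c i, A.valuation (pt ![a, b] c i - pt (ab ρ) c i) < 1 := by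
    intro ρ c i
    rcases c with l | ρ'
    · cases ρ <;> fin_cases l
      · show A.valuation (a i - σ (a i)) < 1
        rw [Valuation.map_sub_swap]
        exact (A.mem_nonunits_iff).1 (hσA _ (haA i))
      all_goals simp [pt, ab]
    · simp [pt]
  -- each equation holds at one of the two congruent points
  rintro (⟨v, G⟩ | ⟨ρ, G⟩)
  · exact ⟨pt ![a, b], fun c i => by simp,
      (hgood _).1 (L.rep_good (hrep true v)) G.1 G.2⟩
  · exact ⟨pt (ab ρ), hclose ρ, (hlinkeq ρ _ _).1 (hlink ρ) G.1 G.2⟩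

/-- A vector and an automorphism fixing its coordinates fix the class. -/
theorem LinkData.smul_eq_of_fixed {K₀ : IntermediateField ℚ Qbar}
    (hequiv : ∀ σ ∈ K₀.fixingSubgroup, ∀ a x, L.Rep a x →
      L.Rep (fun i => σ (a i)) (σ • x))
    {a : Fin L.N → Qbar} {x : J} (h : L.Rep a x) {σ : GQ} (hσ : σ ∈ K₀.fixingSubgroup)
    (hfix : ∀ i, σ (a i) = a i) : σ • x = x := by
  have h1 := hequiv σ hσ a x h
  rw [funext hfix] at h1
  exact L.rep_unique h1 h

omit [DistribMulAction GQ J] in
theorem exists_adjoin_finite (C : Set Qbar) (hC : C.Finite) (K₀ : IntermediateField ℚ Qbar)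
    [FiniteDimensional ℚ K₀] :
    ∃ K : IntermediateField ℚ Qbar, FiniteDimensional ℚ K ∧ K₀ ≤ K ∧ ∀ a ∈ C, a ∈ K := by
  have : Finite C := hC
  have : FiniteDimensional ℚ (IntermediateField.adjoin ℚ C) :=
    IntermediateField.finiteDimensional_adjoin fun x _ =>
      ((AlgebraicClosure.isAlgebraic ℚ).isAlgebraic x).isIntegral
  exact ⟨K₀ ⊔ IntermediateField.adjoin ℚ C, IntermediateField.finiteDimensional_sup _ _,
    le_sup_left, fun a ha =>
      (le_sup_right : _ ≤ K₀ ⊔ IntermediateField.adjoin ℚ C) (IntermediateField.subset_adjoin ℚ C ha)⟩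

/-- The weak Mordell–Weil theorem: over some number field, the rational classes modulo doubling
form a finite group. -/
theorem LinkData.exists_finiteIndex_two (hdiv : ∀ x : J, ∃ y : J, (2 : ℕ) • y = x)
    (hfin : {x : J | (2 : ℕ) • x = 0}.Finite) (K₀ : IntermediateField ℚ Qbar)
    [FiniteDimensional ℚ K₀]
    (hequiv : ∀ σ ∈ K₀.fixingSubgroup, ∀ a x, L.Rep a x →
      L.Rep (fun i => σ (a i)) (σ • x)) :
    ∃ K : IntermediateField ℚ Qbar, FiniteDimensional ℚ K ∧ K₀ ≤ K ∧
      (nsmulAddMonoidHom (α := FixedPoints.addSubgroup K.fixingSubgroup J) 2).range.FiniteIndex := by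
  classical
  choose rep hrep using L.exists_rep
  -- the field: the two-torsion is rational
  obtain ⟨K, hKfin, hK₀, hKmem⟩ := exists_adjoin_finite
    (⋃ T ∈ {x : J | (2 : ℕ) • x = 0}, Set.range (rep T))
    (hfin.biUnion fun T _ => Set.finite_range _) K₀
  refine ⟨K, hKfin, hK₀, ?_⟩
  have hK0H : K.fixingSubgroup ≤ K₀.fixingSubgroup := IntermediateField.fixingSubgroup_antitone hK₀
  have htors : ∀ T : J, (2 : ℕ) • T = 0 → ∀ σ ∈ K.fixingSubgroup, σ • T = T := fun T hT σ hσ =>
    L.smul_eq_of_fixed hequiv (hrep T) (hK0H hσ) fun i =>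
      (IntermediateField.mem_fixingSubgroup_iff K σ).1 hσ _
        (hKmem _ (Set.mem_biUnion hT ⟨i, rfl⟩))
  -- the primes
  have hS : ∀ T : J, T ≠ 0 → ∃ S : Finset Nat.Primes, ∀ q : Nat.Primes, q ∉ S →
      ∀ A : ValuationSubring Qbar, A.LiesOverPrime (q : ℕ) → ∀ σ ∈ A.inertiaSubgroupIn ℚ,
        σ ∈ K₀.fixingSubgroup → ∀ y : J, σ • y - y ≠ T :=
    fun T hT => L.exists_primes_inertia_eq T hT K₀ hequiv
  choose S hS using hS
  obtain ⟨SK, hSK⟩ := FLTA.Galois.exists_isUnramifiedOutside K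
  let Sall : Finset Nat.Primes :=
    SK ∪ (hfin.toFinset.erase 0).attach.biUnion fun T => S T.1 (Finset.ne_of_mem_erase T.2)
  -- a half of a rational class moves by two-torsion
  have hmove : ∀ (y : J), (∀ σ ∈ K.fixingSubgroup, σ • ((2 : ℕ) • y) = (2 : ℕ) • y) →
      ∀ σ ∈ K.fixingSubgroup, (2 : ℕ) • (σ • y - y) = 0 := fun y hy σ hσ => by
    rw [smul_sub, two_nsmul (σ • y), ← smul_add σ y y, ← two_nsmul, hy σ hσ, sub_self]
  -- the bound on the degree
  let H : Subgroup GQ := K.fixingSubgroup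
  obtain ⟨Lbd, hLu, -, hLbd⟩ := FLTA.Galois.exists_isUnramifiedOutside_bound Sall
    (Module.finrank ℚ K * hfin.toFinset.card)
  have hlevel : ∀ y : J, (∀ σ ∈ H, σ • ((2 : ℕ) • y) = (2 : ℕ) • y) →
      ∀ σ ∈ Lbd.fixingSubgroup, σ • y = y := by
    intro y hy
    let U : Subgroup GQ := H ⊓ MulAction.stabilizer GQ y
    obtain ⟨K', hK'fin, hKK', hK'mem⟩ := exists_adjoin_finite
      (Set.range (rep y)) (Set.finite_range _) K
    have hK'U : K'.fixingSubgroup ≤ U := fun σ hσ =>
      ⟨IntermediateField.fixingSubgroup_antitone hKK' hσ, L.smul_eq_of_fixed hequiv (hrep y)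
        (hK0H (IntermediateField.fixingSubgroup_antitone hKK' hσ)) fun i =>
          (IntermediateField.mem_fixingSubgroup_iff K' σ).1 hσ _ (hK'mem _ ⟨i, rfl⟩)⟩
    obtain ⟨E, hEu, hE⟩ := FLTA.Galois.exists_isUnramifiedOutside_of_inertia_le (S := Sall) U hK'U
      fun q hq A hA σ hσ => by
        have hσH : σ ∈ H := hSK.2 q (fun h => hq (Finset.mem_union_left _ h)) A hA hσ
        refine ⟨hσH, MulAction.mem_stabilizer_iff.2 ?_⟩
        by_contra hne
        have h0 : σ • y - y ≠ 0 := sub_ne_zero.2 hne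
        have hmem : σ • y - y ∈ hfin.toFinset.erase 0 :=
          Finset.mem_erase.2 ⟨h0, hfin.mem_toFinset.2 (hmove y hy σ hσH)⟩
        exact hS _ h0 q (fun h => hq (Finset.mem_union_right _ (Finset.mem_biUnion.2
          ⟨⟨_, hmem⟩, Finset.mem_attach _ _, h⟩))) A hA σ hσ (hK0H hσH) y rfl
    have hdeg : Module.finrank ℚ E ≤ Module.finrank ℚ K * hfin.toFinset.card := by
      rw [IntermediateField.finrank_eq_fixingSubgroup_index Qbar E, hE,
        IntermediateField.finrank_eq_fixingSubgroup_index Qbar K,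
        ← Subgroup.relIndex_mul_index (inf_le_left : U ≤ H), mul_comm]
      refine Nat.mul_le_mul_left _ ?_
      rw [Subgroup.relIndex, Subgroup.index]
      have hU : U.subgroupOf H = MulAction.stabilizer H y := by
        ext σ
        simp [U, Subgroup.mem_subgroupOf, MulAction.mem_stabilizer_iff, Subgroup.smul_def]
      rw [hU, ← Nat.card_congr (MulAction.orbitEquivQuotientStabilizer H y)]
      have hsub : MulAction.orbit H y ⊆
          (fun T => T + y) '' {x : J | (2 : ℕ) • x = 0} := by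
        rintro - ⟨σ, rfl⟩
        exact ⟨_, hmove y hy σ.1 σ.2, sub_add_cancel _ _⟩
      have hfin' : ((fun T => T + y) '' {x : J | (2 : ℕ) • x = 0}).Finite := hfin.image _
      refine (Nat.card_mono hfin' hsub).trans ?_
      rw [Nat.card_image_of_injective (fun a b h => add_right_cancel h),
        Nat.card_coe_set_eq, Set.ncard_eq_toFinset_card _ hfin]
    intro σ hσ
    have h1 := IntermediateField.fixingSubgroup_antitone (hLbd E hEu hdeg) hσ
    rw [hE] at h1
    exact h1.2
  -- finitely many values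
  have := hLu.1
  let M : Subgroup H := Lbd.fixingSubgroup.subgroupOf H
  have : Lbd.fixingSubgroup.FiniteIndex := ⟨by
    rw [← IntermediateField.finrank_eq_fixingSubgroup_index Qbar Lbd]
    exact Module.finrank_pos.ne'⟩
  let G := FixedPoints.addSubgroup K.fixingSubgroup J
  choose half hhalf using fun x : G => hdiv x.1
  have hfix : ∀ x : G, ∀ σ ∈ H, σ • ((2 : ℕ) • half x) = (2 : ℕ) • half x := fun x σ hσ => by
    rw [hhalf x]
    exact x.2 ⟨σ, hσ⟩
  -- a class is determined by the moves at representatives modulo `M`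
  choose r hr using fun c : H ⧸ M => QuotientGroup.mk_surjective c
  have : Finite {x : J | (2 : ℕ) • x = 0} := hfin.to_subtype
  have : Finite (H ⧸ M) := Subgroup.finite_quotient_of_finiteIndex
  let Θ : G ⧸ (nsmulAddMonoidHom (α := G) 2).range →
      (H ⧸ M → {x : J | (2 : ℕ) • x = 0}) := fun c i =>
    ⟨((r i : H) : GQ) • half c.out - half c.out, hmove _ (hfix c.out) _ (r i).2⟩
  have hΘ : Function.Injective Θ := by
    intro c c' hcc
    rw [← QuotientAddGroup.out_eq' c, ← QuotientAddGroup.out_eq' c']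
    set x := c.out with hx
    set x' := c'.out with hx'
    have hd : ∀ σ : H, σ • (half x - half x') = half x - half x' := by
      intro σ
      set i : H ⧸ M := QuotientGroup.mk σ with hi
      obtain ⟨m, hm⟩ : ∃ m : M, r i = σ * (m : H) := by
        have h1 : (QuotientGroup.mk (r i) : H ⧸ M) = QuotientGroup.mk σ := hr i
        exact ⟨⟨σ⁻¹ * r i, QuotientGroup.eq.1 h1.symm⟩, by simp⟩
      have h1 : ((r i : H) : GQ) • half x - half x = ((r i : H) : GQ) • half x' - half x' :=
        congrArg Subtype.val (congrFun hcc i)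
      rw [hm] at h1
      simp only [Subgroup.coe_mul, mul_smul] at h1
      have hm2 : (((m : H)) : GQ) ∈ Lbd.fixingSubgroup := Subgroup.mem_subgroupOf.1 m.2
      rw [hlevel _ (hfix x) _ hm2, hlevel _ (hfix x') _ hm2] at h1
      rw [Subgroup.smul_def, smul_sub]
      linear_combination (norm := abel_nf) h1
    refine (QuotientAddGroup.eq (s := (nsmulAddMonoidHom (α := G) 2).range)).2
      ⟨-⟨half x - half x', hd⟩, ?_⟩
    refine Subtype.ext ?_
    simp only [nsmulAddMonoidHom_apply, smul_neg, AddSubgroup.coe_add, NegMemClass.coe_neg,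
      AddSubgroupClass.coe_nsmul, smul_sub, hhalf]
    abel
  have := Finite.of_injective Θ hΘ
  exact AddSubgroup.finiteIndex_of_finite_quotient

end FLTA.MordellWeil
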