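import Fermat.Agent.MordellWeil.RelData
import Fermat.Agent.MordellWeil.CurvePoints
import Fermat.Agent.MordellWeil.Divisible
import Fermat.Agent.MordellWeil.WeakMW
import Fermat.Agent.MordellWeil.HeightMW

/-!
# Divisibility and Mordell–Weil for a curve
-/

set_option autoImplicit false

noncomputable section

open AlgebraicCurve

namespace FLTA.MordellWeil

variable {k F : Type*} [Field k] [Field F] [Algebra k F] [IsAlgClosed k] [IsCurveOver k F]
variable [Curves.IsFunctionField k F]

/-- The group of classes of degree zero is divisible. -/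
theorem pic0_exists_nsmul_eq [CharZero k] (O : Place k F) {q : ℕ} (hq : 0 < q)
    (hfin : {x : Pic0 k F | q • x = 0}.Finite) (x : Pic0 k F) : ∃ y : Pic0 k F, q • y = x := by
  have hm : 4 * genusFF k F + 2 ≤ 4 * genusFF k F + 2 := le_rfl
  have he : 2 * genusFF k F + 1 ≤ 2 * genusFF k F + 1 := le_rfl
  obtain ⟨d, v, hv⟩ := exists_isCoords O
    ((4 * genusFF k F + 2 + (2 * genusFF k F + 1) : ℕ) : ℤ) (rdim k F (4 * genusFF k F + 2))
  have := infinite_pt O
  exact (relData O hm he hv).exists_nsmul_eq hq hfin (ptClass O)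
    (fun S hS => closure_ptClass_sub O S hS) (fun c => exists_curve_map O hm he hv c) x

local notation "Qbar" => AlgebraicClosure ℚ

/-- The Mordell–Weil theorem for a curve over `ℚ̄` with a Galois action. -/
theorem pic0_fixed_fg {F : Type*} [Field F] [Algebra Qbar F] [IsCurveOver Qbar F]
    [Curves.IsFunctionField Qbar F] {O : Place Qbar F} (S : GalSetting O)
    [DistribMulAction (Qbar ≃ₐ[ℚ] Qbar) (Pic0 Qbar F)]
    (hact : ∀ (σ : Qbar ≃ₐ[ℚ] Qbar) (x : Pic0 Qbar F), σ • x = S.ρ σ • x)
    (L : IntermediateField ℚ Qbar) [FiniteDimensional ℚ L] :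
    AddGroup.FG (FixedPoints.addSubgroup L.fixingSubgroup (Pic0 Qbar F)) := by
  have hm : 4 * genusFF Qbar F + 2 ≤ 4 * genusFF Qbar F + 2 := le_rfl
  have he : 2 * genusFF Qbar F + 1 ≤ 2 * genusFF Qbar F + 1 := le_rfl
  let N : ℤ := ((4 * genusFF Qbar F + 2 + (2 * genusFF Qbar F + 1) : ℕ) : ℤ)
  -- a field over which the coordinates are rational
  let b := Module.finBasis Qbar (lMul O N)
  choose Lf hLfin hLfix using fun i => S.smooth (b i : F)
  let K₀ : IntermediateField ℚ Qbar := L ⊔ ⨆ i, Lf i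
  have : FiniteDimensional ℚ (⨆ i, Lf i : IntermediateField ℚ Qbar) :=
    IntermediateField.finiteDimensional_iSup_of_finite
  have : FiniteDimensional ℚ K₀ := IntermediateField.finiteDimensional_sup _ _
  have hbfix : ∀ σ ∈ K₀.fixingSubgroup, ∀ i, S.ρ σ • (b i : F) = b i := fun σ hσ i =>
    hLfix i σ (IntermediateField.fixingSubgroup_antitone
      ((le_iSup Lf i).trans le_sup_right) hσ)
  obtain ⟨d, v, hv, hvfix⟩ := exists_isCoords_fixed O N (rdim Qbar F (4 * genusFF Qbar F + 2))
    (S.ρ '' (K₀.fixingSubgroup : Set (Qbar ≃ₐ[ℚ] Qbar)))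
    (by rintro g ⟨σ, -, rfl⟩; exact S.fix σ) fun f hf => by
      have h1 := congrArg Subtype.val (b.sum_repr ⟨f, hf⟩)
      simp only [AddSubmonoidClass.coe_finsetSum, SetLike.val_smul] at h1
      rw [← h1]
      refine sum_mem fun i _ => Submodule.smul_mem _ _ (Submodule.subset_span ⟨(b i).2, ?_⟩)
      rintro g ⟨σ, hσ, rfl⟩
      exact hbfix σ hσ i
  have hequiv : ∀ σ ∈ K₀.fixingSubgroup, ∀ a x, (relData O hm he hv).Rep a x →
      (relData O hm he hv).Rep (fun i => σ (a i)) (σ • x) := by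
    intro σ hσ a x h
    have h1 := IsRep.semilinear (S.ρ σ) (S.fix σ) (show IsRep O _ _ (vec v a) x from h)
    rw [smulFn_vec (S.ρ σ) (S.fix σ) fun i => hvfix _ ⟨σ, hσ, rfl⟩ i, ← hact] at h1
    simp only [S.base] at h1
    exact h1
  obtain ⟨K, hK, hK₀, hfi⟩ := (relData O hm he hv).exists_finiteIndex_two
    (fun x => pic0_exists_nsmul_eq O (by norm_num) (finite_two_torsion O) x)
    (finite_two_torsion O) K₀ hequiv
  have hfg := fg_fixed_of_finiteIndex S hact K hfi
  -- a subgroup of a finitely generated group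
  have hle : FixedPoints.addSubgroup L.fixingSubgroup (Pic0 Qbar F) ≤
      FixedPoints.addSubgroup K.fixingSubgroup (Pic0 Qbar F) := fun x hx σ =>
    hx ⟨σ.1, IntermediateField.fixingSubgroup_antitone (le_sup_left.trans hK₀) σ.2⟩
  have : Module.Finite ℤ (FixedPoints.addSubgroup K.fixingSubgroup (Pic0 Qbar F)) :=
    Module.Finite.iff_addGroup_fg.2 hfg
  have : IsNoetherian ℤ (FixedPoints.addSubgroup K.fixingSubgroup (Pic0 Qbar F)) :=
    isNoetherian_of_isNoetherianRing_of_finite ℤ _
  exact Module.Finite.iff_addGroup_fg.1 (Module.Finite.of_injective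
    (AddSubgroup.inclusion hle).toIntLinearMap (AddSubgroup.inclusion_injective hle))

end FLTA.MordellWeil
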