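import Fermat.Agent.MordellWeil.Sections

/-!
# Determinants of values, and classes outside translates of the theta divisor
-/

set_option autoImplicit false

noncomputable section

open AlgebraicCurve

namespace FLTA.MordellWeil

variable {k F : Type*} [Field k] [Field F] [Algebra k F] [IsAlgClosed k] [IsCurveOver k F]
variable [Curves.IsFunctionField k F]

theorem adicValuation_le_one_of_mem {D : Divisor k F} {f : F} (hf : f ∈ riemannRochSpace D)
    {v : Place k F} (hv : D v ≤ 0) : v.adicValuation f ≤ 1 := by
  have := hf v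
  refine this.trans ?_
  rw [← WithZero.exp_zero, WithZero.exp_le_exp]
  exact hv

/-- Evaluation of `L(D)` at a place outside the positive part of `D`. -/
def evR (D : Divisor k F) (v : Place k F) (hv : D v ≤ 0) : riemannRochSpace D →ₗ[k] k where
  toFun f := ev v (f : F)
  map_add' f g := ev_add (adicValuation_le_one_of_mem f.2 hv) (adicValuation_le_one_of_mem g.2 hv)
  map_smul' c f := ev_smul c (adicValuation_le_one_of_mem f.2 hv)

theorem evR_apply (D : Divisor k F) (v : Place k F) (hv : D v ≤ 0) (f : riemannRochSpace D) :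
    evR D v hv f = ev v (f : F) := rfl

variable {O : Place k F} {r : ℕ}

/-- The values of a basis of `L(D)` at distinct points outside `supp D` are degenerate exactly when
some non-zero section vanishes at all these points. -/
theorem det_ev_eq_zero_iff {s : Fin r → F} {D : Divisor k F} (hs : IsBasisOf s D)
    (P : Fin r → Place k F) (hP : Function.Injective P) (hD : ∀ j, D (P j) = 0) :
    (Matrix.of fun i j => ev (P j) (s i)).det = 0 ↔
      riemannRochSpace (D - ∑ j, Finsupp.single (P j) (1 : ℤ)) ≠ ⊥ := by
  classical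
  rw [← Matrix.exists_vecMul_eq_zero_iff, Submodule.ne_bot_iff]
  have hev : ∀ (c : Fin r → k) j,
      ev (P j) (∑ i, c i • s i) = Matrix.vecMul c (Matrix.of fun i j => ev (P j) (s i)) j := by
    intro c j
    have := map_sum (evR D (P j) (hD j).le)
      (fun i => c i • (⟨s i, hs.mem i⟩ : riemannRochSpace D)) Finset.univ
    simp only [map_smul, evR_apply, AddSubmonoidClass.coe_finsetSum, SetLike.val_smul,
      smul_eq_mul] at this
    rw [this]
    rfl
  have hS : ∀ v, (D - ∑ j, Finsupp.single (P j) (1 : ℤ) : Divisor k F) v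
      = D v - if ∃ j, P j = v then 1 else 0 := by
    intro v
    rw [Finsupp.sub_apply, Finsupp.finsetSum_apply]
    congr 1
    split_ifs with h
    · obtain ⟨j, rfl⟩ := h
      rw [Finset.sum_eq_single j (fun b _ hb => Finsupp.single_eq_of_ne (a := P b)
        (fun e => hb (hP e.symm))) (by simp), Finsupp.single_eq_same]
    · push Not at h
      exact Finset.sum_eq_zero fun j _ => Finsupp.single_eq_of_ne (a := P j) (h j).symm
  constructor
  · rintro ⟨c, hc, hzero⟩
    refine ⟨∑ i, c i • s i, ?_, fun h => hc (funext (Fintype.linearIndependent_iff.1 hs.1 c h))⟩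
    have hmem : ∑ i, c i • s i ∈ riemannRochSpace D :=
      sum_mem fun i _ => Submodule.smul_mem _ _ (hs.mem i)
    rw [mem_riemannRochSpace_iff]
    intro v
    rw [hS]
    have h0 := mem_riemannRochSpace_iff.1 hmem v
    split_ifs with h
    · obtain ⟨j, rfl⟩ := h
      have := hev c j
      rw [hzero, Pi.zero_apply, ev_eq_zero_iff (adicValuation_le_one_of_mem hmem (hD j).le)] at this
      have hj := hD j
      rcases this with h' | h' <;> [exact Or.inl h'; exact Or.inr (by omega)]
    · simpa using h0
  · rintro ⟨f, hf, hf0⟩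
    have hfD : f ∈ riemannRochSpace D :=
      Curves.riemannRochSpace_mono (sub_le_self _ (Finset.sum_nonneg fun j _ =>
        Finsupp.single_nonneg.2 zero_le_one)) hf
    obtain ⟨c, rfl⟩ := hs.exists_eq_sum hfD
    refine ⟨c, fun h => hf0 (by simp [h]), funext fun j => ?_⟩
    rw [← hev, Pi.zero_apply, ev_eq_zero_iff (adicValuation_le_one_of_mem hfD (hD j).le)]
    refine Or.inr ?_
    have := (mem_riemannRochSpace_iff.1 hf (P j)).resolve_left hf0
    rw [hS, if_pos ⟨j, rfl⟩, hD j] at this
    omega

omit [Curves.IsFunctionField k F] in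
theorem mk_eq_zero_of_ne_bot (A : Divisor.degZero (K := k) (F := F))
    (h : riemannRochSpace (A : Divisor k F) ≠ ⊥) : Pic0.mk A = 0 := by
  obtain ⟨f, hf, hf0⟩ := (Submodule.ne_bot_iff _).1 h
  have h1 := (Curves.mem_riemannRochSpace_iff_add_nonneg hf0).1 hf
  have h2 : Divisor.degree (Curves.divFn (K := k) f + (A : Divisor k F)) = 0 := by
    rw [map_add, Curves.degree_divFn, Divisor.mem_degZero.1 A.2, add_zero]
  have h3 : Curves.divFn (K := k) f + (A : Divisor k F) = 0 := by
    classical
    rw [Curves.degree_eq_sum, Finsupp.sum] at h2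
    ext v
    have := (Finset.sum_eq_zero_iff_of_nonneg fun w _ => Finsupp.le_def.1 h1 w).1 h2 v
    by_cases hv : v ∈ (Curves.divFn (K := k) f + (A : Divisor k F)).support
    · exact this hv
    · simpa using hv
  refine (QuotientAddGroup.eq_zero_iff A).2 ?_
  rw [AddSubgroup.mem_addSubgroupOf, Divisor.mem_principal]
  refine ⟨f⁻¹, inv_ne_zero hf0, fun v => ?_⟩
  have := DFunLike.congr_fun h3 v
  rw [Finsupp.add_apply, Curves.divFn_apply, Finsupp.zero_apply] at this
  rw [v.ord_inv]
  omega

/-- For finitely many non-trivial classes there is an effective divisor of degree `g - 1` moving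
all of them off the theta divisor. -/
theorem exists_avoid_theta {ι : Type*} [Fintype ι] [Nonempty ι]
    (A : ι → Divisor.degZero (K := k) (F := F)) (hA : ∀ i, Pic0.mk (A i) ≠ 0) :
    1 ≤ genusFF k F ∧ ∃ E : Divisor k F, 0 ≤ E ∧ Divisor.degree E = (genusFF k F : ℤ) - 1 ∧
      ∀ i, riemannRochSpace ((A i : Divisor k F) + E) = ⊥ := by
  classical
  have h0 : ∀ i, riemannRochSpace (A i : Divisor k F) = ⊥ := fun i =>
    not_not.1 fun h => hA i (mk_eq_zero_of_ne_bot _ h)
  have hdeg : ∀ i, Divisor.degree (A i : Divisor k F) = 0 := fun i => Divisor.mem_degZero.1 (A i).2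
  have hg : 1 ≤ genusFF k F := by
    by_contra hg
    obtain ⟨i⟩ := ‹Nonempty ι›
    have := Curves.riemann_inequality (A i : Divisor k F)
    rw [hdeg i, Curves.ell, h0 i, finrank_bot] at this
    omega
  refine ⟨hg, ?_⟩
  obtain ⟨W, hWdeg, hW⟩ := Curves.exists_canonical (K := k) (F := F)
  suffices H : ∀ d : ℕ, (d : ℤ) ≤ (genusFF k F : ℤ) - 1 → ∃ E : Divisor k F, 0 ≤ E ∧
      Divisor.degree E = (d : ℤ) ∧ ∀ i, riemannRochSpace ((A i : Divisor k F) + E) = ⊥ by
    obtain ⟨E, h1, h2, h3⟩ := H (genusFF k F - 1) (by omega)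
    exact ⟨E, h1, by omega, h3⟩
  intro d
  induction d with
  | zero => exact fun _ => ⟨0, le_rfl, by simp, fun i => by rw [add_zero, h0]⟩
  | succ d ih =>
    intro hd
    obtain ⟨E, hE0, hEdeg, hE⟩ := ih (by omega)
    have hpos : ∀ i, ∃ f ∈ riemannRochSpace (W - ((A i : Divisor k F) + E)), f ≠ 0 := by
      intro i
      have h1 := Curves.riemannRoch ((A i : Divisor k F) + E)
      rw [hW, map_add, hdeg i, hEdeg, Curves.ell, hE i, finrank_bot] at h1
      have : 0 < Curves.ell (W - ((A i : Divisor k F) + E)) := by omega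
      obtain ⟨⟨f, hf⟩, hne⟩ := Module.finrank_pos_iff_exists_ne_zero.1 this
      exact ⟨f, hf, fun e => hne (Subtype.ext e)⟩
    choose f hf hf0 using hpos
    obtain ⟨O₁⟩ := Curves.IsFunctionField.exists_place (K := k) (F := F)
    have := infinite_pt O₁
    have : Infinite (Place k F) := Infinite.of_injective _ (Subtype.val_injective (p := fun v => v ≠ O₁))
    obtain ⟨P, hP⟩ := Infinite.exists_notMem_finset (Finset.univ.biUnion fun i =>
      (Curves.divFn (K := k) (f i) + (W - ((A i : Divisor k F) + E))).support)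
    simp only [Finset.mem_biUnion, Finset.mem_univ, true_and, Finsupp.mem_support_iff,
      not_exists, not_not] at hP
    refine ⟨E + Finsupp.single P 1, add_nonneg hE0 (Finsupp.single_nonneg.2 zero_le_one),
      by rw [map_add, hEdeg, degree_single_one]; push_cast; ring, fun i => ?_⟩
    by_contra hne
    have h1 := Curves.riemannRoch ((A i : Divisor k F) + (E + Finsupp.single P 1))
    have h2 := Curves.riemannRoch ((A i : Divisor k F) + E)
    rw [hW, map_add, map_add, hdeg i, hEdeg, degree_single_one] at h1
    rw [hW, map_add, hdeg i, hEdeg, Curves.ell, hE i, finrank_bot] at h2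
    have h3 : 0 < Curves.ell ((A i : Divisor k F) + (E + Finsupp.single P 1)) := by
      obtain ⟨x, hx, hx0⟩ := (Submodule.ne_bot_iff _).1 hne
      exact Module.finrank_pos_iff_exists_ne_zero.2 ⟨⟨x, hx⟩, fun e => hx0 (congrArg Subtype.val e)⟩
    have hsub : riemannRochSpace (W - ((A i : Divisor k F) + (E + Finsupp.single P 1)))
        ≤ riemannRochSpace (W - ((A i : Divisor k F) + E)) := by
      refine Curves.riemannRochSpace_mono ?_
      refine Finsupp.le_def.2 fun v => ?_
      simp only [Finsupp.sub_apply, Finsupp.add_apply, Finsupp.single_apply]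
      split_ifs <;> omega
    have heq := Submodule.eq_of_le_of_finrank_le hsub (by unfold Curves.ell at *; omega)
    have h4 := (mem_riemannRochSpace_iff.1 (heq ▸ hf i) P).resolve_left (hf0 i)
    have h5 := hP i
    rw [Finsupp.sub_apply, Finsupp.add_apply, Finsupp.add_apply, Finsupp.single_eq_same] at h4
    rw [Finsupp.add_apply, Finsupp.sub_apply, Finsupp.add_apply, Curves.divFn_apply] at h5
    omega

end FLTA.MordellWeil
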