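import Fermat.Agent.MordellWeil.Decomp

/-!
# Base divisors of spaces of slices
-/

set_option autoImplicit false

noncomputable section

open AlgebraicCurve

namespace FLTA.MordellWeil

variable {k F : Type*} [Field k] [Field F] [Algebra k F] [IsAlgClosed k] [IsCurveOver k F]
variable [Curves.IsFunctionField k F] (O : Place k F) {r : ℕ}

theorem eq_zero_of_nonneg_of_degree_nonpos {D : Divisor k F} (h : 0 ≤ D)
    (hd : Divisor.degree D ≤ 0) : D = 0 := by
  classical
  rw [Curves.degree_eq_sum, Finsupp.sum] at hd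
  have h2 := le_antisymm hd (Finset.sum_nonneg fun w _ => Finsupp.le_def.1 h w)
  ext v
  by_cases hv : v ∈ D.support
  · exact (Finset.sum_eq_zero_iff_of_nonneg fun w _ => Finsupp.le_def.1 h w).1 h2 v hv
  · simpa using hv

/-- The base divisor of finitely many sections of `L(N O)`. -/
theorem exists_baseDivisor [NeZero r] {N : ℤ} {w : Fin r → F} (hw : ∀ i, w i ∈ lMul O N)
    (hw0 : ∀ i, w i ≠ 0) :
    ∃ X : Divisor k F, 0 ≤ X ∧ (∀ i, w i ∈ riemannRochSpace (Finsupp.single O N - X)) ∧
      ∀ v, ∃ i, w i ∉ riemannRochSpace (Finsupp.single O N - X - Finsupp.single v 1) := by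
  classical
  let E : Fin r → Divisor k F := fun i => Curves.divFn (w i) + Finsupp.single O N
  have hne : (Finset.univ : Finset (Fin r)).Nonempty := Finset.univ_nonempty
  let X : Divisor k F := Finset.univ.inf' hne E
  have hX : ∀ v, ∃ i, X v = E i v := by
    intro v
    have h := Finset.apply_inf'_eq_inf'_comp hne (fun D : Divisor k F => D v)
      (fun f g => Finsupp.inf_apply f g v) (f := E)
    obtain ⟨i, -, hi⟩ := Finset.exists_mem_eq_inf' hne ((fun D : Divisor k F => D v) ∘ E)
    exact ⟨i, h.trans hi⟩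
  refine ⟨X, ?_, fun i => ?_, fun v => ?_⟩
  · exact Finset.le_inf' _ _ fun i _ =>
      (Curves.mem_riemannRochSpace_iff_add_nonneg (hw0 i)).1 (hw i)
  · rw [Curves.mem_riemannRochSpace_iff_add_nonneg (hw0 i), ← add_sub_assoc, sub_nonneg]
    exact Finset.inf'_le _ (Finset.mem_univ i)
  · obtain ⟨i, hi⟩ := hX v
    refine ⟨i, Curves.notMem_sub_single (hw0 i) ?_⟩
    rw [Finsupp.sub_apply, hi, Finsupp.add_apply, Curves.divFn_apply]
    ring

/-- The base divisor of `r = dim L(m O)` independent sections of `L((m+e) O)` has degree at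
most `e`. -/
theorem degree_baseDivisor_le {m e : ℕ} (hm : 4 * genusFF k F + 2 ≤ m)
    {w : Fin (rdim k F m) → F} (hi : LinearIndependent k w) {X : Divisor k F}
    (hw : ∀ i, w i ∈ riemannRochSpace (Finsupp.single O ((m + e : ℕ) : ℤ) - X)) :
    Divisor.degree X ≤ (e : ℤ) := by
  set A := Finsupp.single O ((m + e : ℕ) : ℤ) - X with hA
  have hdA : Divisor.degree A = ((m + e : ℕ) : ℤ) - Divisor.degree X := by
    rw [hA, map_sub, degree_single_one]
  have hli : LinearIndependent k fun i => (⟨w i, hw i⟩ : riemannRochSpace A) :=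
    LinearIndependent.of_comp (riemannRochSpace A).subtype hi
  have h1 : rdim k F m ≤ Curves.ell A := by
    simpa [Curves.ell] using hli.fintype_card_le_finrank
  unfold rdim at h1
  by_contra! hlt
  rcases lt_or_ge (Divisor.degree A) 0 with hneg | hpos
  · rw [Curves.ell_eq_zero_of_degree_neg hneg] at h1
    omega
  · by_cases hbig : 2 * (genusFF k F : ℤ) - 2 < Divisor.degree A
    · have := Curves.ell_eq_of_two_mul_genusFF_sub_two_lt hbig
      omega
    · have := Curves.ell_le_degree_add_one (D := A)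
      omega

/-- For a linear functional `φ` not vanishing on the rows, `φ` of the slice is a non-zero element
of `tFun`. -/
theorem exists_slice_functional {r : ℕ} {N : ℤ} (hN : 0 ≤ N) {w : Fin (r + 1) → F}
    (hw : ∀ i, w i ∈ lMul O N) (hi : LinearIndependent k w) (φ : F →ₗ[k] k) {i₁ : Fin (r + 1)}
    (hφ : φ (w i₁) ≠ 0) :
    ∃ ψ : (Fin (r + 1) → Pt O) → k, ψ ∈ tFun O N (r + 1) ∧ ψ ≠ 0 ∧ ∀ U, ∃ g : F,
      g ∈ Submodule.span k (Set.range w) ∧ φ g = ψ U ∧
        ∀ p, detFun O w (Function.update U 0 p) = ev p.1 g := by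
  classical
  let ψ : (Fin (r + 1) → Pt O) → k := fun U =>
    Matrix.cramer (Matrix.of fun l m => ev (U m).1 (w l)) (fun l => φ (w l)) 0
  refine ⟨ψ, ?_, ?_, fun U => ?_⟩
  · have h1 : (1 : F) ∈ lMul O N := mem_riemannRochSpace_iff.2 fun v => Or.inr (by
      rw [Place.ord_one, Finsupp.single_apply]
      split_ifs <;> omega)
    have e : ψ = ∑ σ : Equiv.Perm (Fin (r + 1)),
        (((Equiv.Perm.sign σ : ℤ) : k) * φ (w (σ 0))) •
          prodEv O (fun j => if j = 0 then 1 else w (σ j)) := by
      funext U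
      simp only [ψ, Matrix.cramer_apply, Matrix.det_apply', Finset.sum_apply, Pi.smul_apply,
        smul_eq_mul, prodEv]
      refine Finset.sum_congr rfl fun σ _ => ?_
      rw [Fin.prod_univ_succ, Fin.prod_univ_succ]
      simp [Matrix.updateCol_apply, Fin.succ_ne_zero, mul_assoc]
    rw [e]
    exact sum_mem fun σ _ => Submodule.smul_mem _ _
      (prodEv_mem O fun j => by split_ifs <;> [exact h1; exact hw _])
  · obtain ⟨P, hP⟩ := exists_det_ne_zero _ (linearIndependent_ev O hw hi)
    set M := Matrix.of fun l m => ev (P m).1 (w l) with hM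
    have hu : IsUnit M.det := Ne.isUnit hP
    obtain ⟨j, hj⟩ : ∃ j, Matrix.cramer M (fun l => φ (w l)) j ≠ 0 := by
      by_contra! hall
      have h := Matrix.mulVec_cramer M (fun l => φ (w l))
      rw [show Matrix.cramer M (fun l => φ (w l)) = 0 from funext hall, Matrix.mulVec_zero] at h
      have := congrFun h i₁
      simp [hu.ne_zero, hφ] at this
    intro hz
    apply hj
    rw [Matrix.cramer_apply]
    have h0 := congrFun hz (P ∘ Equiv.swap 0 j)
    simp only [ψ, Matrix.cramer_apply, Pi.zero_apply] at h0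
    have e : (Matrix.of fun l m => ev ((P ∘ Equiv.swap 0 j) m).1 (w l)).updateCol 0
          (fun l => φ (w l))
        = (M.updateCol j fun l => φ (w l)).submatrix id (Equiv.swap 0 j) := by
      ext l m
      simp only [Matrix.updateCol_apply, Matrix.submatrix_apply, id, Equiv.swap_apply_def,
        Matrix.of_apply, Function.comp_apply, hM]
      split_ifs with h1 h2 h3 <;> simp_all
    rw [e, Matrix.det_permute'] at h0
    refine (mul_eq_zero.1 h0).resolve_left ?_
    rcases Int.units_eq_one_or (Equiv.Perm.sign (Equiv.swap (0 : Fin (r + 1)) j)) with h | h <;>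
      simp [h]
  · refine ⟨∑ l, Matrix.cramer (Matrix.of fun l m => ev (U m).1 (w l)) (Pi.single l 1) 0 • w l,
      sum_mem fun l _ => Submodule.smul_mem _ _ (Submodule.subset_span ⟨l, rfl⟩), ?_, fun p => ?_⟩
    · show _ = Matrix.cramer _ (fun l => φ (w l)) 0
      conv_rhs => rw [pi_eq_sum_univ' (fun l => φ (w l)), map_sum]
      simp only [map_sum, map_smul, Finset.sum_apply, Pi.smul_apply, smul_eq_mul]
      exact Finset.sum_congr rfl fun l _ => mul_comm _ _
    · rw [detFun_update, ev_linearCombination O Finset.univ hw]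

theorem exists_slice_functional' [hr : NeZero r] {N : ℤ} (hN : 0 ≤ N) {w : Fin r → F}
    (hw : ∀ i, w i ∈ lMul O N) (hi : LinearIndependent k w) (φ : F →ₗ[k] k) {i₁ : Fin r}
    (hφ : φ (w i₁) ≠ 0) :
    ∃ ψ : (Fin r → Pt O) → k, ψ ∈ tFun O N r ∧ ψ ≠ 0 ∧ ∀ U, ∃ g : F,
      g ∈ Submodule.span k (Set.range w) ∧ φ g = ψ U ∧
        ∀ p, detFun O w (Function.update U 0 p) = ev p.1 g := by
  obtain ⟨r', rfl⟩ := Nat.exists_eq_succ_of_ne_zero hr.out
  exact exists_slice_functional O hN hw hi φ hφ

end FLTA.MordellWeil
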