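import Fermat.Agent.MordellWeil.Cone

/-!
# The Kummer image is cut out by multihomogeneous equations

`IsWitness n e a b u z` is the conjunction of equations which are multihomogeneous in the four
blocks `a`, `b` (level `n + e`), `u` (in `L(2 e O)`) and `z`.
-/

set_option autoImplicit false

noncomputable section

open AlgebraicCurve

namespace FLTA.MordellWeil

variable {k F : Type*} [Field k] [Field F] [Algebra k F] [IsAlgClosed k] [IsCurveOver k F]
variable [Curves.IsFunctionField k F] (O : Place k F)

/-- The equations: `a`, `b` are decomposable and `z * u ⊗ ⋯ ⊗ u` is proportional to `a * b`. -/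
def IsWitness {r : ℕ} (a b : (Fin r → Pt O) → k) (u : F) (z : (Fin r → Pt O) → k) : Prop :=
  IsAlt O a ∧ IsAlt O b ∧ IsLowRank O a ∧ IsLowRank O b ∧
    ∀ P Q : Fin r → Pt O,
      z P * (∏ j, ev (P j).1 u) * (a Q * b Q) = z Q * (∏ j, ev (Q j).1 u) * (a P * b P)

end FLTA.MordellWeil
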