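import Fermat.Agent.MordellWeil.BaseDivisor

/-!
# The Kummer vectors are exactly the vectors with a witness
-/

set_option autoImplicit false

noncomputable section

open AlgebraicCurve

namespace FLTA.MordellWeil

variable {k F : Type*} [Field k] [Field F] [Algebra k F] [IsAlgClosed k] [IsCurveOver k F]
variable [Curves.IsFunctionField k F] (O : Place k F)

theorem exists_witness [CharZero k] {m e : ℕ} (hm : 4 * genusFF k F + 2 ≤ m)
    (he : 2 * genusFF k F + 1 ≤ e) {x : Pic0 k F} {z} (h : IsKummer O m x z) :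
    ∃ (a b : (Fin (rdim k F m) → Pt O) → k) (u : F),
      a ∈ tFun O (m + e : ℕ) _ ∧ b ∈ tFun O (m + e : ℕ) _ ∧ u ∈ lMul O (2 * e : ℕ) ∧
        a ≠ 0 ∧ b ≠ 0 ∧ u ≠ 0 ∧ IsWitness O a b u z := by
  obtain ⟨D, s, s', c, -, hs, hs', hc, rfl⟩ := h
  have hD : Divisor.degree (D : Divisor k F) = 0 := Divisor.mem_degZero.1 D.2
  have hex : ∀ A : Divisor k F, Divisor.degree A = 0 →
      ∃ f : F, f ≠ 0 ∧ f ∈ riemannRochSpace (Finsupp.single O (e : ℤ) + A) := fun A hA => by
    have := Curves.riemann_inequality (Finsupp.single O (e : ℤ) + A)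
    rw [map_add, degree_single_one, hA] at this
    have : 0 < Curves.ell (Finsupp.single O (e : ℤ) + A) := by omega
    obtain ⟨⟨f, hf⟩, hne⟩ := Module.finrank_pos_iff_exists_ne_zero.1 this
    exact ⟨f, fun e => hne (Subtype.ext e), hf⟩
  obtain ⟨f₁, hf₁0, hf₁⟩ := hex (-(D : Divisor k F)) (by rw [map_neg, hD, neg_zero])
  obtain ⟨f₂, hf₂0, hf₂⟩ := hex (D : Divisor k F) hD
  have hu : f₁ * f₂ ∈ lMul O ((2 * e : ℕ) : ℤ) := by
    have := Curves.mul_mem_riemannRochSpace hf₁ hf₂
    rwa [show Finsupp.single O (e : ℤ) + -(D : Divisor k F) + (Finsupp.single O (e : ℤ) + D)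
      = Finsupp.single O ((2 * e : ℕ) : ℤ) by
        rw [show Finsupp.single O (e : ℤ) + -(D : Divisor k F) + (Finsupp.single O (e : ℤ) + D)
          = Finsupp.single O (e : ℤ) + Finsupp.single O (e : ℤ) by abel, ← Finsupp.single_add]
        congr 1; push_cast; ring] at this
  have ha : ∀ i, f₁ * s i ∈ lMul O ((m + e : ℕ) : ℤ) := fun i => by
    have := Curves.mul_mem_riemannRochSpace hf₁ (hs.mem i)
    rwa [show Finsupp.single O (e : ℤ) + -(D : Divisor k F) + (Finsupp.single O (m : ℤ) + D)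
      = Finsupp.single O ((m + e : ℕ) : ℤ) by
        rw [show Finsupp.single O (e : ℤ) + -(D : Divisor k F) + (Finsupp.single O (m : ℤ) + D)
          = Finsupp.single O (m : ℤ) + Finsupp.single O (e : ℤ) by abel, ← Finsupp.single_add]
        congr 1] at this
  have hb : ∀ i, f₂ * s' i ∈ lMul O ((m + e : ℕ) : ℤ) := fun i => by
    have := Curves.mul_mem_riemannRochSpace hf₂ (hs'.mem i)
    rwa [show Finsupp.single O (e : ℤ) + (D : Divisor k F) + (Finsupp.single O (m : ℤ) - D)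
      = Finsupp.single O ((m + e : ℕ) : ℤ) by
        rw [show Finsupp.single O (e : ℤ) + (D : Divisor k F) + (Finsupp.single O (m : ℤ) - D)
          = Finsupp.single O (m : ℤ) + Finsupp.single O (e : ℤ) by abel, ← Finsupp.single_add]
        congr 1] at this
  have key := phiFun_mul_prodEv (O := O) ha hb hu fun i l => mul_mem_lMul_two (hs.mem i) (hs'.mem l)
  refine ⟨detFun O fun i => f₁ * s i, detFun O fun i => f₂ * s' i, f₁ * f₂, detFun_mem O ha,
    detFun_mem O hb, hu, ?_, ?_, mul_ne_zero hf₁0 hf₂0, detFun_isAlt O, detFun_isAlt O,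
    detFun_isLowRank O, detFun_isLowRank O, fun P Q => ?_⟩
  · exact detFun_ne_zero O ha (hs.1.map' (LinearMap.mulLeft k f₁)
      (LinearMap.ker_eq_bot.2 fun x y e => mul_left_cancel₀ hf₁0 e))
  · exact detFun_ne_zero O hb (hs'.1.map' (LinearMap.mulLeft k f₂)
      (LinearMap.ker_eq_bot.2 fun x y e => mul_left_cancel₀ hf₂0 e))
  · have hP := congrFun key P
    have hQ := congrFun key Q
    simp only [Pi.mul_apply, prodEv] at hP hQ
    rw [← hP, ← hQ, Pi.smul_apply, Pi.smul_apply, smul_eq_mul, smul_eq_mul]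
    ring

theorem isKummer_of_witness [CharZero k] {m e : ℕ} (hm : 4 * genusFF k F + 2 ≤ m)
    (he : 2 * genusFF k F + 1 ≤ e) {a b z : (Fin (rdim k F m) → Pt O) → k} {u : F}
    (ha : a ∈ tFun O (m + e : ℕ) _) (hb : b ∈ tFun O (m + e : ℕ) _)
    (hu : u ∈ lMul O (2 * e : ℕ)) (hz : z ∈ tFun O (2 * m : ℕ) _)
    (ha0 : a ≠ 0) (hb0 : b ≠ 0) (hu0 : u ≠ 0) (hz0 : z ≠ 0) (h : IsWitness O a b u z) :
    ∃ x, IsKummer O m x z := by
  classical
  obtain ⟨halta, haltb, hlowa, hlowb, hrel⟩ := h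
  have : NeZero (rdim k F m) := ⟨by unfold rdim; omega⟩
  have hN : (0 : ℤ) ≤ ((m + e : ℕ) : ℤ) := Int.natCast_nonneg _
  obtain ⟨wa, ca, hwai, hwas, hca, hae⟩ := exists_eq_smul_detFun O ha halta hlowa ha0
  obtain ⟨wb, cb, hwbi, hwbs, hcb, hbe⟩ := exists_eq_smul_detFun O hb haltb hlowb hb0
  have hwa : ∀ i, wa i ∈ lMul O ((m + e : ℕ) : ℤ) := fun i =>
    slices_le O _ a (hwas ▸ Submodule.subset_span ⟨i, rfl⟩)
  have hwb : ∀ i, wb i ∈ lMul O ((m + e : ℕ) : ℤ) := fun i =>
    slices_le O _ b (hwbs ▸ Submodule.subset_span ⟨i, rfl⟩)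
  set Ua := prodEv O (fun _ : Fin (rdim k F m) => u) with hUa
  have hUmem : Ua ∈ tFun O ((2 * e : ℕ) : ℤ) _ := prodEv_mem O fun _ => hu
  have hU0 : Ua ≠ 0 := by
    have := infinite_pt O
    obtain ⟨p, hp⟩ : ∃ p : Pt O, ev p.1 u ≠ 0 := by
      by_contra! hall
      exact hu0 (eq_zero_of_infinite_ev_eq_zero O hu Set.infinite_univ fun p _ => hall p)
    exact fun e => Finset.prod_ne_zero_iff.2 (fun _ _ => hp) (congrFun e fun _ => p)
  set A := detFun O wa
  set B := detFun O wb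
  obtain ⟨κ, hκ0, hκ⟩ : ∃ κ : k, κ ≠ 0 ∧ A * B = κ • (z * Ua) := by
    obtain ⟨Q, -, hQ⟩ := exists_forall_ne_zero O (ι := Bool)
      (z := fun i => bif i then z * Ua else A * B)
      (a := fun i => bif i then ((2 * m : ℕ) : ℤ) + ((2 * e : ℕ) : ℤ)
        else ((m + e : ℕ) : ℤ) + ((m + e : ℕ) : ℤ))
      (Bool.forall_bool.2 ⟨mul_mem_tFun O (detFun_mem O hwa) (detFun_mem O hwb),
        mul_mem_tFun O hz hUmem⟩)
      (Bool.forall_bool.2 ⟨mul_ne_zero_tFun O (detFun_mem O hwa) (detFun_mem O hwb)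
        (detFun_ne_zero O hwa hwai) (detFun_ne_zero O hwb hwbi),
        mul_ne_zero_tFun O hz hUmem hz0 hU0⟩) Set.finite_empty
    have h1 : (z * Ua) Q ≠ 0 := hQ true
    have h2 : (A * B) Q ≠ 0 := hQ false
    refine ⟨(A * B) Q / (z * Ua) Q, div_ne_zero h2 h1, funext fun P => ?_⟩
    have h3 := hrel P Q
    rw [hae, hbe] at h3
    have h4 : (z * Ua) P * (A * B) Q = (z * Ua) Q * (A * B) P := by
      simp only [Pi.smul_apply, smul_eq_mul] at h3
      simp only [Pi.mul_apply, hUa, prodEv]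
      refine mul_left_cancel₀ (mul_ne_zero hca hcb) ?_
      linear_combination h3
    rw [Pi.smul_apply, smul_eq_mul]
    field_simp
    linear_combination -h4
  obtain ⟨Xa, hXa0, hXam, hXaat⟩ := exists_baseDivisor O hwa fun i => hwai.ne_zero i
  obtain ⟨Xb, hXb0, hXbm, hXbat⟩ := exists_baseDivisor O hwb fun i => hwbi.ne_zero i
  have hda := degree_baseDivisor_le O hm hwai hXam
  have hdb := degree_baseDivisor_le O hm hwbi hXbm
  set Eu : Divisor k F := Curves.divFn u + Finsupp.single O ((2 * e : ℕ) : ℤ) with hEu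
  have hEudeg : Divisor.degree Eu = ((2 * e : ℕ) : ℤ) := by
    rw [hEu, map_add, Curves.degree_divFn, degree_single_one, zero_add]
  have hle : Eu ≤ Xa + Xb := by
    refine Finsupp.le_def.2 fun v => ?_
    obtain ⟨ia, hia⟩ := hXaat v
    obtain ⟨ib, hib⟩ := hXbat v
    obtain ⟨φa, hφa, hφa'⟩ := Submodule.exists_le_ker_of_notMem hia
    obtain ⟨φb, hφb, hφb'⟩ := Submodule.exists_le_ker_of_notMem hib
    obtain ⟨ψa, hψam, hψa0, hψa⟩ := exists_slice_functional' O hN hwa hwai φa hφa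
    obtain ⟨ψb, hψbm, hψb0, hψb⟩ := exists_slice_functional' O hN hwb hwbi φb hφb
    obtain ⟨U, -, hU⟩ := exists_forall_ne_zero O (ι := Option Bool)
      (z := fun i => i.elim Ua fun j => bif j then ψa else ψb)
      (a := fun i => i.elim ((2 * e : ℕ) : ℤ) fun j => bif j then _ else _)
      (Option.forall.2 ⟨hUmem, Bool.forall_bool.2 ⟨hψbm, hψam⟩⟩)
      (Option.forall.2 ⟨hU0, Bool.forall_bool.2 ⟨hψb0, hψa0⟩⟩) Set.finite_empty
    have hUu : (∏ l, ev (U l).1 u) ≠ 0 := hU none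
    have hψaU : ψa U ≠ 0 := hU (some true)
    have hψbU : ψb U ≠ 0 := hU (some false)
    have hUv : ∀ j, ev (U j).1 u ≠ 0 := fun j =>
      Finset.prod_ne_zero_iff.1 hUu j (Finset.mem_univ j)
    obtain ⟨g, hg, hgφ, hgev⟩ := hψa U
    obtain ⟨g', hg', hgφ', hgev'⟩ := hψb U
    obtain ⟨v₀, hv₀, hv₀e⟩ := exists_update_slice O hz 0 U
    set ρ : k := κ * ∏ j ∈ Finset.univ.erase 0, ev (U j).1 u with hρdef
    have hρ : ρ ≠ 0 :=
      mul_ne_zero hκ0 (Finset.prod_ne_zero_iff.2 fun j _ => hUv j)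
    have hgN : g ∈ lMul O ((m + e : ℕ) : ℤ) :=
      Submodule.span_le.2 (Set.range_subset_iff.2 hwa) hg
    have hgN' : g' ∈ lMul O ((m + e : ℕ) : ℤ) :=
      Submodule.span_le.2 (Set.range_subset_iff.2 hwb) hg'
    have hga : g ∈ riemannRochSpace (Finsupp.single O ((m + e : ℕ) : ℤ) - Xa) :=
      Submodule.span_le.2 (Set.range_subset_iff.2 hXam) hg
    have hgb : g' ∈ riemannRochSpace (Finsupp.single O ((m + e : ℕ) : ℤ) - Xb) :=
      Submodule.span_le.2 (Set.range_subset_iff.2 hXbm) hg'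
    have hgout : g ∉ riemannRochSpace
        (Finsupp.single O ((m + e : ℕ) : ℤ) - Xa - Finsupp.single v 1) := fun hmem =>
      hψaU (by rw [← hgφ]; exact LinearMap.mem_ker.1 (hφa' hmem))
    have hgout' : g' ∉ riemannRochSpace
        (Finsupp.single O ((m + e : ℕ) : ℤ) - Xb - Finsupp.single v 1) := fun hmem =>
      hψbU (by rw [← hgφ']; exact LinearMap.mem_ker.1 (hφb' hmem))
    obtain ⟨hg0, hgord⟩ := Curves.ord_eq_of_notMem_sub_single hga hgout
    obtain ⟨hg0', hgord'⟩ := Curves.ord_eq_of_notMem_sub_single hgb hgout'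
    have h2mem : ∀ {x y : F} {i l : ℕ}, x ∈ lMul O (i : ℤ) → y ∈ lMul O (l : ℤ) →
        i + l = 2 * (m + e) → x * y ∈ lMul O ((2 * (m + e) : ℕ) : ℤ) := fun hx hy hil => by
      have := Curves.mul_mem_riemannRochSpace hx hy
      rwa [← Finsupp.single_add, ← Nat.cast_add, hil] at this
    have huv : u * v₀ ∈ lMul O ((2 * (m + e) : ℕ) : ℤ) := h2mem hu hv₀ (by ring)
    have hprod : g * g' = ρ • (u * v₀) := by
      refine eq_of_forall_ev_eq O (h2mem hgN hgN' (by ring))
        (Submodule.smul_mem _ ρ huv) fun p => ?_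
      have h1 : A (Function.update U 0 p) * B (Function.update U 0 p)
          = κ * (z (Function.update U 0 p) * Ua (Function.update U 0 p)) :=
        congrFun hκ (Function.update U 0 p)
      rw [show A (Function.update U 0 p) = ev p.1 g from hgev p,
        show B (Function.update U 0 p) = ev p.1 g' from hgev' p, hv₀e p] at h1
      have h5 : Ua (Function.update U 0 p)
          = ev p.1 u * ∏ j ∈ Finset.univ.erase 0, ev (U j).1 u := by
        rw [hUa, prodEv, ← Finset.mul_prod_erase _ _ (Finset.mem_univ (0 : Fin (rdim k F m))),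
          Function.update_self]
        congr 1
        exact Finset.prod_congr rfl fun j hj => by
          rw [Function.update_of_ne (Finset.ne_of_mem_erase hj)]
      rw [ev_mul (adicValuation_le_one_of_mem_lMul O hgN p)
          (adicValuation_le_one_of_mem_lMul O hgN' p),
        ev_smul _ (adicValuation_le_one_of_mem_lMul O huv p),
        ev_mul (adicValuation_le_one_of_mem_lMul O hu p)
          (adicValuation_le_one_of_mem_lMul O hv₀ p), h1, h5, hρdef]
      ring
    have hv₀0 : v₀ ≠ 0 := fun hz' => mul_ne_zero hg0 hg0' (by simp [hprod, hz'])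
    have hord := congrArg v.ord hprod
    rw [v.ord_mul hg0 hg0', hgord, hgord', Algebra.smul_def,
      v.ord_mul (by simpa using hρ) (mul_ne_zero hu0 hv₀0), Curves.ord_algebraMap_eq_zero,
      v.ord_mul hu0 hv₀0, Finsupp.sub_apply, Finsupp.sub_apply] at hord
    have hv1 := (mem_riemannRochSpace_iff.1 hv₀ v).resolve_left hv₀0
    rw [hEu, Finsupp.add_apply, Finsupp.add_apply, Curves.divFn_apply]
    simp only [Finsupp.single_apply] at hord hv1 ⊢
    split_ifs at hord hv1 ⊢ <;> push_cast at * <;> omega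
  have h1 := Curves.degree_mono hle
  rw [hEudeg, map_add] at h1
  have hXadeg : Divisor.degree Xa = (e : ℤ) := by push_cast at h1; omega
  have hXbdeg : Divisor.degree Xb = (e : ℤ) := by push_cast at h1; omega
  have hXab : Xa + Xb = Eu := by
    refine (sub_eq_zero.1 (eq_zero_of_nonneg_of_degree_nonpos (sub_nonneg.2 hle) ?_))
    rw [map_sub, map_add, hXadeg, hXbdeg, hEudeg]
    push_cast; omega
  have hbas : ∀ (X : Divisor k F) (w : Fin (rdim k F m) → F), LinearIndependent k w →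
      Divisor.degree X = (e : ℤ) →
      (∀ i, w i ∈ riemannRochSpace (Finsupp.single O ((m + e : ℕ) : ℤ) - X)) →
      IsBasisOf w (Finsupp.single O ((m + e : ℕ) : ℤ) - X) := fun X w hwi hX hw => by
    refine ⟨hwi, Submodule.eq_of_le_of_finrank_le (Submodule.span_le.2
      (Set.range_subset_iff.2 hw)) ?_⟩
    rw [finrank_span_eq_card hwi, Fintype.card_fin, finrank_eq_rdim (n := m) (by omega)]
    rw [map_sub, degree_single_one, hX]
    push_cast; ring
  have hD : Finsupp.single O (e : ℤ) - Xa ∈ Divisor.degZero (K := k) (F := F) := by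
    rw [Divisor.mem_degZero, map_sub, degree_single_one, hXadeg, sub_self]
  have hbs : IsBasisOf wa (Finsupp.single O (m : ℤ) + (Finsupp.single O (e : ℤ) - Xa)) :=
    (hbas Xa wa hwai hXadeg hXam).congr (by push_cast; rw [Finsupp.single_add]; abel)
  have hbs' : IsBasisOf (fun i => u⁻¹ * wb i)
      (Finsupp.single O (m : ℤ) - (Finsupp.single O (e : ℤ) - Xa)) := by
    refine ((hbas Xb wb hwbi hXbdeg hXbm).mul (inv_ne_zero hu0)).congr ?_
    have hinv : Curves.divFn (K := k) u⁻¹ = -Curves.divFn u := by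
      ext v
      rw [Finsupp.neg_apply, Curves.divFn_apply, Curves.divFn_apply, v.ord_inv]
    have hu' : Curves.divFn (K := k) u = Xa + Xb - Finsupp.single O ((2 * e : ℕ) : ℤ) := by
      rw [hXab, hEu, add_sub_cancel_right]
    rw [hinv, hu']
    push_cast
    rw [two_mul, Finsupp.single_add, Finsupp.single_add]
    abel
  have key := phiFun_mul_prodEv (O := O) (h := 1) (h' := u) (a := ((m + e : ℕ) : ℤ))
    (b := ((m + e : ℕ) : ℤ)) (fun i => by simpa using hwa i)
    (fun i => by rw [← mul_assoc, mul_inv_cancel₀ hu0, one_mul]; exact hwb i)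
    (by simpa using hu) fun i l => mul_mem_lMul_two (hbs.mem i) (hbs'.mem l)
  simp only [one_mul, ← mul_assoc, mul_inv_cancel₀ hu0] at key
  rw [show detFun O (fun i => wa i) = A from rfl, show detFun O (fun i => wb i) = B from rfl, hκ,
    ← hUa] at key
  refine ⟨Pic0.mk ⟨_, hD⟩, ⟨_, hD⟩, wa, _, κ⁻¹, rfl, hbs, hbs', inv_ne_zero hκ0, ?_⟩
  rw [eq_inv_smul_iff₀ hκ0]
  by_contra hne
  refine mul_ne_zero_tFun O hUmem (sub_mem (Submodule.smul_mem _ κ hz)
    (phiFun_mem fun i l => mul_mem_lMul_two (hbs.mem i) (hbs'.mem l)))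
    hU0 (sub_ne_zero.2 hne) ?_
  rw [mul_sub, key, mul_smul_comm, mul_comm Ua, sub_self]

end FLTA.MordellWeil
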