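import Fermat.Agent.MordellWeil.Kummer

/-!
# Alternating functions of low rank on tuples of points
-/

set_option autoImplicit false

noncomputable section

open AlgebraicCurve

namespace FLTA.MordellWeil

variable {k F : Type*} [Field k] [Field F] [Algebra k F] [IsAlgClosed k] [IsCurveOver k F]
variable (O : Place k F)

/-- Exchanging two entries changes the sign. -/
def IsAlt {r : ℕ} (a : (Fin r → Pt O) → k) : Prop :=
  ∀ (i j : Fin r) (P : Fin r → Pt O), i ≠ j → a (P ∘ Equiv.swap i j) = -a P

/-- Any `r + 1` slices in one slot are linearly dependent. -/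
def IsLowRank {r : ℕ} (a : (Fin r → Pt O) → k) : Prop :=
  ∀ (i₀ : Fin r) (U : Fin (r + 1) → Fin r → Pt O) (p : Fin (r + 1) → Pt O),
    (Matrix.of fun i j => a (Function.update (U i) i₀ (p j))).det = 0

end FLTA.MordellWeil
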