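import Fermat.Agent.MordellWeil.Slices

/-!
# A non-zero alternating function of low rank is a determinant of values
-/

set_option autoImplicit false

noncomputable section

open AlgebraicCurve

namespace FLTA.MordellWeil

section Abstract

variable {k α : Type*} [Field k] {R : ℕ} {W : Fin R → α → k}

/-- If every slice lies in the span of the `W l`, the function is a combination of products. -/
theorem exists_eq_sum_prod (hW : LinearIndependent k W) [IsAlgClosed k] {r : ℕ}
    (a : (Fin r → α) → k)
    (h : ∀ (i : Fin r) (P : Fin r → α), ∃ γ : Fin R → k,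
      ∀ p, a (Function.update P i p) = ∑ l, γ l * W l p) :
    ∃ c : (Fin r → Fin R) → k, ∀ P, a P = ∑ J : Fin r → Fin R, c J * ∏ j, W (J j) (P j) := by
  classical
  obtain ⟨q, hq⟩ := exists_det_ne_zero W hW
  induction r with
  | zero =>
    refine ⟨fun _ => a Fin.elim0, fun P => ?_⟩
    rw [Subsingleton.elim P Fin.elim0]
    simp
  | succ r ih =>
    set M := Matrix.of fun l m => W l (q m) with hM
    let b : Fin R → (Fin r → α) → k := fun l U => ∑ m, a (Fin.cons (q m) U) * M⁻¹ m l
    have hb : ∀ (p : α) (U : Fin r → α), a (Fin.cons p U) = ∑ l, b l U * W l p := by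
      intro p U
      obtain ⟨γ, hγ⟩ := h 0 (Fin.cons p U)
      have e : ∀ p', a (Fin.cons p' U) = ∑ l, γ l * W l p' := fun p' => by
        rw [← hγ p', Fin.update_cons_zero]
      have hbl : (fun l => b l U) = γ := by
        have h1 : (fun m => a (Fin.cons (q m) U)) = Matrix.vecMul γ M := funext fun m => e _
        have h2 : (fun l => b l U) = Matrix.vecMul (fun m => a (Fin.cons (q m) U)) M⁻¹ := rfl
        rw [h2, h1, Matrix.vecMul_vecMul, Matrix.mul_nonsing_inv _ (Ne.isUnit hq),
          Matrix.vecMul_one]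
      rw [e p, ← hbl]
    have hih : ∀ l, ∃ c : (Fin r → Fin R) → k,
        ∀ U, b l U = ∑ J : Fin r → Fin R, c J * ∏ j, W (J j) (U j) := by
      intro l
      refine ih (b l) fun i U => ?_
      choose γ hγ using fun m : Fin R => h i.succ (Fin.cons (q m) U)
      refine ⟨fun t => ∑ m, γ m t * M⁻¹ m l, fun p => ?_⟩
      simp only [b, Fin.cons_update, hγ, Finset.sum_mul]
      rw [Finset.sum_comm]
      exact Finset.sum_congr rfl fun t _ => Finset.sum_congr rfl fun m _ => by ring
    choose c hc using hih
    refine ⟨fun J => c (J 0) (Fin.tail J), fun P => ?_⟩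
    rw [← Fin.cons_self_tail P, hb]
    simp only [hc, Finset.sum_mul]
    rw [← Fintype.sum_prod_type']
    refine Fintype.sum_equiv (Fin.consEquiv fun _ => Fin R) _ _ fun x => ?_
    rw [show Fin.tail ((Fin.consEquiv fun _ => Fin R) x) = x.2 from funext fun j => by simp [Fin.tail, Fin.consEquiv_apply]]
    simp only [Fin.consEquiv_apply, Fin.cons_zero, Fin.prod_univ_succ, Fin.cons_succ]
    ring

/-- An alternating combination of products is a multiple of the determinant. -/
theorem exists_eq_mul_det_of_alt [CharZero k] (a : (Fin R → α) → k)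
    (c : (Fin R → Fin R) → k)
    (hc : ∀ P, a P = ∑ J : Fin R → Fin R, c J * ∏ j, W (J j) (P j))
    (halt : ∀ (i j : Fin R) (P : Fin R → α), i ≠ j → a (P ∘ Equiv.swap i j) = -a P) :
    ∃ C : k, ∀ P, a P = C * (Matrix.of fun l j => W l (P j)).det := by
  classical
  have hperm : ∀ (σ : Equiv.Perm (Fin R)) (P : Fin R → α),
      a (P ∘ σ) = ((Equiv.Perm.sign σ : ℤ) : k) * a P := by
    intro σ
    induction σ using Equiv.Perm.swap_induction_on with
    | one => simp
    | swap_mul f x y hxy ih =>
      intro P
      rw [show P ∘ ⇑(Equiv.swap x y * f) = (P ∘ Equiv.swap x y) ∘ f from rfl, ih,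
        halt x y P hxy, Equiv.Perm.sign_mul, Equiv.Perm.sign_swap hxy]
      simp
  refine ⟨(Nat.factorial R : k)⁻¹ * ∑ J : Fin R → Fin R, c J *
    (if hJ : Function.Bijective J then ((Equiv.Perm.sign (Equiv.ofBijective J hJ) : ℤ) : k) else 0),
    fun P => ?_⟩
  have hfact : (Nat.factorial R : k) ≠ 0 := Nat.cast_ne_zero.2 (Nat.factorial_ne_zero R)
  rw [mul_assoc, eq_comm, inv_mul_eq_iff_eq_mul₀ hfact]
  have h1 : (Nat.factorial R : k) * a P
      = ∑ σ : Equiv.Perm (Fin R), ((Equiv.Perm.sign σ : ℤ) : k) * a (P ∘ σ) := by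
    simp only [hperm, ← mul_assoc, ← Int.cast_mul, Int.units_coe_mul_self, Int.cast_one, one_mul,
      Finset.sum_const, Finset.card_univ, Fintype.card_perm, Fintype.card_fin, nsmul_eq_mul]
  rw [h1]
  simp only [hc, Finset.mul_sum, Finset.sum_mul]
  rw [Finset.sum_comm (s := (Finset.univ : Finset (Equiv.Perm (Fin R))))]
  refine Finset.sum_congr rfl fun J _ => ?_
  have h2 : ∑ σ : Equiv.Perm (Fin R),
      ((Equiv.Perm.sign σ : ℤ) : k) * (c J * ∏ j, W (J j) ((P ∘ σ) j))
      = c J * (Matrix.of fun l j => W (J l) (P j)).det := by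
    rw [← Matrix.det_transpose, Matrix.det_apply', Finset.mul_sum]
    exact Finset.sum_congr rfl fun σ _ => by
      simp only [Matrix.transpose_apply, Matrix.of_apply, Function.comp_apply]; ring
  rw [h2, mul_assoc]
  congr 1
  split_ifs with hJ
  · rw [show (Matrix.of fun l j => W (J l) (P j))
        = (Matrix.of fun l j => W l (P j)).submatrix (Equiv.ofBijective J hJ) id from rfl,
      Matrix.det_permute]
  · rw [zero_mul, eq_comm]
    obtain ⟨x, y, hxy, hne⟩ : ∃ x y, J x = J y ∧ x ≠ y :=
      Function.not_injective_iff.1 fun h => hJ ⟨h, Finite.injective_iff_surjective.1 h⟩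
    exact Matrix.det_zero_of_row_eq hne (funext fun j => by simp [hxy])

end Abstract

variable {k F : Type*} [Field k] [Field F] [Algebra k F] [IsAlgClosed k] [IsCurveOver k F]
variable [Curves.IsFunctionField k F] (O : Place k F) {r : ℕ} [NeZero r]

/-- A non-zero alternating function of low rank is a multiple of the determinant of a basis of
its space of slices. -/
theorem exists_eq_smul_detFun [CharZero k] {N : ℤ} {a : (Fin r → Pt O) → k}
    (ha : a ∈ tFun O N r) (halt : IsAlt O a) (hlow : IsLowRank O a) (hne : a ≠ 0) :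
    ∃ (w : Fin r → F) (c : k), LinearIndependent k w ∧
      Submodule.span k (Set.range w) = slices O N a ∧ c ≠ 0 ∧ a = c • detFun O w := by
  classical
  have : FiniteDimensional k (slices O N a) :=
    Submodule.finiteDimensional_of_le (slices_le O N a)
  let b := Module.finBasisOfFinrankEq k _ (finrank_slices O ha halt hlow hne)
  let w : Fin r → F := fun i => (b i : F)
  have hw : ∀ i, w i ∈ lMul O N := fun i => slices_le O N a (b i).2
  have hwi : LinearIndependent k w := b.linearIndependent.map' _ (Submodule.ker_subtype _)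
  obtain ⟨c, hc⟩ := exists_eq_sum_prod (linearIndependent_ev O hw hwi) a fun i P => by
    obtain ⟨f, hf, -, hfe⟩ := IsAlt.apply_update_mem O ha halt i P
    refine ⟨fun l => b.repr ⟨f, hf⟩ l, fun p => ?_⟩
    have e := congrArg (fun x : slices O N a => (x : F)) (b.sum_repr ⟨f, hf⟩)
    simp only [AddSubmonoidClass.coe_finsetSum, SetLike.val_smul] at e
    rw [← hfe p]
    conv_lhs => rw [← e]
    exact ev_linearCombination O Finset.univ hw _ p
  obtain ⟨C, hC⟩ := exists_eq_mul_det_of_alt (W := fun l (p : Pt O) => ev p.1 (w l)) a c hc halt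
  refine ⟨w, C, hwi, ?_, fun hz => hne (funext fun P => by simp [hC P, hz]),
    funext fun P => by rw [hC, Pi.smul_apply, smul_eq_mul]; rfl⟩
  rw [show w = (slices O N a).subtype ∘ b from rfl, Set.range_comp, Submodule.span_image,
    b.span_eq, Submodule.map_top, Submodule.range_subtype]

end FLTA.MordellWeil
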