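import Mathlib.RingTheory.Nullstellensatz
import Mathlib.LinearAlgebra.Matrix.Determinant.Basic
import Mathlib.LinearAlgebra.Matrix.NonsingularInverse
import Mathlib.LinearAlgebra.Matrix.ToLinearEquiv
import Mathlib.RingTheory.Valuation.ValuationSubring
import Mathlib.LinearAlgebra.Dimension.Constructions

/-!
# Elimination theory for systems of polynomials homogeneous in blocks of variables

The variables `σ` are partitioned into blocks by `blk : σ → B`.  A point is admissible when it
is nonzero on every block.
-/

set_option autoImplicit false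

noncomputable section

namespace FLTA.MordellWeil

open MvPolynomial

variable {k : Type*} [Field k] {σ B τ J : Type*} (blk : σ → B)

/-- The degree of a monomial in each block. -/
def blockDeg [Fintype σ] [DecidableEq B] (e : σ →₀ ℕ) (b : B) : ℕ :=
  ∑ i with blk i = b, e i

/-- Homogeneous in each block, of multidegree `d`. -/
def IsMultiHom [Fintype σ] [DecidableEq B] {R : Type*} [CommRing R] (f : MvPolynomial σ R)
    (d : B → ℕ) : Prop :=
  ∀ e, coeff e f ≠ 0 → blockDeg blk e = d

/-- A point is admissible when it is nonzero on each block. -/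
def Admissible {R : Type*} [Zero R] (x : σ → R) : Prop :=
  ∀ b, ∃ i, blk i = b ∧ x i ≠ 0

section NS

variable [IsAlgClosed k] [Finite σ] [Fintype B] {blk}

/-- Nullstellensatz for a system without admissible zeros. -/
theorem exists_pow_prod_mem_span (f : J → MvPolynomial σ k)
    (h : ∀ x : σ → k, Admissible blk x → ∃ j, eval x (f j) ≠ 0)
    (s : B → σ) (hs : ∀ b, blk (s b) = b) :
    ∃ N : ℕ, (∏ b, X (s b)) ^ N ∈ Ideal.span (Set.range f) := by
  have : (∏ b, X (s b) : MvPolynomial σ k) ∈
      vanishingIdeal k (zeroLocus k (Ideal.span (Set.range f))) := by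
    rw [mem_vanishingIdeal_iff]
    intro x hx
    by_contra hne
    rw [map_prod] at hne
    replace hne := Finset.prod_ne_zero_iff.mp hne
    obtain ⟨j, hj⟩ := h x fun b => ⟨s b, hs b, by simpa using hne b (Finset.mem_univ b)⟩
    exact hj (by simpa [aeval_eq_eval] using hx (f j) (Ideal.subset_span ⟨j, rfl⟩))
  rw [vanishingIdeal_zeroLocus_eq_radical] at this
  exact this

/-- A uniform version of `exists_pow_prod_mem_span`. -/
theorem exists_pow_prod_mem_span_forall (f : J → MvPolynomial σ k)
    (h : ∀ x : σ → k, Admissible blk x → ∃ j, eval x (f j) ≠ 0) :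
    ∃ N : ℕ, 0 < N ∧ ∀ s : B → σ, (∀ b, blk (s b) = b) →
      (∏ b, X (s b)) ^ N ∈ Ideal.span (Set.range f) := by
  classical
  have := Fintype.ofFinite σ
  choose N hN using fun s : {s : B → σ // ∀ b, blk (s b) = b} =>
    exists_pow_prod_mem_span f h s.1 s.2
  refine ⟨∑ s, N s + 1, Nat.succ_pos _, fun s hs => ?_⟩
  exact Ideal.pow_mem_of_pow_mem _ (hN ⟨s, hs⟩)
    ((Finset.single_le_sum (fun t _ => Nat.zero_le (N t)) (Finset.mem_univ _)).trans
      (Nat.le_succ _))

/-- Outside finitely many coefficients, a system without admissible zeros stays so modulo the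
maximal ideal of a valuation subring. -/
theorem exists_finset_forall_valuation_eq_one (f : J → MvPolynomial σ k)
    (h : ∀ x : σ → k, Admissible blk x → ∃ j, eval x (f j) ≠ 0) :
    ∃ C : Finset k, ∀ A : ValuationSubring k, (↑C : Set k) ⊆ A →
      ∀ x : σ → k, (∀ i, x i ∈ A) → (∀ b, ∃ i, blk i = b ∧ A.valuation (x i) = 1) →
        ∃ j, ¬ A.valuation (eval x (f j)) < 1 := by
  classical
  have := Fintype.ofFinite σ
  obtain ⟨N, hN0, hN⟩ := exists_pow_prod_mem_span_forall f h
  choose c hc using fun s : {s : B → σ // ∀ b, blk (s b) = b} =>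
    Finsupp.mem_span_range_iff_exists_finsupp.mp (hN s.1 s.2)
  refine ⟨Finset.univ.biUnion fun s => (c s).support.biUnion fun j => ((c s j).support.image
    fun e => coeff e (c s j)), fun A hA x hxA hx => ?_⟩
  choose t ht htv using hx
  by_contra! hlt
  have hmem : ∀ s j, eval x (c s j) ∈ A := by
    intro s j
    rw [eval_eq]
    refine sum_mem fun e he => mul_mem (hA ?_) (prod_mem fun i _ => pow_mem (hxA i) _)
    simp only [Finset.coe_biUnion, Finset.coe_image, Set.mem_iUnion, Set.mem_image,
      Finset.mem_coe]
    exact ⟨s, Finset.mem_univ _, j, Finsupp.mem_support_iff.mpr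
      (fun hz => by simp [hz] at he), e, he, rfl⟩
  have heq := congrArg (fun p => A.valuation (eval x p)) (hc ⟨t, ht⟩)
  simp only [map_pow, map_prod, eval_X, htv, Finset.prod_const_one, one_pow] at heq
  rw [Finsupp.sum, map_sum] at heq
  refine absurd heq (ne_of_lt ?_)
  refine Valuation.map_sum_lt _ one_ne_zero fun j _ => ?_
  rw [smul_eq_mul, map_mul, map_mul]
  calc A.valuation (eval x (c ⟨t, ht⟩ j)) * A.valuation (eval x (f j))
      ≤ 1 * A.valuation (eval x (f j)) := by
        gcongr
        exact (A.valuation_le_one_iff _).mpr (hmem _ _)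
    _ < 1 := by rw [one_mul]; exact hlt j

end NS

section Projection

variable [IsAlgClosed k] [Fintype σ] [Fintype B] [DecidableEq B] {blk}

/-- Monomials of multidegree `D`. -/
abbrev MonDeg (blk : σ → B) (D : B → ℕ) : Type _ := {e : σ →₀ ℕ // blockDeg blk e = D}

instance finite_monDeg (D : B → ℕ) : Finite (MonDeg blk D) := by
  classical
  refine Finite.of_injective
    (fun e : MonDeg blk D => fun i : σ => (⟨e.1 i, ?_⟩ : Fin (D (blk i) + 1)))
    fun e e' h => Subtype.ext (Finsupp.ext fun i => Fin.val_eq_of_eq (congrFun h i))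
  rw [Nat.lt_succ_iff, ← congrFun e.2 (blk i), blockDeg]
  exact Finset.single_le_sum (fun j _ => Nat.zero_le (e.1 j))
    (Finset.mem_filter.mpr ⟨Finset.mem_univ _, rfl⟩)

omit [Fintype B] in
theorem exists_le_of_blockDeg {e : σ →₀ ℕ} {D : B → ℕ} {N : ℕ} (he : blockDeg blk e = D)
    (hD : ∀ b, Fintype.card σ * N < D b) (b : B) : ∃ i, blk i = b ∧ N ≤ e i := by
  classical
  by_contra! hlt
  have h1 : blockDeg blk e b ≤ ∑ _i with blk _i = b, N :=
    Finset.sum_le_sum fun i hi => (hlt i (Finset.mem_filter.mp hi).2).le
  rw [Finset.sum_const, smul_eq_mul, he] at h1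
  have := Finset.card_filter_le (Finset.univ : Finset σ) (fun i => blk i = b)
  rw [Finset.card_univ] at this
  have := Nat.mul_le_mul_right N this
  have := hD b
  omega

variable (blk) in
/-- The rows whose rank detects admissible zeros: coefficients of monomial multiples. -/
def rowPoly (f : J → MvPolynomial σ (MvPolynomial τ k)) (D : B → ℕ) (r : J × (σ →₀ ℕ))
    (e : MonDeg blk D) : MvPolynomial τ k :=
  coeff e.1 (monomial r.2 1 * f r.1)

omit [IsAlgClosed k] [Fintype B] in
theorem span_rowPoly_eq_top (f : J → MvPolynomial σ (MvPolynomial τ k)) (z : τ → k)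
    {D : B → ℕ} [Fintype (MonDeg blk D)]
    (hN : ∀ e : MonDeg blk D, monomial e.1 (1 : k) ∈
      Ideal.span (Set.range fun j => (f j).map (eval z))) :
    Submodule.span k (Set.range fun r => fun e => eval z (rowPoly blk f D r e)) = ⊤ := by
  classical
  rw [eq_top_iff, ← (Pi.basisFun k (MonDeg blk D)).span_eq, Submodule.span_le]
  rintro - ⟨e₀, rfl⟩
  obtain ⟨c, hc⟩ := Finsupp.mem_span_range_iff_exists_finsupp.mp (hN e₀)
  have : Pi.basisFun k (MonDeg blk D) e₀ = ∑ j ∈ c.support, ∑ m ∈ (c j).support,
      coeff m (c j) • fun e => eval z (rowPoly blk f D (j, m) e) := by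
    funext e
    simp only [Pi.basisFun_apply, Finset.sum_apply, Pi.smul_apply, smul_eq_mul, rowPoly]
    have h := congrArg (coeff e.1) hc
    rw [Finsupp.sum, coeff_sum, coeff_monomial] at h
    rw [Pi.single_apply]
    refine (?_ : _ = (if e₀.1 = e.1 then (1 : k) else 0)).trans (h.symm.trans ?_)
    · rcases eq_or_ne e e₀ with rfl | hne
      · simp
      · rw [if_neg hne, if_neg fun h => hne (Subtype.ext h).symm]
    refine Finset.sum_congr rfl fun j _ => ?_
    conv_lhs => rw [smul_eq_mul, (c j).as_sum, Finset.sum_mul, coeff_sum]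
    refine Finset.sum_congr rfl fun m _ => ?_
    rw [← coeff_map, map_mul, map_monomial, map_one, ← coeff_C_mul, ← mul_assoc, C_mul_monomial,
      mul_one]
  rw [SetLike.mem_coe, this]
  exact Submodule.sum_mem _ fun j _ => Submodule.sum_mem _ fun m _ =>
    Submodule.smul_mem _ _ (Submodule.subset_span ⟨(j, m), rfl⟩)

/-- The projection to `τ` of the admissible zeros of a system homogeneous in every block is cut
out by polynomials. -/
theorem exists_eq_zeroSet_of_projection (f : J → MvPolynomial σ (MvPolynomial τ k))
    (d : J → B → ℕ) (hf : ∀ j, IsMultiHom blk (f j) (d j)) :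
    ∃ G : Set (MvPolynomial τ k), ∀ z : τ → k,
      (∀ g ∈ G, eval z g = 0) ↔
        ∃ x : σ → k, Admissible blk x ∧ ∀ j, eval x ((f j).map (eval z)) = 0 := by
  classical
  have : ∀ D : B → ℕ, Fintype (MonDeg blk D) := fun D => Fintype.ofFinite _
  refine ⟨{g | ∃ D : B → ℕ, ∃ φ : MonDeg blk D → J × (σ →₀ ℕ),
    g = (Matrix.of fun a e => rowPoly blk f D (φ a) e).det}, fun z => ⟨fun hG => ?_, ?_⟩⟩
  · by_contra! hno
    obtain ⟨N, -, hN⟩ := exists_pow_prod_mem_span_forall
      (fun j => (f j).map (eval z)) hno
    let D : B → ℕ := fun _ => Fintype.card σ * N + 1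
    have hD : ∀ b, Fintype.card σ * N < D b := fun _ => Nat.lt_succ_self _
    have htop := span_rowPoly_eq_top (D := D) f z fun e => by
      choose s hs hsN using exists_le_of_blockDeg e.2 hD
      refine Ideal.mem_of_dvd _ ?_ (hN s hs)
      have hle : (∑ b, Finsupp.single (s b) N) ≤ e.1 := fun i => by
        rw [Finsupp.finsetSum_apply]
        by_cases hi : ∃ b, s b = i
        · obtain ⟨b, rfl⟩ := hi
          rw [Finset.sum_eq_single b (fun b' _ hb' => Finsupp.single_eq_of_ne fun h =>
              hb' (by rw [← hs b', ← h, hs b]))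
            (fun h => absurd (Finset.mem_univ b) h), Finsupp.single_eq_same]
          exact hsN b
        · simp only [not_exists] at hi
          rw [Finset.sum_eq_zero fun b _ => Finsupp.single_eq_of_ne (Ne.symm (hi b))]
          exact Nat.zero_le _
      refine ⟨monomial (e.1 - ∑ b, Finsupp.single (s b) N) 1, ?_⟩
      rw [← Finset.prod_pow, Finset.prod_congr rfl fun b _ => X_pow_eq_monomial (n := s b) (e := N)]
      rw [← monomial_sum_one, monomial_mul, mul_one, add_tsub_cancel_of_le hle]
    set rows := fun r => fun e => eval z (rowPoly blk f D r e)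
    obtain ⟨T, hT, hTspan, hTind⟩ := exists_linearIndependent k (Set.range rows)
    rw [htop] at hTspan
    let bT := Module.Basis.mk hTind (by rw [Subtype.range_coe, hTspan])
    have : Finite T := bT.linearIndependent.finite
    have : Fintype T := Fintype.ofFinite _
    have hcard : Fintype.card (MonDeg blk D) = Fintype.card T := by
      rw [← Module.finrank_eq_card_basis bT, Module.finrank_pi]
    choose ψ hψ using fun t : T => hT t.2
    let e' : MonDeg blk D ≃ T := Fintype.equivOfCardEq hcard
    have hdet := hG _ ⟨D, fun a => ψ (e' a), rfl⟩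
    rw [RingHom.map_det] at hdet
    have hunit : IsUnit ((eval z).mapMatrix
        (Matrix.of fun a e => rowPoly blk f D (ψ (e' a)) e)) := by
      rw [← Matrix.linearIndependent_rows_iff_isUnit]
      have : (((eval z).mapMatrix
          (Matrix.of fun a e => rowPoly blk f D (ψ (e' a)) e))).row =
          (fun t : T => (t : MonDeg blk D → k)) ∘ e' := by
        funext a e
        exact congrFun (hψ (e' a)) e
      rw [this]
      exact hTind.comp _ e'.injective
    exact ((Matrix.isUnit_iff_isUnit_det _).mp hunit).ne_zero hdet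
  · rintro ⟨x, hx, hzero⟩ g ⟨D, φ, rfl⟩
    rw [RingHom.map_det]
    choose s hs hs0 using hx
    -- the vector of monomials of `x` is killed
    have hkill : ∀ r, ∑ e : MonDeg blk D, eval z (rowPoly blk f D r e) *
        (∏ i, x i ^ e.1 i) = 0 := by
      rintro ⟨j, m⟩
      set g := monomial m (1 : k) * (f j).map (eval z) with hg
      have hcoeff : ∀ e : MonDeg blk D, eval z (rowPoly blk f D (j, m) e) = coeff e.1 g :=
        fun e => by rw [rowPoly, ← coeff_map, map_mul, map_monomial, map_one]
      have hg0 : eval x g = 0 := by rw [hg, map_mul, hzero j, mul_zero]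
      have hdeg : ∀ e, coeff e g ≠ 0 → blockDeg blk e = blockDeg blk m + d j := by
        intro e he
        rw [hg, coeff_monomial_mul'] at he
        split_ifs at he with hle
        · have h1 : coeff (e - m) (f j) ≠ 0 := fun h0 => he (by simp [coeff_map, h0])
          rw [← hf j _ h1]
          funext b
          simp only [blockDeg, Pi.add_apply, ← Finset.sum_add_distrib]
          refine Finset.sum_congr rfl fun i _ => ?_
          have := hle i
          simp only [Finsupp.coe_tsub, Pi.sub_apply]
          omega
        · exact absurd rfl he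
      by_cases hDd : blockDeg blk m + d j = D
      · rw [eval_eq'] at hg0
        rw [← hg0]
        simp only [hcoeff]
        rw [← Finset.sum_subtype_of_mem (fun e => coeff e g * ∏ i, x i ^ e i)
          (fun e he => (hdeg e (mem_support_iff.mp he)).trans hDd)]
        refine (Finset.sum_subset (Finset.subset_univ _) fun e _ he => ?_).symm
        rw [Finset.mem_subtype, mem_support_iff, not_not] at he
        rw [he, zero_mul]
      · refine Finset.sum_eq_zero fun e _ => ?_
        rw [hcoeff, mul_eq_zero]
        refine Or.inl ?_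
        by_contra he
        exact hDd ((hdeg e.1 he).symm.trans e.2)
    have hv : (fun e : MonDeg blk D => ∏ i, x i ^ e.1 i) ≠ 0 := by
      intro h0
      have he : blockDeg blk (∑ b, Finsupp.single (s b) (D b)) = D := by
        funext b
        simp only [blockDeg, Finsupp.finsetSum_apply]
        rw [Finset.sum_comm, Finset.sum_eq_single b]
        · rw [Finset.sum_eq_single (s b) (fun i _ hi => Finsupp.single_eq_of_ne hi)
            (fun h => absurd (by simp [hs b]) h),
            Finsupp.single_eq_same]
        · intro b' _ hb'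
          refine Finset.sum_eq_zero fun i hi => Finsupp.single_eq_of_ne ?_
          rintro rfl
          exact hb' ((hs b').symm.trans (Finset.mem_filter.mp hi).2)
        · exact fun h => absurd (Finset.mem_univ b) h
      have := congrFun h0 ⟨_, he⟩
      rw [Pi.zero_apply, Finset.prod_eq_zero_iff] at this
      obtain ⟨i, -, hi⟩ := this
      obtain ⟨hxi, hne⟩ := pow_eq_zero_iff'.mp hi
      simp only [Finsupp.finsetSum_apply, ne_eq, Finset.sum_eq_zero_iff, Finset.mem_univ,
        true_implies, not_forall] at hne
      obtain ⟨b, hb⟩ := hne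
      replace hb := (Finsupp.single_apply_ne_zero.mp hb).1
      exact hs0 b (hb ▸ hxi)
    refine Matrix.exists_mulVec_eq_zero_iff.mp ⟨_, hv, funext fun a => ?_⟩
    exact hkill (φ a)

end Projection

end FLTA.MordellWeil
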