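import Fermat.Agent.Curves.RRMult
import Fermat.Prelude.Def_AlgebraicCurve_BaseChangeGalois
import Mathlib.LinearAlgebra.Matrix.Determinant.Basic
import Mathlib.LinearAlgebra.Matrix.NonsingularInverse
import Mathlib.FieldTheory.IsAlgClosed.Classification

/-!
# Functions on tuples of points

`ev v f` is the value of `f` at the place `v`; `tFun O a r` is the space of functions on
`r`-tuples of places different from `O` spanned by the products `∏ f_j(P_j)` with `f_j ∈ L(a O)`.
-/

set_option autoImplicit false

noncomputable section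

open AlgebraicCurve

namespace FLTA.MordellWeil

variable {k F : Type*} [Field k] [Field F] [Algebra k F] [IsAlgClosed k] [IsCurveOver k F]

/-- The value of `f` at the place `v` (junk value `0` at a pole). -/
def ev (v : Place k F) (f : F) : k :=
  open Classical in
  if h : v.adicValuation f ≤ 1 then (Curves.exists_adicValuation_sub_algebraMap_lt v h).choose
  else 0

theorem ev_spec {v : Place k F} {f : F} (h : v.adicValuation f ≤ 1) :
    v.adicValuation (f - algebraMap k F (ev v f)) < 1 := by
  rw [ev, dif_pos h]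
  exact (Curves.exists_adicValuation_sub_algebraMap_lt v h).choose_spec

theorem ev_of_lt {v : Place k F} {f : F} (h : ¬v.adicValuation f ≤ 1) : ev v f = 0 := by
  rw [ev, dif_neg h]

theorem adicValuation_algebraMap_eq_one (v : Place k F) {c : k} (hc : c ≠ 0) :
    v.adicValuation (algebraMap k F c) = 1 := by
  refine le_antisymm (v.adicValuation_algebraMap_le_one c) ?_
  by_contra! h
  have h2 := mul_lt_one_of_lt_of_le h (v.adicValuation_algebraMap_le_one c⁻¹)
  rw [← map_mul, ← map_mul, mul_inv_cancel₀ hc, map_one, map_one] at h2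
  exact lt_irrefl _ h2

theorem ev_eq_of_lt {v : Place k F} {f : F} {c : k}
    (h : v.adicValuation (f - algebraMap k F c) < 1) : ev v f = c := by
  have hf : v.adicValuation f ≤ 1 := by
    have := v.adicValuation.map_add (f - algebraMap k F c) (algebraMap k F c)
    rw [sub_add_cancel] at this
    exact this.trans (max_le h.le (v.adicValuation_algebraMap_le_one c))
  by_contra hne
  have h3 := adicValuation_algebraMap_eq_one v (sub_ne_zero.2 hne)
  have h4 : algebraMap k F (ev v f - c)
      = (f - algebraMap k F c) - (f - algebraMap k F (ev v f)) := by rw [map_sub]; ring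
  rw [h4] at h3
  exact absurd h3 (ne_of_lt (lt_of_le_of_lt (v.adicValuation.map_sub _ _) (max_lt h (ev_spec hf))))

theorem ev_algebraMap (v : Place k F) (c : k) : ev v (algebraMap k F c) = c :=
  ev_eq_of_lt (by simp)

@[simp] theorem ev_zero (v : Place k F) : ev v (0 : F) = 0 := by
  simpa using ev_algebraMap v 0

@[simp] theorem ev_one (v : Place k F) : ev v (1 : F) = 1 := by
  simpa using ev_algebraMap v 1

theorem ev_add {v : Place k F} {f g : F} (hf : v.adicValuation f ≤ 1)
    (hg : v.adicValuation g ≤ 1) : ev v (f + g) = ev v f + ev v g := by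
  refine ev_eq_of_lt (lt_of_le_of_lt ?_ (max_lt (ev_spec hf) (ev_spec hg)))
  rw [map_add, add_sub_add_comm]
  exact v.adicValuation.map_add _ _

theorem ev_mul {v : Place k F} {f g : F} (hf : v.adicValuation f ≤ 1)
    (hg : v.adicValuation g ≤ 1) : ev v (f * g) = ev v f * ev v g := by
  refine ev_eq_of_lt ?_
  have h : f * g - algebraMap k F (ev v f * ev v g)
      = (f - algebraMap k F (ev v f)) * g
        + algebraMap k F (ev v f) * (g - algebraMap k F (ev v g)) := by rw [map_mul]; ring
  rw [h]
  refine lt_of_le_of_lt (v.adicValuation.map_add _ _) (max_lt ?_ ?_)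
  · rw [map_mul]; exact mul_lt_one_of_lt_of_le (ev_spec hf) hg
  · rw [map_mul, mul_comm]
    exact mul_lt_one_of_lt_of_le (ev_spec hg) (v.adicValuation_algebraMap_le_one _)

theorem ev_smul {v : Place k F} {f : F} (c : k) (hf : v.adicValuation f ≤ 1) :
    ev v (c • f) = c * ev v f := by
  rw [Algebra.smul_def, ev_mul (v.adicValuation_algebraMap_le_one c) hf, ev_algebraMap]

theorem adicValuation_lt_one_iff {v : Place k F} {f : F} :
    v.adicValuation f < 1 ↔ f = 0 ∨ 0 < v.ord f := by
  rcases eq_or_ne f 0 with rfl | hf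
  · simp
  · rw [v.adicValuation_eq_exp_neg_ord hf, ← WithZero.exp_zero, WithZero.exp_lt_exp,
      or_iff_right hf]
    omega

theorem ev_eq_zero_iff {v : Place k F} {f : F} (hf : v.adicValuation f ≤ 1) :
    ev v f = 0 ↔ f = 0 ∨ 0 < v.ord f := by
  rw [← adicValuation_lt_one_iff]
  refine ⟨fun h => ?_, fun h => ev_eq_of_lt (by simpa using h)⟩
  simpa [h] using ev_spec hf

/-- Values commute with semilinear automorphisms. -/
theorem ev_smul_semilinear (g : SemilinearAut k F) (v : Place k F) (f : F) :
    ev (g • v) (g • f) = SemilinearAut.baseAut g (ev v f) := by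
  have key : ∀ h : F, (g • h = 0 ∨ 0 < (g • v).ord (g • h)) ↔ (h = 0 ∨ 0 < v.ord h) := fun h => by
    rw [SemilinearAut.ord_smul, SemilinearAut.smul_def, map_eq_zero_iff _ (RingEquiv.injective _)]
  by_cases hf : v.adicValuation f ≤ 1
  · refine ev_eq_of_lt ?_
    rw [← SemilinearAut.smul_algebraMap, ← smul_sub, adicValuation_lt_one_iff, key,
      ← adicValuation_lt_one_iff]
    exact ev_spec hf
  · rw [ev_of_lt hf, map_zero, ev_of_lt]
    rw [Place.not_adicValuation_le_one_iff] at hf ⊢
    rwa [SemilinearAut.ord_smul]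

variable (O : Place k F)

/-- Points: the places different from the base point. -/
abbrev Pt : Type _ := {v : Place k F // v ≠ O}

/-- The space `L(a O)`. -/
abbrev lMul (a : ℤ) : Submodule k F := riemannRochSpace (Finsupp.single O a)

theorem adicValuation_le_one_of_mem_lMul {a : ℤ} {f : F} (hf : f ∈ lMul O a) (p : Pt O) :
    p.1.adicValuation f ≤ 1 := by
  classical
  have := hf p.1
  rwa [Finsupp.single_eq_of_ne (a := O) p.2, WithZero.exp_zero] at this

/-- Evaluation of `L(a O)` at a point, as a linear map. -/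
def evL (a : ℤ) (p : Pt O) : lMul O a →ₗ[k] k where
  toFun f := ev p.1 (f : F)
  map_add' f g :=
    ev_add (adicValuation_le_one_of_mem_lMul O f.2 p) (adicValuation_le_one_of_mem_lMul O g.2 p)
  map_smul' c f := ev_smul c (adicValuation_le_one_of_mem_lMul O f.2 p)

@[simp] theorem evL_apply (a : ℤ) (p : Pt O) (f : lMul O a) : evL O a p f = ev p.1 (f : F) := rfl

theorem ev_linearCombination {a : ℤ} {ι : Type*} (S : Finset ι) {w : ι → F} (hw : ∀ i, w i ∈ lMul O a)
    (c : ι → k) (p : Pt O) : ev p.1 (∑ i ∈ S, c i • w i) = ∑ i ∈ S, c i * ev p.1 (w i) := by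
  have := map_sum (evL O a p) (fun i => c i • (⟨w i, hw i⟩ : lMul O a)) S
  simp only [map_smul, evL_apply, AddSubmonoidClass.coe_finsetSum, SetLike.val_smul,
    smul_eq_mul] at this
  exact this

theorem eq_zero_of_infinite_ev_eq_zero {a : ℤ} {f : F} (hf : f ∈ lMul O a) {S : Set (Pt O)}
    (hS : S.Infinite) (h : ∀ p ∈ S, ev p.1 f = 0) : f = 0 := by
  by_contra hf0
  refine hS (Set.Finite.subset ?_ (fun p hp => ?_) (s := Subtype.val ⁻¹'
    (↑(Curves.divFn (K := k) f).support : Set (Place k F))))
  · exact (Finset.finite_toSet _).preimage Subtype.val_injective.injOn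
  · have := (ev_eq_zero_iff (adicValuation_le_one_of_mem_lMul O hf p)).1 (h p hp)
    simp only [Set.mem_preimage, Finset.mem_coe, Finsupp.mem_support_iff, Curves.divFn_apply]
    have := this.resolve_left hf0
    omega

/-- The generating products of `tFun`. -/
def prodEv {r : ℕ} (f : Fin r → F) (P : Fin r → Pt O) : k := ∏ j, ev (P j).1 (f j)

/-- Functions on `r`-tuples of points spanned by products of elements of `L(a O)`. -/
def tFun (a : ℤ) (r : ℕ) : Submodule k ((Fin r → Pt O) → k) :=
  Submodule.span k (prodEv O '' {f | ∀ j, f j ∈ lMul O a})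

theorem prodEv_mem {a : ℤ} {r : ℕ} {f : Fin r → F} (hf : ∀ j, f j ∈ lMul O a) :
    prodEv O f ∈ tFun O a r :=
  Submodule.subset_span ⟨f, hf, rfl⟩

theorem finiteDimensional_tFun (a : ℤ) (r : ℕ) [Curves.IsFunctionField k F] :
    FiniteDimensional k (tFun O a r) := by
  classical
  let b := Module.finBasis k (lMul O a)
  have h : tFun O a r ≤ Submodule.span k (Set.range fun J : Fin r → Fin _ =>
      prodEv O (fun j => (b (J j) : F))) := by
    refine Submodule.span_le.2 ?_
    rintro - ⟨f, hf, rfl⟩
    have e : prodEv O f = ∑ J : Fin r → Fin _, (∏ j, b.repr ⟨f j, hf j⟩ (J j)) •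
        prodEv O (fun j => (b (J j) : F)) := by
      funext P
      have hj : ∀ j, ev (P j).1 (f j)
          = ∑ i, b.repr ⟨f j, hf j⟩ i * ev (P j).1 (b i : F) := fun j => by
        have := congrArg (evL O a (P j)) (b.sum_repr ⟨f j, hf j⟩)
        simpa only [map_sum, map_smul, smul_eq_mul, evL_apply] using this.symm
      simp only [prodEv, hj, Fintype.prod_sum, Finset.prod_mul_distrib, Finset.sum_apply,
        Pi.smul_apply, smul_eq_mul]
    rw [e]
    exact sum_mem fun J _ => Submodule.smul_mem _ _ (Submodule.subset_span ⟨J, rfl⟩)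
  have := FiniteDimensional.span_of_finite k (Set.finite_range fun J : Fin r → Fin _ =>
    prodEv O (fun j => (b (J j) : F)))
  exact Submodule.finiteDimensional_of_le h

theorem mul_mem_tFun {a b : ℤ} {r : ℕ} {z w : (Fin r → Pt O) → k} (hz : z ∈ tFun O a r)
    (hw : w ∈ tFun O b r) : z * w ∈ tFun O (a + b) r := by
  induction hz, hw using Submodule.span_induction₂ with
  | mem_mem x y hx hy =>
    obtain ⟨f, hf, rfl⟩ := hx
    obtain ⟨g, hg, rfl⟩ := hy
    have h : prodEv O f * prodEv O g = prodEv O (fun j => f j * g j) := by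
      funext P
      simp only [Pi.mul_apply, prodEv, ← Finset.prod_mul_distrib]
      exact Finset.prod_congr rfl fun j _ => (ev_mul (adicValuation_le_one_of_mem_lMul O (hf j) _)
        (adicValuation_le_one_of_mem_lMul O (hg j) _)).symm
    rw [h]
    refine prodEv_mem O fun j => ?_
    have := Curves.mul_mem_riemannRochSpace (hf j) (hg j)
    rwa [← Finsupp.single_add] at this
  | zero_left _ _ => simp
  | zero_right _ _ => simp
  | add_left x y z _ _ _ h1 h2 => simpa [add_mul] using add_mem h1 h2
  | add_right x y z _ _ _ h1 h2 => simpa [mul_add] using add_mem h1 h2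
  | smul_left c x y _ _ h => simpa using Submodule.smul_mem _ c h
  | smul_right c x y _ _ h => simpa using Submodule.smul_mem _ c h

/-- Fixing the last points. -/
theorem append_mem_tFun {a : ℤ} {r e : ℕ} {z : (Fin (r + e) → Pt O) → k}
    (hz : z ∈ tFun O a (r + e)) (Q : Fin e → Pt O) :
    (fun P => z (Fin.append P Q)) ∈ tFun O a r := by
  induction hz using Submodule.span_induction with
  | mem x hx =>
    obtain ⟨f, hf, rfl⟩ := hx
    have h : (fun P : Fin r → Pt O => prodEv O f (Fin.append P Q))
        = (∏ j, ev (Q j).1 (f (Fin.natAdd r j))) • prodEv O (fun j => f (Fin.castAdd e j)) := by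
      funext P
      simp [prodEv, Fin.prod_univ_add, mul_comm]
    rw [h]
    exact Submodule.smul_mem _ _ (prodEv_mem O fun j => hf _)
  | zero => exact zero_mem _
  | add x y _ _ hx hy => exact add_mem hx hy
  | smul c x _ hx => exact Submodule.smul_mem _ c hx

/-- A slice in the first variable is the evaluation of a function in `L(a O)`. -/
theorem exists_slice {a : ℤ} {r : ℕ} {z : (Fin (r + 1) → Pt O) → k} (hz : z ∈ tFun O a (r + 1))
    (U : Fin r → Pt O) : ∃ f ∈ lMul O a, ∀ p, z (Fin.cons p U) = ev p.1 f := by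
  induction hz using Submodule.span_induction with
  | mem x hx =>
    obtain ⟨f, hf, rfl⟩ := hx
    refine ⟨(∏ j, ev (U j).1 (f j.succ)) • f 0, Submodule.smul_mem _ _ (hf 0), fun p => ?_⟩
    rw [ev_smul _ (adicValuation_le_one_of_mem_lMul O (hf 0) p)]
    simp [prodEv, Fin.prod_univ_succ, mul_comm]
  | zero => exact ⟨0, zero_mem _, by simp⟩
  | add x y _ _ hx hy =>
    obtain ⟨f, hf, hfe⟩ := hx
    obtain ⟨g, hg, hge⟩ := hy
    refine ⟨f + g, add_mem hf hg, fun p => ?_⟩
    rw [ev_add (adicValuation_le_one_of_mem_lMul O hf p) (adicValuation_le_one_of_mem_lMul O hg p)]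
    simp [hfe, hge]
  | smul c x _ hx =>
    obtain ⟨f, hf, hfe⟩ := hx
    refine ⟨c • f, Submodule.smul_mem _ c hf, fun p => ?_⟩
    rw [ev_smul c (adicValuation_le_one_of_mem_lMul O hf p)]
    simp [hfe]

/-- Linear functionals applied to the first variable. -/
theorem cons_mem_tFun {a : ℤ} {r : ℕ} {z : (Fin (r + 1) → Pt O) → k}
    (hz : z ∈ tFun O a (r + 1)) (p : Pt O) :
    (fun U => z (Fin.cons p U)) ∈ tFun O a r := by
  induction hz using Submodule.span_induction with
  | mem x hx =>
    obtain ⟨f, hf, rfl⟩ := hx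
    have h : (fun U : Fin r → Pt O => prodEv O f (Fin.cons p U))
        = ev p.1 (f 0) • prodEv O (fun j => f j.succ) := by
      funext U
      simp [prodEv, Fin.prod_univ_succ]
    rw [h]
    exact Submodule.smul_mem _ _ (prodEv_mem O fun j => hf _)
  | zero => exact zero_mem _
  | add x y _ _ hx hy => exact add_mem hx hy
  | smul c x _ hx => exact Submodule.smul_mem _ c hx

theorem infinite_pt [Curves.IsFunctionField k F] : Infinite (Pt O) := by
  classical
  obtain ⟨f, hf0, hf, hfo⟩ := Curves.exists_mem_riemannRochSpace_ord_eq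
    (D := Finsupp.single O (2 * (genusFF k F : ℤ) + 1))
    (by rw [Divisor.degree_single, IsCurveOver.deg_eq_one_of_isAlgClosed]; simp) O
  rw [Finsupp.single_eq_same] at hfo
  set a := 2 * (genusFF k F : ℤ) + 1
  have ha : 0 < a := by omega
  have hc : ∀ c : k, ∃ p : Pt O, ev p.1 f = c := by
    intro c
    have hne : f - algebraMap k F c ≠ 0 := fun h => by
      rw [sub_eq_zero] at h
      rw [h, Curves.ord_algebraMap_eq_zero] at hfo
      omega
    have hO : O.ord (f - algebraMap k F c) < 0 := by
      rw [← Place.not_adicValuation_le_one_iff]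
      intro hle
      have h1 : O.adicValuation f ≤ 1 := by
        have := O.adicValuation.map_add (f - algebraMap k F c) (algebraMap k F c)
        rw [sub_add_cancel] at this
        exact this.trans (max_le hle (O.adicValuation_algebraMap_le_one c))
      have := (Place.adicValuation_le_one_iff O).1 h1
      have := this.resolve_left hf0
      omega
    by_contra! hno
    have hle : ∀ v : Place k F, Curves.divFn (K := k) (f - algebraMap k F c) v
        ≤ (Finsupp.single O (O.ord (f - algebraMap k F c)) : Divisor k F) v := by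
      intro v
      rw [Curves.divFn_apply]
      by_cases hv : v = O
      · subst hv; simp
      · rw [Finsupp.single_eq_of_ne (a := O) hv]
        by_contra! hpos
        refine hno ⟨v, hv⟩ (ev_eq_of_lt ?_)
        exact adicValuation_lt_one_iff.2 (Or.inr hpos)
    have h := Curves.degree_mono (Finsupp.le_def.2 hle)
    rw [Curves.degree_divFn, Divisor.degree_single,
      IsCurveOver.deg_eq_one_of_isAlgClosed] at h
    omega
  choose p hp using hc
  exact Infinite.of_injective p fun c d h => by rw [← hp c, ← hp d, h]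

variable [Curves.IsFunctionField k F]

/-- An element of `tFun` vanishing at all tuples outside a finite set is zero. -/
theorem eq_zero_of_forall_avoid {a : ℤ} {r : ℕ} {z : (Fin r → Pt O) → k} (hz : z ∈ tFun O a r)
    {S : Set (Pt O)} (hS : S.Finite) (h : ∀ P, (∀ j, P j ∉ S) → z P = 0) : z = 0 := by
  induction r with
  | zero => exact funext fun P => h P fun j => j.elim0
  | succ r ih =>
    have := infinite_pt O
    funext P
    rw [← Fin.cons_self_tail P]
    have key : ∀ U : Fin r → Pt O, (∀ j, U j ∉ S) → ∀ p, z (Fin.cons p U) = 0 := by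
      intro U hU p
      obtain ⟨f, hf, hfe⟩ := exists_slice O hz U
      have hf0 : f = 0 := eq_zero_of_infinite_ev_eq_zero O hf hS.infinite_compl fun q hq => by
        rw [← hfe q]
        refine h _ fun j => ?_
        cases j using Fin.cases with
        | zero => simpa using hq
        | succ j => simpa using hU j
      rw [hfe, hf0, ev_zero]
    exact congrFun (ih (cons_mem_tFun O hz (P 0)) fun U hU => key U hU _) _

/-- Finitely many non-zero elements of `tFun` are simultaneously non-zero at some tuple avoiding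
a given finite set. -/
theorem exists_forall_ne_zero {ι : Type*} [Fintype ι] {r : ℕ} {a : ι → ℤ}
    {z : ι → (Fin r → Pt O) → k} (hz : ∀ i, z i ∈ tFun O (a i) r) (hne : ∀ i, z i ≠ 0)
    {S : Set (Pt O)} (hS : S.Finite) :
    ∃ P, (∀ j, P j ∉ S) ∧ ∀ i, z i P ≠ 0 := by
  induction r with
  | zero =>
    refine ⟨Fin.elim0, fun j => j.elim0, fun i hi => hne i ?_⟩
    funext P
    rw [Subsingleton.elim P Fin.elim0, hi, Pi.zero_apply]
  | succ r ih =>
    have := infinite_pt O
    have h1 : ∀ i, ∃ (U : Fin r → Pt O) (f : F), f ∈ lMul O (a i) ∧ f ≠ 0 ∧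
        ∀ p, z i (Fin.cons p U) = ev p.1 f := by
      intro i
      obtain ⟨P, hP⟩ := Function.ne_iff.1 (hne i)
      obtain ⟨f, hf, hfe⟩ := exists_slice O (hz i) (Fin.tail P)
      refine ⟨_, f, hf, fun h => hP ?_, hfe⟩
      rw [← Fin.cons_self_tail P, hfe, h, ev_zero, Pi.zero_apply]
    choose U f hf hf0 hfe using h1
    have hfin : (S ∪ ⋃ i, {p : Pt O | ev p.1 (f i) = 0}).Finite :=
      hS.union (Set.finite_iUnion fun i => Set.not_infinite.1 fun hinf =>
        hf0 i (eq_zero_of_infinite_ev_eq_zero O (hf i) hinf fun p hp => hp))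
    obtain ⟨p, hp⟩ := hfin.infinite_compl.nonempty
    simp only [Set.mem_compl_iff, Set.mem_union, Set.mem_iUnion, Set.mem_setOf_eq, not_or,
      not_exists] at hp
    have hne' : ∀ i, (fun V => z i (Fin.cons p V)) ≠ 0 := fun i h => hp.2 i (by
      rw [← hfe i p]
      exact congrFun h (U i))
    obtain ⟨V, hV, hVz⟩ := ih (fun i => cons_mem_tFun O (hz i) p) hne'
    refine ⟨Fin.cons p V, fun j => ?_, hVz⟩
    cases j using Fin.cases with
    | zero => simpa using hp.1
    | succ j => simpa using hV j

theorem mul_ne_zero_tFun {a b : ℤ} {r : ℕ} {z w : (Fin r → Pt O) → k} (hz : z ∈ tFun O a r)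
    (hw : w ∈ tFun O b r) (hz0 : z ≠ 0) (hw0 : w ≠ 0) : z * w ≠ 0 := by
  obtain ⟨P, -, hP⟩ := exists_forall_ne_zero O (ι := Bool)
    (z := fun i => bif i then z else w) (a := fun i => bif i then a else b)
    (Bool.forall_bool.2 ⟨hw, hz⟩) (Bool.forall_bool.2 ⟨hw0, hz0⟩) (Set.finite_empty)
  intro h
  exact mul_ne_zero (hP true) (hP false) (congrFun h P)

/-- Linearly independent functions have an invertible matrix of values. -/
theorem exists_det_ne_zero {α : Type*} {R : ℕ} (w : Fin R → α → k) (hw : LinearIndependent k w) :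
    ∃ P : Fin R → α, (Matrix.of fun i j => w i (P j)).det ≠ 0 := by
  classical
  let v : α → (Fin R → k) := fun p i => w i p
  have hspan : Submodule.span k (Set.range v) = ⊤ := by
    by_contra h
    obtain ⟨φ, hφ0, hφ⟩ := Submodule.exists_dual_map_eq_bot_of_lt_top (lt_top_iff_ne_top.2 h)
      inferInstance
    apply hφ0
    have hc : ∀ i, φ (Pi.single i 1) = 0 := by
      refine Fintype.linearIndependent_iff.1 hw _ (funext fun p => ?_)
      have h0 : φ (v p) = 0 := by
        have := Submodule.mem_map_of_mem (f := φ)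
          (Submodule.subset_span (R := k) (Set.mem_range_self (f := v) p))
        rwa [hφ, Submodule.mem_bot] at this
      rw [pi_eq_sum_univ' (v p), map_sum] at h0
      simpa [v, mul_comm, map_smul] using h0
    exact (Pi.basisFun k (Fin R)).ext fun i => by simpa using hc i
  obtain ⟨b, hb, hbs, hbi⟩ := exists_linearIndependent k (Set.range v)
  rw [hspan] at hbs
  let B : Module.Basis b k (Fin R → k) := Module.Basis.mk hbi (by simp [hbs])
  have : Fintype b := FiniteDimensional.fintypeBasisIndex B
  have hcard : Fintype.card b = R := by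
    rw [← Module.finrank_eq_card_basis B, Module.finrank_fin_fun]
  let eqv : Fin R ≃ b := (Fintype.equivFinOfCardEq hcard).symm
  choose P hP using fun x : b => hb x.2
  refine ⟨P ∘ eqv, ?_⟩
  have hli := hbi.comp eqv eqv.injective
  rw [← Matrix.det_transpose]
  refine (Matrix.isUnit_iff_isUnit_det _).1 ?_ |>.ne_zero
  rw [← Matrix.linearIndependent_rows_iff_isUnit]
  have e : (Matrix.transpose (Matrix.of fun i j => w i ((P ∘ eqv) j))).row
      = Subtype.val ∘ eqv := by
    funext j i
    exact congrFun (hP (eqv j)) i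
  rw [e]
  exact hli

/-- Determinant of values. -/
def detFun {r : ℕ} (w : Fin r → F) (P : Fin r → Pt O) : k :=
  (Matrix.of fun i j => ev (P j).1 (w i)).det

theorem detFun_mem {a : ℤ} {r : ℕ} {w : Fin r → F} (hw : ∀ i, w i ∈ lMul O a) :
    detFun O w ∈ tFun O a r := by
  have h : detFun O w = ∑ σ : Equiv.Perm (Fin r),
      ((Equiv.Perm.sign σ : ℤ) : k) • prodEv O (fun j => w (σ j)) := by
    funext P
    rw [detFun, Matrix.det_apply', Finset.sum_apply]
    rfl
  rw [h]
  exact sum_mem fun σ _ => Submodule.smul_mem _ _ (prodEv_mem O fun j => hw _)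

theorem detFun_ne_zero {a : ℤ} {r : ℕ} {w : Fin r → F} (hw : ∀ i, w i ∈ lMul O a)
    (hi : LinearIndependent k w) : detFun O w ≠ 0 := by
  have := infinite_pt O
  have hli : LinearIndependent k fun i (p : Pt O) => ev p.1 (w i) := by
    rw [Fintype.linearIndependent_iff] at hi ⊢
    intro c hc
    apply hi
    refine eq_zero_of_infinite_ev_eq_zero O (a := a)
      (sum_mem fun i _ => Submodule.smul_mem _ _ (hw i)) Set.infinite_univ fun p _ => ?_
    have h1 : ev p.1 (∑ i, c i • w i) = ∑ i, c i * ev p.1 (w i) := by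
      have := map_sum (evL O a p) (fun i => c i • (⟨w i, hw i⟩ : lMul O a)) Finset.univ
      simp only [map_smul, evL_apply, AddSubmonoidClass.coe_finsetSum, SetLike.val_smul,
        smul_eq_mul] at this
      exact this
    rw [h1]
    simpa using congrFun hc p
  obtain ⟨P, hP⟩ := exists_det_ne_zero _ hli
  exact fun h => hP (congrFun h P)

end FLTA.MordellWeil
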