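import Fermat.Agent.GenusKahler.Differential
import Fermat.Agent.MordellWeil.Tuples

/-!
# Linearly equivalent divisors with simple points

In characteristic `0` every divisor of degree `≥ 2g + 1` is linearly equivalent to a sum of
distinct places outside a given finite set.
-/

set_option autoImplicit false

noncomputable section

open AlgebraicCurve

namespace FLTA.MordellWeil

variable {k F : Type*} [Field k] [Field F] [Algebra k F] [IsAlgClosed k] [IsCurveOver k F]
variable [Curves.IsFunctionField k F] [CharZero k]

/-- A non-constant function takes almost all values simply. -/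
theorem exists_finset_ord_sub_le_one {h : F}
    (hh : ∃ (v : Place k F) (c : k), v.ord (h - algebraMap k F c) ≠ 0) :
    ∃ B : Finset (Place k F), ∀ v ∉ B, ∀ c : k, v.ord (h - algebraMap k F c) ≤ 1 := by
  classical
  obtain ⟨v₀, c₀, h0⟩ := hh
  have h1 : Module.finrank F Ω[F⁄k] = 1 := IsCurveOver.finrank_kaehler
  have := GenusKahler.rationalPlace_of_isCurveOver v₀
  have hdh : KaehlerDifferential.D k F h ≠ 0 := by
    have := (GenusKahler.ordDifferential_D v₀ h1 h0).1
    rwa [map_sub, Derivation.map_algebraMap, sub_zero] at this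
  set A : Divisor k F := Finsupp.single v₀ (2 * (genusFF k F : ℤ) + 1)
  let b := Module.finBasis k (riemannRochSpace A)
  have hφ : ∀ i, ∃ φ : F, φ • KaehlerDifferential.D k F h = KaehlerDifferential.D k F (b i : F) :=
    fun i => exists_smul_eq_of_finrank_eq_one h1 hdh _
  choose φ hφ using hφ
  refine ⟨insert v₀ (Finset.univ.biUnion fun i => (Curves.divFn (K := k) (φ i)).support),
    fun v hv c => ?_⟩
  simp only [Finset.mem_insert, Finset.mem_biUnion, Finset.mem_univ, true_and,
    Finsupp.mem_support_iff, Curves.divFn_apply, not_or, not_exists, not_not] at hv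
  by_contra! he
  set e := v.ord (h - algebraMap k F c) with hedef
  obtain ⟨π, hπ0, hπmem, hπord⟩ := Curves.exists_mem_riemannRochSpace_ord_eq
    (D := A - Finsupp.single v 1) (by
      rw [map_sub, Divisor.degree_single, Divisor.degree_single,
        IsCurveOver.deg_eq_one_of_isAlgClosed, IsCurveOver.deg_eq_one_of_isAlgClosed]
      simp) v
  rw [Finsupp.sub_apply, Finsupp.single_eq_same, Finsupp.single_eq_of_ne (a := v₀) hv.1] at hπord
  have hπA : π ∈ riemannRochSpace A :=
    Curves.riemannRochSpace_mono (sub_le_self _ (Finsupp.single_nonneg.2 (by omega))) hπmem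
  set ψ : F := ∑ i, algebraMap k F (b.repr ⟨π, hπA⟩ i) * φ i
  have hψval : v.adicValuation ψ ≤ 1 := by
    refine v.adicValuation.map_sum_le fun i _ => ?_
    rw [map_mul]
    exact mul_le_one' (v.adicValuation_algebraMap_le_one _)
      ((Place.adicValuation_le_one_iff v).2 (Or.inr (hv.2 i).ge))
  have hD : KaehlerDifferential.D k F π = ψ • KaehlerDifferential.D k F h := by
    have e1 := congrArg (fun x : riemannRochSpace A => KaehlerDifferential.D k F (x : F))
      (b.sum_repr ⟨π, hπA⟩).symm
    simp only [AddSubmonoidClass.coe_finsetSum, SetLike.val_smul, map_sum] at e1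
    rw [e1, Finset.sum_smul]
    refine Finset.sum_congr rfl fun i _ => ?_
    rw [Derivation.map_smul, ← hφ i, mul_smul, algebraMap_smul]
  have := GenusKahler.rationalPlace_of_isCurveOver v
  obtain ⟨L, hL, hLD⟩ := GenusKahler.exists_diffExpand v
  have e2 := congrArg L hD
  rw [hL, hLD, show KaehlerDifferential.D k F h = KaehlerDifferential.D k F (h - algebraMap k F c)
    by rw [map_sub, Derivation.map_algebraMap, sub_zero], hLD] at e2
  have hf0 : h - algebraMap k F c ≠ 0 := fun hz => by simp [hedef, hz] at he
  have hπ1 : v.ord π = 1 := by omega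
  obtain ⟨n1, o1⟩ := GenusKahler.order_lDeriv (GenusKahler.expand_ne_zero v hπ0)
    (by rw [GenusKahler.order_expand v hπ0]; omega)
  obtain ⟨n2, o2⟩ := GenusKahler.order_lDeriv (GenusKahler.expand_ne_zero v hf0)
    (by rw [GenusKahler.order_expand v hf0]; omega)
  have hψ0 : ψ ≠ 0 := fun hz => n1 (by rw [e2, hz, map_zero, zero_mul])
  rw [e2, HahnSeries.order_mul (GenusKahler.expand_ne_zero v hψ0) n2, o2,
    GenusKahler.order_expand v hπ0, GenusKahler.order_expand v hψ0,
    GenusKahler.order_expand v hf0, hπ1] at o1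
  have := ((Place.adicValuation_le_one_iff v).1 hψval).resolve_left hψ0
  omega

/-- Distinct points outside a finite set in a complete linear system of degree `≥ 2g + 1`. -/
theorem exists_reduced {D : Divisor k F} (hD : 2 * (genusFF k F : ℤ) + 1 ≤ Divisor.degree D)
    (S : Finset (Place k F)) :
    ∃ (f : F) (T : Finset (Place k F)), f ≠ 0 ∧ f ∈ riemannRochSpace D ∧ Disjoint T S ∧
      (T.card : ℤ) = Divisor.degree D ∧ Curves.divFn f + D = ∑ v ∈ T, Finsupp.single v (1 : ℤ) := by
  classical
  obtain ⟨s, t, hs, ht, hs0, ht0, hst⟩ := Curves.exists_pencil (D := D) (by omega)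
  set Es : Divisor k F := Curves.divFn s + D with hEs
  have hEs_nonneg : 0 ≤ Es := (Curves.mem_riemannRochSpace_iff_add_nonneg hs0).1 hs
  have hEs_deg : Divisor.degree Es = Divisor.degree D := by
    rw [hEs, map_add, Curves.degree_divFn, zero_add]
  obtain ⟨v₁, hv₁⟩ : ∃ v, 0 < Es v := by
    by_contra! hc
    have := Curves.degree_mono (D := Es) (E := 0) (Finsupp.le_def.2 fun v => by simpa using hc v)
    rw [hEs_deg, map_zero] at this
    omega
  have hEsv : ∀ v, Es v = v.ord s + D v := fun v => by
    rw [hEs, Finsupp.add_apply, Curves.divFn_apply]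
  set h := t * s⁻¹ with hh
  have hh0 : h ≠ 0 := mul_ne_zero ht0 (inv_ne_zero hs0)
  have hordh : ∀ v : Place k F, v.ord h = v.ord t - v.ord s := fun v => by
    rw [hh, v.ord_mul ht0 (inv_ne_zero hs0), v.ord_inv, sub_eq_add_neg]
  have hexact : ∀ v, 0 < Es v → v.ord t = -D v := fun v hv => by
    rcases hst v with h' | h'
    · rw [hEsv] at hv; omega
    · exact h'
  obtain ⟨B, hB⟩ := exists_finset_ord_sub_le_one (h := h) ⟨v₁, 0, by
    rw [map_zero, sub_zero, hordh]
    have := hexact v₁ hv₁
    rw [hEsv] at hv₁
    omega⟩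
  set bad : Finset (Place k F) := S ∪ B ∪ Es.support
  obtain ⟨c, hc⟩ := Infinite.exists_notMem_finset (bad.image fun v => ev v h)
  set f := t - algebraMap k F c * s with hf
  have hfh : f = (h - algebraMap k F c) * s := by rw [hf, hh]; field_simp
  have hne : h - algebraMap k F c ≠ 0 := fun hz => by
    rw [sub_eq_zero] at hz
    have := Curves.ord_algebraMap_eq_zero v₁ c
    rw [← hz, hordh, hexact v₁ hv₁] at this
    rw [hEsv] at hv₁
    omega
  have hf0 : f ≠ 0 := hfh ▸ mul_ne_zero hne hs0
  have hfD : f ∈ riemannRochSpace D := by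
    rw [hf, ← Algebra.smul_def]
    exact sub_mem ht (Submodule.smul_mem _ c hs)
  set E : Divisor k F := Curves.divFn f + D with hE
  have hE0 : ∀ v, 0 ≤ E v := fun v =>
    Finsupp.le_def.1 ((Curves.mem_riemannRochSpace_iff_add_nonneg hf0).1 hfD) v
  have hEv : ∀ v, E v = v.ord (h - algebraMap k F c) + Es v := fun v => by
    rw [hE, Finsupp.add_apply, Curves.divFn_apply, hfh, v.ord_mul hne hs0, hEsv]
    ring
  have hle : ∀ v, E v ≤ 1 ∧ (v ∈ S → E v = 0) := by
    intro v
    by_cases hv : 0 < Es v
    · have hlt : v.ord h < 0 := by rw [hordh, hexact v hv]; rw [hEsv] at hv; omega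
      have hval : v.adicValuation (algebraMap k F c) < v.adicValuation h := by
        refine lt_of_le_of_lt (v.adicValuation_algebraMap_le_one c) ?_
        rw [← not_le, Place.not_adicValuation_le_one_iff]
        exact hlt
      have hord : v.ord (h - algebraMap k F c) = v.ord h := by
        rw [Place.ord, Place.ord, v.adicValuation.map_sub_eq_of_lt_left hval]
      have : E v = 0 := by rw [hEv, hord, hordh, hexact v hv, hEsv]; ring
      exact ⟨by omega, fun _ => this⟩
    · have hz : Es v = 0 := le_antisymm (not_lt.1 hv) (Finsupp.le_def.1 hEs_nonneg v)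
      rw [hEv, hz, add_zero]
      have h0 : v ∈ bad → v.ord (h - algebraMap k F c) = 0 := fun hvb => by
        have hE' := hE0 v
        rw [hEv, hz, add_zero] at hE'
        by_contra hne0
        refine hc (Finset.mem_image.2 ⟨v, hvb, ev_eq_of_lt ?_⟩)
        exact adicValuation_lt_one_iff.2 (Or.inr (lt_of_le_of_ne hE' (Ne.symm hne0)))
      exact ⟨if hvB : v ∈ B then (h0 (by simp [bad, hvB])).le.trans zero_le_one else hB v hvB c,
        fun hvS => h0 (by simp [bad, hvS])⟩
  refine ⟨f, E.support, hf0, hfD, ?_, ?_, ?_⟩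
  · exact Finset.disjoint_left.2 fun v hv hvS => Finsupp.mem_support_iff.1 hv ((hle v).2 hvS)
  · have h1 : Divisor.degree E = Divisor.degree D := by
      rw [hE, map_add, Curves.degree_divFn, zero_add]
    rw [← h1, Curves.degree_eq_sum, Finsupp.sum, Finset.card_eq_sum_ones, Nat.cast_sum]
    refine Finset.sum_congr rfl fun v hv => ?_
    have := Finsupp.mem_support_iff.1 hv
    have := hE0 v
    have := (hle v).1
    omega
  · show E = _
    ext v
    rw [Finset.sum_apply']
    simp only [Finsupp.single_apply, Finset.sum_ite_eq', Finsupp.mem_support_iff]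
    have := hE0 v
    have := (hle v).1
    split_ifs with hv <;> omega

end FLTA.MordellWeil
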