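import Fermat.Agent.MordellWeil.Avoid
import Fermat.Agent.MordellWeil.Reduced

/-!
# The Kummer map

For a divisor class `x` of degree `0` and bases `s`, `s'` of `L(n O + D)`, `L(n O - D)` the function
`det (s_i P_j) * det (s'_i P_j)` on tuples of points does not depend on the choices up to a scalar.
It determines `x` up to sign.
-/

set_option autoImplicit false

noncomputable section

open AlgebraicCurve

namespace FLTA.MordellWeil

variable {k F : Type*} [Field k] [Field F] [Algebra k F] [IsAlgClosed k] [IsCurveOver k F] (O : Place k F)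

/-- `det (s_i P_j) * det (s'_i P_j)`, written with the products `s_i s'_l`. -/
def phiFun {r : ℕ} (s s' : Fin r → F) (P : Fin r → Pt O) : k :=
  ∑ σ : Equiv.Perm (Fin r), ∑ τ : Equiv.Perm (Fin r),
    ((Equiv.Perm.sign σ * Equiv.Perm.sign τ : ℤˣ) : ℤ) *
      ∏ j, ev (P j).1 (s (σ j) * s' (τ j))

/-- `z` is a Kummer vector of level `n` of the class `x`. -/
def IsKummer (n : ℕ) (x : Pic0 k F) (z : (Fin (rdim k F n) → Pt O) → k) : Prop :=
  ∃ (D : Divisor.degZero (K := k) (F := F)) (s s' : Fin (rdim k F n) → F) (c : k),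
    Pic0.mk D = x ∧ IsBasisOf s (Finsupp.single O (n : ℤ) + (D : Divisor k F)) ∧
      IsBasisOf s' (Finsupp.single O (n : ℤ) - (D : Divisor k F)) ∧ c ≠ 0 ∧ z = c • phiFun O s s'

variable [Curves.IsFunctionField k F] {O} {n : ℕ}

theorem mul_mem_lMul_two {D : Divisor k F} {f f' : F}
    (hf : f ∈ riemannRochSpace (Finsupp.single O (n : ℤ) + D))
    (hf' : f' ∈ riemannRochSpace (Finsupp.single O (n : ℤ) - D)) :
    f * f' ∈ lMul O ((2 * n : ℕ) : ℤ) := by
  have h := Curves.mul_mem_riemannRochSpace hf hf'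
  rwa [show Finsupp.single O (n : ℤ) + D + (Finsupp.single O (n : ℤ) - D)
      = Finsupp.single O ((2 * n : ℕ) : ℤ) by
    rw [show Finsupp.single O (n : ℤ) + D + (Finsupp.single O (n : ℤ) - D)
      = Finsupp.single O (n : ℤ) + Finsupp.single O (n : ℤ) by abel, ← Finsupp.single_add]
    congr 1
    push_cast
    ring] at h

theorem phiFun_mem {r : ℕ} {a : ℤ} {s s' : Fin r → F} (h : ∀ i l, s i * s' l ∈ lMul O a) :
    phiFun O s s' ∈ tFun O a r := by
  have e : phiFun O s s' = ∑ σ : Equiv.Perm (Fin r), ∑ τ : Equiv.Perm (Fin r),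
      ((((Equiv.Perm.sign σ * Equiv.Perm.sign τ : ℤˣ) : ℤ) : k) •
        prodEv O (fun j => s (σ j) * s' (τ j))) := by
    funext P
    simp only [Finset.sum_apply, Pi.smul_apply, smul_eq_mul, phiFun, prodEv]
  rw [e]
  exact sum_mem fun σ _ => sum_mem fun τ _ => Submodule.smul_mem _ _ (prodEv_mem O fun j => h _ _)

theorem phiFun_comm {r : ℕ} (s s' : Fin r → F) : phiFun O s' s = phiFun O s s' := by
  funext P
  unfold phiFun
  rw [Finset.sum_comm]
  refine Finset.sum_congr rfl fun σ _ => Finset.sum_congr rfl fun τ _ => ?_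
  rw [mul_comm (Equiv.Perm.sign τ)]
  simp only [mul_comm (s' _) (s _)]

/-- Where all factors are regular, `phiFun` is a product of two determinants of values. -/
theorem phiFun_apply_of_regular {r : ℕ} {s s' : Fin r → F} (P : Fin r → Pt O)
    (hs : ∀ i j, (P j).1.adicValuation (s i) ≤ 1) (hs' : ∀ i j, (P j).1.adicValuation (s' i) ≤ 1) :
    phiFun O s s' P = detFun O s P * detFun O s' P := by
  unfold phiFun detFun
  rw [Matrix.det_apply', Matrix.det_apply', Finset.sum_mul_sum]
  refine Finset.sum_congr rfl fun σ _ => Finset.sum_congr rfl fun τ _ => ?_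
  simp only [Matrix.of_apply, Units.val_mul, Int.cast_mul]
  rw [Finset.prod_congr rfl fun j _ => ev_mul (hs (σ j) j) (hs' (τ j) j), Finset.prod_mul_distrib]
  ring

theorem phiFun_mul_prodEv {r : ℕ} {a b c : ℤ} {s s' : Fin r → F} {h h' : F}
    (hs : ∀ i, h * s i ∈ lMul O a) (hs' : ∀ i, h' * s' i ∈ lMul O b)
    (hh : h * h' ∈ lMul O c) {d : ℤ} (hss : ∀ i l, s i * s' l ∈ lMul O d) :
    prodEv O (fun _ : Fin r => h * h') * phiFun O s s'
      = detFun O (fun i => h * s i) * detFun O (fun i => h' * s' i) := by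
  funext P
  rw [Pi.mul_apply, Pi.mul_apply, ← phiFun_apply_of_regular P
    (fun i j => adicValuation_le_one_of_mem_lMul O (hs i) _)
    (fun i j => adicValuation_le_one_of_mem_lMul O (hs' i) _)]
  simp only [phiFun, prodEv, Finset.mul_sum]
  refine Finset.sum_congr rfl fun σ _ => Finset.sum_congr rfl fun τ _ => ?_
  rw [mul_left_comm, ← Finset.prod_mul_distrib]
  refine congrArg _ (Finset.prod_congr rfl fun j _ => ?_)
  rw [← ev_mul (adicValuation_le_one_of_mem_lMul O hh _)
    (adicValuation_le_one_of_mem_lMul O (hss _ _) _)]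
  congr 1
  ring

/-- Clearing denominators in a Kummer vector. -/
theorem exists_clear_phiFun {D : Divisor k F} {s s' : Fin (rdim k F n) → F}
    (hs : IsBasisOf s (Finsupp.single O (n : ℤ) + D))
    (hs' : IsBasisOf s' (Finsupp.single O (n : ℤ) - D)) :
    ∃ (a b c : ℤ) (h h' : F), h ≠ 0 ∧ h' ≠ 0 ∧ h * h' ∈ lMul O c ∧
      (∀ f ∈ riemannRochSpace (Finsupp.single O (n : ℤ) + D), h * f ∈ lMul O a) ∧
      (∀ f ∈ riemannRochSpace (Finsupp.single O (n : ℤ) - D), h' * f ∈ lMul O b) ∧
      prodEv O (fun _ : Fin (rdim k F n) => h * h') * phiFun O s s'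
        = detFun O (fun i => h * s i) * detFun O (fun i => h' * s' i) := by
  obtain ⟨a, h, h0, hm⟩ := exists_clear O (Finsupp.single O (n : ℤ) + D)
  obtain ⟨b, h', h0', hm'⟩ := exists_clear O (Finsupp.single O (n : ℤ) - D)
  have ha : ∀ f ∈ riemannRochSpace (Finsupp.single O (n : ℤ) + D), h * f ∈ lMul O (a : ℤ) :=
    fun f hf => by simpa using Curves.mul_mem_riemannRochSpace hm hf
  have hb : ∀ f ∈ riemannRochSpace (Finsupp.single O (n : ℤ) - D), h' * f ∈ lMul O (b : ℤ) :=
    fun f hf => by simpa using Curves.mul_mem_riemannRochSpace hm' hf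
  have hc : h * h' ∈ lMul O ((a : ℤ) + b - 2 * n) := by
    have := Curves.mul_mem_riemannRochSpace hm hm'
    rwa [show Finsupp.single O (a : ℤ) - (Finsupp.single O (n : ℤ) + D) +
        (Finsupp.single O (b : ℤ) - (Finsupp.single O (n : ℤ) - D))
        = Finsupp.single O ((a : ℤ) + b - 2 * n) by
      rw [Finsupp.single_sub, Finsupp.single_add, two_mul, Finsupp.single_add]; abel] at this
  exact ⟨a, b, _, h, h', h0, h0', hc, ha, hb, phiFun_mul_prodEv (fun i => ha _ (hs.mem i))
    (fun i => hb _ (hs'.mem i)) hc fun i l => mul_mem_lMul_two (hs.mem i) (hs'.mem l)⟩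

theorem phiFun_ne_zero {D : Divisor k F} {s s' : Fin (rdim k F n) → F}
    (hs : IsBasisOf s (Finsupp.single O (n : ℤ) + D))
    (hs' : IsBasisOf s' (Finsupp.single O (n : ℤ) - D)) : phiFun O s s' ≠ 0 := by
  obtain ⟨a, b, c, h, h', h0, h0', -, ha, hb, he⟩ := exists_clear_phiFun hs hs'
  intro hz
  rw [hz, mul_zero] at he
  exact mul_ne_zero_tFun O (detFun_mem O fun i => ha _ (hs.mem i))
    (detFun_mem O fun i => hb _ (hs'.mem i))
    (detFun_ne_zero O (fun i => ha _ (hs.mem i))
      (hs.1.map' (LinearMap.mulLeft k h) (LinearMap.ker_eq_bot.2 fun x y e => mul_left_cancel₀ h0 e)))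
    (detFun_ne_zero O (fun i => hb _ (hs'.mem i))
      (hs'.1.map' (LinearMap.mulLeft k h') (LinearMap.ker_eq_bot.2 fun x y e => mul_left_cancel₀ h0' e)))
    he.symm

theorem phiFun_change {D : Divisor k F} {s s' t t' : Fin (rdim k F n) → F}
    (hs : IsBasisOf s (Finsupp.single O (n : ℤ) + D))
    (hs' : IsBasisOf s' (Finsupp.single O (n : ℤ) - D))
    (ht : IsBasisOf t (Finsupp.single O (n : ℤ) + D))
    (ht' : IsBasisOf t' (Finsupp.single O (n : ℤ) - D)) :
    ∃ c : k, c ≠ 0 ∧ phiFun O t t' = c • phiFun O s s' := by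
  obtain ⟨a, b, c, h, h', h0, h0', hc, ha, hb, he⟩ := exists_clear_phiFun hs hs'
  obtain ⟨G, hG, hGt⟩ := hs.exists_matrix ht
  obtain ⟨G', hG', hGt'⟩ := hs'.exists_matrix ht'
  refine ⟨G.det * G'.det, mul_ne_zero hG hG', ?_⟩
  have he' := phiFun_mul_prodEv (fun i => ha _ (ht.mem i)) (fun i => hb _ (ht'.mem i)) hc
    fun i l => mul_mem_lMul_two (ht.mem i) (ht'.mem l)
  rw [detFun_matrix (t := fun i => h * t i) (fun i => ha _ (hs.mem i)) G
      (fun i => by simp [hGt i, Finset.mul_sum]),
    detFun_matrix (t := fun i => h' * t' i) (fun i => hb _ (hs'.mem i)) G'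
      (fun i => by simp [hGt' i, Finset.mul_sum]),
    smul_mul_smul_comm, ← he, ← mul_smul_comm] at he'
  by_contra hne
  have hm : ∀ {u u' : Fin (rdim k F n) → F}, IsBasisOf u (Finsupp.single O (n : ℤ) + D) →
      IsBasisOf u' (Finsupp.single O (n : ℤ) - D) →
      phiFun O u u' ∈ tFun O ((2 * n : ℕ) : ℤ) _ := fun hu hu' =>
    phiFun_mem fun i l => mul_mem_lMul_two (hu.mem i) (hu'.mem l)
  have hp : prodEv O (fun _ : Fin (rdim k F n) => h * h') ≠ 0 := fun hz => by
    rw [hz, zero_mul] at he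
    exact mul_ne_zero_tFun O (detFun_mem O fun i => ha _ (hs.mem i))
      (detFun_mem O fun i => hb _ (hs'.mem i))
      (detFun_ne_zero O (fun i => ha _ (hs.mem i))
        (hs.1.map' (LinearMap.mulLeft k h) (LinearMap.ker_eq_bot.2 fun x y e => mul_left_cancel₀ h0 e)))
      (detFun_ne_zero O (fun i => hb _ (hs'.mem i))
        (hs'.1.map' (LinearMap.mulLeft k h') (LinearMap.ker_eq_bot.2 fun x y e => mul_left_cancel₀ h0' e)))
      he.symm
  refine mul_ne_zero_tFun O (prodEv_mem O (a := c) fun _ => hc)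
    (sub_mem (hm ht ht') (Submodule.smul_mem _ (G.det * G'.det) (hm hs hs'))) hp
    (sub_ne_zero.2 hne) ?_
  rw [mul_sub, he', sub_self]


theorem IsKummer.mem_tFun {x : Pic0 k F} {z} (h : IsKummer O n x z) :
    z ∈ tFun O (2 * n : ℕ) (rdim k F n) := by
  obtain ⟨D, s, s', c, -, hs, hs', -, rfl⟩ := h
  exact Submodule.smul_mem _ _ (phiFun_mem fun i l => mul_mem_lMul_two (hs.mem i) (hs'.mem l))

theorem IsKummer.ne_zero {x : Pic0 k F} {z} (hn : 2 * genusFF k F ≤ n) (h : IsKummer O n x z) :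
    z ≠ 0 := by
  obtain ⟨D, s, s', c, -, hs, hs', hc, rfl⟩ := h
  exact smul_ne_zero hc (phiFun_ne_zero hs hs')

variable (O) in
theorem exists_isKummer (hn : 2 * genusFF k F ≤ n) (x : Pic0 k F) : ∃ z, IsKummer O n x z := by
  obtain ⟨D, rfl⟩ := Pic0.mk_surjective x
  obtain ⟨s, hs⟩ := exists_isBasisOf hn (D := Finsupp.single O (n : ℤ) + (D : Divisor k F))
    (by rw [map_add, degree_single_one, Divisor.mem_degZero.1 D.2, add_zero])
  obtain ⟨s', hs'⟩ := exists_isBasisOf hn (D := Finsupp.single O (n : ℤ) - (D : Divisor k F))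
    (by rw [map_sub, degree_single_one, Divisor.mem_degZero.1 D.2, sub_zero])
  exact ⟨phiFun O s s', D, s, s', 1, rfl, hs, hs', one_ne_zero, (one_smul _ _).symm⟩

theorem IsKummer.smul {x : Pic0 k F} {z} (h : IsKummer O n x z) {c : k} (hc : c ≠ 0) :
    IsKummer O n x (c • z) := by
  obtain ⟨D, s, s', d, h1, h2, h3, hd, rfl⟩ := h
  exact ⟨D, s, s', c * d, h1, h2, h3, mul_ne_zero hc hd, by rw [mul_smul]⟩

/-- The Kummer vector is unique up to a scalar. -/
theorem IsKummer.exists_eq_smul (hn : 2 * genusFF k F ≤ n) {x : Pic0 k F} {z w}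
    (h : IsKummer O n x z) (h' : IsKummer O n x w) : ∃ c : k, c ≠ 0 ∧ w = c • z := by
  obtain ⟨D, s, s', c, hD, hs, hs', hc, rfl⟩ := h
  obtain ⟨E, t, t', d, hE, ht, ht', hd, rfl⟩ := h'
  obtain ⟨f, hf0, hf⟩ : Divisor.IsPrincipal ((E : Divisor k F) - (D : Divisor k F)) := by
    have := QuotientAddGroup.eq.1 (hD.trans hE.symm)
    rw [AddSubgroup.mem_addSubgroupOf, Divisor.mem_principal] at this
    simpa [sub_eq_neg_add] using this
  have hE' : (E : Divisor k F) = (D : Divisor k F) + Curves.divFn f := by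
    ext v
    have := hf v
    rw [Finsupp.sub_apply] at this
    rw [Finsupp.add_apply, Curves.divFn_apply]
    omega
  have hinv : Curves.divFn (K := k) f⁻¹ = -Curves.divFn f := by
    ext v
    rw [Finsupp.neg_apply, Curves.divFn_apply, Curves.divFn_apply, v.ord_inv]
  have hu := (ht.mul hf0).congr (show Finsupp.single O (n : ℤ) + (E : Divisor k F) - Curves.divFn f
      = Finsupp.single O (n : ℤ) + (D : Divisor k F) by rw [hE']; abel)
  have hu' := (ht'.mul (inv_ne_zero hf0)).congr (show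
      Finsupp.single O (n : ℤ) - (E : Divisor k F) - Curves.divFn f⁻¹
      = Finsupp.single O (n : ℤ) - (D : Divisor k F) by rw [hE', hinv]; abel)
  obtain ⟨e, he, hphi⟩ := phiFun_change hs hs' hu hu'
  have key : phiFun O (fun i => f * t i) (fun i => f⁻¹ * t' i) = phiFun O t t' := by
    funext P
    refine Finset.sum_congr rfl fun σ _ => Finset.sum_congr rfl fun τ _ => ?_
    refine congrArg _ (Finset.prod_congr rfl fun j _ => congrArg _ ?_)
    field_simp
  refine ⟨d * e / c, div_ne_zero (mul_ne_zero hd he) hc, ?_⟩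
  rw [← key, hphi, smul_smul, smul_smul, div_mul_cancel₀ _ hc]

theorem IsKummer.neg {x : Pic0 k F} {z} (h : IsKummer O n x z) : IsKummer O n (-x) z := by
  obtain ⟨D, s, s', c, hD, hs, hs', hc, rfl⟩ := h
  refine ⟨-D, s', s, c, ?_, hs'.congr ?_, hs.congr ?_, hc, by rw [phiFun_comm]⟩
  · rw [← hD]; rfl
  · simp [sub_eq_add_neg]
  · simp

/-- The Kummer vector determines the class up to sign. -/
theorem IsKummer.eq_or_eq_neg [CharZero k] (hn : 4 * genusFF k F + 2 ≤ n) {x y : Pic0 k F} {z}
    (h : IsKummer O n x z) (h' : IsKummer O n y z) : x = y ∨ x = -y := by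
  classical
  obtain ⟨D, s, s', c, rfl, hs, hs', hc, rfl⟩ := h
  obtain ⟨E, t, t', d, rfl, ht, ht', hd, hz⟩ := h'
  by_contra hcon
  push Not at hcon
  obtain ⟨hxy, hxy'⟩ := hcon
  obtain ⟨hg, Ef, hEf0, hEfdeg, hEf⟩ := exists_avoid_theta
    (fun b : Bool => bif b then E - D else -E - D) (by
      rintro (_ | _)
      · show Pic0.mk (-E - D) ≠ 0
        intro e
        apply hxy'
        have e' : -Pic0.mk E - Pic0.mk D = 0 := e
        rw [← sub_eq_zero, sub_neg_eq_add, add_comm, ← neg_eq_zero, neg_add, ← sub_eq_add_neg, e']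
      · show Pic0.mk (E - D) ≠ 0
        intro e
        apply hxy
        have e' : Pic0.mk E - Pic0.mk D = 0 := e
        exact (sub_eq_zero.1 e').symm)
  obtain ⟨f, T, hf0, -, hTS, hTcard, hT⟩ := exists_reduced
    (D := Finsupp.single O (n : ℤ) + (D : Divisor k F) - Ef) (by
      rw [map_sub, map_add, degree_single_one, Divisor.mem_degZero.1 D.2, hEfdeg]
      omega)
    (insert O ((D : Divisor k F).support ∪ (E : Divisor k F).support))
  rw [map_sub, map_add, degree_single_one, Divisor.mem_degZero.1 D.2, hEfdeg] at hTcard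
  have hr : T.card = rdim k F n := by unfold rdim; omega
  let P : Fin (rdim k F n) → Pt O := fun j =>
    ⟨((T.equivFinOfCardEq hr).symm j : Place k F), fun e => Finset.disjoint_left.1 hTS
      ((T.equivFinOfCardEq hr).symm j).2 (e ▸ Finset.mem_insert_self _ _)⟩
  have hPmem : ∀ j, (P j).1 ∈ T := fun j => ((T.equivFinOfCardEq hr).symm j).2
  have hPinj : Function.Injective fun j => (P j).1 := fun a b e =>
    (T.equivFinOfCardEq hr).symm.injective (Subtype.ext e)
  have hsum : ∑ j, Finsupp.single (P j).1 (1 : ℤ)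
      = Curves.divFn f + (Finsupp.single O (n : ℤ) + (D : Divisor k F) - Ef) := by
    rw [hT, ← Finset.sum_coe_sort T]
    exact Fintype.sum_equiv (T.equivFinOfCardEq hr).symm _ _ fun j => rfl
  have hD : ∀ j, (D : Divisor k F) (P j).1 = 0 ∧ (E : Divisor k F) (P j).1 = 0 ∧
      (Finsupp.single O (n : ℤ) : Divisor k F) (P j).1 = 0 := fun j => by
    have h1 := Finset.disjoint_left.1 hTS (hPmem j)
    simp only [Finset.mem_insert, Finset.mem_union, Finsupp.mem_support_iff, not_or, not_not] at h1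
    exact ⟨h1.2.1, h1.2.2, Finsupp.single_eq_of_ne (a := O) h1.1⟩
  have key : ∀ {u : Fin (rdim k F n) → F} {A : Divisor k F},
      IsBasisOf u (Finsupp.single O (n : ℤ) + A) → (∀ j, A (P j).1 = 0) →
      (detFun O u P = 0 ↔
        riemannRochSpace (A - (D : Divisor k F) + Ef - Curves.divFn f) ≠ ⊥) := by
    intro u A hu hA
    rw [detFun, det_ev_eq_zero_iff hu (fun j => (P j).1) hPinj
      (fun j => by rw [Finsupp.add_apply, (hD j).2.2, hA j, add_zero]), hsum]
    rw [show Finsupp.single O (n : ℤ) + A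
        - (Curves.divFn f + (Finsupp.single O (n : ℤ) + (D : Divisor k F) - Ef))
        = A - (D : Divisor k F) + Ef - Curves.divFn f by abel]
  have hreg : ∀ {u : Fin (rdim k F n) → F} {A : Divisor k F},
      IsBasisOf u (Finsupp.single O (n : ℤ) + A) → (∀ j, A (P j).1 = 0) →
      ∀ i j, (P j).1.adicValuation (u i) ≤ 1 := fun hu hA i j =>
    adicValuation_le_one_of_mem (hu.mem i) (by
      rw [Finsupp.add_apply, (hD j).2.2, hA j, add_zero])
  have hbot : ∀ A : Divisor k F, riemannRochSpace (A + Ef) = ⊥ →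
      riemannRochSpace (A + Ef - Curves.divFn f) = ⊥ := by
    intro A hA
    rw [Submodule.eq_bot_iff] at hA ⊢
    intro u hu
    have h1 : f⁻¹ ∈ riemannRochSpace (Curves.divFn (K := k) f) := by
      rw [Curves.mem_riemannRochSpace_iff_add_nonneg (inv_ne_zero hf0), Finsupp.le_def]
      intro v
      simp [Curves.divFn_apply, v.ord_inv]
    have h2 := Curves.mul_mem_riemannRochSpace hu h1
    rw [sub_add_cancel] at h2
    simpa [hf0] using hA _ h2
  have hsneg : IsBasisOf s' (Finsupp.single O (n : ℤ) + -(D : Divisor k F)) :=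
    hs'.congr (sub_eq_add_neg _ _)
  have htneg : IsBasisOf t' (Finsupp.single O (n : ℤ) + -(E : Divisor k F)) :=
    ht'.congr (sub_eq_add_neg _ _)
  have h0 : detFun O s P = 0 := by
    rw [key hs fun j => (hD j).1, sub_self, zero_add, Submodule.ne_bot_iff]
    refine ⟨f, ?_, hf0⟩
    rw [Curves.mem_riemannRochSpace_iff_add_nonneg hf0, add_sub_cancel]
    exact hEf0
  have hne1 : detFun O t P ≠ 0 := fun e => (key ht fun j => (hD j).2.1).1 e
    (hbot _ (by simpa using hEf true))
  have hne2 : detFun O t' P ≠ 0 := fun e => (key htneg fun j => by simp [(hD j).2.1]).1 e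
    (hbot _ (by simpa using hEf false))
  have := congrFun hz P
  rw [Pi.smul_apply, Pi.smul_apply,
    phiFun_apply_of_regular P (hreg hs fun j => (hD j).1) (hreg hsneg fun j => by simp [(hD j).1]),
    phiFun_apply_of_regular P (hreg ht fun j => (hD j).2.1)
      (hreg htneg fun j => by simp [(hD j).2.1]),
    h0, zero_mul, smul_zero, smul_eq_mul] at this
  exact mul_ne_zero hd (mul_ne_zero hne1 hne2) this.symm

/-- A semilinear automorphism fixing `O`, acting on points. -/
def smulPt (g : SemilinearAut k F) (hg : g • O = O) (p : Pt O) : Pt O :=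
  ⟨g • p.1, fun h => p.2 (MulAction.injective g (h.trans hg.symm))⟩

/-- The action of such an automorphism on functions of tuples. -/
def smulFn (g : SemilinearAut k F) (hg : g • O = O) {r : ℕ} (z : (Fin r → Pt O) → k)
    (P : Fin r → Pt O) : k :=
  SemilinearAut.baseAut g
    (z fun j => smulPt g⁻¹ (inv_smul_eq_iff.2 hg.symm) (P j))

theorem IsKummer.semilinear (g : SemilinearAut k F) (hg : g • O = O) {x : Pic0 k F} {z}
    (h : IsKummer O n x z) : IsKummer O n (g • x) (smulFn g hg z) := by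
  obtain ⟨D, s, s', c, rfl, hs, hs', hc, rfl⟩ := h
  refine ⟨SemilinearAut.degZeroSMulHom g D, fun i => g • s i, fun i => g • s' i,
    SemilinearAut.baseAut g c, rfl, (hs.semilinear g).congr ?_, (hs'.semilinear g).congr ?_,
    (map_ne_zero_iff _ (RingEquiv.injective _)).2 hc, ?_⟩
  · rw [smul_add, SemilinearAut.smul_single, hg]; rfl
  · rw [smul_sub, SemilinearAut.smul_single, hg]; rfl
  funext P
  simp only [smulFn, phiFun, Pi.smul_apply, smul_eq_mul, map_mul, map_sum, map_intCast, map_prod]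
  refine congrArg _ (Finset.sum_congr rfl fun σ _ => Finset.sum_congr rfl fun τ _ =>
    congrArg _ (Finset.prod_congr rfl fun j _ => ?_))
  rw [← ev_smul_semilinear g, smul_mul']
  congr 1
  exact smul_inv_smul g (P j).1

theorem smulFn_prodEv (g : SemilinearAut k F) (hg : g • O = O) {r : ℕ} (f : Fin r → F) :
    smulFn g hg (prodEv O f) = prodEv O (fun j => g • f j) := by
  funext P
  simp only [smulFn, prodEv, map_prod]
  refine Finset.prod_congr rfl fun j _ => ?_
  rw [← ev_smul_semilinear g]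
  congr 1
  exact smul_inv_smul g (P j).1

end FLTA.MordellWeil
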