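import Fermat.Agent.MordellWeil.System

/-!
# Coordinates for divisor classes together with algebraic relations between them

`LinkData k J` records vectors representing the elements of `J`, homogeneous equations satisfied by
the representing vectors, and homogeneous equations in vectors `a_1, …, a_l` and an auxiliary
vector `u` expressing that the classes of the `a_i` add up to a given element.
-/

set_option autoImplicit false

noncomputable section

namespace FLTA.MordellWeil

/-- Block sizes of a link: slots and the auxiliary vector. -/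
def linkSize (N M l : ℕ) : Option (Fin l) → ℕ
  | none => M
  | some _ => N

/-- The point formed by the slots and the auxiliary vector. -/
def linkPt {k : Type*} {N M l : ℕ} (as : Fin l → Fin N → k) (u : Fin M → k) :
    ∀ b : Option (Fin l), Fin (linkSize N M l b) → k
  | none => u
  | some c => as c

/-- Vectors for the elements of `J`, with equations for the relations between them. -/
structure LinkData (k : Type*) [Field k] (J : Type*) [AddCommGroup J] where
  /-- The number of coordinates. -/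
  N : ℕ
  /-- `a` represents `x`. -/
  Rep : (Fin N → k) → J → Prop
  /-- The size of the auxiliary vector of a relation. -/
  M : ℕ → J → ℕ
  /-- The equations of a single representing vector. -/
  Good : (Fin N → k) → Prop
  /-- The equations of a relation. -/
  Link : ∀ l c, (Fin l → Fin N → k) → (Fin (M l c) → k) → Prop
  good_eqs : ∃ E : Set ((Unit → Fin N → k) → k),
    (∀ G ∈ E, IsHomFn (τ := PEmpty.{1}) fun _ => G) ∧
      ∀ a, Good a ↔ ∀ G ∈ E, G (fun _ => a) = 0
  link_eqs : ∀ l c, ∃ E : Set ((∀ b, Fin (linkSize N (M l c) l b) → k) → k),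
    (∀ G ∈ E, IsHomFn (τ := PEmpty.{1}) fun _ => G) ∧
      ∀ as u, Link l c as u ↔ ∀ G ∈ E, G (linkPt as u) = 0
  exists_rep : ∀ x : J, ∃ a, Rep a x
  rep_ne_zero : ∀ {a x}, Rep a x → a ≠ 0
  rep_good : ∀ {a x}, Rep a x → Good a
  rep_unique : ∀ {a x y}, Rep a x → Rep a y → x = y
  rep_smul : ∀ {a x} {t : k}, t ≠ 0 → Rep a x → Rep (t • a) x
  class_of_link : ∀ {l c as u}, (∀ i, as i ≠ 0 ∧ Good (as i)) → u ≠ 0 → Link l c as u →
    ∃ x : Fin l → J, (∀ i, Rep (as i) (x i)) ∧ ∑ i, x i = c
  exists_link : ∀ {l c as} {x : Fin l → J}, (∀ i, Rep (as i) (x i)) → ∑ i, x i = c →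
    ∃ u, u ≠ 0 ∧ Link l c as u

namespace LinkData

variable {k : Type*} [Field k] {J : Type*} [AddCommGroup J] (L : LinkData k J)

theorem good_smul {a : Fin L.N → k} (h : L.Good a) (t : k) : L.Good (t • a) := by
  obtain ⟨E, hE, hiff⟩ := L.good_eqs
  rw [hiff] at h ⊢
  intro G hG
  exact (hE G hG).smul_eq_zero (z := fun i => nomatch i) (h G hG) fun _ => t

theorem link_smul {l : ℕ} {c : J} {as : Fin l → Fin L.N → k} {u : Fin (L.M l c) → k}
    (h : L.Link l c as u) (t : Fin l → k) (s : k) :
    L.Link l c (fun i => t i • as i) (s • u) := by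
  obtain ⟨E, hE, hiff⟩ := L.link_eqs l c
  rw [hiff] at h ⊢
  intro G hG
  have h1 := (hE G hG).smul_eq_zero (z := fun i => nomatch i) (h G hG)
    fun b => Option.elim b s t
  convert h1 using 2
  funext b
  cases b <;> rfl

/-- The vectors and auxiliary vectors of a finite family of relations. -/
def diagSize {V R : Type*} (len : R → ℕ) (cls : R → J) : V ⊕ R → ℕ
  | .inl _ => L.N
  | .inr ρ => L.M (len ρ) (cls ρ)

/-- The values of the equations of the vertices and the relations of a diagram, where the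
vertices in `V` are unknowns and those in `P` are parameters. -/
theorem exists_diagEqs {V R P : Type*} [Fintype V] [Fintype R] [DecidableEq V] [DecidableEq R]
    (len : R → ℕ) (cls : R → J) (slot : ∀ ρ, Fin (len ρ) → V ⊕ P) :
    ∃ E : Set ((P × Fin L.N → k) → (∀ b : V ⊕ R, Fin (L.diagSize len cls b) → k) → k),
      (∀ G ∈ E, IsHomFn G) ∧ ∀ z x, (∀ G ∈ E, G z x = 0) ↔
        (∀ v, L.Good (x (.inl v))) ∧
          ∀ ρ, L.Link (len ρ) (cls ρ)
            (fun i => Sum.elim (fun v => x (.inl v)) (fun p j => z (p, j)) (slot ρ i))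
            (x (.inr ρ)) := by
  classical
  obtain ⟨Eg, hEg, hgood⟩ := L.good_eqs
  choose El hEl hlink using fun ρ => L.link_eqs (len ρ) (cls ρ)
  refine ⟨{G | ∃ v, ∃ G₀ ∈ Eg, G = fun _ x => G₀ fun _ => x (.inl v)} ∪
    {G | ∃ ρ, ∃ G₀ ∈ El ρ, G = fun z x => G₀ (linkPt
      (fun i => Sum.elim (fun v => x (.inl v)) (fun p j => z (p, j)) (slot ρ i))
      (x (.inr ρ)))}, ?_, fun z x => ⟨fun h => ⟨fun v => ?_, fun ρ => ?_⟩, ?_⟩⟩
  · rintro G (⟨v, G₀, hG₀, rfl⟩ | ⟨ρ, G₀, hG₀, rfl⟩)
    · obtain ⟨d, hd⟩ := hEg G₀ hG₀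
      exact ⟨_, hd.subst (τ := P × Fin L.N) (ι := fun b => Fin (L.diagSize len cls b))
        (fun i => nomatch i) (δ := fun _ => Pi.single (Sum.inl v) 1)
        (S := fun _ i _ x => x (.inl v) i) fun _ i =>
          homFn_coord (ι := fun b => Fin (L.diagSize len cls b)) (Sum.inl v) i⟩
    · obtain ⟨d, hd⟩ := hEl ρ G₀ hG₀
      let S : ∀ b, Fin (linkSize L.N (L.M (len ρ) (cls ρ)) (len ρ) b) → (P × Fin L.N → k) →
          (∀ b : V ⊕ R, Fin (L.diagSize len cls b) → k) → k := fun b i z x =>
        linkPt (fun i => Sum.elim (fun v => x (.inl v)) (fun p j => z (p, j)) (slot ρ i))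
          (x (.inr ρ)) b i
      let δ : Option (Fin (len ρ)) → V ⊕ R → ℕ := fun b =>
        Option.elim b (Pi.single (Sum.inr ρ) 1) fun i =>
          Sum.elim (fun v => Pi.single (Sum.inl v) 1) (fun _ => 0) (slot ρ i)
      refine ⟨_, (hd.subst (τ := P × Fin L.N) (ι := fun b => Fin (L.diagSize len cls b))
        (fun i => nomatch i) (δ := δ) (S := S) fun b i => ?_)⟩
      rcases b with _ | c
      · exact homFn_coord (ι := fun b => Fin (L.diagSize len cls b)) (Sum.inr ρ) i
      · rcases hs : slot ρ c with v | p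
        · simp only [δ, S, Option.elim, hs, Sum.elim_inl, linkPt]
          exact homFn_coord (ι := fun b => Fin (L.diagSize len cls b)) (Sum.inl v) i
        · simp only [δ, S, Option.elim, hs, Sum.elim_inr, linkPt]
          exact homFn_param (isPolyFn_coord (p, i))
  · exact (hgood _).2 fun G₀ hG₀ => h _ (Or.inl ⟨v, G₀, hG₀, rfl⟩)
  · exact (hlink ρ _ _).2 fun G₀ hG₀ => h _ (Or.inr ⟨ρ, G₀, hG₀, rfl⟩)
  · rintro ⟨h1, h2⟩ G (⟨v, G₀, hG₀, rfl⟩ | ⟨ρ, G₀, hG₀, rfl⟩)
    · exact (hgood _).1 (h1 v) G₀ hG₀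
    · exact (hlink ρ _ _).1 (h2 ρ) G₀ hG₀

end LinkData

end FLTA.MordellWeil
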