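import Fermat.Agent.MordellWeil.Coords
import Fermat.Agent.MordellWeil.LinkData

/-!
# Coordinates for divisor classes with equations for their relations

A relation `x_1 + ⋯ + x_l = [G]` is recorded by an auxiliary `u ∈ L(l e O - G)`: the products of
slices of the representing vectors lie in `u • L(l m O + G)`, which says that certain determinants
of values vanish.
-/

set_option autoImplicit false

noncomputable section

open AlgebraicCurve

namespace FLTA.MordellWeil

variable {k F : Type*} [Field k] [Field F] [Algebra k F] [IsAlgClosed k] [IsCurveOver k F]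
variable {O : Place k F}

theorem mul_mem_lMul {a b : Divisor k F} {N : ℤ} (h : a + b = Finsupp.single O N) {f g : F}
    (hf : f ∈ riemannRochSpace a) (hg : g ∈ riemannRochSpace b) : f * g ∈ lMul O N := by
  have := Curves.mul_mem_riemannRochSpace hf hg
  rwa [h] at this

theorem prod_mem_lMul {ι : Type*} (s : Finset ι) {N : ℤ} {f : ι → F}
    (hf : ∀ i ∈ s, f i ∈ lMul O N) : ∏ i ∈ s, f i ∈ lMul O ((s.card : ℤ) * N) := by
  classical
  induction s using Finset.induction_on with
  | empty =>
    refine mem_riemannRochSpace_iff.2 fun v => Or.inr ?_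
    simp
  | insert i s hi ih =>
    rw [Finset.prod_insert hi, Finset.card_insert_of_notMem hi]
    refine mul_mem_lMul ?_ (hf i (Finset.mem_insert_self i s))
      (ih fun j hj => hf j (Finset.mem_insert_of_mem hj))
    rw [← Finsupp.single_add]
    congr 1
    push_cast
    ring

theorem ev_prod {ι : Type*} (s : Finset ι) {N : ℤ} {f : ι → F}
    (hf : ∀ i ∈ s, f i ∈ lMul O N) (p : Pt O) :
    ev p.1 (∏ i ∈ s, f i) = ∏ i ∈ s, ev p.1 (f i) := by
  classical
  induction s using Finset.induction_on with
  | empty => simp
  | insert i s hi ih =>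
    rw [Finset.prod_insert hi, Finset.prod_insert hi,
      ev_mul (adicValuation_le_one_of_mem_lMul O (hf i (Finset.mem_insert_self i s)) p)
        (adicValuation_le_one_of_mem_lMul O
          (prod_mem_lMul s fun j hj => hf j (Finset.mem_insert_of_mem hj)) p),
      ih fun j hj => hf j (Finset.mem_insert_of_mem hj)]

theorem detFun_eq_zero_of_dependent {R : ℕ} {N : ℤ} {W : Fin R → F} (hW : ∀ i, W i ∈ lMul O N)
    (hdep : ¬LinearIndependent k W) (p : Fin R → Pt O) : detFun O W p = 0 := by
  obtain ⟨c, hc, i, hi⟩ := Fintype.not_linearIndependent_iff.1 hdep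
  refine Matrix.exists_vecMul_eq_zero_iff.1 ⟨c, fun h => hi (congrFun h i), funext fun j => ?_⟩
  have h1 := ev_sum_smul O Finset.univ c (fun i _ => hW i) (p j)
  rw [hc, ev_zero] at h1
  simpa [Matrix.vecMul, dotProduct] using h1.symm

variable [Curves.IsFunctionField k F]

/-- A chosen divisor in a class. -/
def repDiv (c : Pic0 k F) : Divisor.degZero (K := k) (F := F) :=
  (Pic0.mk_surjective c).choose

omit [IsAlgClosed k] [IsCurveOver k F] [Curves.IsFunctionField k F] in
theorem mk_repDiv (c : Pic0 k F) : Pic0.mk (repDiv c) = c :=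
  (Pic0.mk_surjective c).choose_spec

variable (O)

/-- The size of the auxiliary vector. -/
def auxDim (e l : ℕ) (c : Pic0 k F) : ℕ :=
  Module.finrank k (riemannRochSpace
    (Finsupp.single O ((l * e : ℕ) : ℤ) - (repDiv c : Divisor k F)))

/-- The basis for the auxiliary vector. -/
def auxBasis (e l : ℕ) (c : Pic0 k F) : Module.Basis (Fin (auxDim O e l c)) k
    (riemannRochSpace (Finsupp.single O ((l * e : ℕ) : ℤ) - (repDiv c : Divisor k F))) :=
  Module.finBasis k _

/-- The function of an auxiliary vector. -/
def auxFun (e l : ℕ) (c : Pic0 k F) (u : Fin (auxDim O e l c) → k) : F :=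
  ∑ s, u s • (auxBasis O e l c s : F)

/-- The dimension of the target space. -/
def tgtDim (m l : ℕ) (c : Pic0 k F) : ℕ :=
  Module.finrank k (riemannRochSpace
    (Finsupp.single O ((l * m : ℕ) : ℤ) + (repDiv c : Divisor k F)))

/-- The basis of the target space. -/
def tgtBasis (m l : ℕ) (c : Pic0 k F) : Module.Basis (Fin (tgtDim O m l c)) k
    (riemannRochSpace (Finsupp.single O ((l * m : ℕ) : ℤ) + (repDiv c : Divisor k F))) :=
  Module.finBasis k _

variable {O}

theorem auxFun_mem {e l : ℕ} {c : Pic0 k F} (u : Fin (auxDim O e l c) → k) :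
    auxFun O e l c u ∈ riemannRochSpace
      (Finsupp.single O ((l * e : ℕ) : ℤ) - (repDiv c : Divisor k F)) :=
  sum_mem fun s _ => Submodule.smul_mem _ _ (auxBasis O e l c s).2

theorem auxFun_ne_zero {e l : ℕ} {c : Pic0 k F} {u : Fin (auxDim O e l c) → k} (hu : u ≠ 0) :
    auxFun O e l c u ≠ 0 := by
  intro h
  refine hu (funext fun s => ?_)
  refine Fintype.linearIndependent_iff.1 (auxBasis O e l c).linearIndependent u ?_ s
  refine Subtype.ext ?_
  simpa [auxFun] using h

theorem exists_auxFun_eq {e l : ℕ} {c : Pic0 k F} {f : F}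
    (hf : f ∈ riemannRochSpace (Finsupp.single O ((l * e : ℕ) : ℤ) - (repDiv c : Divisor k F))) :
    ∃ u : Fin (auxDim O e l c) → k, auxFun O e l c u = f := by
  refine ⟨(auxBasis O e l c).repr ⟨f, hf⟩, ?_⟩
  have := congrArg Subtype.val ((auxBasis O e l c).sum_repr ⟨f, hf⟩)
  simp only [AddSubmonoidClass.coe_finsetSum, SetLike.val_smul] at this
  exact this

omit [IsAlgClosed k] [IsCurveOver k F] [Curves.IsFunctionField k F] in
theorem sum_single_aux {m e l : ℕ} (G : Divisor k F) :
    (Finsupp.single O ((l * e : ℕ) : ℤ) - G) + (Finsupp.single O ((l * m : ℕ) : ℤ) + G)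
      = Finsupp.single O ((l * (m + e) : ℕ) : ℤ) := by
  rw [sub_add_add_cancel, ← Finsupp.single_add]
  congr 1
  push_cast
  ring

variable (O)

/-- The determinant expressing a relation. -/
def linkDet (m e : ℕ) {r d : ℕ} [NeZero r] (v : Fin d → (Fin r → Pt O) → k) (l : ℕ)
    (c : Pic0 k F) (U : Fin l → Fin r → Pt O) (p : Fin (tgtDim O m l c + 1) → Pt O)
    (as : Fin l → Fin d → k) (u : Fin (auxDim O e l c) → k) : k :=
  (Matrix.of fun i j => Fin.lastCases (motive := fun _ => k)
    (∏ q, vec v (as q) (Function.update (U q) 0 (p j)))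
    (fun t => ∑ s, ev (p j).1 ((auxBasis O e l c s : F) * (tgtBasis O m l c t : F)) * u s) i).det

variable {O}

/-- The functions whose values form `linkDet`. -/
theorem linkDet_eq {m e r d : ℕ} [NeZero r] {v : Fin d → (Fin r → Pt O) → k}
    {l : ℕ} {c : Pic0 k F} {U : Fin l → Fin r → Pt O} {as : Fin l → Fin d → k}
    {u : Fin (auxDim O e l c) → k} {f : Fin l → F}
    (hf : ∀ q, f q ∈ lMul O ((m + e : ℕ) : ℤ))
    (hfe : ∀ q p, ev p.1 (f q) = vec v (as q) (Function.update (U q) 0 p))
    (p : Fin (tgtDim O m l c + 1) → Pt O) :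
    linkDet O m e v l c U p as u = detFun O (Fin.snoc
      (fun t => auxFun O e l c u * (tgtBasis O m l c t : F)) (∏ q, f q)) p := by
  rw [linkDet, detFun]
  congr 1
  ext i j
  simp only [Matrix.of_apply]
  refine Fin.lastCases ?_ (fun t => ?_) i
  · rw [Fin.lastCases_last, Fin.snoc_last, ev_prod Finset.univ (fun q _ => hf q)]
    exact Finset.prod_congr rfl fun q _ => (hfe q _).symm
  · rw [Fin.lastCases_castSucc, Fin.snoc_castSucc, auxFun, Finset.sum_mul]
    simp only [smul_mul_assoc]
    rw [ev_sum_smul O Finset.univ u (fun s _ => mul_mem_lMul (sum_single_aux _)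
      (auxBasis O e l c s).2 (tgtBasis O m l c t).2)]
    exact Finset.sum_congr rfl fun s _ => mul_comm _ _

variable (O) in
/-- The representing vectors in given coordinates carry relation equations. -/
def relData [CharZero k] {m e : ℕ} (hm : 4 * genusFF k F + 2 ≤ m)
    (he : 2 * genusFF k F + 1 ≤ e) {d : ℕ}
    {v : Fin d → (Fin (rdim k F m) → Pt O) → k} (hv : IsCoords O ((m + e : ℕ) : ℤ) v) :
    LinkData k (Pic0 k F) :=
  haveI : NeZero (rdim k F m) := ⟨by unfold rdim; omega⟩
  { N := d
    Rep := fun a x => IsRep O m e (vec v a) x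
    M := auxDim O e
    Good := fun a => IsAlt O (vec v a) ∧ IsLowRank O (vec v a)
    Link := fun l c as u => ∀ U p, linkDet O m e v l c U p as u = 0
    good_eqs := by
      refine ⟨{G | ∃ (i j : Fin (rdim k F m)) (P : Fin (rdim k F m) → Pt O), i ≠ j ∧
          G = fun x => vec v (x ()) (P ∘ Equiv.swap i j) + vec v (x ()) P} ∪
        {G | ∃ (i₀ : Fin (rdim k F m)) (U : Fin (rdim k F m + 1) → Fin (rdim k F m) → Pt O)
          (p : Fin (rdim k F m + 1) → Pt O), G = fun x =>
            (Matrix.of fun i j => vec v (x ()) (Function.update (U i) i₀ (p j))).det}, ?_, ?_⟩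
      · have hlin : ∀ P, HomFn (τ := PEmpty.{1}) (B := Unit) (ι := fun _ => Fin d)
            (Pi.single () 1) fun _ x => vec v (x ()) P := fun P =>
          (homFn_linear (τ := PEmpty.{1}) (B := Unit) (ι := fun _ => Fin d) ()
            fun i => v i P).congr fun z x => (vec_apply v (x ()) P).symm
        rintro G (⟨i, j, P, -, rfl⟩ | ⟨i₀, U, p, rfl⟩)
        · exact ⟨_, (hlin _).add (hlin _)⟩
        · exact ⟨_, homFn_det fun i j => hlin _⟩
      · intro a
        constructor
        · rintro ⟨h1, h2⟩ G (⟨i, j, P, hij, rfl⟩ | ⟨i₀, U, p, rfl⟩)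
          · show vec v a _ + vec v a P = 0
            rw [h1 i j P hij, neg_add_cancel]
          · exact h2 i₀ U p
        · intro h
          exact ⟨fun i j P hij => eq_neg_of_add_eq_zero_left (h _ (Or.inl ⟨i, j, P, hij, rfl⟩)),
            fun i₀ U p => h _ (Or.inr ⟨i₀, U, p, rfl⟩)⟩
    link_eqs := fun l c => by
      refine ⟨{G | ∃ U p, G = fun x => linkDet O m e v l c U p (fun q => x (some q)) (x none)},
        ?_, fun as u => ?_⟩
      · rintro G ⟨U, p, rfl⟩
        let ιb : Option (Fin l) → Type := fun b => Fin (linkSize d (auxDim O e l c) l b)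
        refine ⟨∑ i, Fin.lastCases (motive := fun _ => Option (Fin l) → ℕ)
          (∑ q : Fin l, Pi.single (some q) 1) (fun _ => Pi.single none 1) i,
          homFn_det fun i j => ?_⟩
        induction i using Fin.lastCases with
        | last =>
          simp only [Fin.lastCases_last]
          refine homFn_prod Finset.univ fun q _ => ?_
          exact (homFn_linear (τ := PEmpty.{1}) (ι := ιb) (some q)
            fun i => v i (Function.update (U q) 0 (p j))).congr fun z x => (vec_apply v _ _).symm
        | cast t =>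
          simp only [Fin.lastCases_castSucc]
          exact homFn_linear (τ := PEmpty.{1}) (ι := ιb) none
            fun s => ev (p j).1 ((auxBasis O e l c s : F) * (tgtBasis O m l c t : F))
      · constructor
        · rintro h G ⟨U, p, rfl⟩
          exact h U p
        · exact fun h U p => h _ ⟨U, p, rfl⟩
    exists_rep := fun x => by
      obtain ⟨z, hz⟩ := exists_isRep O m e (by omega) (by omega) x
      obtain ⟨a, ha⟩ := hv.exists_vec_eq hz.mem_tFun
      exact ⟨a, ha ▸ hz⟩
    rep_ne_zero := fun {a x} h ha => h.ne_zero (by rw [ha]; simp [vec])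
    rep_good := fun h => ⟨h.isAlt, h.isLowRank⟩
    rep_unique := fun h h' => h.unique (by omega) h'
    rep_smul := fun {a x t} ht h => by
      show IsRep O m e (vec v (t • a)) x
      rw [vec_smul]
      exact h.smul ht
    class_of_link := fun {l c as u} hgood hu hlink => by
      have hm' : 2 * genusFF k F ≤ m := by omega
      have key : ∀ f : Fin l → F, (∀ q, f q ∈ sliceSet O ((m + e : ℕ) : ℤ) (vec v (as q))) →
          ∃ g ∈ riemannRochSpace (Finsupp.single O ((Fintype.card (Fin l) * m : ℕ) : ℤ) +
            (repDiv c : Divisor k F)), ∏ q, f q = auxFun O e l c u * g := by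
        intro f hf
        choose hfN U hU using hf
        have hu' := auxFun_ne_zero hu
        let B : Fin (tgtDim O m l c) → F := fun t => auxFun O e l c u * (tgtBasis O m l c t : F)
        have hB : LinearIndependent k B :=
          ((tgtBasis O m l c).linearIndependent.map' (Submodule.subtype _)
            (Submodule.ker_subtype _)).map' (LinearMap.mulLeft k (auxFun O e l c u))
              (LinearMap.ker_eq_bot.2 fun a b h => mul_left_cancel₀ hu' h)
        have hW : ∀ i, (Fin.snoc B (∏ q, f q) : _ → F) i ∈
            lMul O ((l * (m + e) : ℕ) : ℤ) := by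
          intro i
          refine Fin.lastCases ?_ (fun t => ?_) i
          · rw [Fin.snoc_last]
            have := prod_mem_lMul Finset.univ (f := f) fun q _ => hfN q
            simpa using this
          · rw [Fin.snoc_castSucc]
            exact mul_mem_lMul (sum_single_aux _) (auxFun_mem u) (tgtBasis O m l c t).2
        have hdep : ¬LinearIndependent k (Fin.snoc B (∏ q, f q) : _ → F) := fun hli =>
          detFun_ne_zero O hW hli <| funext fun p => by
            have h1 := linkDet_eq (v := v) (as := as) (u := u) (U := U) hfN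
              (fun q p => hU q p) p
            rw [hlink U p] at h1
            exact h1.symm
        rw [linearIndependent_finSnoc, not_and_not_right] at hdep
        have h2 := hdep hB
        rw [Submodule.mem_span_range_iff_exists_fun] at h2
        obtain ⟨a, ha⟩ := h2
        refine ⟨(∑ t, a t • tgtBasis O m l c t :), ?_, ?_⟩
        · rw [Fintype.card_fin]; exact Submodule.coe_mem _
        · rw [← ha]
          simp [B, Finset.mul_sum, mul_smul_comm]
      obtain ⟨D, hD, hDs, hsum⟩ := exists_divisors_of_prod_le (O := O) (m := m) (M := m + e) hm'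
        (S := fun q => sliceSet O ((m + e : ℕ) : ℤ) (vec v (as q))) (fun q f hf => hf.1)
        (fun q => finrank_slices O (hv.vec_mem _) (hgood q).2.1 (hgood q).2.2
          (hv.vec_ne_zero (hgood q).1)) (repDiv c) (u := auxFun O e l c u) key
      refine ⟨fun q => shiftClass O m (D q) (hD q), fun q => ?_, hsum.trans (mk_repDiv c)⟩
      exact isRep_of_slices (hv.vec_mem _) (hv.vec_ne_zero (hgood q).1) (hgood q).2.1
          (hgood q).2.2 (hD q) (hDs q).1 (hDs q).2
    exists_link := fun {l c as x} hrep hsum => by
      choose D hD hle hDs hx using fun q => (hrep q).exists_slices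
      obtain ⟨w, hw0, hwmem, hw⟩ := exists_prod_le (O := O) (m := m) (e := e) D hD hle (repDiv c)
        (by rw [Finset.sum_congr rfl fun q _ => hx q, hsum, mk_repDiv])
      rw [Fintype.card_fin] at hwmem hw
      obtain ⟨u, rfl⟩ := exists_auxFun_eq hwmem
      refine ⟨u, fun h => hw0 (by simp [auxFun, h]), fun U p => ?_⟩
      choose f hf hfe using fun q => exists_update_slice O (hv.vec_mem (as q)) 0 (U q)
      have hfD : ∀ q, f q ∈ riemannRochSpace (D q) := fun q =>
        hDs q ▸ Submodule.subset_span ⟨hf q, U q, fun p => (hfe q p).symm⟩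
      rw [linkDet_eq (U := U) hf fun q p => (hfe q p).symm]
      obtain ⟨g, hg, hprod⟩ := hw f hfD
      refine detFun_eq_zero_of_dependent (N := ((l * (m + e) : ℕ) : ℤ)) ?_ ?_ p
      · intro i
        refine Fin.lastCases ?_ (fun t => ?_) i
        · rw [Fin.snoc_last]
          have := prod_mem_lMul Finset.univ (f := f) fun q _ => hf q
          simpa using this
        · rw [Fin.snoc_castSucc]
          exact mul_mem_lMul (sum_single_aux _) (auxFun_mem u) (tgtBasis O m l c t).2
      · rw [linearIndependent_finSnoc, not_and_not_right]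
        intro _
        rw [hprod, Submodule.mem_span_range_iff_exists_fun]
        refine ⟨(tgtBasis O m l c).repr ⟨g, hg⟩, ?_⟩
        have := congrArg Subtype.val ((tgtBasis O m l c).sum_repr ⟨g, hg⟩)
        simp only [AddSubmonoidClass.coe_finsetSum, SetLike.val_smul] at this
        simp only [← mul_smul_comm, ← Finset.mul_sum]
        rw [this] }

/-- The representing vectors in given coordinates carry relation equations. -/
theorem exists_linkData [CharZero k] {m e : ℕ} (hm : 4 * genusFF k F + 2 ≤ m)
    (he : 2 * genusFF k F + 1 ≤ e) {d : ℕ}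
    {v : Fin d → (Fin (rdim k F m) → Pt O) → k} (hv : IsCoords O ((m + e : ℕ) : ℤ) v) :
    ∃ L : LinkData k (Pic0 k F), ∃ h : L.N = d, ∀ (a : Fin d → k) (x : Pic0 k F),
      L.Rep (fun i => a (Fin.cast h i)) x ↔ IsRep O m e (vec v a) x :=
  ⟨relData O hm he hv, rfl, fun _ _ => Iff.rfl⟩

end FLTA.MordellWeil
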