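import Fermat.Agent.MordellWeil.SliceRel
import Fermat.Agent.MordellWeil.Decomp

/-!
# Vectors representing divisor classes

`a` represents `[D - m O]` when it is a multiple of the determinant of a basis of `L(D)`, for a
divisor `D ≤ (m + e) O` of degree `m`.
-/

set_option autoImplicit false

noncomputable section

open AlgebraicCurve

namespace FLTA.MordellWeil

variable {k F : Type*} [Field k] [Field F] [Algebra k F] [IsAlgClosed k] [IsCurveOver k F]
variable [Curves.IsFunctionField k F] (O : Place k F)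

/-- `a` represents the class `x`. -/
def IsRep (m e : ℕ) (a : (Fin (rdim k F m) → Pt O) → k) (x : Pic0 k F) : Prop :=
  ∃ (D : Divisor k F) (hD : Divisor.degree D = (m : ℤ)) (w : Fin (rdim k F m) → F) (c : k),
    D ≤ Finsupp.single O ((m + e : ℕ) : ℤ) ∧ IsBasisOf w D ∧ c ≠ 0 ∧ a = c • detFun O w ∧
      shiftClass O m D hD = x

omit [Curves.IsFunctionField k F] in
theorem IsAlt.smul {r : ℕ} {a : (Fin r → Pt O) → k} (h : IsAlt O a) (c : k) : IsAlt O (c • a) :=
  fun i j P hij => by simp [h i j P hij]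

omit [Curves.IsFunctionField k F] in
theorem IsLowRank.smul {r : ℕ} {a : (Fin r → Pt O) → k} (h : IsLowRank O a) (c : k) :
    IsLowRank O (c • a) := fun i₀ U p => by
  have := h i₀ U p
  have e : (Matrix.of fun i j => (c • a) (Function.update (U i) i₀ (p j)))
      = c • Matrix.of fun i j => a (Function.update (U i) i₀ (p j)) := by
    ext i j; rfl
  rw [e, Matrix.det_smul, this, mul_zero]

omit [Curves.IsFunctionField k F] in
theorem slices_smul {r : ℕ} [NeZero r] {N : ℤ} (a : (Fin r → Pt O) → k) {c : k} (hc : c ≠ 0) :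
    slices O N (c • a) = slices O N a := by
  have key : ∀ (c : k) (a : (Fin r → Pt O) → k), ∀ f ∈ sliceSet O N a,
      c • f ∈ sliceSet O N (c • a) := fun c a f ⟨hf, U, hU⟩ =>
    ⟨Submodule.smul_mem _ c hf, U, fun p => by
      rw [ev_smul c (adicValuation_le_one_of_mem_lMul O hf p), hU, Pi.smul_apply, smul_eq_mul]⟩
  refine le_antisymm (Submodule.span_le.2 fun f hf => ?_) (Submodule.span_le.2 fun f hf => ?_)
  · have h1 := key c⁻¹ _ f hf
    rw [inv_smul_smul₀ hc] at h1
    have := Submodule.smul_mem (slices O N a) c (Submodule.subset_span h1)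
    rwa [smul_inv_smul₀ hc] at this
  · have h1 := Submodule.smul_mem (slices O N (c • a)) c⁻¹ (Submodule.subset_span (key c a f hf))
    rwa [inv_smul_smul₀ hc] at h1

variable {O} {m e : ℕ}

theorem IsBasisOf.mem_lMul {r : ℕ} {w : Fin r → F} {D : Divisor k F} (h : IsBasisOf w D) {N : ℤ}
    (hD : D ≤ Finsupp.single O N) (i : Fin r) : w i ∈ lMul O N :=
  Curves.riemannRochSpace_mono hD (h.mem i)

theorem IsRep.mem_tFun {a} {x : Pic0 k F} (h : IsRep O m e a x) :
    a ∈ tFun O (m + e : ℕ) (rdim k F m) := by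
  obtain ⟨D, hD, w, c, hle, hw, hc, rfl, -⟩ := h
  exact Submodule.smul_mem _ c (detFun_mem O (hw.mem_lMul hle))

theorem IsRep.ne_zero {a} {x : Pic0 k F} (h : IsRep O m e a x) : a ≠ 0 := by
  obtain ⟨D, hD, w, c, hle, hw, hc, rfl, -⟩ := h
  exact smul_ne_zero hc (detFun_ne_zero O (hw.mem_lMul hle) hw.1)

theorem IsRep.smul {a} {x : Pic0 k F} (h : IsRep O m e a x) {t : k} (ht : t ≠ 0) :
    IsRep O m e (t • a) x := by
  obtain ⟨D, hD, w, c, hle, hw, hc, rfl, hx⟩ := h
  exact ⟨D, hD, w, t * c, hle, hw, mul_ne_zero ht hc, by rw [mul_smul], hx⟩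

omit [Curves.IsFunctionField k F] in
theorem IsRep.isAlt {a} {x : Pic0 k F} (h : IsRep O m e a x) : IsAlt O a := by
  obtain ⟨D, hD, w, c, hle, hw, hc, rfl, -⟩ := h
  exact (detFun_isAlt O).smul O c

omit [Curves.IsFunctionField k F] in
theorem IsRep.isLowRank {a} {x : Pic0 k F} (h : IsRep O m e a x) : IsLowRank O a := by
  obtain ⟨D, hD, w, c, hle, hw, hc, rfl, -⟩ := h
  exact (detFun_isLowRank O).smul O c

variable [CharZero k]

theorem IsRep.exists_slices [NeZero (rdim k F m)] {a} {x : Pic0 k F} (h : IsRep O m e a x) :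
    ∃ (D : Divisor k F) (hD : Divisor.degree D = (m : ℤ)),
      D ≤ Finsupp.single O ((m + e : ℕ) : ℤ) ∧
      slices O (m + e : ℕ) a = riemannRochSpace D ∧ shiftClass O m D hD = x := by
  obtain ⟨D, hD, w, c, hle, hw, hc, rfl, hx⟩ := h
  refine ⟨D, hD, hle, ?_, hx⟩
  rw [slices_smul O _ hc, slices_detFun O (hw.mem_lMul hle) hw.1, hw.2]

omit [CharZero k] in
theorem shiftClass_congr {D E : Divisor k F} {hD : Divisor.degree D = (m : ℤ)}
    {hE : Divisor.degree E = (m : ℤ)} (h : D = E) : shiftClass O m D hD = shiftClass O m E hE := by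
  subst h; rfl

/-- A vector represents one class only. -/
theorem IsRep.unique [NeZero (rdim k F m)] (hm : 2 * genusFF k F ≤ m) {a} {x y : Pic0 k F}
    (h : IsRep O m e a x) (h' : IsRep O m e a y) : x = y := by
  obtain ⟨D, hD, -, hDs, rfl⟩ := h.exists_slices
  obtain ⟨E, hE, -, hEs, rfl⟩ := h'.exists_slices
  have h1 : riemannRochSpace D = riemannRochSpace E := hDs.symm.trans hEs
  exact shiftClass_congr (le_antisymm (le_of_riemannRochSpace_le (by omega) h1.le)
    (le_of_riemannRochSpace_le (by omega) h1.ge))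

omit [CharZero k] in
variable (O m e) in
theorem exists_isRep (hm : 2 * genusFF k F ≤ m) (he : 2 * genusFF k F ≤ e) (x : Pic0 k F) :
    ∃ a, IsRep O m e a x := by
  obtain ⟨D, hD, hle, hx⟩ := exists_shiftClass_eq (O := O) (m := m) he x
  obtain ⟨w, hw⟩ := exists_isBasisOf hm hD
  exact ⟨_, D, hD, w, 1, hle, hw, one_ne_zero, rfl, hx⟩

omit [CharZero k] [Curves.IsFunctionField k F] in
/-- Conjugating a determinant. -/
theorem smulFn_detFun (g : SemilinearAut k F) (hg : g • O = O) {r : ℕ} (w : Fin r → F) :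
    smulFn g hg (detFun O w) = detFun O (fun i => g • w i) := by
  funext P
  rw [smulFn, detFun, detFun, RingEquiv.map_det]
  congr 1
  ext i j
  change SemilinearAut.baseAut g (ev ((smulPt g⁻¹ _ (P j)) : Pt O).1 (w i)) = ev (P j).1 (g • w i)
  rw [← ev_smul_semilinear g]
  congr 1
  exact smul_inv_smul g (P j).1

omit [CharZero k] in
theorem IsRep.semilinear (g : SemilinearAut k F) (hg : g • O = O) {a} {x : Pic0 k F}
    (h : IsRep O m e a x) : IsRep O m e (smulFn g hg a) (g • x) := by
  obtain ⟨D, hD, w, c, hle, hw, hc, rfl, rfl⟩ := h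
  refine ⟨g • D, by rw [SemilinearAut.degree_smul, hD], fun i => g • w i,
    SemilinearAut.baseAut g c, fun v => ?_, hw.semilinear g,
    (map_ne_zero_iff _ (RingEquiv.injective _)).2 hc, ?_, ?_⟩
  · rw [SemilinearAut.divisor_smul_apply]
    refine (hle _).trans_eq ?_
    classical
    rw [Finsupp.single_apply, Finsupp.single_apply, eq_inv_smul_iff, hg]
  · rw [← smulFn_detFun g hg w]
    funext P
    simp [smulFn]
  · rw [shiftClass, shiftClass, SemilinearAut.pic0_smul_mk]
    congr 1
    refine Subtype.ext ?_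
    rw [coe_shiftDiv, SemilinearAut.coe_degZeroSMulHom, coe_shiftDiv, smul_sub,
      SemilinearAut.smul_single, hg]

/-- A vector satisfying the equations, whose slices are the sections of `D`, is a multiple of a
determinant of a basis of `L(D)`. -/
theorem isRep_of_slices [NeZero (rdim k F m)] {a : (Fin (rdim k F m) → Pt O) → k}
    (ha : a ∈ tFun O (m + e : ℕ) _) (ha0 : a ≠ 0) (halt : IsAlt O a) (hlow : IsLowRank O a)
    {D : Divisor k F} (hD : Divisor.degree D = (m : ℤ))
    (hle : D ≤ Finsupp.single O ((m + e : ℕ) : ℤ))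
    (hs : slices O (m + e : ℕ) a = riemannRochSpace D) :
    IsRep O m e a (shiftClass O m D hD) := by
  obtain ⟨w, c, hw, hspan, hc, rfl⟩ := exists_eq_smul_detFun O ha halt hlow ha0
  exact ⟨D, hD, w, c, hle, ⟨hw, hspan.trans hs⟩, hc, rfl, rfl⟩

end FLTA.MordellWeil
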