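import Fermat.Agent.MordellWeil.Tuples

/-!
# Bases of Riemann-Roch spaces of large degree
-/

set_option autoImplicit false

noncomputable section

open AlgebraicCurve

namespace FLTA.MordellWeil

variable (k F : Type*) [Field k] [Field F] [Algebra k F]

/-- `dim L(n O)` for large `n`. -/
def rdim (n : ℕ) : ℕ := n + 1 - genusFF k F

variable {k F}

/-- `s` is a basis of `L(D)`. -/
def IsBasisOf {r : ℕ} (s : Fin r → F) (D : Divisor k F) : Prop :=
  LinearIndependent k s ∧ Submodule.span k (Set.range s) = riemannRochSpace D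

theorem IsBasisOf.mem {r : ℕ} {s : Fin r → F} {D : Divisor k F} (h : IsBasisOf s D) (i : Fin r) :
    s i ∈ riemannRochSpace D :=
  h.2 ▸ Submodule.subset_span ⟨i, rfl⟩

theorem IsBasisOf.exists_eq_sum {r : ℕ} {s : Fin r → F} {D : Divisor k F} (h : IsBasisOf s D)
    {f : F} (hf : f ∈ riemannRochSpace D) : ∃ c : Fin r → k, ∑ i, c i • s i = f := by
  rw [← h.2, Submodule.mem_span_range_iff_exists_fun] at hf
  exact hf

theorem IsBasisOf.exists_matrix {r : ℕ} {s t : Fin r → F} {D : Divisor k F} (h : IsBasisOf s D)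
    (h' : IsBasisOf t D) :
    ∃ G : Matrix (Fin r) (Fin r) k, G.det ≠ 0 ∧ ∀ i, t i = ∑ l, G i l • s l := by
  classical
  choose G hG using fun i => h.exists_eq_sum (h'.mem i)
  choose H hH using fun i => h'.exists_eq_sum (h.mem i)
  refine ⟨Matrix.of G, ?_, fun i => (hG i).symm⟩
  have h1 : Matrix.of H * Matrix.of G = 1 := by
    ext i l
    have e : ∑ l, (Matrix.of H * Matrix.of G) i l • s l
        = ∑ l, (1 : Matrix (Fin r) (Fin r) k) i l • s l := by
      rw [Finset.sum_eq_single i (f := fun l => (1 : Matrix (Fin r) (Fin r) k) i l • s l)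
        (fun b _ hb => by simp [Matrix.one_apply_ne (Ne.symm hb)]) (by simp)]
      simp only [Matrix.mul_apply, Finset.sum_smul, mul_smul, Matrix.one_apply_eq, one_smul]
      rw [Finset.sum_comm]
      simp only [Matrix.of_apply, ← Finset.smul_sum, hG, hH]
    have h2 := Fintype.linearIndependent_iff.1 h.1
      (fun l => (Matrix.of H * Matrix.of G) i l - (1 : Matrix (Fin r) (Fin r) k) i l)
      (by simp only [sub_smul, Finset.sum_sub_distrib]; rw [e, sub_self]) l
    exact sub_eq_zero.1 h2
  intro hz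
  have := congrArg Matrix.det h1
  rw [Matrix.det_mul, hz, mul_zero, Matrix.det_one] at this
  exact zero_ne_one this

variable [IsAlgClosed k] [IsCurveOver k F]

theorem IsBasisOf.mul {r : ℕ} {s : Fin r → F} {D : Divisor k F} (h : IsBasisOf s D) {f : F}
    (hf : f ≠ 0) : IsBasisOf (fun i => f * s i) (D - Curves.divFn f) := by
  refine ⟨h.1.map' (LinearMap.mulLeft k f) (LinearMap.ker_eq_bot.2 fun a b e =>
    mul_left_cancel₀ hf e), ?_⟩
  rw [show (fun i => f * s i) = LinearMap.mulLeft k f ∘ s from rfl, Set.range_comp,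
    Submodule.span_image, h.2]
  ext x
  rw [Submodule.mem_map]
  constructor
  · rintro ⟨y, hy, rfl⟩
    rw [sub_eq_neg_add]
    refine Curves.mul_mem_riemannRochSpace ?_ hy
    rw [Curves.mem_riemannRochSpace_iff_add_nonneg hf, add_neg_cancel]
  · intro hx
    refine ⟨f⁻¹ * x, ?_, by simp [LinearMap.mulLeft_apply, ← mul_assoc, hf]⟩
    have h1 : f⁻¹ ∈ riemannRochSpace (Curves.divFn (K := k) f) := by
      rw [Curves.mem_riemannRochSpace_iff_add_nonneg (inv_ne_zero hf), Finsupp.le_def]
      intro v
      simp [Curves.divFn_apply, v.ord_inv]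
    have := Curves.mul_mem_riemannRochSpace h1 hx
    rwa [add_sub_cancel] at this

theorem IsBasisOf.congr {r : ℕ} {s : Fin r → F} {D E : Divisor k F} (h : IsBasisOf s D)
    (e : D = E) : IsBasisOf s E := e ▸ h

theorem degree_single_one (O : Place k F) (n : ℤ) :
    Divisor.degree (Finsupp.single O n : Divisor k F) = n := by
  rw [Divisor.degree_single, IsCurveOver.deg_eq_one_of_isAlgClosed]
  simp

theorem linearMap_semilinear (g : SemilinearAut k F) (c : k) (f : F) :
    g • (c • f) = SemilinearAut.baseAut g c • (g • f) := by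
  rw [Algebra.smul_def, smul_mul', SemilinearAut.smul_algebraMap, ← Algebra.smul_def]

theorem smul_mem_riemannRochSpace (g : SemilinearAut k F) {D : Divisor k F} {f : F}
    (hf : f ∈ riemannRochSpace D) : g • f ∈ riemannRochSpace (g • D) := by
  rw [mem_riemannRochSpace_iff] at hf ⊢
  intro v
  rcases hf (g⁻¹ • v) with h | h
  · exact Or.inl (by rw [h, smul_zero])
  · refine Or.inr ?_
    rw [SemilinearAut.divisor_smul_apply]
    have := SemilinearAut.ord_smul g (g⁻¹ • v) f
    rw [smul_inv_smul] at this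
    rw [this]
    exact h

theorem IsBasisOf.semilinear {r : ℕ} {s : Fin r → F} {D : Divisor k F} (h : IsBasisOf s D)
    (g : SemilinearAut k F) : IsBasisOf (fun i => g • s i) (g • D) := by
  refine ⟨Fintype.linearIndependent_iff.2 fun c hc i => ?_, le_antisymm ?_ fun f hf => ?_⟩
  · have h2 := congrArg (g⁻¹ • ·) hc
    simp only [smul_zero, Finset.smul_sum, linearMap_semilinear, inv_smul_smul] at h2
    have := Fintype.linearIndependent_iff.1 h.1 _ h2 i
    simpa using this
  · rw [Submodule.span_le]
    rintro - ⟨i, rfl⟩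
    exact smul_mem_riemannRochSpace g (h.mem i)
  · obtain ⟨c, hc⟩ := h.exists_eq_sum (f := g⁻¹ • f) (by
      simpa using smul_mem_riemannRochSpace g⁻¹ hf)
    rw [← smul_inv_smul g f, ← hc, Finset.smul_sum]
    refine sum_mem fun i _ => ?_
    rw [linearMap_semilinear]
    exact Submodule.smul_mem _ _ (Submodule.subset_span ⟨i, rfl⟩)

variable [Curves.IsFunctionField k F]

theorem finrank_eq_rdim {n : ℕ} (hn : 2 * genusFF k F ≤ n) {D : Divisor k F}
    (hD : Divisor.degree D = (n : ℤ)) : Module.finrank k (riemannRochSpace D) = rdim k F n := by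
  have : (Module.finrank k (riemannRochSpace D) : ℤ) = Divisor.degree D + 1 - genusFF k F :=
    Curves.ell_eq_of_two_mul_genusFF_sub_two_lt (by omega)
  unfold rdim
  omega

theorem exists_isBasisOf {n : ℕ} (hn : 2 * genusFF k F ≤ n) {D : Divisor k F}
    (hD : Divisor.degree D = (n : ℤ)) : ∃ s : Fin (rdim k F n) → F, IsBasisOf s D := by
  let b := Module.finBasisOfFinrankEq k _ (finrank_eq_rdim hn hD)
  refine ⟨fun i => (b i : F), b.linearIndependent.map' _ (Submodule.ker_subtype _), ?_⟩
  rw [show (fun i => (b i : F)) = (riemannRochSpace D).subtype ∘ b from rfl, Set.range_comp,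
    Submodule.span_image, b.span_eq, Submodule.map_top, Submodule.range_subtype]

/-- The Riemann-Roch space determines the divisor. -/
theorem le_of_riemannRochSpace_le {D E : Divisor k F}
    (hD : 2 * (genusFF k F : ℤ) ≤ Divisor.degree D)
    (h : riemannRochSpace D ≤ riemannRochSpace E) : D ≤ E := by
  refine Finsupp.le_def.2 fun v => ?_
  obtain ⟨f, hf0, hf, hfo⟩ := Curves.exists_mem_riemannRochSpace_ord_eq hD v
  have := ((mem_riemannRochSpace_iff.1 (h hf)) v).resolve_left hf0
  omega

/-- Some non-zero function moves all sections of `D` into a space `L(a O)`, namely `L(a O - D) ≠ 0`. -/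
theorem exists_clear (O : Place k F) (D : Divisor k F) :
    ∃ (a : ℕ) (h : F), h ≠ 0 ∧ h ∈ riemannRochSpace (Finsupp.single O (a : ℤ) - D) := by
  obtain ⟨a, ha⟩ : ∃ a : ℕ, Divisor.degree D + genusFF k F ≤ (a : ℤ) :=
    ⟨_, Int.self_le_toNat _⟩
  have hpos : 0 < Curves.ell (Finsupp.single O (a : ℤ) - D) := by
    have := Curves.riemann_inequality (Finsupp.single O (a : ℤ) - D)
    rw [map_sub, degree_single_one] at this
    omega
  obtain ⟨⟨h, hh⟩, hne⟩ := Module.finrank_pos_iff_exists_ne_zero.1 hpos
  exact ⟨a, h, fun e => hne (Subtype.ext e), hh⟩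

/-- A change of basis multiplies `detFun` by its determinant. -/
theorem detFun_matrix {O : Place k F} {a : ℤ} {r : ℕ} {s t : Fin r → F}
    (hs : ∀ i, s i ∈ lMul O a) (G : Matrix (Fin r) (Fin r) k)
    (hG : ∀ i, t i = ∑ l, G i l • s l) : detFun O t = G.det • detFun O s := by
  funext P
  rw [Pi.smul_apply, smul_eq_mul, detFun, detFun, ← Matrix.det_mul]
  congr 1
  ext i j
  simp only [Matrix.mul_apply, Matrix.of_apply, hG]
  exact ev_linearCombination O Finset.univ hs (G i) (P j)

theorem detFun_mul {O : Place k F} {a : ℤ} {r : ℕ} {s : Fin r → F} {h : F}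
    (hh : h ∈ lMul O a) {b : ℤ} (hs : ∀ i, s i ∈ lMul O b) :
    detFun O (fun i => h * s i) = prodEv O (fun _ => h) * detFun O s := by
  funext P
  rw [Pi.mul_apply, detFun, detFun, prodEv,
    ← Matrix.det_mul_row (fun j => ev (P j).1 h) (Matrix.of fun i j => ev (P j).1 (s i))]
  congr 1
  ext i j
  simp only [Matrix.of_apply]
  rw [ev_mul (adicValuation_le_one_of_mem_lMul O hh _) (adicValuation_le_one_of_mem_lMul O (hs i) _)]

end FLTA.MordellWeil
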