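import Fermat.Agent.MordellWeil.Slices

/-!
# Relations between classes read off from products of slice spaces

If `r`-dimensional spaces `W_i ⊆ F` of functions satisfy `∏ W_i ⊆ u • L(l m O + G)`, each `W_i`
is `L(D_i)` with `deg D_i = m` and `∑ [D_i - m O] = [G]`.
-/

set_option autoImplicit false

noncomputable section

open AlgebraicCurve

namespace FLTA.MordellWeil

variable {k F : Type*} [Field k] [Field F] [Algebra k F] [IsAlgClosed k] [IsCurveOver k F]
variable [Curves.IsFunctionField k F] {O : Place k F}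

omit [Curves.IsFunctionField k F] in
theorem degree_single_eq (v : Place k F) (n : ℤ) :
    Divisor.degree (Finsupp.single v n : Divisor k F) = n := by
  rw [Divisor.degree_single, IsCurveOver.deg_eq_one_of_isAlgClosed]; simp

theorem ell_of_large {D : Divisor k F} (h : 2 * (genusFF k F : ℤ) - 1 ≤ Divisor.degree D) :
    (Module.finrank k (riemannRochSpace D) : ℤ) = Divisor.degree D + 1 - genusFF k F :=
  Curves.ell_eq_of_two_mul_genusFF_sub_two_lt (by omega)

omit [Curves.IsFunctionField k F] in
/-- The smallest divisor bounding a finite set of functions, attained at every place. -/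
theorem exists_attained_bound {N : Divisor k F} {S : Set F} (hS : S ⊆ riemannRochSpace N)
    (hne : ∃ f ∈ S, f ≠ 0) :
    ∃ D : Divisor k F, D ≤ N ∧ Submodule.span k S ≤ riemannRochSpace D ∧
      ∀ v, ∃ f ∈ S, f ≠ 0 ∧ v.ord f = -D v := by
  classical
  obtain ⟨f₀, hf₀, hf₀0⟩ := hne
  let low : Divisor k F := -Curves.divFn (K := k) f₀
  -- the divisors bounding `S`
  let P : Divisor k F → Prop := fun D => ∀ f ∈ S, f ∈ riemannRochSpace D
  have hlow : ∀ D, P D → low ≤ D := fun D hD => by
    have := (Curves.mem_riemannRochSpace_iff_add_nonneg hf₀0).1 (hD f₀ hf₀)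
    exact neg_le_iff_add_nonneg'.2 (by simpa [add_comm] using this)
  obtain ⟨n, hn⟩ : ∃ n : ℕ, ∃ D, D ≤ N ∧ P D ∧ Divisor.degree (D - low) = n :=
    ⟨_, N, le_rfl, fun f hf => hS hf,
      (Int.toNat_of_nonneg (Curves.degree_nonneg (sub_nonneg.2 (hlow N fun f hf => hS hf)))).symm⟩
  have hex : ∃ n : ℕ, ∃ D, D ≤ N ∧ P D ∧ Divisor.degree (D - low) = n := ⟨n, hn⟩
  obtain ⟨D, hDN, hD, hdeg⟩ := Nat.find_spec hex
  refine ⟨D, hDN, Submodule.span_le.2 hD, fun v => ?_⟩
  by_contra! hno
  have hP : P (D - Finsupp.single v 1) := fun f hf => by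
    by_contra hf'
    obtain ⟨h0, ho⟩ := Curves.ord_eq_of_notMem_sub_single (hD f hf) hf'
    exact hno f hf h0 ho
  have hd := Curves.degree_nonneg (sub_nonneg.2 (hlow _ hP))
  have hd' : Divisor.degree (D - Finsupp.single v 1 - low) = Divisor.degree (D - low) - 1 := by
    rw [sub_right_comm, map_sub, degree_single_eq]
  refine Nat.find_min hex (m := Nat.find hex - 1) ?_ ⟨D - Finsupp.single v 1, ?_, hP, ?_⟩
  · have : 1 ≤ Nat.find hex := by omega
    omega
  · refine le_trans ?_ hDN
    rw [sub_le_self_iff]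
    intro w
    rw [Finsupp.single_apply]
    split_ifs <;> simp
  · omega

variable (O) in
/-- The divisor `D - m O` of degree `0`. -/
def shiftDiv (m : ℕ) (D : Divisor k F) (hD : Divisor.degree D = (m : ℤ)) :
    Divisor.degZero (K := k) (F := F) :=
  ⟨D - Finsupp.single O (m : ℤ), by
    rw [Divisor.mem_degZero, map_sub, degree_single_eq, hD, sub_self]⟩

omit [Curves.IsFunctionField k F] in
theorem coe_shiftDiv (m : ℕ) (D : Divisor k F) (hD : Divisor.degree D = (m : ℤ)) :
    (shiftDiv O m D hD : Divisor k F) = D - Finsupp.single O (m : ℤ) := rfl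

variable (O) in
/-- The class of `D - m O`. -/
def shiftClass (m : ℕ) (D : Divisor k F) (hD : Divisor.degree D = (m : ℤ)) : Pic0 k F :=
  Pic0.mk (shiftDiv O m D hD)

variable (k F) in
/-- `Pic0.mk` as a homomorphism. -/
def mkHom : Divisor.degZero (K := k) (F := F) →+ Pic0 k F where
  toFun := Pic0.mk
  map_zero' := Pic0.mk_zero
  map_add' := Pic0.mk_add

omit [IsAlgClosed k] [IsCurveOver k F] [Curves.IsFunctionField k F] in
theorem pic0_mk_eq_of_sub {D E : Divisor.degZero (K := k) (F := F)} {f : F} (hf : f ≠ 0)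
    (h : ∀ v, (E : Divisor k F) v - (D : Divisor k F) v = v.ord f) :
    Pic0.mk D = Pic0.mk E := by
  refine (QuotientAddGroup.eq).2 ?_
  rw [AddSubgroup.mem_addSubgroupOf]
  exact ⟨f, hf, fun v => by
    rw [← h v, AddSubgroup.coe_add, NegMemClass.coe_neg, Finsupp.add_apply, Finsupp.neg_apply]
    ring⟩

omit [IsAlgClosed k] [IsCurveOver k F] [Curves.IsFunctionField k F] in
theorem ord_prod {ι : Type*} (s : Finset ι) {f : ι → F} (hf : ∀ i ∈ s, f i ≠ 0) (v : Place k F) :
    v.ord (∏ i ∈ s, f i) = ∑ i ∈ s, v.ord (f i) := by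
  classical
  induction s using Finset.induction_on with
  | empty => simp
  | insert i s hi ih =>
    rw [Finset.prod_insert hi, Finset.sum_insert hi,
      v.ord_mul (hf i (Finset.mem_insert_self i s))
        (Finset.prod_ne_zero_iff.2 fun j hj => hf j (Finset.mem_insert_of_mem hj)),
      ih fun j hj => hf j (Finset.mem_insert_of_mem hj)]

/-- The main lemma: an inclusion of a product of large spaces determines divisors and classes. -/
theorem exists_divisors_of_prod_le {ι : Type*} [Fintype ι] {m M : ℕ}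
    (hm : 2 * genusFF k F ≤ m) {S : ι → Set F}
    (hS : ∀ i, S i ⊆ riemannRochSpace (Finsupp.single O (M : ℤ)))
    (hdim : ∀ i, Module.finrank k (Submodule.span k (S i)) = m + 1 - genusFF k F)
    (G : Divisor.degZero (K := k) (F := F)) {u : F}
    (h : ∀ f : ι → F, (∀ i, f i ∈ S i) → ∃ g ∈ riemannRochSpace
      (Finsupp.single O ((Fintype.card ι * m : ℕ) : ℤ) + (G : Divisor k F)), ∏ i, f i = u * g) :
    ∃ (D : ι → Divisor k F) (hD : ∀ i, Divisor.degree (D i) = (m : ℤ)),
      (∀ i, D i ≤ Finsupp.single O (M : ℤ) ∧ Submodule.span k (S i) = riemannRochSpace (D i)) ∧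
      ∑ i, shiftClass O m (D i) (hD i) = Pic0.mk G := by
  classical
  set T : Divisor k F :=
    Finsupp.single O ((Fintype.card ι * m : ℕ) : ℤ) + (G : Divisor k F) with hT
  have hne : ∀ i, ∃ f ∈ S i, f ≠ 0 := fun i => by
    by_contra! h0
    have : Submodule.span k (S i) = ⊥ := Submodule.span_eq_bot.2 h0
    have h1 := hdim i
    rw [this, finrank_bot] at h1
    omega
  choose D hDM hDS hatt using fun i => exists_attained_bound (hS i) (hne i)
  -- each divisor has degree at least `m`
  have hge : ∀ i, (m : ℤ) ≤ Divisor.degree (D i) := fun i => by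
    by_contra! hlt
    obtain ⟨c, hc⟩ : ∃ c : ℕ, (c : ℤ) = (m : ℤ) - 1 - Divisor.degree (D i) :=
      ⟨_, Int.toNat_of_nonneg (by omega)⟩
    let D' := D i + Finsupp.single O (c : ℤ)
    have hd' : Divisor.degree D' = (m : ℤ) - 1 := by
      rw [map_add, degree_single_eq, hc]; ring
    have hle : D i ≤ D' := le_add_of_nonneg_right fun w => by
      rw [Finsupp.single_apply]; split_ifs <;> simp
    have h1 := Submodule.finrank_mono ((hDS i).trans (Curves.riemannRochSpace_mono hle))
    have h2 := ell_of_large (D := D') (by omega)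
    rw [hdim i] at h1
    omega
  -- `u` is non-zero and its divisor bounds the sum
  have hu : u ≠ 0 := by
    rintro rfl
    choose f hf hf0 using hne
    obtain ⟨g, -, hg⟩ := h f hf
    rw [zero_mul, Finset.prod_eq_zero_iff] at hg
    obtain ⟨i, -, hi⟩ := hg
    exact hf0 i hi
  have hsum : ∑ i, D i ≤ T - Curves.divFn (K := k) u := by
    intro v
    choose f hf hf0 hfv using fun i => hatt i v
    obtain ⟨g, hg, hprod⟩ := h f hf
    have hg0 : g ≠ 0 := fun hg0 => by
      rw [hg0, mul_zero, Finset.prod_eq_zero_iff] at hprod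
      obtain ⟨i, -, hi⟩ := hprod
      exact hf0 i hi
    have h1 := ord_prod (k := k) Finset.univ (fun i _ => hf0 i) v
    rw [hprod, v.ord_mul hu hg0] at h1
    simp only [hfv, Finset.sum_neg_distrib] at h1
    have h2 := (mem_riemannRochSpace_iff.1 hg v).resolve_left hg0
    rw [Finsupp.finsetSum_apply, Finsupp.sub_apply, Curves.divFn_apply]
    omega
  have hdegle := Curves.degree_mono hsum
  have hTdeg : Divisor.degree (T - Curves.divFn (K := k) u) = (Fintype.card ι : ℤ) * m := by
    rw [map_sub, Curves.degree_divFn, sub_zero, hT, map_add, degree_single_eq,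
      Divisor.mem_degZero.1 G.2, add_zero]
    push_cast; rfl
  have hsumge : (Fintype.card ι : ℤ) * m ≤ ∑ i, Divisor.degree (D i) := by
    have := Finset.sum_le_sum fun i (_ : i ∈ Finset.univ) => hge i
    simpa using this
  rw [map_sum, hTdeg] at hdegle
  have hD : ∀ i, Divisor.degree (D i) = (m : ℤ) := fun i => by
    by_contra hne'
    have hlt : ∑ _i : ι, (m : ℤ) < ∑ i, Divisor.degree (D i) :=
      Finset.sum_lt_sum (fun j _ => hge j)
        ⟨i, Finset.mem_univ i, lt_of_le_of_ne (hge i) (Ne.symm hne')⟩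
    simp at hlt
    omega
  have heq : ∑ i, D i = T - Curves.divFn (K := k) u := by
    have h0 : Divisor.degree (T - Curves.divFn (K := k) u - ∑ i, D i) = 0 := by
      rw [map_sub, hTdeg, map_sum]
      simp [hD]
    exact (sub_eq_zero.1 (Curves.eq_zero_of_nonneg_of_degree_nonpos
      (sub_nonneg.2 hsum) h0.le)).symm
  refine ⟨D, hD, fun i => ⟨hDM i, ?_⟩, ?_⟩
  · refine Submodule.eq_of_le_of_finrank_le (hDS i) ?_
    have h2 := ell_of_large (D := D i) (by rw [hD i]; omega)
    rw [hD i] at h2
    rw [hdim i]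
    omega
  · let E : Divisor.degZero (K := k) (F := F) := ∑ i, shiftDiv O m (D i) (hD i)
    have hcoe : (E : Divisor k F) = (G : Divisor k F) - Curves.divFn (K := k) u := by
      rw [AddSubgroup.val_finsetSum]
      simp only [coe_shiftDiv]
      rw [Finset.sum_sub_distrib, heq, hT, Finset.sum_const, Finset.card_univ, Finsupp.smul_single]
      push_cast
      simp only [nsmul_eq_mul]
      abel
    refine Eq.trans ?_ (pic0_mk_eq_of_sub (D := E) hu fun v => by
      rw [hcoe, Finsupp.sub_apply, Curves.divFn_apply]; ring)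
    exact (map_sum (mkHom k F) (fun i => shiftDiv O m (D i) (hD i)) Finset.univ).symm

omit [Curves.IsFunctionField k F] in
/-- Conversely, classes with sum `[G]` give such an inclusion, with `u` in a fixed space. -/
theorem exists_prod_le {ι : Type*} [Fintype ι] {m e : ℕ} (D : ι → Divisor k F)
    (hD : ∀ i, Divisor.degree (D i) = (m : ℤ))
    (hle : ∀ i, D i ≤ Finsupp.single O ((m + e : ℕ) : ℤ)) (G : Divisor.degZero (K := k) (F := F))
    (hG : ∑ i, shiftClass O m (D i) (hD i) = Pic0.mk G) :
    ∃ u : F, u ≠ 0 ∧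
      u ∈ riemannRochSpace (Finsupp.single O ((Fintype.card ι * e : ℕ) : ℤ) - (G : Divisor k F)) ∧
      ∀ f : ι → F, (∀ i, f i ∈ riemannRochSpace (D i)) → ∃ g ∈ riemannRochSpace
        (Finsupp.single O ((Fintype.card ι * m : ℕ) : ℤ) + (G : Divisor k F)), ∏ i, f i = u * g := by
  classical
  let E : Divisor.degZero (K := k) (F := F) := ∑ i, shiftDiv O m (D i) (hD i)
  have hE : Pic0.mk E = Pic0.mk G :=
    (map_sum (mkHom k F) (fun i => shiftDiv O m (D i) (hD i)) Finset.univ).trans hG
  have hE' : (E : Divisor k F) = ∑ i, D i - Finsupp.single O ((Fintype.card ι * m : ℕ) : ℤ) := by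
    rw [AddSubgroup.val_finsetSum]
    simp only [coe_shiftDiv]
    rw [Finset.sum_sub_distrib, Finset.sum_const, Finset.card_univ, Finsupp.smul_single]
    push_cast
    simp only [nsmul_eq_mul]
  obtain ⟨u, hu, hdiv⟩ := AddSubgroup.mem_addSubgroupOf.1 (QuotientAddGroup.eq.1 hE)
  have hdiv' : ∀ v, v.ord u = (G : Divisor k F) v - (∑ i, D i : Divisor k F) v
      + (Finsupp.single O ((Fintype.card ι * m : ℕ) : ℤ) : Divisor k F) v := fun v => by
    rw [← hdiv v, AddSubgroup.coe_add, NegMemClass.coe_neg, hE', Finsupp.add_apply,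
      Finsupp.neg_apply, Finsupp.sub_apply]
    ring
  have hsumle : ∀ v, (∑ i, D i : Divisor k F) v ≤
      (Finsupp.single O ((Fintype.card ι * (m + e) : ℕ) : ℤ) : Divisor k F) v := fun v => by
    rw [Finsupp.finsetSum_apply]
    refine (Finset.sum_le_sum fun i _ => hle i v).trans_eq ?_
    rw [Finset.sum_const, Finset.card_univ]
    rcases eq_or_ne v O with rfl | hv
    · simp
    · simp [Finsupp.single_eq_of_ne (a := O) hv]
  refine ⟨u, hu, mem_riemannRochSpace_iff.2 fun v => Or.inr ?_, fun f hf => ?_⟩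
  · rw [hdiv' v, Finsupp.sub_apply]
    have := hsumle v
    rcases eq_or_ne v O with rfl | hv
    · simp only [Finsupp.single_eq_same] at this ⊢
      push_cast at this ⊢
      linarith
    · simp only [Finsupp.single_eq_of_ne (a := O) hv] at this ⊢
      omega
  · refine ⟨(∏ i, f i) / u, mem_riemannRochSpace_iff.2 fun v => ?_, (mul_div_cancel₀ _ hu).symm⟩
    by_cases h0 : ∏ i, f i = 0
    · left; rw [h0, zero_div]
    right
    have hf0 : ∀ i ∈ Finset.univ, f i ≠ 0 := Finset.prod_ne_zero_iff.1 h0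
    rw [div_eq_mul_inv, v.ord_mul h0 (inv_ne_zero hu), v.ord_inv, ord_prod _ hf0, hdiv' v,
      Finsupp.add_apply]
    have h2 : (∑ i, D i : Divisor k F) v + ∑ i, v.ord (f i) ≥ 0 := by
      rw [Finsupp.finsetSum_apply, ← Finset.sum_add_distrib]
      exact Finset.sum_nonneg fun i hi => by
        have := (mem_riemannRochSpace_iff.1 (hf i) v).resolve_left (hf0 i hi)
        omega
    omega

/-- Every class is `[D - m O]` with `deg D = m` and `D ≤ (m + e) O`. -/
theorem exists_shiftClass_eq {m e : ℕ} (he : 2 * genusFF k F ≤ e) (x : Pic0 k F) :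
    ∃ (D : Divisor k F) (hD : Divisor.degree D = (m : ℤ)),
      D ≤ Finsupp.single O ((m + e : ℕ) : ℤ) ∧ shiftClass O m D hD = x := by
  classical
  obtain ⟨⟨D₀, hD₀⟩, rfl⟩ := Pic0.mk_surjective x
  rw [Divisor.mem_degZero] at hD₀
  have hd : Divisor.degree (Finsupp.single O (e : ℤ) - D₀) = (e : ℤ) := by
    rw [map_sub, degree_single_eq, hD₀, sub_zero]
  have h1 := ell_of_large (D := Finsupp.single O (e : ℤ) - D₀) (by omega)
  obtain ⟨f, hf, hf0⟩ : ∃ f ∈ riemannRochSpace (Finsupp.single O (e : ℤ) - D₀), f ≠ 0 := by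
    by_contra! h0
    rw [(Submodule.eq_bot_iff _).2 h0, finrank_bot] at h1
    omega
  have hf' := (Curves.mem_riemannRochSpace_iff_add_nonneg hf0).1 hf
  refine ⟨Finsupp.single O (m : ℤ) + D₀ - Curves.divFn (K := k) f, ?_, fun v => ?_, ?_⟩
  · rw [map_sub, map_add, degree_single_eq, hD₀, Curves.degree_divFn]; ring
  · have := hf' v
    simp only [Finsupp.add_apply, Finsupp.sub_apply, Finsupp.coe_zero, Pi.zero_apply] at this ⊢
    rcases eq_or_ne v O with rfl | hv
    · simp only [Finsupp.single_eq_same] at this ⊢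
      push_cast
      omega
    · simp only [Finsupp.single_eq_of_ne (a := O) hv] at this ⊢
      omega
  · refine pic0_mk_eq_of_sub hf0 fun v => ?_
    simp only [coe_shiftDiv, Finsupp.sub_apply, Finsupp.add_apply, Curves.divFn_apply]
    ring

end FLTA.MordellWeil
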