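import Fermat.Agent.MordellWeil.Closed
import Mathlib.LinearAlgebra.Matrix.Rank
import Mathlib.LinearAlgebra.Matrix.Adjugate

/-!
# Slices of alternating functions of low rank

A non-zero alternating function of rank at most `r` on `r`-tuples is a determinant: its slices
span an `r`-dimensional subspace of `L(N O)`.
-/

set_option autoImplicit false

noncomputable section

open AlgebraicCurve

namespace FLTA.MordellWeil

variable {k F : Type*} [Field k] [Field F] [Algebra k F] [IsAlgClosed k] [IsCurveOver k F]
variable (O : Place k F) {r : ℕ} [NeZero r]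

/-- Functions in `L(N O)` which are slices of `a` in the slot `0`. -/
def sliceSet (N : ℤ) (a : (Fin r → Pt O) → k) : Set F :=
  {f | f ∈ lMul O N ∧ ∃ U : Fin r → Pt O, ∀ p, ev p.1 f = a (Function.update U 0 p)}

/-- The span of the slices. -/
def slices (N : ℤ) (a : (Fin r → Pt O) → k) : Submodule k F :=
  Submodule.span k (sliceSet O N a)

theorem slices_le (N : ℤ) (a : (Fin r → Pt O) → k) : slices O N a ≤ lMul O N :=
  Submodule.span_le.2 fun _ hf => hf.1

omit [NeZero r] in
/-- A slice in any slot is the evaluation of a function in `L(N O)`. -/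
theorem exists_update_slice {N : ℤ} {a : (Fin r → Pt O) → k} (ha : a ∈ tFun O N r) (i : Fin r)
    (U : Fin r → Pt O) : ∃ f ∈ lMul O N, ∀ p, a (Function.update U i p) = ev p.1 f := by
  induction ha using Submodule.span_induction with
  | mem x hx =>
    obtain ⟨f, hf, rfl⟩ := hx
    refine ⟨(∏ j ∈ Finset.univ.erase i, ev (U j).1 (f j)) • f i,
      Submodule.smul_mem _ _ (hf i), fun p => ?_⟩
    rw [ev_smul _ (adicValuation_le_one_of_mem_lMul O (hf i) p), prodEv,
      ← Finset.mul_prod_erase _ _ (Finset.mem_univ i), Function.update_self, mul_comm]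
    congr 1
    exact Finset.prod_congr rfl fun j hj => by
      rw [Function.update_of_ne (Finset.ne_of_mem_erase hj)]
  | zero => exact ⟨0, zero_mem _, fun p => by simp⟩
  | add x y _ _ hx hy =>
    obtain ⟨f, hf, hfe⟩ := hx
    obtain ⟨g, hg, hge⟩ := hy
    refine ⟨f + g, add_mem hf hg, fun p => ?_⟩
    rw [ev_add (adicValuation_le_one_of_mem_lMul O hf p) (adicValuation_le_one_of_mem_lMul O hg p),
      Pi.add_apply, hfe, hge]
  | smul c x _ hx =>
    obtain ⟨f, hf, hfe⟩ := hx
    refine ⟨c • f, Submodule.smul_mem _ c hf, fun p => ?_⟩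
    rw [ev_smul c (adicValuation_le_one_of_mem_lMul O hf p), Pi.smul_apply, smul_eq_mul, hfe]

omit [NeZero r] [IsAlgClosed k] [IsCurveOver k F] in
theorem IsAlt.eq_zero_of_eq [CharZero k] {a : (Fin r → Pt O) → k} (ha : IsAlt O a)
    {P : Fin r → Pt O} {i j : Fin r} (hij : i ≠ j) (h : P i = P j) : a P = 0 := by
  have h1 := ha i j P hij
  have h2 : P ∘ Equiv.swap i j = P := by
    funext l
    rw [Function.comp_apply, Equiv.swap_apply_def]
    split_ifs with h3 h4
    · rw [h3, h]
    · rw [h4, h]
    · rfl
  rw [h2] at h1
  linear_combination (1 / 2 : k) * h1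

theorem IsAlt.apply_update_mem [CharZero k] {N : ℤ} {a : (Fin r → Pt O) → k}
    (ha : a ∈ tFun O N r) (halt : IsAlt O a) (i : Fin r) (U : Fin r → Pt O) :
    ∃ f ∈ slices O N a, f ∈ lMul O N ∧ ∀ p, ev p.1 f = a (Function.update U i p) := by
  rcases eq_or_ne i 0 with rfl | hi
  · obtain ⟨f, hf, hfe⟩ := exists_update_slice O ha 0 U
    exact ⟨f, Submodule.subset_span ⟨hf, U, fun p => (hfe p).symm⟩, hf, fun p => (hfe p).symm⟩
  · let U' := U ∘ Equiv.swap i 0
    obtain ⟨f, hf, hfe⟩ := exists_update_slice O ha 0 U'
    have hmem : f ∈ slices O N a := Submodule.subset_span ⟨hf, U', fun p => (hfe p).symm⟩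
    refine ⟨-f, neg_mem hmem, neg_mem hf, fun p => ?_⟩
    have h1 : Function.update U' 0 p ∘ Equiv.swap i 0 = Function.update U i p := by
      rw [Function.update_comp_equiv, Equiv.symm_swap, Equiv.swap_apply_right]
      congr 1
      funext l
      simp [U']
    have h2 := halt i 0 (Function.update U' 0 p) hi
    rw [h1, hfe] at h2
    rw [h2, ← neg_one_smul k f, ev_smul _ (adicValuation_le_one_of_mem_lMul O hf p), neg_one_mul]

variable [Curves.IsFunctionField k F]

omit [NeZero r] [Curves.IsFunctionField k F] in
theorem ev_sum_smul {N : ℤ} {ι : Type*} (s : Finset ι) (c : ι → k) {w : ι → F}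
    (hw : ∀ i ∈ s, w i ∈ lMul O N) (p : Pt O) :
    ev p.1 (∑ i ∈ s, c i • w i) = ∑ i ∈ s, c i * ev p.1 (w i) := by
  classical
  induction s using Finset.induction_on with
  | empty => simp
  | insert i s hi ih =>
    have hs : ∀ j ∈ s, w j ∈ lMul O N := fun j hj => hw j (Finset.mem_insert_of_mem hj)
    have hi' := hw i (Finset.mem_insert_self i s)
    rw [Finset.sum_insert hi, Finset.sum_insert hi,
      ev_add (adicValuation_le_one_of_mem_lMul O (Submodule.smul_mem _ _ hi') p)
        (adicValuation_le_one_of_mem_lMul O
          (sum_mem fun j hj => Submodule.smul_mem _ _ (hs j hj)) p),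
      ev_smul _ (adicValuation_le_one_of_mem_lMul O hi' p), ih hs]

omit [NeZero r] in
theorem eq_of_forall_ev_eq {N : ℤ} {f g : F} (hf : f ∈ lMul O N) (hg : g ∈ lMul O N)
    (h : ∀ p : Pt O, ev p.1 f = ev p.1 g) : f = g := by
  have := infinite_pt O
  rw [← sub_eq_zero]
  refine eq_zero_of_infinite_ev_eq_zero O (sub_mem hf hg) Set.infinite_univ fun p _ => ?_
  rw [sub_eq_add_neg, ev_add (adicValuation_le_one_of_mem_lMul O hf p)
    (adicValuation_le_one_of_mem_lMul O (neg_mem hg) p), ← neg_one_smul k g,
    ev_smul _ (adicValuation_le_one_of_mem_lMul O hg p), h p]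
  ring

omit [NeZero r] in
theorem linearIndependent_ev {N : ℤ} {n : ℕ} {w : Fin n → F} (hw : ∀ i, w i ∈ lMul O N)
    (hi : LinearIndependent k w) : LinearIndependent k fun i (p : Pt O) => ev p.1 (w i) := by
  rw [Fintype.linearIndependent_iff] at hi ⊢
  intro c hc
  refine hi c (eq_of_forall_ev_eq O (sum_mem fun i _ => Submodule.smul_mem _ _ (hw i))
    (zero_mem (lMul O N)) fun p => ?_)
  rw [ev_sum_smul O _ _ (fun i _ => hw i), ev_zero]
  simpa using congrFun hc p

/-- The slices of a non-zero alternating function of low rank span `r` dimensions. -/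
theorem finrank_slices [CharZero k] {N : ℤ} {a : (Fin r → Pt O) → k} (ha : a ∈ tFun O N r)
    (halt : IsAlt O a) (hlow : IsLowRank O a) (hne : a ≠ 0) :
    Module.finrank k (slices O N a) = r := by
  classical
  have hfd : FiniteDimensional k (slices O N a) :=
    Submodule.finiteDimensional_of_le (slices_le O N a)
  refine le_antisymm ?_ ?_
  · -- upper bound, from the rank equations
    by_contra! hlt
    obtain ⟨s, hs, hspan, hind⟩ := exists_linearIndependent k (sliceSet O N a)
    have hind' : LinearIndependent k fun x : s =>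
        (⟨(x : F), Submodule.subset_span (hs x.2)⟩ : slices O N a) :=
      LinearIndependent.of_comp (slices O N a).subtype hind
    have : Finite s := hind'.finite
    have : Fintype s := Fintype.ofFinite _
    have hcard : r < Fintype.card s := by
      have h := finrank_span_set_eq_card (s := s) hind
      rw [hspan, Set.toFinset_card] at h
      exact h ▸ hlt
    obtain ⟨emb⟩ : Nonempty (Fin (r + 1) ↪ s) :=
      Function.Embedding.nonempty_of_card_le (by simpa using hcard)
    have hmem : ∀ i, ((emb i : s) : F) ∈ sliceSet O N a := fun i => hs (emb i).2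
    choose hf U hU using hmem
    obtain ⟨P, hP⟩ := exists_det_ne_zero _
      (linearIndependent_ev O hf (hind.comp emb emb.injective))
    refine hP (Eq.trans ?_ (hlow 0 U P))
    congr 1
    funext i j
    exact hU i (P j)
  · -- lower bound, from a tuple where `a` does not vanish
    obtain ⟨P, hP⟩ := Function.ne_iff.1 hne
    choose f hf hfN hfe using fun j : Fin r => IsAlt.apply_update_mem O ha halt j P
    have hval : ∀ i j, ev (P i).1 (f j) = if i = j then a P else 0 := by
      intro i j
      rw [hfe]
      rcases eq_or_ne i j with rfl | hij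
      · rw [if_pos rfl, Function.update_eq_self]
      · rw [if_neg hij]
        exact IsAlt.eq_zero_of_eq O halt hij
          (by rw [Function.update_self, Function.update_of_ne hij])
    have hli : LinearIndependent k fun j => (⟨f j, hf j⟩ : slices O N a) := by
      rw [Fintype.linearIndependent_iff]
      intro c hc i
      have h1 : (∑ j, c j • f j) = 0 := by simpa using congrArg Subtype.val hc
      have h2 := congrArg (ev (P i).1) h1
      rw [ev_sum_smul O _ _ (fun j _ => hfN j), ev_zero] at h2
      simp only [hval, mul_ite, mul_zero, Finset.sum_ite_eq, Finset.mem_univ, if_true] at h2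
      exact (mul_eq_zero.1 h2).resolve_right hP
    simpa using hli.fintype_card_le_finrank

omit [NeZero r] [Curves.IsFunctionField k F] in
theorem detFun_isAlt {w : Fin r → F} : IsAlt O (detFun O w) := by
  intro i j P hij
  unfold detFun
  have h := Matrix.det_permute' (Equiv.swap i j) (Matrix.of fun l m => ev (P m).1 (w l))
  rw [Equiv.Perm.sign_swap hij] at h
  refine Eq.trans ?_ (h.trans (by simp))
  rfl

omit [Curves.IsFunctionField k F] [NeZero r] in
/-- A slice of a determinant is a fixed combination of the rows. -/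
theorem detFun_update (w : Fin r → F) (U : Fin r → Pt O) (i : Fin r) (p : Pt O) :
    detFun O w (Function.update U i p) =
      ∑ l, Matrix.cramer (Matrix.of fun l m => ev (U m).1 (w l)) (Pi.single l 1) i *
        ev p.1 (w l) := by
  classical
  set M := Matrix.of fun l m => ev (U m).1 (w l) with hM
  have h1 : detFun O w (Function.update U i p) = Matrix.cramer M (fun l => ev p.1 (w l)) i := by
    rw [Matrix.cramer_apply, detFun]
    congr 1
    ext l m
    rw [Matrix.of_apply, Matrix.updateCol_apply]
    split_ifs with h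
    · subst h; rw [Function.update_self]
    · rw [Function.update_of_ne h, hM, Matrix.of_apply]
  rw [h1]
  conv_lhs => rw [pi_eq_sum_univ' (fun l => ev p.1 (w l)), map_sum]
  simp only [map_smul, Finset.sum_apply, Pi.smul_apply, smul_eq_mul]
  exact Finset.sum_congr rfl fun l _ => mul_comm _ _

omit [NeZero r] [Curves.IsFunctionField k F] in
theorem detFun_isLowRank {w : Fin r → F} : IsLowRank O (detFun O w) := by
  classical
  intro i₀ U p
  let C : Matrix (Fin (r + 1)) (Fin r) k := Matrix.of fun i l =>
    Matrix.cramer (Matrix.of fun l m => ev (U i m).1 (w l)) (Pi.single l 1) i₀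
  let V : Matrix (Fin r) (Fin (r + 1)) k := Matrix.of fun l j => ev (p j).1 (w l)
  have h : (Matrix.of fun i j => detFun O w (Function.update (U i) i₀ (p j))) = C * V := by
    ext i j
    rw [Matrix.of_apply, detFun_update, Matrix.mul_apply]
    rfl
  rw [h]
  by_contra hne
  have h1 := Matrix.rank_of_isUnit _ ((Matrix.isUnit_iff_isUnit_det _).2 (Ne.isUnit hne))
  have h2 := Matrix.rank_mul_le_left C V
  have h3 := C.rank_le_width
  rw [h1, Fintype.card_fin] at h2
  omega

/-- The slices of a determinant span the space of its rows. -/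
theorem slices_detFun [CharZero k] {N : ℤ} {w : Fin r → F} (hw : ∀ i, w i ∈ lMul O N)
    (hi : LinearIndependent k w) :
    slices O N (detFun O w) = Submodule.span k (Set.range w) := by
  have := FiniteDimensional.span_of_finite k (Set.finite_range w)
  refine Submodule.eq_of_le_of_finrank_le (Submodule.span_le.2 ?_) ?_
  · rintro f ⟨hf, U, hU⟩
    have : f = ∑ l, Matrix.cramer (Matrix.of fun l m => ev (U m).1 (w l)) (Pi.single l 1) 0 • w l :=
      eq_of_forall_ev_eq O hf (sum_mem fun l _ => Submodule.smul_mem _ _ (hw l)) fun p => by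
        rw [hU, detFun_update, ev_sum_smul O _ _ (fun l _ => hw l)]
    rw [this, SetLike.mem_coe]
    exact sum_mem fun l _ => Submodule.smul_mem _ _ (Submodule.subset_span ⟨l, rfl⟩)
  · rw [finrank_slices O (detFun_mem O hw) (detFun_isAlt O) (detFun_isLowRank O)
      (detFun_ne_zero O hw hi), finrank_span_eq_card hi, Fintype.card_fin]

omit [Curves.IsFunctionField k F] in
/-- Slices commute with semilinear automorphisms. -/
theorem smul_mem_sliceSet (g : SemilinearAut k F) (hg : g • O = O) {N : ℤ}
    {a : (Fin r → Pt O) → k} {f : F} (hf : f ∈ sliceSet O N a) :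
    g • f ∈ sliceSet O N (smulFn g hg a) := by
  obtain ⟨hfN, U, hU⟩ := hf
  refine ⟨?_, fun j => smulPt g hg (U j), fun p => ?_⟩
  · rw [mem_riemannRochSpace_iff] at hfN ⊢
    intro v
    rcases hfN (g⁻¹ • v) with h | h
    · left; rw [h]; exact smul_zero g
    · right
      have h1 := SemilinearAut.ord_smul g (g⁻¹ • v) f
      rw [smul_inv_smul] at h1
      rw [h1]
      refine le_of_eq_of_le ?_ h
      classical
      rw [Finsupp.single_apply, Finsupp.single_apply, eq_inv_smul_iff, hg]
  · let q := smulPt g⁻¹ (inv_smul_eq_iff.2 hg.symm) p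
    have hp : g • q.1 = p.1 := smul_inv_smul g p.1
    rw [smulFn, ← hp, ev_smul_semilinear, hU q]
    congr 2
    funext j
    rcases eq_or_ne j 0 with rfl | hj
    · rw [Function.update_self, Function.update_self]
    · rw [Function.update_of_ne hj, Function.update_of_ne hj]
      exact Subtype.ext (inv_smul_smul g _).symm

end FLTA.MordellWeil
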